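import Fermat.Agent.Lib.S18.AsCtx

/-!
# S18 assembly: basic facts on a good chart (lead)
-/

set_option autoImplicit false

open Polynomial

namespace Fermat.Agent.S18Lib

/-- an element integral over a subring of a valuation subring lies in it -/
theorem as18_mem_of_isIntegral_subring {F : Type*} [Field F] {A : Subring F}
    (V : ValuationSubring F) (hA : A ≤ V.toSubring) {z : F} (hz : IsIntegral A z) : z ∈ V := by
  obtain ⟨p, hp, hpz⟩ := hz
  have hint : IsIntegral V z := by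
    refine ⟨p.map (Subring.inclusion hA), hp.map _, ?_⟩
    rw [Polynomial.eval₂_map]
    exact hpz
  obtain ⟨y, rfl⟩ := IsIntegrallyClosedIn.isIntegral_iff.mp hint
  exact y.2

namespace As18Chart

variable {E F : Type} [Field E] [Field F] [Algebra E F] (c : As18Chart E F)

theorem ev_C (r : c.R) : c.ev (C r) = c.cst r := by
  simp [ev]

theorem ev_X : c.ev X = c.x := by
  simp [ev]

theorem cst_apply (r : c.R) : c.cst r = algebraMap E F (r : E) := rfl

/-- `ev p` as `aeval x` of the polynomial over `E`. -/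
theorem ev_eq_aeval (p : Polynomial c.R) :
    c.ev p = Polynomial.aeval c.x (p.map c.R.subtype) := by
  rw [ev, Polynomial.coe_eval₂RingHom, Polynomial.aeval_def, Polynomial.eval₂_map]
  rfl

variable {c}

theorem Good.ev_mem_V (hc : c.Good) (p : Polynomial c.R) : c.ev p ∈ c.V := by
  induction p using Polynomial.induction_on' with
  | add p q hp hq => rw [map_add]; exact c.V.add_mem _ _ hp hq
  | monomial n a =>
    rw [← Polynomial.C_mul_X_pow_eq_monomial, map_mul, map_pow, c.ev_C, c.ev_X]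
    exact c.V.mul_mem _ _ (hc.cV a) (c.V.pow_mem hc.xV n)

/-- a polynomial not divisible by `π` evaluates to a unit of `V`. -/
theorem Good.ev_unit (hc : c.Good) {q : Polynomial c.R} (hq : ¬ C c.π ∣ q) :
    (c.ev q)⁻¹ ∈ c.V := by
  by_contra hinv
  obtain ⟨y, hy, hqy⟩ := hc.unif2 _ (hc.ev_mem_V q) hinv
  have hπ0 : (c.π : E) ≠ 0 := by
    intro h0
    exact hc.irr.ne_zero (Subtype.ext h0)
  have hπF : c.cst c.π ≠ 0 := by
    rw [c.cst_apply]; exact (_root_.map_ne_zero _).mpr hπ0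
  -- `y = aeval x (C π⁻¹ * q)`
  have hy' : y = Polynomial.aeval c.x (C ((c.π : E))⁻¹ * q.map c.R.subtype) := by
    rw [map_mul, Polynomial.aeval_C, ← c.ev_eq_aeval, hqy, ← mul_assoc, c.cst_apply, ← map_mul,
      inv_mul_cancel₀ hπ0, map_one, one_mul]
  rw [hy'] at hy
  have hcoef := hc.gauss _ hy
  apply hq
  rw [Polynomial.C_dvd_iff_dvd_coeff]
  intro i
  have hi := hcoef i
  rw [Polynomial.coeff_C_mul, Polynomial.coeff_map] at hi
  refine ⟨⟨_, hi⟩, ?_⟩
  apply Subtype.ext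
  show (q.coeff i : E) = (c.π : E) * ((c.π : E)⁻¹ * (q.coeff i : E))
  rw [← mul_assoc, mul_inv_cancel₀ hπ0, one_mul]

theorem Good.ev_ne_zero (hc : c.Good) {q : Polynomial c.R} (hq : q ≠ 0) : c.ev q ≠ 0 :=
  fun h => hq (hc.inj (by rw [h, map_zero]))

section AtN

variable (n : Ideal (Polynomial c.R)) [hn : n.IsMaximal]

include hn in
theorem not_C_dvd_of_not_mem (hπn : C c.π ∈ n) {q : Polynomial c.R} (hq : q ∉ n) :
    ¬ C c.π ∣ q := by
  rintro ⟨r, rfl⟩
  exact hq (n.mul_mem_right _ hπn)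

theorem Good.S_le_V (hc : c.Good) (hπn : C c.π ∈ n) : c.S n ≤ c.V.toSubring := by
  rintro z ⟨p, q, hq, h⟩
  have hu := hc.ev_unit (not_C_dvd_of_not_mem n hπn hq)
  have hq0 : c.ev q ≠ 0 := by
    intro h0
    apply hq
    have : q = 0 := hc.inj (by rw [h0, map_zero])
    rw [this]; exact n.zero_mem
  have hz : z = c.ev p * (c.ev q)⁻¹ := by
    rw [← h, mul_assoc, mul_inv_cancel₀ hq0, mul_one]
  rw [hz]
  exact c.V.mul_mem _ _ (hc.ev_mem_V p) hu

theorem Good.O_le_V (hc : c.Good) : c.O ≤ c.V.toSubring := by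
  intro z hz
  refine as18_mem_of_isIntegral_subring c.V ?_ ((c.mem_O_iff).mp hz)
  rintro _ ⟨p, rfl⟩
  exact hc.ev_mem_V p


/-- the algebra structure `R[X] → c.S n` (local instance material) -/
noncomputable def algPS : Algebra (Polynomial c.R) (c.S n) :=
  (c.ev.codRestrict (c.S n) (c.ev_mem_S n)).toAlgebra

theorem Good.isLocalization_S (hc : c.Good) :
    @IsLocalization.AtPrime _ _ (c.S n) _ (algPS n) n _ := by
  letI := algPS (c := c) n
  have halg : ∀ p : Polynomial c.R, ((algebraMap (Polynomial c.R) (c.S n) p : c.S n) : F) = c.ev p :=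
    fun p => rfl
  refine ⟨?_, ?_, ?_⟩
  · rintro ⟨q, hq⟩
    have hq0 : c.ev q ≠ 0 := hc.ev_ne_zero (fun h0 => hq (by rw [h0]; exact n.zero_mem))
    have hinv : (c.ev q)⁻¹ ∈ c.S n := ⟨1, q, hq, by rw [inv_mul_cancel₀ hq0, map_one]⟩
    refine isUnit_iff_exists_inv.mpr ⟨⟨_, hinv⟩, ?_⟩
    apply Subtype.ext
    show c.ev q * (c.ev q)⁻¹ = 1
    exact mul_inv_cancel₀ hq0
  · rintro ⟨z, p, q, hq, h⟩
    refine ⟨(p, ⟨q, hq⟩), ?_⟩
    apply Subtype.ext
    exact h
  · intro p p' h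
    have h' : c.ev p = c.ev p' := congrArg Subtype.val h
    exact ⟨1, by rw [hc.inj h']⟩

theorem O_le_B : c.O ≤ (c.B n).toSubring := by
  intro z hz
  obtain ⟨p, hp, hpz⟩ := (c.mem_O_iff).mp hz
  have hle : c.ev.range ≤ c.S n := by
    rintro _ ⟨r, rfl⟩
    exact c.ev_mem_S n r
  show IsIntegral (c.S n) z
  refine ⟨p.map (Subring.inclusion hle), hp.map _, ?_⟩
  rw [Polynomial.eval₂_map]
  exact hpz

theorem Good.B_le_V (hc : c.Good) (hπn : C c.π ∈ n) : (c.B n).toSubring ≤ c.V.toSubring := by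
  intro z hz
  exact as18_mem_of_isIntegral_subring c.V (hc.S_le_V n hπn) hz

/-- clearing denominators: elements of `c.B n` are `O`-elements divided by `ev q`, `q ∉ n`. -/
theorem Good.exists_mul_mem_O (hc : c.Good) {z : F} (hz : z ∈ c.B n) :
    ∃ q : Polynomial c.R, q ∉ n ∧ c.ev q * z ∈ c.O := by
  letI := algPS (c := c) n
  haveI := hc.isLocalization_S n
  letI : Algebra (Polynomial c.R) F := c.ev.toAlgebra
  haveI : IsScalarTower (Polynomial c.R) (c.S n) F := IsScalarTower.of_algebraMap_eq (fun _ => rfl)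
  obtain ⟨⟨q, hq⟩, hint⟩ := IsIntegral.exists_multiple_integral_of_isLocalization n.primeCompl z hz
  refine ⟨q, hq, ?_⟩
  obtain ⟨P, hP, hPz⟩ := hint
  rw [c.mem_O_iff]
  refine ⟨P.map c.ev.rangeRestrict, hP.map _, ?_⟩
  rw [Polynomial.eval₂_map]
  exact hPz

/-- saturation of `c.B n` in `V`. -/
theorem Good.sat_B (hc : c.Good) (hπn : C c.π ∈ n) {z : F} (hz : z ∈ c.V)
    (h : c.cst c.π * z ∈ c.B n) : z ∈ c.B n := by
  obtain ⟨q, hq, hqz⟩ := hc.exists_mul_mem_O n h
  have hu := hc.ev_unit (not_C_dvd_of_not_mem n hπn hq)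
  have hq0 : c.ev q ≠ 0 := hc.ev_ne_zero (fun h0 => hq (by rw [h0]; exact n.zero_mem))
  have h1 : c.ev q * z ∈ c.O := by
    apply hc.sat _ (c.V.mul_mem _ _ (hc.ev_mem_V q) hz)
    have : c.cst c.π * (c.ev q * z) = c.ev q * (c.cst c.π * z) := by ring
    rw [this]; exact hqz
  have h2 : c.ev q * z ∈ (c.B n).toSubring := O_le_B n h1
  have h3 : (c.ev q)⁻¹ ∈ (c.B n).toSubring := by
    have : (c.ev q)⁻¹ ∈ c.S n := ⟨1, q, hq, by rw [inv_mul_cancel₀ hq0, map_one]⟩
    exact (c.B n).algebraMap_mem ⟨_, this⟩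
  have : z = (c.ev q)⁻¹ * (c.ev q * z) := by
    rw [← mul_assoc, inv_mul_cancel₀ hq0, one_mul]
  rw [this]
  exact (c.B n).toSubring.mul_mem h3 h2

end AtN

end As18Chart

end Fermat.Agent.S18Lib
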