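import Fermat.Agent.Lib.S18.GrIface

/-!
# S18: `E` is algebraically closed in the function field `gr18_F E M` (`gr18_algClosed_stmt`)

An element of `E((q))` algebraic over `E` is a constant: it is integral over the integrally
closed ring `E[[q]]`, hence a power series, and so is its inverse.
-/

set_option autoImplicit false

namespace Fermat.Agent.S18Lib

theorem cg18_laurent_const_of_algebraic {E : Type*} [Field E] (x : LaurentSeries E)
    (hx : IsAlgebraic E x) : ∃ c : E, x = algebraMap E (LaurentSeries E) c := by
  have hcomp : (algebraMap (PowerSeries E) (LaurentSeries E)).comp (PowerSeries.C (R := E))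
      = algebraMap E (LaurentSeries E) := by
    refine RingHom.ext fun r => ?_
    rw [RingHom.comp_apply, LaurentSeries.coe_algebraMap, HahnSeries.ofPowerSeries_C,
      ModularCurve.algebraMap_laurentSeries_eq_single]
    rfl
  have key : ∀ z : LaurentSeries E, IsAlgebraic E z →
      ∃ y : PowerSeries E, algebraMap (PowerSeries E) (LaurentSeries E) y = z := by
    intro z hz
    have hint : IsIntegral (PowerSeries E) z := by
      obtain ⟨p, hp, hpz⟩ := hz.isIntegral
      refine ⟨p.map PowerSeries.C, hp.map _, ?_⟩
      rw [Polynomial.eval₂_map, hcomp]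
      exact hpz
    exact IsIntegrallyClosed.isIntegral_iff.mp hint
  obtain ⟨y, hy⟩ := key x hx
  refine ⟨PowerSeries.constantCoeff y, ?_⟩
  by_contra hne
  have hz0 : x - algebraMap E (LaurentSeries E) (PowerSeries.constantCoeff y) ≠ 0 :=
    sub_ne_zero.mpr hne
  have hzalg : IsAlgebraic E (x - algebraMap E (LaurentSeries E) (PowerSeries.constantCoeff y)) :=
    hx.sub (isAlgebraic_algebraMap _)
  obtain ⟨y', hy'⟩ := key _ hzalg.inv
  have hzy : algebraMap (PowerSeries E) (LaurentSeries E)
      (y - PowerSeries.C (PowerSeries.constantCoeff y))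
      = x - algebraMap E (LaurentSeries E) (PowerSeries.constantCoeff y) := by
    rw [map_sub, hy, ← hcomp]
    rfl
  have hunit : (y - PowerSeries.C (PowerSeries.constantCoeff y)) * y' = 1 := by
    apply IsFractionRing.injective (PowerSeries E) (LaurentSeries E)
    rw [map_mul, hzy, hy', map_one, mul_inv_cancel₀ hz0]
  have h1 : IsUnit (y - PowerSeries.C (PowerSeries.constantCoeff y)) :=
    IsUnit.of_mul_eq_one _ hunit
  rw [PowerSeries.isUnit_iff_constantCoeff] at h1
  simp at h1

/-- `E` is algebraically closed in `gr18_F E M`. -/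
theorem cg18_algClosed : gr18_algClosed_stmt := by
  intro E _ _ M _ x hx
  have hx' : IsAlgebraic E (x : LaurentSeries E) := by
    obtain ⟨p, hp0, hp⟩ := hx
    refine ⟨p, hp0, ?_⟩
    have h := Polynomial.aeval_algHom_apply (gr18_F E M).val x p
    rw [hp, map_zero] at h
    exact h
  obtain ⟨c, hc⟩ := cg18_laurent_const_of_algebraic _ hx'
  exact ⟨c, Subtype.ext hc⟩

end Fermat.Agent.S18Lib
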