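/-
S18 sprint (route Q), CONCRETE LAYER + interface of chunk Gr (helper4, prefix `gr18_`).

* `gr18_VL B`   : for a valuation subring `B` of a field `L`, the Gauss ring inside `L((q))`:
                  quotients `a / b` of Laurent series with coefficients in `B` whose denominator
                  has NONZERO reduction (localisation of `B((q))` at the generic point of the
                  special fibre).  NOT "all coefficients in `B`" (that is not a valuation ring).
* `gr18_V B F`  : its trace on an intermediate field `F ≤ L((q))` (a `Subring F`).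
CONCRETE LAYER, GENERIC IN THE BASE: `E` is ANY field of characteristic 0 (`[Field E] [Algebra ℚ E]`)
and `B : ValuationSubring E` plays the role of `R`.  The number-field instance is
`E := ↥E₀` (`E₀ : IntermediateField ℚ ℚbar`, finite) and `B := gr18_R A E₀ = A ∩ E₀`; see `gr18_dvr_stmt`.
* `gr18_F E M`  : the function field of level `M` over `E` (`laurentBaseChange E (modularFunctionFieldFull M)`).
* `gr18_j E M`  : `j ∈ gr18_F E M`;  `gr18_c E M c` : the constant `c : E` as an element of `gr18_F E M`.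
* `gr18_VM B M` : the Gauss ring `V` of level `M` (a `Subring (gr18_F E M)`).
* `gr18_O B M S` : integral closure in `gr18_F E M` of the subring generated by `B` and `S`;
  `gr18_OU` (`S = {j}`), `gr18_OV` (`S = {j⁻¹}`), `gr18_OUV` (`S = {j, j⁻¹}`).
* `gr18_V0 B M` : `V ∩ E(j)`.
* the statements `gr18_*_stmt` that chunk Gr proves.
-/
import Mathlib
import Fermat.Prelude.Def_ModularCurve_ReductionModL
import Fermat.Prelude.Def_FLTPrelim_Ramification

set_option autoImplicit false

noncomputable section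

namespace Fermat.Agent.S18Lib

open ModularCurve

/-! ### The generic Gauss ring -/

section Generic

variable {L : Type*} [Field L] (B : ValuationSubring L)

/-- The Gauss ring of `B` inside `L((q))`. -/
def gr18_VL : Subring (LaurentSeries L) where
  carrier := {x | ∃ a b : LaurentSeries B, coeffMap (IsLocalRing.residue B) b ≠ 0 ∧
    x * coeffMap B.subtype b = coeffMap B.subtype a}
  mul_mem' := by
    rintro x y ⟨a, b, hb, h⟩ ⟨a', b', hb', h'⟩
    refine ⟨a * a', b * b', ?_, ?_⟩
    · rw [map_mul]; exact mul_ne_zero hb hb'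
    · rw [map_mul, map_mul, ← h, ← h']; ring
  one_mem' := ⟨1, 1, by rw [map_one]; exact one_ne_zero, by simp⟩
  add_mem' := by
    rintro x y ⟨a, b, hb, h⟩ ⟨a', b', hb', h'⟩
    refine ⟨a * b' + a' * b, b * b', ?_, ?_⟩
    · rw [map_mul]; exact mul_ne_zero hb hb'
    · rw [map_add, map_mul, map_mul, map_mul, ← h, ← h']; ring
  zero_mem' := ⟨0, 1, by rw [map_one]; exact one_ne_zero, by simp⟩
  neg_mem' := by
    rintro x ⟨a, b, hb, h⟩
    exact ⟨-a, b, hb, by rw [map_neg, ← h]; ring⟩

theorem gr18_mem_VL_iff {x : LaurentSeries L} :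
    x ∈ gr18_VL B ↔ ∃ a b : LaurentSeries B, coeffMap (IsLocalRing.residue B) b ≠ 0 ∧
      x * coeffMap B.subtype b = coeffMap B.subtype a :=
  Iff.rfl

/-- `y` is a reduction of `x` (relational form of the reduction map of the Gauss ring). -/
def gr18_IsRed (x : LaurentSeries L) (y : LaurentSeries (IsLocalRing.ResidueField B)) : Prop :=
  ∃ a b : LaurentSeries B, coeffMap (IsLocalRing.residue B) b ≠ 0 ∧
    x * coeffMap B.subtype b = coeffMap B.subtype a ∧
    y * coeffMap (IsLocalRing.residue B) b = coeffMap (IsLocalRing.residue B) a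

/-- The trace of the Gauss ring on an intermediate field. -/
def gr18_V (F : IntermediateField L (LaurentSeries L)) : Subring F :=
  (gr18_VL B).comap (algebraMap F (LaurentSeries L))

theorem gr18_mem_V_iff {F : IntermediateField L (LaurentSeries L)} {x : F} :
    x ∈ gr18_V B F ↔ (x : LaurentSeries L) ∈ gr18_VL B :=
  Iff.rfl

/-- The Gauss ring as a valuation subring, given the valuation property. -/
def gr18_Vv (F : IntermediateField L (LaurentSeries L))
    (h : ∀ x : F, x ∈ gr18_V B F ∨ x⁻¹ ∈ gr18_V B F) : ValuationSubring F :=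
  { gr18_V B F with mem_or_inv_mem' := h }

theorem gr18_mem_Vv_iff {F : IntermediateField L (LaurentSeries L)}
    (h : ∀ x : F, x ∈ gr18_V B F ∨ x⁻¹ ∈ gr18_V B F) {x : F} :
    x ∈ gr18_Vv B F h ↔ x ∈ gr18_V B F :=
  Iff.rfl

end Generic

/-! ### The concrete objects -/

section Concrete

/-- `R = A ∩ E₀` for a subfield `E₀` of `ℚbar`. -/
abbrev gr18_R (A : ValuationSubring (AlgebraicClosure ℚ))
    (E₀ : IntermediateField ℚ (AlgebraicClosure ℚ)) : ValuationSubring E₀ :=
  A.comap (algebraMap E₀ (AlgebraicClosure ℚ))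

variable (E : Type*) [Field E] [Algebra ℚ E]

/-- The function field of level `M` over `E`. -/
abbrev gr18_F (M : ℕ) : IntermediateField E (LaurentSeries E) :=
  laurentBaseChange E (modularFunctionFieldFull M)

/-- `j` as an element of the function field of level `M` over `E`. -/
def gr18_j (M : ℕ) [NeZero M] : gr18_F E M :=
  ⟨coeffEmb E jq, coeffEmb_mem_laurentBaseChange E (modularFunctionField_le_full M (jq_mem M))⟩

@[simp] theorem gr18_coe_j (M : ℕ) [NeZero M] :
    (gr18_j E M : LaurentSeries E) = coeffEmb E jq := rfl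

/-- The constant `c` as an element of the function field. -/
def gr18_c (M : ℕ) (c : E) : gr18_F E M := algebraMap E (gr18_F E M) c

@[simp] theorem gr18_coe_c (M : ℕ) (c : E) :
    (gr18_c E M c : LaurentSeries E) = algebraMap E (LaurentSeries E) c := rfl

variable {E} (B : ValuationSubring E) (M : ℕ)

/-- The Gauss ring `V` of level `M` over `B` (a `Subring`; see `gr18_val_stmt`). -/
abbrev gr18_VM : Subring (gr18_F E M) := gr18_V B (gr18_F E M)

/-- The subring of `F` generated by `B` and a set `S`. -/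
def gr18_gen (S : Set (gr18_F E M)) : Subring (gr18_F E M) :=
  Subring.closure (Set.range (fun r : B => gr18_c E M (r : E)) ∪ S)

/-- The integral closure of `B[S]` in `F`, as a subring of `F`. -/
def gr18_O (S : Set (gr18_F E M)) : Subring (gr18_F E M) :=
  (integralClosure (gr18_gen B M S) (gr18_F E M)).toSubring

theorem gr18_mem_O_iff {S : Set (gr18_F E M)} {x : gr18_F E M} :
    x ∈ gr18_O B M S ↔ IsIntegral (gr18_gen B M S) x :=
  Iff.rfl

variable [NeZero M]

/-- `O_U`: integral closure of `B[j]`. -/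
abbrev gr18_OU : Subring (gr18_F E M) := gr18_O B M {gr18_j E M}

/-- `O_V`: integral closure of `B[1/j]`. -/
abbrev gr18_OV : Subring (gr18_F E M) := gr18_O B M {(gr18_j E M)⁻¹}

/-- `O_UV`: integral closure of `B[j, 1/j]`. -/
abbrev gr18_OUV : Subring (gr18_F E M) := gr18_O B M {gr18_j E M, (gr18_j E M)⁻¹}

/-- `V ∩ E(j)` as a subring of `F`. -/
def gr18_V0 : Subring (gr18_F E M) :=
  gr18_VM B M ⊓ (IntermediateField.adjoin E {gr18_j E M}).toSubring

end Concrete

/-! ### The statements proved by chunk Gr -/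

section Statements

/-- (dvr) `R = A ∩ E₀` is a discrete valuation ring with finite residue field of
characteristic `ℓ`, for `E₀` finite over `ℚ`. -/
def gr18_dvr_stmt : Prop :=
  ∀ (ℓ : ℕ) [Fact ℓ.Prime] (A : ValuationSubring (AlgebraicClosure ℚ)), A.LiesOverPrime ℓ →
  ∀ (E₀ : IntermediateField ℚ (AlgebraicClosure ℚ)) [FiniteDimensional ℚ E₀],
    IsDiscreteValuationRing (gr18_R A E₀) ∧ Finite (IsLocalRing.ResidueField (gr18_R A E₀)) ∧
      CharP (IsLocalRing.ResidueField (gr18_R A E₀)) ℓ

/-- (a) `V` is a valuation ring of `F_M^E` (any DVR `B`). -/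
def gr18_val_stmt : Prop :=
  ∀ (E : Type) [Field E] [Algebra ℚ E] (B : ValuationSubring E) [IsDiscreteValuationRing B]
    (M : ℕ) [NeZero M] (x : gr18_F E M), x ∈ gr18_VM B M ∨ x⁻¹ ∈ gr18_VM B M

/-- (a') a uniformiser of `B` is a uniformiser of `V`: constants of `B` lie in `V`, `π` is a
nonunit of `V`, and nonunits of `V` are multiples of `π`. -/
def gr18_unif_stmt : Prop :=
  ∀ (E : Type) [Field E] [Algebra ℚ E] (B : ValuationSubring E) [IsDiscreteValuationRing B]
    (M : ℕ) [NeZero M],
  (∀ r : B, gr18_c E M (r : E) ∈ gr18_VM B M) ∧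
  ∀ π : B, Irreducible π →
    (gr18_c E M (π : E))⁻¹ ∉ gr18_VM B M ∧
    ∀ x : gr18_F E M, x ∈ gr18_VM B M → x⁻¹ ∉ gr18_VM B M →
      ∃ y : gr18_F E M, y ∈ gr18_VM B M ∧ x = gr18_c E M (π : E) * y

/-- (b) saturation: `c x ∈ O` with `0 ≠ c ∈ B` and `x ∈ V` forces `x ∈ O`, for the three
coordinate rings; and all three are contained in `V`. -/
def gr18_sat_stmt : Prop :=
  ∀ (ℓ : ℕ) [Fact ℓ.Prime] (E : Type) [Field E] [Algebra ℚ E] (B : ValuationSubring E)
    [IsDiscreteValuationRing B] [CharP (IsLocalRing.ResidueField B) ℓ] (M : ℕ) [NeZero M],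
  ¬ ℓ ∣ M →
  ∀ S : Set (gr18_F E M), (S = {gr18_j E M} ∨ S = {(gr18_j E M)⁻¹} ∨
      S = {gr18_j E M, (gr18_j E M)⁻¹}) →
    gr18_O B M S ≤ gr18_VM B M ∧
    ∀ (c : B) (x : gr18_F E M), c ≠ 0 → x ∈ gr18_VM B M →
      gr18_c E M (c : E) * x ∈ gr18_O B M S → x ∈ gr18_O B M S

/-- (d) every element of `V` is integral over `V ∩ E(j)`; consequently the Gauss valuation of
`E(j)` has a unique extension to `F_M^E`. -/
def gr18_int_stmt : Prop :=
  ∀ (ℓ : ℕ) [Fact ℓ.Prime] (E : Type) [Field E] [Algebra ℚ E] (B : ValuationSubring E)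
    [IsDiscreteValuationRing B] [CharP (IsLocalRing.ResidueField B) ℓ] (M : ℕ) [NeZero M],
  ¬ ℓ ∣ M →
  (∀ x : gr18_F E M, x ∈ gr18_VM B M → IsIntegral (gr18_V0 B M) x) ∧
  ∀ W : ValuationSubring (gr18_F E M), (∀ x ∈ gr18_V0 B M, x ∈ W) → W ≠ ⊤ →
    ∀ x : gr18_F E M, x ∈ W ↔ x ∈ gr18_VM B M

/-- (c) the residue field of `V` is separable over the residue field of `V ∩ E(j)`:
every element of `V` is, modulo the maximal ideal, a simple root of a monic polynomial with
coefficients in `V ∩ E(j)`. -/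
def gr18_sep_stmt : Prop :=
  ∀ (ℓ : ℕ) [Fact ℓ.Prime] (E : Type) [Field E] [Algebra ℚ E] (B : ValuationSubring E)
    [IsDiscreteValuationRing B] [CharP (IsLocalRing.ResidueField B) ℓ]
    [Finite (IsLocalRing.ResidueField B)] (M : ℕ) [NeZero M],
  ¬ ℓ ∣ M →
  ∀ x : gr18_F E M, x ∈ gr18_VM B M →
    ∃ P : Polynomial (gr18_F E M), P.Monic ∧ (∀ i, P.coeff i ∈ gr18_V0 B M) ∧
      (P.eval x = 0 ∨ (P.eval x)⁻¹ ∉ gr18_VM B M) ∧
      (P.derivative.eval x)⁻¹ ∈ gr18_VM B M ∧ P.derivative.eval x ≠ 0

/-- (e) `E` is algebraically closed in `F_M^E`. -/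
def gr18_algClosed_stmt : Prop :=
  ∀ (E : Type) [Field E] [Algebra ℚ E] (M : ℕ) [NeZero M] (x : gr18_F E M),
    IsAlgebraic E x → ∃ c : E, x = gr18_c E M c

/-- (f) `F_N^K` is the union of the `F_N^E₀`, `E₀` finite over `ℚ` (finitely many elements and
finitely many constants at a time). -/
def gr18_union_stmt : Prop :=
  ∀ (N : ℕ) [NeZero N] (s : Finset (LaurentSeries (AlgebraicClosure ℚ)))
    (t : Finset (AlgebraicClosure ℚ)),
    (∀ x ∈ s, x ∈ laurentBaseChange (AlgebraicClosure ℚ) (modularFunctionFieldFull N)) →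
    ∃ E₀ : IntermediateField ℚ (AlgebraicClosure ℚ), FiniteDimensional ℚ E₀ ∧
      (∀ c ∈ t, c ∈ E₀) ∧
      ∀ x ∈ s, ∃ y : LaurentSeries E₀, y ∈ gr18_F E₀ N ∧
        coeffMap (algebraMap E₀ (AlgebraicClosure ℚ)) y = x

/-- (f') functoriality in the base field: a field embedding `φ : E →+* E'` maps `F_N^E`
into `F_N^E'` (coefficientwise). -/
def gr18_mono_stmt : Prop :=
  ∀ (N : ℕ) (E E' : Type) [Field E] [Field E'] [Algebra ℚ E] [Algebra ℚ E'] (φ : E →+* E')
    (y : LaurentSeries E), y ∈ gr18_F E N → coeffMap φ y ∈ gr18_F E' N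

end Statements

end Fermat.Agent.S18Lib
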