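/-
S18 sprint, chunk Gr, item GrDeg (helper3): the function field of level `M` over any field `E`
of characteristic zero has degree at most `ψ(M)` over `E(j)`; base change of S28's `dq_finrank_le`.
-/
import Fermat.Agent.Lib.S18.GrIface
import Fermat.Agent.Lib.S28.DegQ

set_option autoImplicit false

noncomputable section

namespace Fermat.Agent.S18Lib

open ModularCurve IntermediateField

section

variable (E : Type) [Field E] [Algebra ℚ E] (M : ℕ)

/-- Base change of functions `F₀ → F_E` (coefficientwise embedding). -/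
def gd18_phi : ↥(modularFunctionFieldFull M) →+* ↥(gr18_F E M) where
  toFun y := ⟨coeffEmb E y.1, coeffEmb_mem_laurentBaseChange E y.2⟩
  map_one' := Subtype.ext (map_one _)
  map_mul' _ _ := Subtype.ext (map_mul _ _ _)
  map_zero' := Subtype.ext (map_zero _)
  map_add' _ _ := Subtype.ext (map_add _ _ _)

theorem gd18_phi_algebraMap (q : ℚ) :
    gd18_phi E M (algebraMap ℚ ↥(modularFunctionFieldFull M) q)
      = algebraMap E ↥(gr18_F E M) (algebraMap ℚ E q) := by
  rw [eq_ratCast, eq_ratCast, map_ratCast, map_ratCast]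

variable [NeZero M]

theorem gd18_phi_j : gd18_phi E M (IgusaScheme.jFull M) = gr18_j E M := rfl

theorem gd18_phi_mem (c : ↥(modularFunctionFieldFull M))
    (hc : c ∈ IntermediateField.adjoin ℚ {IgusaScheme.jFull M}) :
    gd18_phi E M c ∈ IntermediateField.adjoin E {gr18_j E M} := by
  induction hc using IntermediateField.adjoin_induction with
  | mem x hx =>
    rw [Set.mem_singleton_iff] at hx
    rw [hx, gd18_phi_j]
    exact subset_adjoin _ _ rfl
  | algebraMap q => rw [gd18_phi_algebraMap]; exact IntermediateField.algebraMap_mem _ _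
  | add x y _ _ hx hy => rw [map_add]; exact add_mem hx hy
  | inv x _ hx => rw [map_inv₀]; exact inv_mem hx
  | mul x y _ _ hx hy => rw [map_mul]; exact mul_mem hx hy

end

set_option maxHeartbeats 4000000 in
set_option synthInstance.maxHeartbeats 400000 in
/-- **GrDeg**: `[F_M^E : E(j)] ≤ ψ(M)`. -/
theorem gr18_deg (E : Type) [Field E] [Algebra ℚ E] (M : ℕ) [NeZero M] :
    Module.Finite ↥(IntermediateField.adjoin E {gr18_j E M}) ↥(gr18_F E M) ∧
    Module.finrank ↥(IntermediateField.adjoin E {gr18_j E M}) ↥(gr18_F E M)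
      ≤ ModularCurve.dedekindPsi M := by
  classical
  haveI := Fermat.Agent.S28Lib.dq_finite M
  let b := Module.finBasis ↥(IntermediateField.adjoin ℚ {IgusaScheme.jFull M})
    ↥(modularFunctionFieldFull M)
  let T : Submodule ↥(IntermediateField.adjoin E {gr18_j E M}) ↥(gr18_F E M) :=
    Submodule.span _ (Set.range (fun i => gd18_phi E M (b i)))
  have h1 : ∀ y, gd18_phi E M y ∈ T := by
    intro y
    rw [← b.sum_repr y, map_sum]
    refine Submodule.sum_mem _ fun i _ => ?_
    have h2 : gd18_phi E M (b.repr y i • b i)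
        = (⟨gd18_phi E M (b.repr y i : ↥(modularFunctionFieldFull M)),
            gd18_phi_mem E M _ (b.repr y i).2⟩ : ↥(IntermediateField.adjoin E {gr18_j E M}))
          • gd18_phi E M (b i) := by
      rw [Algebra.smul_def, map_mul, Algebra.smul_def]
      rfl
    rw [h2]
    exact Submodule.smul_mem _ _ (Submodule.subset_span ⟨i, rfl⟩)
  have hSS : T * T ≤ T := by
    rw [Submodule.span_mul_span, Submodule.span_le]
    rintro _ ⟨_, ⟨i, rfl⟩, _, ⟨j, rfl⟩, rfl⟩
    show gd18_phi E M (b i) * gd18_phi E M (b j) ∈ T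
    rw [← map_mul]; exact h1 _
  have hmul : ∀ x y, x ∈ T → y ∈ T → x * y ∈ T :=
    fun x y hx hy => hSS (Submodule.mul_mem_mul hx hy)
  have hone : (1 : ↥(gr18_F E M)) ∈ T := by
    rw [← map_one (gd18_phi E M)]; exact h1 1
  let A : Subalgebra ↥(IntermediateField.adjoin E {gr18_j E M}) ↥(gr18_F E M) :=
    T.toSubalgebra hone hmul
  have hTfg : T.FG := Submodule.fg_span (Set.finite_range _)
  have hAfg : A.toSubmodule.FG := by
    rw [Submodule.toSubalgebra_toSubmodule]; exact hTfg
  have hinv : ∀ x : ↥(gr18_F E M), x ∈ A → x⁻¹ ∈ A := by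
    intro x hx
    have hint : IsIntegral ↥(IntermediateField.adjoin E {gr18_j E M}) x :=
      IsIntegral.of_mem_of_fg A hAfg x hx
    exact A.inv_mem_of_algebraic (x := ⟨x, hx⟩) hint.isAlgebraic
  have hall : ∀ (x : LaurentSeries E) (hx : x ∈ gr18_F E M), (⟨x, hx⟩ : ↥(gr18_F E M)) ∈ A := by
    intro x hx
    have hx' := mem_laurentBaseChange_iff.mp hx
    revert hx
    induction hx' using Subfield.closure_induction with
    | mem y hy =>
      intro hx
      rcases hy with ⟨c, rfl⟩ | ⟨z, hz, rfl⟩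
      · have h3 : (⟨algebraMap E (LaurentSeries E) c, hx⟩ : ↥(gr18_F E M))
            = (⟨algebraMap E ↥(gr18_F E M) c, IntermediateField.algebraMap_mem _ c⟩ :
                ↥(IntermediateField.adjoin E {gr18_j E M})) • (1 : ↥(gr18_F E M)) := by
          rw [Algebra.smul_def, mul_one]; rfl
        rw [h3]; exact Submodule.smul_mem T _ hone
      · exact h1 ⟨z, hz⟩
    | one => intro hx; exact A.one_mem
    | add x y hx0 hy0 ihx ihy =>
      intro hxy
      have hx1 := mem_laurentBaseChange_iff.mpr hx0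
      have hy1 := mem_laurentBaseChange_iff.mpr hy0
      have e : (⟨x + y, hxy⟩ : ↥(gr18_F E M)) = ⟨x, hx1⟩ + ⟨y, hy1⟩ := rfl
      rw [e]
      exact A.add_mem (ihx hx1) (ihy hy1)
    | neg x hx0 ihx =>
      intro hxy
      have hx1 := mem_laurentBaseChange_iff.mpr hx0
      have e : (⟨-x, hxy⟩ : ↥(gr18_F E M)) = -⟨x, hx1⟩ := rfl
      rw [e]
      exact A.neg_mem (ihx hx1)
    | inv x hx0 ihx =>
      intro hxy
      have hx1 := mem_laurentBaseChange_iff.mpr hx0
      have h5 := hinv _ (ihx hx1)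
      have e : (⟨x, hx1⟩ : ↥(gr18_F E M))⁻¹ = (⟨x⁻¹, hxy⟩ : ↥(gr18_F E M)) :=
        Subtype.ext (IntermediateField.coe_inv _ _)
      rw [e] at h5
      exact h5
    | mul x y hx0 hy0 ihx ihy =>
      intro hxy
      have hx1 := mem_laurentBaseChange_iff.mpr hx0
      have hy1 := mem_laurentBaseChange_iff.mpr hy0
      have e : (⟨x * y, hxy⟩ : ↥(gr18_F E M)) = ⟨x, hx1⟩ * ⟨y, hy1⟩ := rfl
      rw [e]
      exact A.mul_mem (ihx hx1) (ihy hy1)
  have htop : T = ⊤ := by
    rw [eq_top_iff]
    rintro ⟨x, hx⟩ _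
    exact hall x hx
  refine ⟨Module.finite_def.mpr (htop ▸ hTfg), ?_⟩
  have h4 : Module.finrank ↥(IntermediateField.adjoin E {gr18_j E M}) ↥(gr18_F E M)
      = Module.finrank ↥(IntermediateField.adjoin E {gr18_j E M}) T := by
    rw [htop, finrank_top]
  rw [h4]
  refine le_trans (finrank_range_le_card (fun i => gd18_phi E M (b i))) ?_
  rw [Fintype.card_fin]
  exact Fermat.Agent.S28Lib.dq_finrank_le M

end Fermat.Agent.S18Lib
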