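/-
S18 sprint (route Q), chunk Gr, item (dvr) (helper1, prefix `gd18_`).

`gr18_dvr : gr18_dvr_stmt` : for a valuation subring `A` of `ℚbar` over `ℓ` and a finite
`E₀ / ℚ`, the ring `R = A ∩ E₀` is a discrete valuation ring with finite residue field of
characteristic `ℓ`.

Route: `𝓞 E₀ ⊆ R`; `p := m_R ∩ 𝓞 E₀ ≠ ⊥`; `R` is the localisation of `𝓞 E₀` at `p`.
-/
import Mathlib
import Fermat.Agent.Lib.S18.GrIface

set_option autoImplicit false
set_option linter.style.haveILetI false

noncomputable section

namespace Fermat.Agent.S18Lib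

open NumberField

/-- The ring of integers of a number field lies in every valuation subring. -/
theorem gd18_int_mem (K : Type*) [Field K] [NumberField K] (R : ValuationSubring K)
    (x : 𝓞 K) : (x : K) ∈ R := by
  have hx : IsIntegral ℤ (x : K) := RingOfIntegers.isIntegral_coe x
  have h2 : IsIntegral R (x : K) := hx.tower_top
  obtain ⟨y, hy⟩ := (IsIntegrallyClosed.isIntegral_iff (R := R) (K := K)).mp h2
  rw [← hy]
  exact y.2

/-- The inclusion `𝓞 K → R`. -/
def gd18_incl (K : Type*) [Field K] [NumberField K] (R : ValuationSubring K) : 𝓞 K →+* R :=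
  (algebraMap (𝓞 K) K).codRestrict R.toSubring (gd18_int_mem K R)

theorem gd18_incl_coe (K : Type*) [Field K] [NumberField K] (R : ValuationSubring K)
    (x : 𝓞 K) : ((gd18_incl K R x : R) : K) = (x : K) := rfl

theorem gd18_incl_injective (K : Type*) [Field K] [NumberField K] (R : ValuationSubring K) :
    Function.Injective (gd18_incl K R) := by
  intro x y h
  have := congrArg (fun z : R => (z : K)) h
  simp only [gd18_incl_coe] at this
  exact RingOfIntegers.ext this

/-- Core: a valuation subring of a number field in which a prime number is a nonunit is a DVR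
with finite residue field of that characteristic. -/
theorem gd18_core (K : Type*) [Field K] [NumberField K] (R : ValuationSubring K)
    (ℓ : ℕ) [hℓp : Fact ℓ.Prime] (hℓ : (ℓ : K) ∈ R.nonunits) :
    IsDiscreteValuationRing R ∧ Finite (IsLocalRing.ResidueField R) ∧
      CharP (IsLocalRing.ResidueField R) ℓ := by
  classical
  obtain ⟨hℓR, hℓm⟩ := R.mem_nonunits_iff_exists_mem_maximalIdeal.mp hℓ
  letI : Algebra (𝓞 K) R := (gd18_incl K R).toAlgebra
  have halg : ∀ x : 𝓞 K, ((algebraMap (𝓞 K) R x : R) : K) = (x : K) := fun x => rfl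
  let p : Ideal (𝓞 K) := (IsLocalRing.maximalIdeal R).comap (algebraMap (𝓞 K) R)
  haveI hpp : p.IsPrime := Ideal.comap_isPrime _ _
  have hℓp' : ((ℓ : ℕ) : 𝓞 K) ∈ p := by
    show algebraMap (𝓞 K) R ((ℓ : ℕ) : 𝓞 K) ∈ IsLocalRing.maximalIdeal R
    have : algebraMap (𝓞 K) R ((ℓ : ℕ) : 𝓞 K) = ⟨(ℓ : K), hℓR⟩ := by
      apply Subtype.ext
      rw [halg]
      simp
    rw [this]
    exact hℓm
  have hp0 : p ≠ ⊥ := by
    intro h
    rw [h, Ideal.mem_bot] at hℓp'
    exact hℓp.out.ne_zero (by exact_mod_cast hℓp')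
  haveI hpm : p.IsMaximal := hpp.isMaximal hp0
  -- `R` is the localisation of `𝓞 K` at `p`
  have hunit : ∀ s : 𝓞 K, s ∉ p → IsUnit (algebraMap (𝓞 K) R s) := by
    intro s hs
    by_contra hu
    exact hs ((IsLocalRing.mem_maximalIdeal _).mpr hu)
  haveI hloc : IsLocalization.AtPrime R p := by
    refine (isLocalization_iff _ _).mpr ⟨fun y => hunit y y.2, ?_, ?_⟩
    · -- surjectivity
      intro z
      by_cases hz0 : z = 0
      · exact ⟨(0, 1), by simp [hz0]⟩
      have hzK : (z : K) ≠ 0 := fun h => hz0 (Subtype.ext h)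
      let Op := Localization.AtPrime p
      haveI : IsDiscreteValuationRing Op :=
        IsLocalization.AtPrime.isDiscreteValuationRing_of_dedekind_domain (𝓞 K) hp0 Op
      have hu' : ∀ y : p.primeCompl, IsUnit (algebraMap (𝓞 K) K y) := by
        intro y
        apply IsUnit.mk0
        intro h0
        have : (y : 𝓞 K) = 0 := RingOfIntegers.ext (by simpa using h0)
        exact y.2 (this ▸ p.zero_mem)
      letI : Algebra Op K := (IsLocalization.lift (M := p.primeCompl) (S := Op) hu').toAlgebra
      haveI : IsScalarTower (𝓞 K) Op K :=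
        IsScalarTower.of_algebraMap_eq (fun x => (IsLocalization.lift_eq hu' x).symm)
      haveI : IsFractionRing Op K :=
        IsFractionRing.isFractionRing_of_isDomain_of_isLocalization p.primeCompl Op K
      -- key: an element of `Op` maps into `R`, compatibly
      have key : ∀ y : Op, ∃ (a : 𝓞 K) (s : p.primeCompl),
          algebraMap Op K y * (s : 𝓞 K) = (a : K) ∧ (y ∈ IsLocalRing.maximalIdeal Op → a ∈ p) := by
        intro y
        obtain ⟨a, s, rfl⟩ := IsLocalization.exists_mk'_eq p.primeCompl y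
        refine ⟨a, s, ?_, ?_⟩
        · have h1 : algebraMap Op K (IsLocalization.mk' Op a s) * algebraMap Op K (algebraMap (𝓞 K) Op s)
              = algebraMap Op K (algebraMap (𝓞 K) Op a) := by
            rw [← map_mul, IsLocalization.mk'_spec]
          rw [← IsScalarTower.algebraMap_apply, ← IsScalarTower.algebraMap_apply] at h1
          exact h1
        · intro hy
          exact (IsLocalization.AtPrime.mk'_mem_maximal_iff Op p a s).mp hy
      rcases ValuationRing.isInteger_or_isInteger Op (z : K) with ⟨y, hy⟩ | ⟨y, hy⟩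
      · obtain ⟨a, s, has, -⟩ := key y
        refine ⟨(a, s), ?_⟩
        apply Subtype.ext
        show (z : K) * ((algebraMap (𝓞 K) R (s : 𝓞 K) : R) : K) = ((algebraMap (𝓞 K) R a : R) : K)
        rw [halg, halg, ← hy]
        exact has
      · -- `z⁻¹ ∈ Op`
        by_cases hyu : IsUnit y
        · obtain ⟨u, rfl⟩ := hyu
          obtain ⟨a, s, has, -⟩ := key ((u⁻¹ : Opˣ) : Op)
          refine ⟨(a, s), ?_⟩
          apply Subtype.ext
          show (z : K) * ((algebraMap (𝓞 K) R (s : 𝓞 K) : R) : K) = ((algebraMap (𝓞 K) R a : R) : K)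
          rw [halg, halg, ← has]
          congr 1
          have h1 : algebraMap Op K (u : Op) * algebraMap Op K ((u⁻¹ : Opˣ) : Op) = 1 := by
            rw [← map_mul, Units.mul_inv, map_one]
          rw [hy] at h1
          field_simp at h1
          exact h1.symm
        · exfalso
          obtain ⟨a, s, has, ha⟩ := key y
          have hap := ha ((IsLocalRing.mem_maximalIdeal _).mpr hyu)
          -- `z⁻¹ = a / s` with `a ∈ p`: then `a = z⁻¹ s` and `z a = s` in `R`
          have h2 : z * algebraMap (𝓞 K) R a = algebraMap (𝓞 K) R (s : 𝓞 K) := by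
            apply Subtype.ext
            show (z : K) * ((algebraMap (𝓞 K) R a : R) : K) = ((algebraMap (𝓞 K) R (s : 𝓞 K) : R) : K)
            rw [halg, halg, ← has, hy]
            field_simp
          have h3 : algebraMap (𝓞 K) R (s : 𝓞 K) ∈ IsLocalRing.maximalIdeal R := by
            rw [← h2]
            exact Ideal.mul_mem_left _ _ hap
          exact s.2 h3
    · intro x y hxy
      exact ⟨1, by rw [gd18_incl_injective K R hxy]⟩
  refine ⟨IsLocalization.AtPrime.isDiscreteValuationRing_of_dedekind_domain (𝓞 K) hp0 R, ?_, ?_⟩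
  · haveI : Finite (𝓞 K ⧸ p) := Ideal.finiteQuotientOfFreeOfNeBot p hp0
    exact Finite.of_equiv _ (IsLocalization.AtPrime.equivQuotMaximalIdeal p R).toEquiv
  · refine (CharP.charP_iff_prime_eq_zero hℓp.out).mpr ?_
    have : ((ℓ : ℕ) : IsLocalRing.ResidueField R) = IsLocalRing.residue R ⟨(ℓ : K), hℓR⟩ := by
      have h1 : (⟨(ℓ : K), hℓR⟩ : R) = ((ℓ : ℕ) : R) := Subtype.ext (by simp)
      rw [h1, map_natCast]
    rw [this]
    exact (IsLocalRing.residue_eq_zero_iff _).mpr hℓm

/-- (dvr) `R = A ∩ E₀` is a discrete valuation ring with finite residue field of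
characteristic `ℓ`. -/
theorem gr18_dvr : gr18_dvr_stmt := by
  intro ℓ hℓp A hA E₀ hfin
  haveI : NumberField E₀ := ⟨⟩
  refine gd18_core E₀ (gr18_R A E₀) ℓ ?_
  rw [ValuationSubring.mem_nonunits_iff_or]
  right
  intro h
  have h2 : algebraMap E₀ (AlgebraicClosure ℚ) ((ℓ : E₀)⁻¹) ∈ A := ValuationSubring.mem_comap.mp h
  rw [map_inv₀, map_natCast] at h2
  have hA' : ((ℓ : ℕ) : AlgebraicClosure ℚ) ∈ A.nonunits := hA
  rcases (A.mem_nonunits_iff_or).mp hA' with h0 | h0
  · exact hℓp.out.ne_zero (by exact_mod_cast h0)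
  · exact h0 h2

end Fermat.Agent.S18Lib
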