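/-
S18 sprint (route Q), chunk Gr (helper4), part 1: the generic Gauss ring `gr18_VL B`
(`B` a valuation subring of a field `L`): reduction map, units, and - for `B` a discrete
valuation ring - the uniformiser, the kernel of reduction and the valuation property on the
fraction field `gr18_QL B` of `B((q))`.
-/
import Fermat.Agent.Lib.S18.GrIface
import Fermat.Agent.Lib.S28.Base

set_option autoImplicit false

noncomputable section

namespace Fermat.Agent.S18Lib

open ModularCurve

section Generic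

variable {L : Type*} [Field L] (B : ValuationSubring L)

/-- `B((q)) → L((q))`. -/
abbrev gr18_io : LaurentSeries B →+* LaurentSeries L := coeffMap B.subtype

/-- `B((q)) → κ((q))`. -/
abbrev gr18_rd : LaurentSeries B →+* LaurentSeries (IsLocalRing.ResidueField B) :=
  coeffMap (IsLocalRing.residue B)

theorem gr18_io_injective : Function.Injective (gr18_io B) := by
  intro a b h
  ext n
  have h1 := congrArg (fun x => x.coeff n) h
  simp only [coeffMap_coeff] at h1
  exact h1

theorem gr18_io_eq_zero_iff {a : LaurentSeries B} : gr18_io B a = 0 ↔ a = 0 :=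
  ⟨fun h => gr18_io_injective B (by rw [h, map_zero]), fun h => by rw [h, map_zero]⟩

theorem gr18_io_mem_VL (a : LaurentSeries B) : gr18_io B a ∈ gr18_VL B :=
  ⟨a, 1, by rw [map_one]; exact one_ne_zero, by simp⟩

theorem gr18_exists_pair (x : gr18_VL B) :
    ∃ p : LaurentSeries B × LaurentSeries B, gr18_rd B p.2 ≠ 0 ∧
      (x : LaurentSeries L) * gr18_io B p.2 = gr18_io B p.1 := by
  obtain ⟨a, b, hb, h⟩ := x.2
  exact ⟨(a, b), hb, h⟩

/-- The reduction map on the Gauss ring (as a function). -/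
def gr18_redFun (x : gr18_VL B) : LaurentSeries (IsLocalRing.ResidueField B) :=
  gr18_rd B (gr18_exists_pair B x).choose.1 / gr18_rd B (gr18_exists_pair B x).choose.2

theorem gr18_redFun_eq (x : gr18_VL B) {a b : LaurentSeries B} (hb : gr18_rd B b ≠ 0)
    (h : (x : LaurentSeries L) * gr18_io B b = gr18_io B a) :
    gr18_redFun B x = gr18_rd B a / gr18_rd B b := by
  obtain ⟨hb', h'⟩ := (gr18_exists_pair B x).choose_spec
  rw [gr18_redFun, div_eq_div_iff hb' hb, ← map_mul, ← map_mul]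
  congr 1
  apply gr18_io_injective B
  rw [map_mul, map_mul, ← h, ← h']; ring

/-- The reduction map on the Gauss ring. -/
def gr18_red : gr18_VL B →+* LaurentSeries (IsLocalRing.ResidueField B) where
  toFun := gr18_redFun B
  map_one' := by
    rw [gr18_redFun_eq B 1 (a := 1) (b := 1) (by rw [map_one]; exact one_ne_zero) (by simp),
      map_one, div_one]
  map_mul' x y := by
    obtain ⟨a, b, hb, h⟩ := x.2
    obtain ⟨a', b', hb', h'⟩ := y.2
    rw [gr18_redFun_eq B x hb h, gr18_redFun_eq B y hb' h',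
      gr18_redFun_eq B (x * y) (a := a * a') (b := b * b')
        (by rw [map_mul]; exact mul_ne_zero hb hb')
        (by rw [map_mul, map_mul, ← h, ← h', Subring.coe_mul]; ring),
      map_mul, map_mul, div_mul_div_comm]
  map_zero' := by
    rw [gr18_redFun_eq B 0 (a := 0) (b := 1) (by rw [map_one]; exact one_ne_zero) (by simp),
      map_zero, zero_div]
  map_add' x y := by
    obtain ⟨a, b, hb, h⟩ := x.2
    obtain ⟨a', b', hb', h'⟩ := y.2
    rw [gr18_redFun_eq B x hb h, gr18_redFun_eq B y hb' h',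
      gr18_redFun_eq B (x + y) (a := a * b' + a' * b) (b := b * b')
        (by rw [map_mul]; exact mul_ne_zero hb hb')
        (by rw [map_add, map_mul, map_mul, map_mul, ← h, ← h', Subring.coe_add]; ring),
      map_add, map_mul, map_mul, map_mul, div_add_div _ _ hb hb']
    congr 1
    ring

theorem gr18_red_eq (x : gr18_VL B) {a b : LaurentSeries B} (hb : gr18_rd B b ≠ 0)
    (h : (x : LaurentSeries L) * gr18_io B b = gr18_io B a) :
    gr18_red B x = gr18_rd B a / gr18_rd B b :=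
  gr18_redFun_eq B x hb h

theorem gr18_red_io (a : LaurentSeries B) :
    gr18_red B ⟨gr18_io B a, gr18_io_mem_VL B a⟩ = gr18_rd B a := by
  rw [gr18_red_eq B _ (a := a) (b := 1) (by rw [map_one]; exact one_ne_zero) (by simp),
    map_one, div_one]

/-- Elements with nonzero reduction are units of the Gauss ring. -/
theorem gr18_inv_mem_VL (x : gr18_VL B) (hx : gr18_red B x ≠ 0) :
    (x : LaurentSeries L)⁻¹ ∈ gr18_VL B := by
  obtain ⟨a, b, hb, h⟩ := x.2
  rw [gr18_red_eq B x hb h] at hx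
  have ha : gr18_rd B a ≠ 0 := fun h0 => hx (by rw [h0, zero_div])
  have hx0 : (x : LaurentSeries L) ≠ 0 := by
    intro h0
    rw [h0, zero_mul] at h
    exact ha (by rw [(gr18_io_eq_zero_iff B).mp h.symm, map_zero])
  exact ⟨b, a, ha, by rw [← h, ← mul_assoc, inv_mul_cancel₀ hx0, one_mul]⟩

/-- The relational reduction agrees with the reduction map. -/
theorem gr18_isRed_iff (x : LaurentSeries L) (y : LaurentSeries (IsLocalRing.ResidueField B)) :
    gr18_IsRed B x y ↔ ∃ hx : x ∈ gr18_VL B, gr18_red B ⟨x, hx⟩ = y := by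
  constructor
  · rintro ⟨a, b, hb, h, hy⟩
    refine ⟨⟨a, b, hb, h⟩, ?_⟩
    rw [gr18_red_eq B ⟨x, ⟨a, b, hb, h⟩⟩ hb h, ← hy, mul_div_cancel_right₀ _ hb]
  · rintro ⟨hx, rfl⟩
    obtain ⟨a, b, hb, h⟩ := hx
    exact ⟨a, b, hb, h, by rw [gr18_red_eq B ⟨x, ⟨a, b, hb, h⟩⟩ hb h, div_mul_cancel₀ _ hb]⟩

/-- Integer series lie in the Gauss ring. -/
theorem gr18_int_eq (m : LaurentSeries ℤ) :
    coeffMap (Int.castRingHom L) m = gr18_io B (coeffMap (Int.castRingHom B) m) := by
  rw [gr18_io, coeffMap_coeffMap]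
  exact coeffMap_congr (RingHom.ext_int _ _) m

theorem gr18_int_mem_VL (m : LaurentSeries ℤ) : coeffMap (Int.castRingHom L) m ∈ gr18_VL B := by
  rw [gr18_int_eq B]
  exact gr18_io_mem_VL B _

theorem gr18_red_int (m : LaurentSeries ℤ) :
    gr18_red B ⟨coeffMap (Int.castRingHom L) m, gr18_int_mem_VL B m⟩ =
      coeffMap (Int.castRingHom (IsLocalRing.ResidueField B)) m := by
  have h := gr18_red_io B (coeffMap (Int.castRingHom B) m)
  have h2 : gr18_rd B (coeffMap (Int.castRingHom B) m) =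
      coeffMap (Int.castRingHom (IsLocalRing.ResidueField B)) m := by
    rw [gr18_rd, coeffMap_coeffMap]
    exact coeffMap_congr (RingHom.ext_int _ _) m
  rw [← h2, ← h]
  congr 1

/-- The fraction field of `B((q))` inside `L((q))`. -/
def gr18_QL : Subfield (LaurentSeries L) where
  carrier := {x | ∃ a b : LaurentSeries B, b ≠ 0 ∧ x * gr18_io B b = gr18_io B a}
  mul_mem' := by
    rintro x y ⟨a, b, hb, h⟩ ⟨a', b', hb', h'⟩
    refine ⟨a * a', b * b', mul_ne_zero hb hb', ?_⟩
    rw [map_mul, map_mul, ← h, ← h']; ring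
  one_mem' := ⟨1, 1, one_ne_zero, by simp⟩
  add_mem' := by
    rintro x y ⟨a, b, hb, h⟩ ⟨a', b', hb', h'⟩
    refine ⟨a * b' + a' * b, b * b', mul_ne_zero hb hb', ?_⟩
    rw [map_add, map_mul, map_mul, map_mul, ← h, ← h']; ring
  zero_mem' := ⟨0, 1, one_ne_zero, by simp⟩
  neg_mem' := by
    rintro x ⟨a, b, hb, h⟩
    exact ⟨-a, b, hb, by rw [map_neg, ← h]; ring⟩
  inv_mem' := by
    rintro x ⟨a, b, hb, h⟩
    by_cases ha : a = 0
    · have hb0 : gr18_io B b ≠ 0 := fun h0 => hb ((gr18_io_eq_zero_iff B).mp h0)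
      rw [ha, map_zero] at h
      have hx : x = 0 := (mul_eq_zero.mp h).resolve_right hb0
      exact ⟨0, 1, one_ne_zero, by rw [hx]; simp⟩
    · have hx0 : x ≠ 0 := by
        intro h0
        rw [h0, zero_mul] at h
        exact ha ((gr18_io_eq_zero_iff B).mp h.symm)
      exact ⟨b, a, ha, by rw [← h, ← mul_assoc, inv_mul_cancel₀ hx0, one_mul]⟩

theorem gr18_mem_QL_iff {x : LaurentSeries L} :
    x ∈ gr18_QL B ↔ ∃ a b : LaurentSeries B, b ≠ 0 ∧ x * gr18_io B b = gr18_io B a :=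
  Iff.rfl

theorem gr18_VL_le_QL {x : LaurentSeries L} (hx : x ∈ gr18_VL B) : x ∈ gr18_QL B := by
  obtain ⟨a, b, hb, h⟩ := hx
  exact ⟨a, b, fun h0 => hb (by rw [h0, map_zero]), h⟩

theorem gr18_io_C (c : B) : gr18_io B (HahnSeries.C c) = HahnSeries.C (c : L) := by
  show coeffMap B.subtype (HahnSeries.single 0 c) = HahnSeries.single 0 (c : L)
  rw [coeffMap_single]
  rfl

theorem gr18_rd_C (c : B) :
    gr18_rd B (HahnSeries.C c) = HahnSeries.C (IsLocalRing.residue B c) := by
  show coeffMap (IsLocalRing.residue B) (HahnSeries.single 0 c) = HahnSeries.single 0 _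
  rw [coeffMap_single]

/-- Constants of `B` lie in the Gauss ring. -/
theorem gr18_C_mem_VL (c : B) : HahnSeries.C (c : L) ∈ gr18_VL B := by
  rw [← gr18_io_C]
  exact gr18_io_mem_VL B _

/-- Constants lie in the fraction field of `B((q))`. -/
theorem gr18_C_mem_QL (c : L) : HahnSeries.C c ∈ gr18_QL B := by
  rcases B.mem_or_inv_mem c with hc | hc
  · exact gr18_VL_le_QL B (gr18_C_mem_VL B ⟨c, hc⟩)
  · by_cases h0 : c = 0
    · rw [h0, map_zero]; exact zero_mem _
    · have h1 := (gr18_QL B).inv_mem (gr18_VL_le_QL B (gr18_C_mem_VL B ⟨c⁻¹, hc⟩))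
      have h2 : (HahnSeries.C ((⟨c⁻¹, hc⟩ : B) : L) : LaurentSeries L)⁻¹ = HahnSeries.C c := by
        rw [← map_inv₀]
        simp
      rwa [h2] at h1

end Generic

/-! ### `B` a discrete valuation ring -/

section DVR

variable {L : Type*} [Field L] (B : ValuationSubring L) [IsDiscreteValuationRing B]

omit [IsDiscreteValuationRing B] in
theorem gr18_coeff_C_mul (c : B) (a : LaurentSeries B) (n : ℤ) :
    (HahnSeries.C c * a).coeff n = c * a.coeff n := by
  rw [HahnSeries.C_mul_eq_smul, HahnSeries.coeff_smul, smul_eq_mul]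

variable {B}

omit [IsDiscreteValuationRing B] in
/-- Divisibility by a constant in `B((q))` is coefficientwise. -/
theorem gr18_C_dvd_iff {ϖ : B} (hϖ : ϖ ≠ 0) (a : LaurentSeries B) :
    HahnSeries.C ϖ ∣ a ↔ ∀ n, ϖ ∣ a.coeff n := by
  classical
  constructor
  · rintro ⟨b, rfl⟩ n
    rw [gr18_coeff_C_mul]
    exact dvd_mul_right _ _
  · intro h
    refine ⟨a.map (⟨fun x : B => if hx : ϖ ∣ x then hx.choose else 0, ?_⟩ : ZeroHom B B), ?_⟩
    · have h0 : ϖ ∣ (0 : B) := dvd_zero _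
      rw [dif_pos h0]
      have := h0.choose_spec
      rcases mul_eq_zero.mp this.symm with h1 | h1
      · exact absurd h1 hϖ
      · exact h1
    · ext n
      rw [gr18_coeff_C_mul]
      simp only [HahnSeries.map_coeff, ZeroHom.coe_mk]
      rw [dif_pos (h n)]
      exact congrArg Subtype.val (h n).choose_spec

/-- The kernel of coefficientwise reduction is generated by a uniformiser. -/
theorem gr18_rd_eq_zero_iff {ϖ : B} (hϖ : Irreducible ϖ) (a : LaurentSeries B) :
    gr18_rd B a = 0 ↔ HahnSeries.C ϖ ∣ a := by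
  rw [gr18_C_dvd_iff hϖ.ne_zero]
  have key : ∀ x : B, IsLocalRing.residue B x = 0 ↔ ϖ ∣ x := by
    intro x
    rw [IsLocalRing.residue_eq_zero_iff, hϖ.maximalIdeal_eq, Ideal.mem_span_singleton]
  constructor
  · intro h n
    have h1 := congrArg (fun x => x.coeff n) h
    simp only [coeffMap_coeff, HahnSeries.coeff_zero] at h1
    exact (key _).mp h1
  · intro h
    ext n
    simp only [coeffMap_coeff, HahnSeries.coeff_zero]
    exact (key _).mpr (h n)

/-- `ϖ`-adic factorisation of a nonzero series. -/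
theorem gr18_exists_pow_mul {ϖ : B} (hϖ : Irreducible ϖ) {a : LaurentSeries B} (ha : a ≠ 0) :
    ∃ (m : ℕ) (a' : LaurentSeries B), a = HahnSeries.C ϖ ^ m * a' ∧ gr18_rd B a' ≠ 0 := by
  obtain ⟨g, hg⟩ : ∃ g, a.coeff g ≠ 0 := by
    by_contra h
    push Not at h
    exact ha (HahnSeries.ext (funext h))
  have key : ∀ (c : ℕ) (a : LaurentSeries B), (∃ u : Bˣ, a.coeff g = u * ϖ ^ c) →
      ∃ (m : ℕ) (a' : LaurentSeries B), a = HahnSeries.C ϖ ^ m * a' ∧ gr18_rd B a' ≠ 0 := by
    intro c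
    induction c with
    | zero =>
      rintro a ⟨u, hu⟩
      refine ⟨0, a, by rw [pow_zero, one_mul], fun h0 => ?_⟩
      have h1 := ((gr18_C_dvd_iff hϖ.ne_zero a).mp ((gr18_rd_eq_zero_iff hϖ a).mp h0)) g
      rw [hu, pow_zero, mul_one] at h1
      exact hϖ.not_isUnit (isUnit_of_dvd_unit h1 u.isUnit)
    | succ c ih =>
      rintro a ⟨u, hu⟩
      by_cases hdvd : HahnSeries.C ϖ ∣ a
      · obtain ⟨a₁, rfl⟩ := hdvd
        rw [gr18_coeff_C_mul, pow_succ, ← mul_assoc, mul_comm ϖ] at hu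
        have h1 : a₁.coeff g = u * ϖ ^ c := mul_right_cancel₀ hϖ.ne_zero hu
        obtain ⟨m, a', rfl, ha'⟩ := ih a₁ ⟨u, h1⟩
        exact ⟨m + 1, a', by rw [pow_succ]; ring, ha'⟩
      · exact ⟨0, a, by rw [pow_zero, one_mul], fun h0 => hdvd ((gr18_rd_eq_zero_iff hϖ a).mp h0)⟩
  obtain ⟨n, u, hu⟩ := IsDiscreteValuationRing.eq_unit_mul_pow_irreducible hg hϖ
  exact key n a ⟨u, hu⟩

omit [IsDiscreteValuationRing B] in
theorem gr18_C_ne_zero {ϖ : B} (hϖ : ϖ ≠ 0) : (HahnSeries.C (ϖ : L) : LaurentSeries L) ≠ 0 := by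
  intro h0
  rw [← map_zero (HahnSeries.C : L →+* LaurentSeries L)] at h0
  exact hϖ (Subtype.ext (HahnSeries.C_injective h0))

/-- The kernel of the reduction map is `ϖ · V`. -/
theorem gr18_red_eq_zero_iff {ϖ : B} (hϖ : Irreducible ϖ) (x : gr18_VL B) :
    gr18_red B x = 0 ↔
      ∃ y : gr18_VL B, (x : LaurentSeries L) = HahnSeries.C (ϖ : L) * (y : LaurentSeries L) := by
  have hϖ0 : (HahnSeries.C (ϖ : L) : LaurentSeries L) ≠ 0 := gr18_C_ne_zero hϖ.ne_zero
  constructor
  · intro hx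
    obtain ⟨a, b, hb, h⟩ := x.2
    rw [gr18_red_eq B x hb h, div_eq_zero_iff] at hx
    rcases hx with hx | hx
    · obtain ⟨a₁, rfl⟩ := (gr18_rd_eq_zero_iff hϖ a).mp hx
      refine ⟨⟨(x : LaurentSeries L) * (HahnSeries.C (ϖ : L))⁻¹, a₁, b, hb, ?_⟩, ?_⟩
      · rw [map_mul, gr18_io_C] at h
        rw [mul_right_comm, h, mul_right_comm, mul_inv_cancel₀ hϖ0, one_mul]
      · show (x : LaurentSeries L) = HahnSeries.C (ϖ : L) * ((x : LaurentSeries L) * _)
        rw [mul_left_comm, mul_inv_cancel₀ hϖ0, mul_one]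
    · exact absurd hx hb
  · rintro ⟨y, hy⟩
    have hxy : x = ⟨HahnSeries.C (ϖ : L), gr18_C_mem_VL B ϖ⟩ * y := Subtype.ext (by rw [hy]; rfl)
    have h1 : gr18_red B ⟨HahnSeries.C (ϖ : L), gr18_C_mem_VL B ϖ⟩ = 0 := by
      have h2 := gr18_red_io B (HahnSeries.C ϖ)
      have h3 : gr18_rd B (HahnSeries.C ϖ) = 0 := by
        rw [gr18_rd_eq_zero_iff hϖ]
      rw [h3] at h2
      rw [← h2]
      congr 1
      exact Subtype.ext (gr18_io_C B ϖ).symm
    rw [hxy, map_mul, h1, zero_mul]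

/-- Elements of the fraction field of `B((q))` lie in the Gauss ring, or their inverse does. -/
theorem gr18_mem_or_inv_mem (x : LaurentSeries L) (hx : x ∈ gr18_QL B) :
    x ∈ gr18_VL B ∨ x⁻¹ ∈ gr18_VL B := by
  obtain ⟨ϖ, hϖ⟩ := IsDiscreteValuationRing.exists_irreducible B
  have hϖ0 : (HahnSeries.C (ϖ : L) : LaurentSeries L) ≠ 0 := gr18_C_ne_zero hϖ.ne_zero
  obtain ⟨a, b, hb, h⟩ := hx
  have hb0 : gr18_io B b ≠ 0 := fun h0 => hb ((gr18_io_eq_zero_iff B).mp h0)
  by_cases ha : a = 0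
  · left
    rw [ha, map_zero] at h
    rcases mul_eq_zero.mp h with h | h
    · rw [h]; exact zero_mem _
    · exact absurd h hb0
  · obtain ⟨m, a', rfl, ha'⟩ := gr18_exists_pow_mul hϖ ha
    obtain ⟨e, b', rfl, hb'⟩ := gr18_exists_pow_mul hϖ hb
    rw [map_mul, map_mul, map_pow, map_pow, gr18_io_C] at h
    rcases le_total e m with hem | hme
    · left
      obtain ⟨d, rfl⟩ := Nat.exists_eq_add_of_le hem
      refine ⟨HahnSeries.C ϖ ^ d * a', b', hb', ?_⟩
      rw [map_mul, map_pow, gr18_io_C]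
      apply mul_left_cancel₀ (pow_ne_zero e hϖ0)
      rw [← mul_assoc, ← mul_assoc, ← pow_add, ← h]; ring
    · right
      obtain ⟨d, rfl⟩ := Nat.exists_eq_add_of_le hme
      have hx0 : x ≠ 0 := by
        intro h0
        rw [h0, zero_mul] at h
        have h1 := (mul_eq_zero.mp h.symm).resolve_left (pow_ne_zero m hϖ0)
        exact ha (by rw [(gr18_io_eq_zero_iff B).mp h1, mul_zero])
      refine ⟨HahnSeries.C ϖ ^ d * b', a', ha', ?_⟩
      rw [map_mul, map_pow, gr18_io_C]
      apply mul_left_cancel₀ (pow_ne_zero m hϖ0)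
      apply mul_left_cancel₀ hx0
      rw [show x * (HahnSeries.C (ϖ : L) ^ m * (x⁻¹ * gr18_io B a')) =
        HahnSeries.C (ϖ : L) ^ m * gr18_io B a' by field_simp, ← h, pow_add]
      ring

end DVR

end Fermat.Agent.S18Lib
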