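/-
S18 sprint (route Q), chunk Gr (helper4), part 2: the function field `gr18_F E M` lies in the
fraction field of `B((q))`; proofs of `gr18_val_stmt` and `gr18_unif_stmt`; the reduction map
on `gr18_VM B M`.
-/
import Fermat.Agent.Lib.S18.GrVal
import Fermat.Agent.Lib.S28.CAChart

set_option autoImplicit false

noncomputable section

namespace Fermat.Agent.S18Lib

open ModularCurve Fermat.Agent.S28Lib

section Field

variable {E : Type*} [Field E] [Algebra ℚ E] (B : ValuationSubring E)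

theorem gr18_coeffEmb_int (m : LaurentSeries ℤ) :
    coeffEmb E (coeffMap (Int.castRingHom ℚ) m) = coeffMap (Int.castRingHom E) m := by
  rw [coeffEmb, coeffMap_coeffMap]
  exact coeffMap_congr (RingHom.ext_int _ _) m

theorem gr18_coeffEmb_C (c : ℚ) :
    coeffEmb E (HahnSeries.C c) = HahnSeries.C (algebraMap ℚ E c) := by
  show coeffMap (algebraMap ℚ E) (HahnSeries.single 0 c) = HahnSeries.single 0 _
  rw [coeffMap_single]

theorem gr18_coeffEmb_mem_QL (M : ℕ) {x : LaurentSeries ℚ}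
    (hx : x ∈ modularFunctionFieldFull M) : coeffEmb E x ∈ gr18_QL B := by
  have hle : Subfield.closure (Set.range (algebraMap ℚ (LaurentSeries ℚ)) ∪ divisorExpansions M) ≤
      (gr18_QL B).comap (coeffEmb E) := by
    rw [Subfield.closure_le]
    rintro y (⟨c, rfl⟩ | ⟨d, hd, hdM, rfl⟩)
    · show coeffEmb E (algebraMap ℚ _ c) ∈ gr18_QL B
      rw [algebraMap_eq_C, gr18_coeffEmb_C]
      exact gr18_C_mem_QL B _
    · show coeffEmb E (qExpand ℚ d jq) ∈ gr18_QL B
      rw [← ca_emb_qExpand_jqModC d, ca_emb, gr18_coeffEmb_int]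
      exact gr18_VL_le_QL B (gr18_int_mem_VL B _)
  exact hle hx

theorem gr18_F_le_QL (M : ℕ) {x : LaurentSeries E} (hx : x ∈ gr18_F E M) : x ∈ gr18_QL B := by
  have hle : Subfield.closure (Set.range (algebraMap E (LaurentSeries E)) ∪
      (⇑(coeffEmb E) '' (modularFunctionFieldFull M : Set (LaurentSeries ℚ)))) ≤ gr18_QL B := by
    rw [Subfield.closure_le]
    rintro y (⟨c, rfl⟩ | ⟨z, hz, rfl⟩)
    · rw [algebraMap_eq_C]
      exact gr18_C_mem_QL B _
    · exact gr18_coeffEmb_mem_QL B M hz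
  exact hle hx

/-- Integer series in the function field lie in `V`. -/
theorem gr18_int_mem_VM (M : ℕ) (m : LaurentSeries ℤ)
    (hm : coeffMap (Int.castRingHom E) m ∈ gr18_F E M) :
    (⟨coeffMap (Int.castRingHom E) m, hm⟩ : gr18_F E M) ∈ gr18_VM B M :=
  gr18_int_mem_VL B m

theorem gr18_c_mem_VM (M : ℕ) (r : B) : gr18_c E M (r : E) ∈ gr18_VM B M := by
  show algebraMap E (LaurentSeries E) (r : E) ∈ gr18_VL B
  rw [algebraMap_eq_C]
  exact gr18_C_mem_VL B r

/-- The reduction map on `V`. -/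
def gr18_redM (M : ℕ) : gr18_VM B M →+* LaurentSeries (IsLocalRing.ResidueField B) :=
  (gr18_red B).comp
    { toFun := fun x => ⟨((x : gr18_F E M) : LaurentSeries E), x.2⟩
      map_one' := rfl
      map_mul' := fun _ _ => rfl
      map_zero' := rfl
      map_add' := fun _ _ => rfl }

theorem gr18_redM_apply (M : ℕ) (x : gr18_VM B M) :
    gr18_redM B M x = gr18_red B ⟨((x : gr18_F E M) : LaurentSeries E), x.2⟩ := rfl

/-- Elements of `V` with nonzero reduction are units. -/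
theorem gr18_inv_mem_VM (M : ℕ) (x : gr18_VM B M) (hx : gr18_redM B M x ≠ 0) :
    ((x : gr18_F E M))⁻¹ ∈ gr18_VM B M := by
  show (((x : gr18_F E M))⁻¹ : LaurentSeries E) ∈ gr18_VL B
  exact gr18_inv_mem_VL B ⟨_, x.2⟩ hx

theorem gr18_redM_int (M : ℕ) (m : LaurentSeries ℤ)
    (hm : coeffMap (Int.castRingHom E) m ∈ gr18_F E M) :
    gr18_redM B M ⟨⟨coeffMap (Int.castRingHom E) m, hm⟩, gr18_int_mem_VM B M m hm⟩ =
      coeffMap (Int.castRingHom (IsLocalRing.ResidueField B)) m :=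
  gr18_red_int B m

end Field

section DVRField

variable {E : Type*} [Field E] [Algebra ℚ E] (B : ValuationSubring E) [IsDiscreteValuationRing B]

theorem gr18_val_aux (M : ℕ) (x : gr18_F E M) : x ∈ gr18_VM B M ∨ x⁻¹ ∈ gr18_VM B M := by
  have hx : (x : LaurentSeries E) ∈ gr18_QL B := gr18_F_le_QL B M x.2
  rcases gr18_mem_or_inv_mem (x : LaurentSeries E) hx with h | h
  · exact Or.inl h
  · exact Or.inr h

/-- The kernel of reduction on `V` is `π V`. -/
theorem gr18_redM_eq_zero_iff (M : ℕ) {ϖ : B} (hϖ : Irreducible ϖ) (x : gr18_VM B M) :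
    gr18_redM B M x = 0 ↔
      ∃ y : gr18_F E M, y ∈ gr18_VM B M ∧ (x : gr18_F E M) = gr18_c E M (ϖ : E) * y := by
  rw [gr18_redM_apply, gr18_red_eq_zero_iff hϖ]
  have hc0 : gr18_c E M (ϖ : E) ≠ 0 := by
    intro h0
    have h1 : (ϖ : E) = 0 := by
      have h2 : algebraMap E (gr18_F E M) (ϖ : E) = 0 := h0
      exact (map_eq_zero _).mp h2
    exact hϖ.ne_zero (Subtype.ext h1)
  have hcoe : ((gr18_c E M (ϖ : E) : gr18_F E M) : LaurentSeries E) = HahnSeries.C (ϖ : E) := by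
    rw [gr18_coe_c, algebraMap_eq_C]
  constructor
  · rintro ⟨y, hy⟩
    refine ⟨(gr18_c E M (ϖ : E))⁻¹ * x, ?_, ?_⟩
    · show (((gr18_c E M (ϖ : E))⁻¹ * (x : gr18_F E M) : gr18_F E M) : LaurentSeries E) ∈ gr18_VL B
      have h1 : (((gr18_c E M (ϖ : E))⁻¹ * (x : gr18_F E M) : gr18_F E M) : LaurentSeries E) =
          (y : LaurentSeries E) := by
        push_cast
        rw [hcoe]
        have h2 : ((x : gr18_F E M) : LaurentSeries E) =
            HahnSeries.C (ϖ : E) * (y : LaurentSeries E) := hy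
        rw [h2, inv_mul_cancel_left₀ (gr18_C_ne_zero hϖ.ne_zero)]
      rw [h1]
      exact y.2
    · rw [mul_inv_cancel_left₀ hc0]
  · rintro ⟨y, hy, hxy⟩
    refine ⟨⟨(y : LaurentSeries E), hy⟩, ?_⟩
    show ((x : gr18_F E M) : LaurentSeries E) = HahnSeries.C (ϖ : E) * (y : LaurentSeries E)
    rw [hxy]
    push_cast
    rw [hcoe]

theorem gr18_val : gr18_val_stmt := by
  intro E _ _ B _ M _ x
  exact gr18_val_aux B M x

theorem gr18_unif : gr18_unif_stmt := by
  intro E _ _ B _ M _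
  refine ⟨fun r => gr18_c_mem_VM B M r, fun ϖ hϖ => ⟨?_, ?_⟩⟩
  · intro hinv
    have hmem : gr18_c E M (ϖ : E) ∈ gr18_VM B M := gr18_c_mem_VM B M ϖ
    have h0 : gr18_redM B M ⟨gr18_c E M (ϖ : E), hmem⟩ = 0 :=
      (gr18_redM_eq_zero_iff B M hϖ _).mpr ⟨1, one_mem _, by rw [mul_one]⟩
    have hc0 : gr18_c E M (ϖ : E) ≠ 0 := by
      intro h0
      have h1 : (ϖ : E) = 0 := by
        have h2 : algebraMap E (gr18_F E M) (ϖ : E) = 0 := h0
        exact (map_eq_zero _).mp h2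
      exact hϖ.ne_zero (Subtype.ext h1)
    have h1 : (⟨gr18_c E M (ϖ : E), hmem⟩ : gr18_VM B M) * ⟨(gr18_c E M (ϖ : E))⁻¹, hinv⟩ = 1 :=
      Subtype.ext (mul_inv_cancel₀ hc0)
    have h2 := congrArg (gr18_redM B M) h1
    rw [map_mul, h0, zero_mul, map_one] at h2
    exact zero_ne_one h2
  · intro x hx hxinv
    have h0 : gr18_redM B M ⟨x, hx⟩ = 0 := by
      by_contra hne
      exact hxinv (gr18_inv_mem_VM B M ⟨x, hx⟩ hne)
    exact (gr18_redM_eq_zero_iff B M hϖ ⟨x, hx⟩).mp h0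

end DVRField

end Fermat.Agent.S18Lib
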