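/-
S18 sprint (route Q), assembly, concrete charts, part A (helper1, prefix `aca18_`).

The fields of `As18Chart.Good` for the concrete chart `as18_chart A E₀ M hval π x cbr` that need
no further Gauss-ring work: `char0, dvr, irr, fin, inj, cV, xV, unif1, unif2, cbrU`, packaged in
`aca18_good` (the remaining fields `gauss, sat, sep, unr` are hypotheses), together with the
data of the four concrete coordinates `h2, 1/h2, h3, 1/h3`.
-/
import Fermat.Agent.Lib.S18.AsStarIface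
import Fermat.Agent.Lib.S18.GrField
import Fermat.Agent.Lib.S18.GrDvr
import Fermat.Agent.Lib.S18.GrDeg
import Fermat.Agent.Lib.S18.CgAlgClosed

set_option autoImplicit false
set_option linter.style.haveILetI false

noncomputable section

namespace Fermat.Agent.S18Lib

open ModularCurve Polynomial

/-- finiteness goes up along an inclusion of intermediate fields -/
theorem aca18_fin_gen {E F : Type*} [Field E] [Field F] [Algebra E F]
    (K₁ K₂ : IntermediateField E F) (hle : K₁ ≤ K₂) (h : Module.Finite K₁ F) :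
    Module.Finite K₂ F := by
  letI : Algebra K₁ K₂ := (IntermediateField.inclusion hle).toRingHom.toAlgebra
  haveI : IsScalarTower K₁ K₂ F := IsScalarTower.of_algebraMap_eq (fun _ => rfl)
  exact Module.Finite.of_restrictScalars_finite K₁ K₂ F

section Generic

variable (E : Type) [Field E] [Algebra ℚ E] (M : ℕ) [NeZero M]

/-- `F_M^E` is finite over `E(x)` as soon as `j ∈ E(x)`. -/
theorem aca18_fin (x : gr18_F E M) (a b : Polynomial E) (hb : aeval x b ≠ 0)
    (hrel : gr18_j E M * aeval x b = aeval x a) :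
    FiniteDimensional (IntermediateField.adjoin E {x}) (gr18_F E M) := by
  obtain ⟨hfin, -⟩ := gr18_deg E M
  have hj : gr18_j E M ∈ IntermediateField.adjoin E {x} := by
    rw [IntermediateField.mem_adjoin_simple_iff]
    exact ⟨a, b, by rw [← hrel, mul_div_assoc, div_self hb, mul_one]⟩
  have hle : IntermediateField.adjoin E {gr18_j E M} ≤ IntermediateField.adjoin E {x} := by
    rw [IntermediateField.adjoin_simple_le_iff]; exact hj
  exact aca18_fin_gen _ _ hle hfin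

theorem aca18_j_coeff : ((gr18_j E M : gr18_F E M) : LaurentSeries E).coeff (-1) = 1 := by
  rw [gr18_coe_j, coeffEmb_coeff, ← jqModC_rat, coeff_jqModC_neg_one, map_one]

/-- a coordinate `x` with `j = a(x)/b(x)` is transcendental over `E`. -/
theorem aca18_transcendental (x : gr18_F E M) (a b : Polynomial E) (hb : aeval x b ≠ 0)
    (hrel : gr18_j E M * aeval x b = aeval x a) : Transcendental E x := by
  intro halg
  obtain ⟨c0, hc0⟩ := cg18_algClosed E M x halg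
  have hx : x = algebraMap E (gr18_F E M) c0 := hc0
  rw [hx, aeval_algebraMap_apply, aeval_algebraMap_apply] at hrel
  rw [hx, aeval_algebraMap_apply] at hb
  have hb' : (algebraMap E (gr18_F E M)) (eval c0 b) ≠ 0 := by simpa using hb
  have hj : gr18_j E M = algebraMap E (gr18_F E M) (eval c0 a / eval c0 b) := by
    rw [map_div₀, eq_div_iff hb']
    simpa using hrel
  have h1 := aca18_j_coeff E M
  rw [hj] at h1
  have h2 : ((algebraMap E (gr18_F E M) (eval c0 a / eval c0 b) : gr18_F E M) : LaurentSeries E)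
      = HahnSeries.C (eval c0 a / eval c0 b) := by
    show algebraMap E (LaurentSeries E) _ = _
    rw [Fermat.Agent.S28Lib.algebraMap_eq_C]
  rw [h2, HahnSeries.C_apply, HahnSeries.coeff_single_of_ne (by norm_num)] at h1
  exact zero_ne_one h1

end Generic

/-- evaluation is injective for a transcendental coordinate -/
theorem aca18_inj {E F : Type} [Field E] [Field F] [Algebra E F] (c : As18Chart E F)
    (hx : Transcendental E c.x) : Function.Injective c.ev := by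
  rw [injective_iff_map_eq_zero]
  intro p hp
  rw [c.ev_eq_aeval] at hp
  have h1 : p.map c.R.subtype = 0 := by
    by_contra hne
    exact hx ⟨_, hne, hp⟩
  exact Polynomial.map_injective _ Subtype.val_injective (by rw [h1, Polynomial.map_zero])

section Chart

variable (ℓ : ℕ) [Fact ℓ.Prime] (A : ValuationSubring (AlgebraicClosure ℚ))
  (E₀ : IntermediateField ℚ (AlgebraicClosure ℚ)) [FiniteDimensional ℚ E₀] (M : ℕ) [NeZero M]
  (hval : ∀ x : gr18_F E₀ M, x ∈ gr18_VM (gr18_R A E₀) M ∨ x⁻¹ ∈ gr18_VM (gr18_R A E₀) M)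
  (π : gr18_R A E₀) (x : gr18_F E₀ M) (cbr : gr18_R A E₀)

omit [FiniteDimensional ℚ ↥E₀] [NeZero M] in
/-- the inverse chart of a concrete chart is the concrete chart of the inverse coordinate -/
theorem aca18_chart_inv (cbr' : gr18_R A E₀) :
    (as18_chart A E₀ M hval π x cbr).inv cbr' = as18_chart A E₀ M hval π x⁻¹ cbr' := rfl

/-- Packaging: the concrete chart is good, given the Gauss-ring fields `gauss, sat, sep` and
the unramifiedness field `unr`. -/
theorem aca18_good (hA : A.LiesOverPrime ℓ)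
    (c : As18Chart E₀ (gr18_F E₀ M)) (hcdef : c = as18_chart A E₀ M hval π x cbr)
    (hπ : Irreducible π) (hxV : x ∈ gr18_VM (gr18_R A E₀) M)
    (a b : Polynomial E₀) (hb : aeval x b ≠ 0) (hrel : gr18_j E₀ M * aeval x b = aeval x a)
    (hcbr : IsUnit cbr)
    (hgauss : ∀ p : Polynomial E₀, Polynomial.aeval c.x p ∈ c.V → ∀ i, p.coeff i ∈ c.R)
    (hsat : ∀ z ∈ c.V, c.cst c.π * z ∈ c.O → z ∈ c.O)
    (hsep : ∀ z ∈ c.V, ∃ P : Polynomial (gr18_F E₀ M), P.Monic ∧
      (∀ i, ∃ p q : Polynomial c.R, (c.ev q)⁻¹ ∈ c.V ∧ c.ev q ≠ 0 ∧ P.coeff i * c.ev q = c.ev p) ∧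
      (∃ y ∈ c.V, Polynomial.aeval z P = c.cst c.π * y) ∧
      (Polynomial.aeval z (Polynomial.derivative P))⁻¹ ∈ c.V ∧
      Polynomial.aeval z (Polynomial.derivative P) ≠ 0)
    (hunr : ∀ W : ValuationSubring (gr18_F E₀ M), W ≠ ⊤ →
      (∀ e : E₀, algebraMap E₀ (gr18_F E₀ M) e ∈ W) → c.x ∈ W →
      ∀ f : Polynomial E₀, Irreducible f → f.eval 0 ≠ 0 → f.eval (c.cbr : E₀) ≠ 0 →
      Polynomial.aeval c.x f ∈ W → (Polynomial.aeval c.x f)⁻¹ ∉ W →
      ∀ g ∈ W, g⁻¹ ∉ W → ∃ a ∈ W, g = Polynomial.aeval c.x f * a) :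
    c.Good := by
  subst hcdef
  haveI hdvr : IsDiscreteValuationRing (gr18_R A E₀) := (gr18_dvr ℓ A hA E₀).1
  have hu := gr18_unif E₀ (gr18_R A E₀) M
  exact
    { char0 := inferInstance
      dvr := hdvr
      irr := hπ
      fin := aca18_fin E₀ M x a b hb hrel
      inj := aca18_inj _ (aca18_transcendental E₀ M x a b hb hrel)
      cV := fun r => hu.1 r
      xV := hxV
      gauss := hgauss
      unif1 := (hu.2 π hπ).1
      unif2 := fun z hz hzinv => (hu.2 π hπ).2 z hz hzinv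
      sat := hsat
      sep := hsep
      cbrU := hcbr
      unr := hunr }

end Chart

/-! ### data of the concrete coordinates -/

section Coord

variable {E : Type} [Field E] [Algebra ℚ E] (B : ValuationSubring E) (M : ℕ) [NeZero M]

omit [NeZero M] in
/-- a coordinate whose `q`-expansion is `q^n ·` (an integer power series) lies in `V`. -/
theorem aca18_shape_mem (x : gr18_F E M) (s : LaurentSeries ℚ) (n : ℤ) (P : PowerSeries ℤ)
    (hs : s = HahnSeries.single n (1 : ℚ) *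
      HahnSeries.ofPowerSeries ℤ ℚ (P.map (Int.castRingHom ℚ)))
    (hx : (x : LaurentSeries E) = coeffEmb E s) : x ∈ gr18_VM B M := by
  have h1 : s = coeffMap (Int.castRingHom ℚ)
      (HahnSeries.single n (1 : ℤ) * HahnSeries.ofPowerSeries ℤ ℤ P) := by
    rw [hs, map_mul, coeffMap_single, coeffMap_ofPowerSeries, eq_intCast, Int.cast_one]
  show (x : LaurentSeries E) ∈ gr18_VL B
  rw [hx, h1, gr18_coeffEmb_int]
  exact gr18_int_mem_VL B _

omit [NeZero M] in
theorem aca18_coe_inv (x : gr18_F E M) (s : LaurentSeries ℚ)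
    (hx : (x : LaurentSeries E) = coeffEmb E s) :
    ((x⁻¹ : gr18_F E M) : LaurentSeries E) = coeffEmb E s⁻¹ := by
  rw [map_inv₀, ← hx]
  rfl

/-- the level-2 relation in `F_M^E`. -/
theorem aca18_rel_h2 (x : gr18_F E M) (hx : (x : LaurentSeries E) = coeffEmb E h2_ser)
    (h : jq * h2_ser ^ 2 = (h2_ser + 256) ^ 3) :
    gr18_j E M * x ^ 2 = (x + 256) ^ 3 := by
  apply Subtype.ext
  have h1 := congrArg (coeffEmb E) h
  simp only [map_mul, map_pow, map_add, map_ofNat] at h1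
  push_cast
  rw [gr18_coe_j, hx]
  exact h1

/-- the level-3 relation in `F_M^E`. -/
theorem aca18_rel_h3 (x : gr18_F E M) (hx : (x : LaurentSeries E) = coeffEmb E h3_ser)
    (h : jq * h3_ser ^ 3 = (h3_ser + 27) * (h3_ser + 243) ^ 3) :
    gr18_j E M * x ^ 3 = (x + 27) * (x + 243) ^ 3 := by
  apply Subtype.ext
  have h1 := congrArg (coeffEmb E) h
  simp only [map_mul, map_pow, map_add, map_ofNat] at h1
  push_cast
  rw [gr18_coe_j, hx]
  exact h1

/-- polynomial form of the level-2 data for the coordinates `x` and `x⁻¹`. -/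
theorem aca18_data_h2 (x : gr18_F E M) (hrel : gr18_j E M * x ^ 2 = (x + 256) ^ 3) :
    aeval x (X ^ 2 : Polynomial E) ≠ 0 ∧
    gr18_j E M * aeval x (X ^ 2 : Polynomial E) = aeval x ((X + 256) ^ 3 : Polynomial E) ∧
    aeval x⁻¹ (X : Polynomial E) ≠ 0 ∧
    gr18_j E M * aeval x⁻¹ (X : Polynomial E) = aeval x⁻¹ ((1 + 256 * X) ^ 3 : Polynomial E) := by
  haveI : CharZero E := algebraRat.charZero E
  haveI : CharZero (gr18_F E M) :=
    charZero_of_injective_algebraMap (algebraMap E (gr18_F E M)).injective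
  have hx0 : x ≠ 0 := by
    rintro rfl
    norm_num at hrel
  have e1 : aeval x (X ^ 2 : Polynomial E) = x ^ 2 := by simp
  have e2 : aeval x ((X + 256) ^ 3 : Polynomial E) = (x + 256) ^ 3 := by
    simp only [map_pow, map_add, aeval_X, map_ofNat]
  have e3 : aeval x⁻¹ (X : Polynomial E) = x⁻¹ := by simp
  have e4 : aeval x⁻¹ ((1 + 256 * X) ^ 3 : Polynomial E) = (1 + 256 * x⁻¹) ^ 3 := by
    simp only [map_pow, map_add, map_mul, map_one, aeval_X, map_ofNat]
  rw [e1, e2, e3, e4]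
  refine ⟨pow_ne_zero _ hx0, hrel, inv_ne_zero hx0, ?_⟩
  field_simp
  linear_combination hrel

/-- polynomial form of the level-3 data for the coordinates `x` and `x⁻¹`. -/
theorem aca18_data_h3 (x : gr18_F E M) (hrel : gr18_j E M * x ^ 3 = (x + 27) * (x + 243) ^ 3) :
    aeval x (X ^ 3 : Polynomial E) ≠ 0 ∧
    gr18_j E M * aeval x (X ^ 3 : Polynomial E) =
      aeval x ((X + 27) * (X + 243) ^ 3 : Polynomial E) ∧
    aeval x⁻¹ (X : Polynomial E) ≠ 0 ∧
    gr18_j E M * aeval x⁻¹ (X : Polynomial E) =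
      aeval x⁻¹ ((1 + 27 * X) * (1 + 243 * X) ^ 3 : Polynomial E) := by
  haveI : CharZero E := algebraRat.charZero E
  haveI : CharZero (gr18_F E M) :=
    charZero_of_injective_algebraMap (algebraMap E (gr18_F E M)).injective
  have hx0 : x ≠ 0 := by
    rintro rfl
    norm_num at hrel
  have e1 : aeval x (X ^ 3 : Polynomial E) = x ^ 3 := by simp
  have e2 : aeval x ((X + 27) * (X + 243) ^ 3 : Polynomial E) = (x + 27) * (x + 243) ^ 3 := by
    simp only [map_pow, map_add, map_mul, aeval_X, map_ofNat]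
  have e3 : aeval x⁻¹ (X : Polynomial E) = x⁻¹ := by simp
  have e4 : aeval x⁻¹ ((1 + 27 * X) * (1 + 243 * X) ^ 3 : Polynomial E) =
      (1 + 27 * x⁻¹) * (1 + 243 * x⁻¹) ^ 3 := by
    simp only [map_pow, map_add, map_mul, map_one, aeval_X, map_ofNat]
  rw [e1, e2, e3, e4]
  refine ⟨pow_ne_zero _ hx0, hrel, inv_ne_zero hx0, ?_⟩
  field_simp
  linear_combination hrel

end Coord

/-! ### the remaining fields, and the concrete statements modulo them -/

/-- The four fields of `As18Chart.Good` supplied by the Gauss-ring chunk (`gauss, sat, sep`) and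
by the branch chunk (`unr`). -/
def aca18_rest {E F : Type} [Field E] [Field F] [Algebra E F] (c : As18Chart E F) : Prop :=
  (∀ p : Polynomial E, Polynomial.aeval c.x p ∈ c.V → ∀ i, p.coeff i ∈ c.R) ∧
  (∀ z ∈ c.V, c.cst c.π * z ∈ c.O → z ∈ c.O) ∧
  (∀ z ∈ c.V, ∃ P : Polynomial F, P.Monic ∧
    (∀ i, ∃ p q : Polynomial c.R, (c.ev q)⁻¹ ∈ c.V ∧ c.ev q ≠ 0 ∧ P.coeff i * c.ev q = c.ev p) ∧
    (∃ y ∈ c.V, Polynomial.aeval z P = c.cst c.π * y) ∧
    (Polynomial.aeval z (Polynomial.derivative P))⁻¹ ∈ c.V ∧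
    Polynomial.aeval z (Polynomial.derivative P) ≠ 0) ∧
  (∀ W : ValuationSubring F, W ≠ ⊤ → (∀ e : E, algebraMap E F e ∈ W) → c.x ∈ W →
    ∀ f : Polynomial E, Irreducible f → f.eval 0 ≠ 0 → f.eval (c.cbr : E) ≠ 0 →
    Polynomial.aeval c.x f ∈ W → (Polynomial.aeval c.x f)⁻¹ ∉ W →
    ∀ g ∈ W, g⁻¹ ∉ W → ∃ a ∈ W, g = Polynomial.aeval c.x f * a)

section Final

variable (ℓ : ℕ) [Fact ℓ.Prime] (A : ValuationSubring (AlgebraicClosure ℚ))
  (E₀ : IntermediateField ℚ (AlgebraicClosure ℚ)) [FiniteDimensional ℚ E₀] (M : ℕ) [NeZero M]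
  (hval : ∀ x : gr18_F E₀ M, x ∈ gr18_VM (gr18_R A E₀) M ∨ x⁻¹ ∈ gr18_VM (gr18_R A E₀) M)
  (π : gr18_R A E₀) (x : gr18_F E₀ M) (cbr cbr' : gr18_R A E₀)

/-- one concrete chart is good, modulo `aca18_rest`. -/
theorem aca18_good_of_rest (hA : A.LiesOverPrime ℓ) (hπ : Irreducible π)
    (hxV : x ∈ gr18_VM (gr18_R A E₀) M)
    (a b : Polynomial E₀) (hb : aeval x b ≠ 0) (hrel : gr18_j E₀ M * aeval x b = aeval x a)
    (hcbr : IsUnit cbr) (hr : aca18_rest (as18_chart A E₀ M hval π x cbr)) :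
    (as18_chart A E₀ M hval π x cbr).Good :=
  aca18_good ℓ A E₀ M hval π x cbr hA _ rfl hπ hxV a b hb hrel hcbr hr.1 hr.2.1 hr.2.2.1 hr.2.2.2

/-- the two charts of the `h2`-line are good, modulo `aca18_rest`. -/
theorem aca18_good_h2 (hh2 : h2_stmt) (hA : A.LiesOverPrime ℓ) (hπ : Irreducible π)
    (hx : (x : LaurentSeries E₀) = coeffEmb E₀ h2_ser)
    (hcbr : (cbr : E₀) * (cbr' : E₀) = 1)
    (hr : aca18_rest (as18_chart A E₀ M hval π x cbr))
    (hr' : aca18_rest (as18_chart A E₀ M hval π x⁻¹ cbr')) :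
    (as18_chart A E₀ M hval π x cbr).Good ∧ ((as18_chart A E₀ M hval π x cbr).inv cbr').Good := by
  obtain ⟨-, ⟨P, -, hP⟩, ⟨Q, -, hQ⟩, hmod⟩ := hh2
  obtain ⟨hd1, hd2, hd3, hd4⟩ := aca18_data_h2 M x (aca18_rel_h2 M x hx hmod)
  have hu : IsUnit cbr := IsUnit.of_mul_eq_one cbr' (Subtype.ext hcbr)
  have hu' : IsUnit cbr' :=
    IsUnit.of_mul_eq_one cbr (Subtype.ext (by
      show (cbr' : E₀) * (cbr : E₀) = 1
      rw [mul_comm]; exact hcbr))
  exact ⟨aca18_good_of_rest ℓ A E₀ M hval π x cbr hA hπ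
      (aca18_shape_mem _ M x h2_ser (-1) P hP hx) _ _ hd1 hd2 hu hr,
    aca18_good_of_rest ℓ A E₀ M hval π x⁻¹ cbr' hA hπ
      (aca18_shape_mem _ M x⁻¹ h2_ser⁻¹ 1 Q hQ (aca18_coe_inv M x h2_ser hx)) _ _ hd3 hd4 hu' hr'⟩

/-- the two charts of the `h3`-line are good, modulo `aca18_rest`. -/
theorem aca18_good_h3 (hh3 : h3_stmt) (hA : A.LiesOverPrime ℓ) (hπ : Irreducible π)
    (hx : (x : LaurentSeries E₀) = coeffEmb E₀ h3_ser)
    (hcbr : (cbr : E₀) * (cbr' : E₀) = 1)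
    (hr : aca18_rest (as18_chart A E₀ M hval π x cbr))
    (hr' : aca18_rest (as18_chart A E₀ M hval π x⁻¹ cbr')) :
    (as18_chart A E₀ M hval π x cbr).Good ∧ ((as18_chart A E₀ M hval π x cbr).inv cbr').Good := by
  obtain ⟨-, ⟨P, -, hP⟩, ⟨Q, -, hQ⟩, hmod⟩ := hh3
  obtain ⟨hd1, hd2, hd3, hd4⟩ := aca18_data_h3 M x (aca18_rel_h3 M x hx hmod)
  have hu : IsUnit cbr := IsUnit.of_mul_eq_one cbr' (Subtype.ext hcbr)
  have hu' : IsUnit cbr' :=
    IsUnit.of_mul_eq_one cbr (Subtype.ext (by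
      show (cbr' : E₀) * (cbr : E₀) = 1
      rw [mul_comm]; exact hcbr))
  exact ⟨aca18_good_of_rest ℓ A E₀ M hval π x cbr hA hπ
      (aca18_shape_mem _ M x h3_ser (-1) P hP hx) _ _ hd1 hd2 hu hr,
    aca18_good_of_rest ℓ A E₀ M hval π x⁻¹ cbr' hA hπ
      (aca18_shape_mem _ M x⁻¹ h3_ser⁻¹ 1 Q hQ (aca18_coe_inv M x h3_ser hx)) _ _ hd3 hd4 hu' hr'⟩

end Final

/-- The remaining concrete statement: the fields `gauss, sat, sep, unr` for the four charts. -/
def aca18_rest_stmt : Prop :=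
  (∀ (ℓ : ℕ) [Fact ℓ.Prime] (A : ValuationSubring (AlgebraicClosure ℚ)), A.LiesOverPrime ℓ →
    ℓ ≠ 2 →
    ∀ (E₀ : IntermediateField ℚ (AlgebraicClosure ℚ)) [FiniteDimensional ℚ E₀]
      (M : ℕ) [NeZero M], ¬ ℓ ∣ M → 2 ∣ M →
    ∀ (hval : ∀ x : gr18_F E₀ M, x ∈ gr18_VM (gr18_R A E₀) M ∨ x⁻¹ ∈ gr18_VM (gr18_R A E₀) M)
      (π : gr18_R A E₀), Irreducible π →
    ∀ x : gr18_F E₀ M, (x : LaurentSeries E₀) = coeffEmb E₀ h2_ser →
    ∀ cbr cbr' : gr18_R A E₀, (cbr : E₀) = -64 → (cbr' : E₀) = -1 / 64 →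
      aca18_rest (as18_chart A E₀ M hval π x cbr) ∧
      aca18_rest (as18_chart A E₀ M hval π x⁻¹ cbr')) ∧
  (∀ (ℓ : ℕ) [Fact ℓ.Prime] (A : ValuationSubring (AlgebraicClosure ℚ)), A.LiesOverPrime ℓ →
    ℓ = 2 →
    ∀ (E₀ : IntermediateField ℚ (AlgebraicClosure ℚ)) [FiniteDimensional ℚ E₀]
      (M : ℕ) [NeZero M], ¬ ℓ ∣ M → 3 ∣ M →
    ∀ (hval : ∀ x : gr18_F E₀ M, x ∈ gr18_VM (gr18_R A E₀) M ∨ x⁻¹ ∈ gr18_VM (gr18_R A E₀) M)
      (π : gr18_R A E₀), Irreducible π →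
    ∀ x : gr18_F E₀ M, (x : LaurentSeries E₀) = coeffEmb E₀ h3_ser →
    ∀ cbr cbr' : gr18_R A E₀, (cbr : E₀) = -27 → (cbr' : E₀) = -1 / 27 →
      aca18_rest (as18_chart A E₀ M hval π x cbr) ∧
      aca18_rest (as18_chart A E₀ M hval π x⁻¹ cbr'))

/-- `as18_concrete_stmt` from `h2_stmt`, `h3_stmt` and the remaining fields. -/
theorem aca18_concrete (hh2 : h2_stmt) (hh3 : h3_stmt) (hrest : aca18_rest_stmt) :
    as18_concrete_stmt := by
  refine ⟨?_, ?_⟩
  · intro ℓ _ A hA hℓ2 E₀ _ M _ hℓM h2M hval π hπ x hx cbr cbr' hcbr hcbr'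
    obtain ⟨hr, hr'⟩ := hrest.1 ℓ A hA hℓ2 E₀ M hℓM h2M hval π hπ x hx cbr cbr' hcbr hcbr'
    refine aca18_good_h2 ℓ A E₀ M hval π x cbr cbr' hh2 hA hπ hx ?_ hr hr'
    rw [hcbr, hcbr']
    norm_num
  · intro ℓ _ A hA hℓ2 E₀ _ M _ hℓM h3M hval π hπ x hx cbr cbr' hcbr hcbr'
    obtain ⟨hr, hr'⟩ := hrest.2 ℓ A hA hℓ2 E₀ M hℓM h3M hval π hπ x hx cbr cbr' hcbr hcbr'
    refine aca18_good_h3 ℓ A E₀ M hval π x cbr cbr' hh3 hA hπ hx ?_ hr hr'
    rw [hcbr, hcbr']
    norm_num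

end Fermat.Agent.S18Lib
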