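import Fermat.Agent.Lib.S18.AsConcIface
import Fermat.Agent.Lib.S18.GrField
import Fermat.Agent.Lib.S18.GrDvr

/-!
# S18 assembly, concrete layer: the packages `ac18_coord_stmt`, `ac18_units_stmt`,
`ac18_basic_stmt` (helper8, prefix `acb_`)

* `ac18_coord : ac18_coord_stmt` : `h2`, `h2⁻¹`, `h3`, `h3⁻¹` are coordinates (series shape from
  `h2_stmt` / `h3_stmt`, tower relation from the modular equations);
* `ac18_units : ac18_units_stmt` : the branch values are units of `R = A ∩ E₀`;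
* `ac18_basic : ac18_basic_stmt` : fields `char0`, `dvr`, `cV`, `xV`, `unif1`, `unif2`.
-/

set_option autoImplicit false
set_option synthInstance.maxHeartbeats 400000
set_option maxHeartbeats 1600000

noncomputable section

namespace Fermat.Agent.S18Lib

open ModularCurve Polynomial

section Coord

variable {E : Type} [Field E] [Algebra ℚ E] {M : ℕ} [NeZero M]

omit [NeZero M] in
theorem acb_charZero : CharZero ↥(gr18_F E M) := by
  have : CharZero E := algebraRat.charZero E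
  exact charZero_of_injective_algebraMap (algebraMap E ↥(gr18_F E M)).injective

omit [NeZero M] in
theorem acb_coe_inv (x : gr18_F E M) :
    ((x⁻¹ : gr18_F E M) : LaurentSeries E) = (x : LaurentSeries E)⁻¹ := rfl

omit [NeZero M] in
/-- the series part of `Ac18Coord` for `x` and `x⁻¹`, `x` the base change of `s = q⁻¹ P`. -/
theorem acb_ser (x : gr18_F E M) (s : LaurentSeries ℚ)
    (hx : (x : LaurentSeries E) = coeffEmb E s)
    (hP : ∃ P : PowerSeries ℤ, PowerSeries.constantCoeff P = 1 ∧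
      s = HahnSeries.single (-1 : ℤ) (1 : ℚ) *
        HahnSeries.ofPowerSeries ℤ ℚ (P.map (Int.castRingHom ℚ)))
    (hQ : ∃ Q : PowerSeries ℤ, PowerSeries.constantCoeff Q = 1 ∧
      s⁻¹ = HahnSeries.single (1 : ℤ) (1 : ℚ) *
        HahnSeries.ofPowerSeries ℤ ℚ (Q.map (Int.castRingHom ℚ))) :
    (∃ (s : LaurentSeries ℚ) (ε : ℤ) (P Q : PowerSeries ℤ),
      (x : LaurentSeries E) = coeffEmb E s ∧ (ε = 1 ∨ ε = -1) ∧
      PowerSeries.constantCoeff P = 1 ∧ PowerSeries.constantCoeff Q = 1 ∧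
      s = HahnSeries.single ε (1 : ℚ) *
        HahnSeries.ofPowerSeries ℤ ℚ (P.map (Int.castRingHom ℚ)) ∧
      s⁻¹ = HahnSeries.single (-ε) (1 : ℚ) *
        HahnSeries.ofPowerSeries ℤ ℚ (Q.map (Int.castRingHom ℚ))) ∧
    (∃ (s : LaurentSeries ℚ) (ε : ℤ) (P Q : PowerSeries ℤ),
      ((x⁻¹ : gr18_F E M) : LaurentSeries E) = coeffEmb E s ∧ (ε = 1 ∨ ε = -1) ∧
      PowerSeries.constantCoeff P = 1 ∧ PowerSeries.constantCoeff Q = 1 ∧
      s = HahnSeries.single ε (1 : ℚ) *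
        HahnSeries.ofPowerSeries ℤ ℚ (P.map (Int.castRingHom ℚ)) ∧
      s⁻¹ = HahnSeries.single (-ε) (1 : ℚ) *
        HahnSeries.ofPowerSeries ℤ ℚ (Q.map (Int.castRingHom ℚ))) := by
  obtain ⟨P, hP1, hPs⟩ := hP
  obtain ⟨Q, hQ1, hQs⟩ := hQ
  refine ⟨⟨s, -1, P, Q, hx, Or.inr rfl, hP1, hQ1, hPs, ?_⟩,
    ⟨s⁻¹, 1, Q, P, ?_, Or.inl rfl, hQ1, hP1, hQs, ?_⟩⟩
  · rw [neg_neg]; exact hQs
  · rw [acb_coe_inv, hx, map_inv₀]
  · rw [inv_inv]; exact hPs

/-- the modular equation of `h2`, transported to `F_M^E`. -/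
theorem acb_rel2 (x : gr18_F E M) (hx : (x : LaurentSeries E) = coeffEmb E h2_ser)
    (hmod : jq * h2_ser ^ 2 = (h2_ser + 256) ^ 3) :
    gr18_j E M * x ^ 2 = (x + 256) ^ 3 := by
  apply Subtype.ext
  have h2 := congrArg (coeffEmb E) hmod
  simp only [map_mul, map_pow, map_add, map_ofNat] at h2
  push_cast
  rw [hx, gr18_coe_j]
  exact h2

/-- the modular equation of `h3`, transported to `F_M^E`. -/
theorem acb_rel3 (x : gr18_F E M) (hx : (x : LaurentSeries E) = coeffEmb E h3_ser)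
    (hmod : jq * h3_ser ^ 3 = (h3_ser + 27) * (h3_ser + 243) ^ 3) :
    gr18_j E M * x ^ 3 = (x + 27) * (x + 243) ^ 3 := by
  apply Subtype.ext
  have h2 := congrArg (coeffEmb E) hmod
  simp only [map_mul, map_pow, map_add, map_ofNat] at h2
  push_cast
  rw [hx, gr18_coe_j]
  exact h2

/-- **`h2`, `h3` and their inverses are coordinates.** -/
theorem ac18_coord : ac18_coord_stmt := by
  intro hh2 hh3 E _ _ M _ x hx
  have : CharZero ↥(gr18_F E M) := acb_charZero
  rcases hx with ⟨-, hx⟩ | ⟨-, hx⟩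
  · obtain ⟨-, hP, hQ, hmod⟩ := hh2
    obtain ⟨hs1, hs2⟩ := acb_ser x h2_ser hx hP hQ
    have hrel := acb_rel2 x hx hmod
    have hx0 : x ≠ 0 := by
      intro h0
      rw [h0] at hrel
      norm_num at hrel
    refine ⟨⟨hs1, (X + 256) ^ 3, X ^ 2, ?_, ?_⟩, ⟨hs2, (1 + 256 * X) ^ 3, X, ?_, ?_⟩⟩
    · rw [map_pow, aeval_X]
      exact pow_ne_zero 2 hx0
    · rw [map_pow, aeval_X, map_pow, map_add, aeval_X, map_ofNat]
      exact hrel
    · rw [aeval_X]
      exact inv_ne_zero hx0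
    · rw [aeval_X, map_pow, map_add, map_mul, aeval_X, map_ofNat, map_one]
      field_simp
      linear_combination hrel
  · obtain ⟨-, hP, hQ, hmod⟩ := hh3
    obtain ⟨hs1, hs2⟩ := acb_ser x h3_ser hx hP hQ
    have hrel := acb_rel3 x hx hmod
    have hx0 : x ≠ 0 := by
      intro h0
      rw [h0] at hrel
      norm_num at hrel
    refine ⟨⟨hs1, (X + 27) * (X + 243) ^ 3, X ^ 3, ?_, ?_⟩,
      ⟨hs2, (1 + 27 * X) * (1 + 243 * X) ^ 3, X, ?_, ?_⟩⟩
    · rw [map_pow, aeval_X]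
      exact pow_ne_zero 3 hx0
    · rw [map_pow, aeval_X, map_mul, map_pow, map_add, map_add, aeval_X, map_ofNat, map_ofNat]
      exact hrel
    · rw [aeval_X]
      exact inv_ne_zero hx0
    · rw [aeval_X, map_mul, map_pow, map_add, map_add, map_mul, map_mul, aeval_X, map_ofNat,
        map_ofNat, map_one]
      field_simp
      linear_combination hrel

end Coord

section Units

/-- a natural number prime to the residue characteristic is a unit of `R = A ∩ E₀`. -/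
theorem acb_natCast_isUnit (ℓ : ℕ) [Fact ℓ.Prime] (A : ValuationSubring (AlgebraicClosure ℚ))
    (hA : A.LiesOverPrime ℓ) (E₀ : IntermediateField ℚ (AlgebraicClosure ℚ))
    [FiniteDimensional ℚ E₀] (n : ℕ) (hn : ¬ ℓ ∣ n) : IsUnit ((n : ℕ) : gr18_R A E₀) := by
  have : CharP (IsLocalRing.ResidueField (gr18_R A E₀)) ℓ := (gr18_dvr ℓ A hA E₀).2.2
  rw [← IsLocalRing.residue_ne_zero_iff_isUnit, map_natCast, Ne,
    CharP.cast_eq_zero_iff (IsLocalRing.ResidueField (gr18_R A E₀)) ℓ]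
  exact hn

/-- **The branch values are units of `R = A ∩ E₀`.** -/
theorem ac18_units : ac18_units_stmt := by
  intro ℓ hℓ A hA E₀ _ u hu
  rcases hu with ⟨hℓ2, hu | hu⟩ | ⟨hℓ2, hu | hu⟩
  · have h64 : IsUnit ((64 : ℕ) : gr18_R A E₀) := by
      refine acb_natCast_isUnit ℓ A hA E₀ 64 fun hdvd => hℓ2 ?_
      have h2 : ℓ ∣ 2 := hℓ.out.dvd_of_dvd_pow (show ℓ ∣ 2 ^ 6 from hdvd)
      exact (Nat.prime_dvd_prime_iff_eq hℓ.out Nat.prime_two).mp h2
    have hu' : u = -((64 : ℕ) : gr18_R A E₀) := Subtype.ext (by rw [hu]; push_cast; rfl)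
    rw [hu']
    exact h64.neg
  · have hc : (((64 : ℕ) : gr18_R A E₀) : E₀) = 64 :=
      (map_natCast (gr18_R A E₀).subtype 64).trans (by norm_num)
    refine IsUnit.of_mul_eq_one (-((64 : ℕ) : gr18_R A E₀)) (Subtype.ext ?_)
    show (u : E₀) * -(((64 : ℕ) : gr18_R A E₀) : E₀) = 1
    rw [hc, hu]
    norm_num
  · have h27 : IsUnit ((27 : ℕ) : gr18_R A E₀) := by
      refine acb_natCast_isUnit ℓ A hA E₀ 27 fun hdvd => ?_
      rw [hℓ2] at hdvd
      norm_num at hdvd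
    have hu' : u = -((27 : ℕ) : gr18_R A E₀) := Subtype.ext (by rw [hu]; push_cast; rfl)
    rw [hu']
    exact h27.neg
  · have hc : (((27 : ℕ) : gr18_R A E₀) : E₀) = 27 :=
      (map_natCast (gr18_R A E₀).subtype 27).trans (by norm_num)
    refine IsUnit.of_mul_eq_one (-((27 : ℕ) : gr18_R A E₀)) (Subtype.ext ?_)
    show (u : E₀) * -(((27 : ℕ) : gr18_R A E₀) : E₀) = 1
    rw [hc, hu]
    norm_num

end Units

section Basic

/-- a coordinate lies in the Gauss ring. -/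
theorem acb_coord_mem_V {E : Type} [Field E] [Algebra ℚ E] (B : ValuationSubring E) {M : ℕ}
    [NeZero M] (x : gr18_F E M) (hx : Ac18Coord E M x) : x ∈ gr18_VM B M := by
  obtain ⟨s, ε, P, Q, hxs, -, -, -, hs, -⟩ := hx.ser
  have h1 : s = coeffMap (Int.castRingHom ℚ)
      (HahnSeries.single ε (1 : ℤ) * HahnSeries.ofPowerSeries ℤ ℤ P) := by
    rw [map_mul, coeffMap_single, coeffMap_ofPowerSeries, map_one]
    exact hs
  show (x : LaurentSeries E) ∈ gr18_VL B
  rw [hxs, h1, gr18_coeffEmb_int]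
  exact gr18_int_mem_VL B _

/-- **Fields `char0`, `dvr`, `cV`, `xV`, `unif1`, `unif2` for the concrete chart.** -/
theorem ac18_basic : ac18_basic_stmt := by
  intro ℓ _ A hA E₀ _ M _ _ hval π hπ x cbr hx
  have hdvr : IsDiscreteValuationRing (gr18_R A E₀) := (gr18_dvr ℓ A hA E₀).1
  obtain ⟨hc, hu⟩ := gr18_unif E₀ (gr18_R A E₀) M
  obtain ⟨hu1, hu2⟩ := hu π hπ
  refine ⟨inferInstance, hdvr, fun r => hc r, acb_coord_mem_V (gr18_R A E₀) x hx, hu1, ?_⟩
  intro z hz hzinv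
  obtain ⟨y, hy, hzy⟩ := hu2 z hz hzinv
  exact ⟨y, hy, hzy⟩

end Basic

end Fermat.Agent.S18Lib
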