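import Fermat.Agent.Lib.S18.AsStarIface

/-!
# S18 assembly: interface of the CONCRETE layer (lead)

`as18_concrete_stmt` (AsStarIface.lean) is split into field packages, one owner each:

* `Ac18Coord E M x`   : Hauptmodul data of a coordinate `x` (series shape + tower relation).
* `ac18_coord_stmt`   : `h2`, `h2⁻¹`, `h3`, `h3⁻¹` are coordinates.
* `ac18_units_stmt`   : the branch values are units of `R`.
* `ac18_basic_stmt`   : fields `char0`, `dvr`, `cV`, `xV`, `unif1`, `unif2`.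
* `ac18_fin_stmt`     : fields `fin`, `inj`.
* `ac18_gss_stmt`     : fields `gauss`, `sat`, `sep`.
* `ac18_unr_stmt`     : field `unr` for the four concrete charts.
-/

set_option autoImplicit false
set_option synthInstance.maxHeartbeats 400000
set_option maxHeartbeats 1600000

noncomputable section

namespace Fermat.Agent.S18Lib

open ModularCurve Polynomial

/-- Hauptmodul data for a coordinate `x` of level `M` over `E`: `x` is the base change of a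
rational series `s = q^ε · P` with `s⁻¹ = q^(-ε) · Q`, `P, Q ∈ 1 + q ℤ⟦q⟧`, `ε = ± 1`, and `j` is a
rational function of `x`. -/
structure Ac18Coord (E : Type) [Field E] [Algebra ℚ E] (M : ℕ) [NeZero M] (x : gr18_F E M) :
    Prop where
  ser : ∃ (s : LaurentSeries ℚ) (ε : ℤ) (P Q : PowerSeries ℤ),
      (x : LaurentSeries E) = coeffEmb E s ∧ (ε = 1 ∨ ε = -1) ∧
      PowerSeries.constantCoeff P = 1 ∧ PowerSeries.constantCoeff Q = 1 ∧
      s = HahnSeries.single ε (1 : ℚ) *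
        HahnSeries.ofPowerSeries ℤ ℚ (P.map (Int.castRingHom ℚ)) ∧
      s⁻¹ = HahnSeries.single (-ε) (1 : ℚ) *
        HahnSeries.ofPowerSeries ℤ ℚ (Q.map (Int.castRingHom ℚ))
  rel : ∃ a b : Polynomial E, aeval x b ≠ 0 ∧ gr18_j E M * aeval x b = aeval x a

/-- `h2`, `h3` and their inverses are coordinates. -/
def ac18_coord_stmt : Prop :=
  h2_stmt → h3_stmt →
  ∀ (E : Type) [Field E] [Algebra ℚ E] (M : ℕ) [NeZero M] (x : gr18_F E M),
    ((2 ∣ M ∧ (x : LaurentSeries E) = coeffEmb E h2_ser) ∨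
      (3 ∣ M ∧ (x : LaurentSeries E) = coeffEmb E h3_ser)) →
    Ac18Coord E M x ∧ Ac18Coord E M x⁻¹

/-- The branch values are units of `R = A ∩ E₀`. -/
def ac18_units_stmt : Prop :=
  ∀ (ℓ : ℕ) [Fact ℓ.Prime] (A : ValuationSubring (AlgebraicClosure ℚ)), A.LiesOverPrime ℓ →
  ∀ (E₀ : IntermediateField ℚ (AlgebraicClosure ℚ)) [FiniteDimensional ℚ E₀] (u : gr18_R A E₀),
    ((ℓ ≠ 2 ∧ ((u : E₀) = -64 ∨ (u : E₀) = -1 / 64)) ∨
      (ℓ = 2 ∧ ((u : E₀) = -27 ∨ (u : E₀) = -1 / 27))) → IsUnit u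

/-- Fields `char0`, `dvr`, `cV`, `xV`, `unif1`, `unif2` of `Good` for the concrete chart. -/
def ac18_basic_stmt : Prop :=
  ∀ (ℓ : ℕ) [Fact ℓ.Prime] (A : ValuationSubring (AlgebraicClosure ℚ)), A.LiesOverPrime ℓ →
  ∀ (E₀ : IntermediateField ℚ (AlgebraicClosure ℚ)) [FiniteDimensional ℚ E₀]
    (M : ℕ) [NeZero M], ¬ ℓ ∣ M →
  ∀ (hval : ∀ x : gr18_F E₀ M, x ∈ gr18_VM (gr18_R A E₀) M ∨ x⁻¹ ∈ gr18_VM (gr18_R A E₀) M)
    (π : gr18_R A E₀), Irreducible π →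
  ∀ (x : gr18_F E₀ M) (cbr : gr18_R A E₀), Ac18Coord E₀ M x →
    CharZero E₀ ∧ IsDiscreteValuationRing (as18_chart A E₀ M hval π x cbr).R ∧
    (∀ r : (as18_chart A E₀ M hval π x cbr).R,
      (as18_chart A E₀ M hval π x cbr).cst r ∈ (as18_chart A E₀ M hval π x cbr).V) ∧
    (as18_chart A E₀ M hval π x cbr).x ∈ (as18_chart A E₀ M hval π x cbr).V ∧
    ((as18_chart A E₀ M hval π x cbr).cst (as18_chart A E₀ M hval π x cbr).π)⁻¹ ∉
      (as18_chart A E₀ M hval π x cbr).V ∧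
    (∀ z ∈ (as18_chart A E₀ M hval π x cbr).V, z⁻¹ ∉ (as18_chart A E₀ M hval π x cbr).V →
      ∃ y ∈ (as18_chart A E₀ M hval π x cbr).V,
        z = (as18_chart A E₀ M hval π x cbr).cst (as18_chart A E₀ M hval π x cbr).π * y)

/-- Fields `fin`, `inj` of `Good` for the concrete chart. -/
def ac18_fin_stmt : Prop :=
  ∀ (ℓ : ℕ) [Fact ℓ.Prime] (A : ValuationSubring (AlgebraicClosure ℚ)), A.LiesOverPrime ℓ →
  ∀ (E₀ : IntermediateField ℚ (AlgebraicClosure ℚ)) [FiniteDimensional ℚ E₀]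
    (M : ℕ) [NeZero M], ¬ ℓ ∣ M →
  ∀ (hval : ∀ x : gr18_F E₀ M, x ∈ gr18_VM (gr18_R A E₀) M ∨ x⁻¹ ∈ gr18_VM (gr18_R A E₀) M)
    (π : gr18_R A E₀), Irreducible π →
  ∀ (x : gr18_F E₀ M) (cbr : gr18_R A E₀), Ac18Coord E₀ M x →
    FiniteDimensional (IntermediateField.adjoin E₀ {(as18_chart A E₀ M hval π x cbr).x})
      (gr18_F E₀ M) ∧
    Function.Injective (as18_chart A E₀ M hval π x cbr).ev

/-- Fields `gauss`, `sat`, `sep` of `Good` for the concrete chart. -/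
def ac18_gss_stmt : Prop :=
  ∀ (ℓ : ℕ) [Fact ℓ.Prime] (A : ValuationSubring (AlgebraicClosure ℚ)), A.LiesOverPrime ℓ →
  ∀ (E₀ : IntermediateField ℚ (AlgebraicClosure ℚ)) [FiniteDimensional ℚ E₀]
    (M : ℕ) [NeZero M], ¬ ℓ ∣ M →
  ∀ (hval : ∀ x : gr18_F E₀ M, x ∈ gr18_VM (gr18_R A E₀) M ∨ x⁻¹ ∈ gr18_VM (gr18_R A E₀) M)
    (π : gr18_R A E₀), Irreducible π →
  ∀ (x : gr18_F E₀ M) (cbr : gr18_R A E₀), Ac18Coord E₀ M x →
    (∀ p : Polynomial E₀, Polynomial.aeval (as18_chart A E₀ M hval π x cbr).x p ∈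
        (as18_chart A E₀ M hval π x cbr).V →
      ∀ i, p.coeff i ∈ (as18_chart A E₀ M hval π x cbr).R) ∧
    (∀ z ∈ (as18_chart A E₀ M hval π x cbr).V,
      (as18_chart A E₀ M hval π x cbr).cst (as18_chart A E₀ M hval π x cbr).π * z ∈
        (as18_chart A E₀ M hval π x cbr).O → z ∈ (as18_chart A E₀ M hval π x cbr).O) ∧
    (∀ z ∈ (as18_chart A E₀ M hval π x cbr).V, ∃ P : Polynomial (gr18_F E₀ M), P.Monic ∧
      (∀ i, ∃ p q : Polynomial (as18_chart A E₀ M hval π x cbr).R,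
        ((as18_chart A E₀ M hval π x cbr).ev q)⁻¹ ∈ (as18_chart A E₀ M hval π x cbr).V ∧
        (as18_chart A E₀ M hval π x cbr).ev q ≠ 0 ∧
        P.coeff i * (as18_chart A E₀ M hval π x cbr).ev q =
          (as18_chart A E₀ M hval π x cbr).ev p) ∧
      (∃ y ∈ (as18_chart A E₀ M hval π x cbr).V, Polynomial.aeval z P =
        (as18_chart A E₀ M hval π x cbr).cst (as18_chart A E₀ M hval π x cbr).π * y) ∧
      (Polynomial.aeval z (Polynomial.derivative P))⁻¹ ∈ (as18_chart A E₀ M hval π x cbr).V ∧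
      Polynomial.aeval z (Polynomial.derivative P) ≠ 0)

/-- Field `unr` of `Good` for the four concrete charts. -/
def ac18_unr_stmt : Prop :=
  h2_stmt → h3_stmt →
  ∀ (ℓ : ℕ) [Fact ℓ.Prime] (A : ValuationSubring (AlgebraicClosure ℚ)), A.LiesOverPrime ℓ →
  ∀ (E₀ : IntermediateField ℚ (AlgebraicClosure ℚ)) [FiniteDimensional ℚ E₀]
    (M : ℕ) [NeZero M], ¬ ℓ ∣ M →
  ∀ (hval : ∀ x : gr18_F E₀ M, x ∈ gr18_VM (gr18_R A E₀) M ∨ x⁻¹ ∈ gr18_VM (gr18_R A E₀) M)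
    (π : gr18_R A E₀) (x : gr18_F E₀ M) (cbr : gr18_R A E₀),
    ((2 ∣ M ∧ (x : LaurentSeries E₀) = coeffEmb E₀ h2_ser ∧ (cbr : E₀) = -64) ∨
      (2 ∣ M ∧ (x : LaurentSeries E₀) = (coeffEmb E₀ h2_ser)⁻¹ ∧ (cbr : E₀) = -1 / 64) ∨
      (3 ∣ M ∧ (x : LaurentSeries E₀) = coeffEmb E₀ h3_ser ∧ (cbr : E₀) = -27) ∨
      (3 ∣ M ∧ (x : LaurentSeries E₀) = (coeffEmb E₀ h3_ser)⁻¹ ∧ (cbr : E₀) = -1 / 27)) →
    ∀ W : ValuationSubring (gr18_F E₀ M), W ≠ ⊤ →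
      (∀ e : E₀, algebraMap E₀ (gr18_F E₀ M) e ∈ W) →
      (as18_chart A E₀ M hval π x cbr).x ∈ W →
      ∀ f : Polynomial E₀, Irreducible f → f.eval 0 ≠ 0 →
        f.eval ((as18_chart A E₀ M hval π x cbr).cbr : E₀) ≠ 0 →
        Polynomial.aeval (as18_chart A E₀ M hval π x cbr).x f ∈ W →
        (Polynomial.aeval (as18_chart A E₀ M hval π x cbr).x f)⁻¹ ∉ W →
        ∀ g ∈ W, g⁻¹ ∉ W → ∃ a ∈ W, g = Polynomial.aeval (as18_chart A E₀ M hval π x cbr).x f * a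

end Fermat.Agent.S18Lib
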