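/-
S18 sprint (route Q), assembly, concrete charts: the package `ac18_fin_stmt`
(fields `fin`, `inj` of `As18Chart.Good`) (helper1).
-/
import Fermat.Agent.Lib.S18.AsConcIface
import Fermat.Agent.Lib.S18.AsConcA

set_option autoImplicit false
set_option synthInstance.maxHeartbeats 400000
set_option maxHeartbeats 1600000

noncomputable section

namespace Fermat.Agent.S18Lib

open ModularCurve Polynomial

/-- Fields `fin`, `inj` of `Good` for the concrete chart. -/
theorem ac18_fin : ac18_fin_stmt := by
  intro ℓ _ A hA E₀ _ M _ hℓM hval π hπ x cbr hx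
  obtain ⟨a, b, hb, hrel⟩ := hx.rel
  exact ⟨aca18_fin E₀ M x a b hb hrel,
    aca18_inj _ (aca18_transcendental E₀ M x a b hb hrel)⟩

end Fermat.Agent.S18Lib
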