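import Fermat.Agent.Lib.S18.AsStarIface

/-!
# S18 assembly: from the Gr statements to `As18Chart.Good` (helper6, prefix `acp18_`)

Generic part: for an abstract chart `c`,

* `acp18_range` : `c.ev.range` is the subring generated by the constants and `c.x`;
* `acp18_frac`  : elements of `V ∩ E(x)` are `ev p / ev q` with `ev q` a unit of `V`;
* `acp18_sep`   : the `Good.sep` field from the `gr18_sep_stmt` shape;
* `acp18_good`  : `c.Good` from its fields, with `sep` in the `gr18_sep_stmt` shape.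
-/

set_option autoImplicit false
set_option linter.style.haveILetI false

open Polynomial

namespace Fermat.Agent.S18Lib

section Generic

variable {E F : Type} [Field E] [Field F] [Algebra E F] (c : As18Chart E F)

/-- `R[x]` is the subring generated by the constants and `x`. -/
theorem acp18_range : c.ev.range = Subring.closure (Set.range c.cst ∪ {c.x}) := by
  apply le_antisymm
  · rintro _ ⟨p, rfl⟩
    induction p using Polynomial.induction_on' with
    | add p q hp hq => rw [map_add]; exact add_mem hp hq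
    | monomial n a =>
      rw [← Polynomial.C_mul_X_pow_eq_monomial, map_mul, map_pow, c.ev_C, c.ev_X]
      have hx : c.x ∈ Subring.closure (Set.range c.cst ∪ {c.x}) :=
        Subring.subset_closure (Or.inr rfl)
      have ha : c.cst a ∈ Subring.closure (Set.range c.cst ∪ {c.x}) :=
        Subring.subset_closure (Or.inl ⟨a, rfl⟩)
      exact mul_mem ha (pow_mem hx n)
  · rw [Subring.closure_le]
    rintro z (⟨r, rfl⟩ | rfl)
    · exact ⟨C r, c.ev_C r⟩
    · exact ⟨X, c.ev_X⟩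

variable {c}

theorem acp18_ev_mem_V (cV : ∀ r : c.R, c.cst r ∈ c.V) (xV : c.x ∈ c.V) (p : Polynomial c.R) :
    c.ev p ∈ c.V := by
  induction p using Polynomial.induction_on' with
  | add p q hp hq => rw [map_add]; exact c.V.add_mem _ _ hp hq
  | monomial n a =>
    rw [← Polynomial.C_mul_X_pow_eq_monomial, map_mul, map_pow, c.ev_C, c.ev_X]
    exact c.V.mul_mem _ _ (cV a) (c.V.pow_mem xV n)

/-- a polynomial not divisible by `π` evaluates to a unit of `V`. -/
theorem acp18_ev_unit (irr : Irreducible c.π) (cV : ∀ r : c.R, c.cst r ∈ c.V) (xV : c.x ∈ c.V)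
    (gauss : ∀ p : Polynomial E, Polynomial.aeval c.x p ∈ c.V → ∀ i, p.coeff i ∈ c.R)
    (unif2 : ∀ z ∈ c.V, z⁻¹ ∉ c.V → ∃ y ∈ c.V, z = c.cst c.π * y)
    {q : Polynomial c.R} (hq : ¬ C c.π ∣ q) : (c.ev q)⁻¹ ∈ c.V := by
  by_contra hinv
  obtain ⟨y, hy, hqy⟩ := unif2 _ (acp18_ev_mem_V cV xV q) hinv
  have hπ0 : (c.π : E) ≠ 0 := by
    intro h0
    exact irr.ne_zero (Subtype.ext h0)
  have hy' : y = Polynomial.aeval c.x (C ((c.π : E))⁻¹ * q.map c.R.subtype) := by
    rw [map_mul, Polynomial.aeval_C, ← c.ev_eq_aeval, hqy, ← mul_assoc, c.cst_apply, ← map_mul,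
      inv_mul_cancel₀ hπ0, map_one, one_mul]
  rw [hy'] at hy
  have hcoef := gauss _ hy
  apply hq
  rw [Polynomial.C_dvd_iff_dvd_coeff]
  intro i
  have hi := hcoef i
  rw [Polynomial.coeff_C_mul, Polynomial.coeff_map] at hi
  refine ⟨⟨_, hi⟩, ?_⟩
  apply Subtype.ext
  show (q.coeff i : E) = (c.π : E) * ((c.π : E)⁻¹ * (q.coeff i : E))
  rw [← mul_assoc, mul_inv_cancel₀ hπ0, one_mul]

/-- elements of `V ∩ E(x)` are `ev p / ev q` with `ev q` a unit of `V`. -/
theorem acp18_frac (dvr : IsDiscreteValuationRing c.R) (irr : Irreducible c.π)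
    (cV : ∀ r : c.R, c.cst r ∈ c.V) (xV : c.x ∈ c.V)
    (gauss : ∀ p : Polynomial E, Polynomial.aeval c.x p ∈ c.V → ∀ i, p.coeff i ∈ c.R)
    (unif2 : ∀ z ∈ c.V, z⁻¹ ∉ c.V → ∃ y ∈ c.V, z = c.cst c.π * y)
    {a : F} (haV : a ∈ c.V) (ha : a ∈ IntermediateField.adjoin E {c.x}) :
    ∃ p q : Polynomial c.R, (c.ev q)⁻¹ ∈ c.V ∧ c.ev q ≠ 0 ∧ a * c.ev q = c.ev p := by
  haveI := dvr
  obtain ⟨r, s, hrs⟩ := (IntermediateField.mem_adjoin_simple_iff E a).mp ha
  by_cases hs0 : Polynomial.aeval c.x s = 0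
  · refine ⟨0, 1, ?_, ?_, ?_⟩
    · rw [map_one, inv_one]; exact c.V.one_mem
    · rw [map_one]; exact one_ne_zero
    · rw [hrs, hs0, div_zero, zero_mul, map_zero]
  · obtain ⟨b, hb, hs⟩ := IsLocalization.integerNormalization_spec (nonZeroDivisors c.R) s
    set s' := IsLocalization.integerNormalization (nonZeroDivisors c.R) s with hs'
    have hb0 : (b : E) ≠ 0 := fun h0 => (nonZeroDivisors.ne_zero hb) (Subtype.ext h0)
    have hs'map : s'.map c.R.subtype = b • s := hs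
    have hes' : c.ev s' = algebraMap E F (b : E) * Polynomial.aeval c.x s := by
      rw [c.ev_eq_aeval, hs'map, Algebra.smul_def, map_mul]
      simp
    have hs'0 : s' ≠ 0 := by
      rintro h0
      rw [h0, map_zero] at hes'
      exact mul_ne_zero ((_root_.map_ne_zero _).mpr hb0) hs0 hes'.symm
    have hCπ : Irreducible (C c.π : Polynomial c.R) :=
      (Polynomial.prime_C_iff.mpr irr.prime).irreducible
    obtain ⟨k, s₁, hs₁, hs's₁⟩ := WfDvdMonoid.max_power_factor hs'0 hCπ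
    have hπ0 : (c.π : E) ≠ 0 := fun h0 => irr.ne_zero (Subtype.ext h0)
    have hπF : c.cst c.π ≠ 0 := by
      rw [c.cst_apply]; exact (_root_.map_ne_zero _).mpr hπ0
    have hes₁ : c.ev s₁ = algebraMap E F ((b : E) * ((c.π : E) ^ k)⁻¹) * Polynomial.aeval c.x s := by
      have h1 : c.ev s' = c.cst c.π ^ k * c.ev s₁ := by
        rw [hs's₁, map_mul, map_pow, c.ev_C]
      rw [hes'] at h1
      rw [map_mul, map_inv₀, map_pow, ← c.cst_apply c.π]
      field_simp
      rw [h1]; ring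
    have hunit := acp18_ev_unit irr cV xV gauss unif2 hs₁
    have hne : c.ev s₁ ≠ 0 := by
      rw [hes₁]
      exact mul_ne_zero ((_root_.map_ne_zero _).mpr (mul_ne_zero hb0
        (inv_ne_zero (pow_ne_zero _ hπ0)))) hs0
    -- the numerator
    have hnum : a * c.ev s₁
        = Polynomial.aeval c.x (C ((b : E) * ((c.π : E) ^ k)⁻¹) * r) := by
      rw [map_mul, Polynomial.aeval_C, hes₁, hrs]
      field_simp
    have hmemV : Polynomial.aeval c.x (C ((b : E) * ((c.π : E) ^ k)⁻¹) * r) ∈ c.V := by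
      rw [← hnum]
      exact c.V.mul_mem _ _ haV (acp18_ev_mem_V cV xV s₁)
    have hcoef := gauss _ hmemV
    have hlift : (C ((b : E) * ((c.π : E) ^ k)⁻¹) * r) ∈ Polynomial.lifts c.R.subtype := by
      rw [Polynomial.lifts_iff_coeff_lifts]
      intro i
      exact ⟨⟨_, hcoef i⟩, rfl⟩
    obtain ⟨p, hp⟩ := (Polynomial.mem_lifts _).mp hlift
    refine ⟨p, s₁, hunit, hne, ?_⟩
    rw [hnum, c.ev_eq_aeval, hp]

/-- the `Good.sep` field from the `gr18_sep_stmt` shape (coefficients in `V ∩ E(x)`). -/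
theorem acp18_sep (dvr : IsDiscreteValuationRing c.R) (irr : Irreducible c.π)
    (cV : ∀ r : c.R, c.cst r ∈ c.V) (xV : c.x ∈ c.V)
    (gauss : ∀ p : Polynomial E, Polynomial.aeval c.x p ∈ c.V → ∀ i, p.coeff i ∈ c.R)
    (unif2 : ∀ z ∈ c.V, z⁻¹ ∉ c.V → ∃ y ∈ c.V, z = c.cst c.π * y)
    (sep : ∀ z ∈ c.V, ∃ P : Polynomial F, P.Monic ∧
      (∀ i, P.coeff i ∈ c.V ∧ P.coeff i ∈ IntermediateField.adjoin E {c.x}) ∧
      (P.eval z = 0 ∨ (P.eval z)⁻¹ ∉ c.V) ∧
      (P.derivative.eval z)⁻¹ ∈ c.V ∧ P.derivative.eval z ≠ 0) :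
    ∀ z ∈ c.V, ∃ P : Polynomial F, P.Monic ∧
    (∀ i, ∃ p q : Polynomial c.R, (c.ev q)⁻¹ ∈ c.V ∧ c.ev q ≠ 0 ∧ P.coeff i * c.ev q = c.ev p) ∧
    (∃ y ∈ c.V, Polynomial.aeval z P = c.cst c.π * y) ∧
    (Polynomial.aeval z (Polynomial.derivative P))⁻¹ ∈ c.V ∧
    Polynomial.aeval z (Polynomial.derivative P) ≠ 0 := by
  intro z hz
  obtain ⟨P, hP, hcoef, hroot, hder, hder0⟩ := sep z hz
  have hae : ∀ Q : Polynomial F, Polynomial.aeval z Q = Q.eval z := fun Q => by
    rw [Polynomial.coe_aeval_eq_eval]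
  refine ⟨P, hP, fun i => acp18_frac dvr irr cV xV gauss unif2 (hcoef i).1 (hcoef i).2,
    ?_, ?_, ?_⟩
  · have hPV : P.eval z ∈ c.V := by
      rw [Polynomial.eval_eq_sum_range]
      exact sum_mem (fun i _ => c.V.mul_mem _ _ (hcoef i).1 (c.V.pow_mem hz i))
    rw [hae]
    rcases hroot with h0 | hinv
    · exact ⟨0, c.V.zero_mem, by rw [h0, mul_zero]⟩
    · exact unif2 _ hPV hinv
  · rw [hae]; exact hder
  · rw [hae]; exact hder0

/-- `c.Good` from its fields, with `sep` in the `gr18_sep_stmt` shape. -/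
theorem acp18_good (char0 : CharZero E) (dvr : IsDiscreteValuationRing c.R)
    (irr : Irreducible c.π) (fin : FiniteDimensional (IntermediateField.adjoin E {c.x}) F)
    (inj : Function.Injective c.ev) (cV : ∀ r : c.R, c.cst r ∈ c.V) (xV : c.x ∈ c.V)
    (gauss : ∀ p : Polynomial E, Polynomial.aeval c.x p ∈ c.V → ∀ i, p.coeff i ∈ c.R)
    (unif1 : (c.cst c.π)⁻¹ ∉ c.V)
    (unif2 : ∀ z ∈ c.V, z⁻¹ ∉ c.V → ∃ y ∈ c.V, z = c.cst c.π * y)
    (sat : ∀ z ∈ c.V, c.cst c.π * z ∈ c.O → z ∈ c.O)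
    (sep : ∀ z ∈ c.V, ∃ P : Polynomial F, P.Monic ∧
      (∀ i, P.coeff i ∈ c.V ∧ P.coeff i ∈ IntermediateField.adjoin E {c.x}) ∧
      (P.eval z = 0 ∨ (P.eval z)⁻¹ ∉ c.V) ∧
      (P.derivative.eval z)⁻¹ ∈ c.V ∧ P.derivative.eval z ≠ 0)
    (cbrU : IsUnit c.cbr)
    (unr : ∀ W : ValuationSubring F, W ≠ ⊤ → (∀ e : E, algebraMap E F e ∈ W) → c.x ∈ W →
      ∀ f : Polynomial E, Irreducible f → f.eval 0 ≠ 0 → f.eval (c.cbr : E) ≠ 0 →
      Polynomial.aeval c.x f ∈ W → (Polynomial.aeval c.x f)⁻¹ ∉ W →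
      ∀ g ∈ W, g⁻¹ ∉ W → ∃ a ∈ W, g = Polynomial.aeval c.x f * a) : c.Good where
  char0 := char0
  dvr := dvr
  irr := irr
  fin := fin
  inj := inj
  cV := cV
  xV := xV
  gauss := gauss
  unif1 := unif1
  unif2 := unif2
  sat := sat
  sep := acp18_sep dvr irr cV xV gauss unif2 sep
  cbrU := cbrU
  unr := unr

end Generic

end Fermat.Agent.S18Lib
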