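/-
S18 sprint (route Q), chunk Gr (helper4), part 3: the polynomial Gauss lemma in a parameter
`t ∈ V` with transcendental reduction: `V ∩ E = B`, `V ∩ E[t] = B[t]`, and the reduction of
`V ∩ E(t)` lies in `κ(t̃)`.
-/
import Fermat.Agent.Lib.S18.GrField

set_option autoImplicit false

noncomputable section

namespace Fermat.Agent.S18Lib

open ModularCurve Fermat.Agent.S28Lib Polynomial

section Scale

variable {E : Type*} [Field E] (B : ValuationSubring E)

/-- Scaling a nonzero polynomial to a primitive polynomial over `B`. -/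
theorem gr18_poly_scale {P : E[X]} (hP : P ≠ 0) :
    ∃ (c : E) (P₀ : B[X]), c ≠ 0 ∧ P = C c * P₀.map B.subtype ∧
      P₀.map (IsLocalRing.residue B) ≠ 0 := by
  obtain ⟨i, hi, hmax⟩ := Finset.exists_max_image P.support
    (fun n => B.valuation (P.coeff n)) (Polynomial.nonempty_support_iff.mpr hP)
  have hc : P.coeff i ≠ 0 := Polynomial.mem_support_iff.mp hi
  have hv : 0 < B.valuation (P.coeff i) := zero_lt_iff.mpr ((_root_.map_ne_zero _).mpr hc)
  have hmem : ∀ n, P.coeff n / P.coeff i ∈ B := by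
    intro n
    rw [← B.valuation_le_one_iff, map_div₀]
    by_cases hn : n ∈ P.support
    · exact (div_le_one₀ hv).mpr (hmax n hn)
    · rw [Polynomial.notMem_support_iff.mp hn, map_zero, zero_div]
      simp
  have hlift : C (P.coeff i)⁻¹ * P ∈ Polynomial.lifts B.subtype := by
    rw [Polynomial.lifts_iff_coeff_lifts]
    intro n
    rw [Polynomial.coeff_C_mul]
    exact ⟨⟨P.coeff n / P.coeff i, hmem n⟩, by
      show P.coeff n / P.coeff i = _
      rw [div_eq_inv_mul]⟩
  obtain ⟨P₀, hP₀'⟩ := hlift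
  have hP₀ : P₀.map B.subtype = C (P.coeff i)⁻¹ * P := hP₀'
  refine ⟨P.coeff i, P₀, hc, ?_, ?_⟩
  · rw [hP₀, ← mul_assoc, ← C_mul, mul_inv_cancel₀ hc, C_1, one_mul]
  · intro h0
    have h1 : (P₀.map B.subtype).coeff i = 1 := by
      rw [hP₀, coeff_C_mul, inv_mul_cancel₀ hc]
    rw [coeff_map] at h1
    have h2 : P₀.coeff i = 1 := Subtype.ext h1
    have h3 := congrArg (fun Q => Q.coeff i) h0
    simp only [coeff_map, h2, map_one, coeff_zero] at h3
    exact one_ne_zero h3

end Scale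

section Param

variable {E : Type*} [Field E] [Algebra ℚ E] (B : ValuationSubring E) (M : ℕ)

/-- Constants `B → V`. -/
def gr18_cV : B →+* gr18_VM B M :=
  ((algebraMap E (gr18_F E M)).comp B.subtype).codRestrict (gr18_VM B M)
    (fun r => gr18_c_mem_VM B M r)

@[simp] theorem gr18_cV_coe (r : B) :
    ((gr18_cV B M r : gr18_VM B M) : gr18_F E M) = gr18_c E M (r : E) := rfl

theorem gr18_redM_cV (r : B) :
    gr18_redM B M (gr18_cV B M r) = HahnSeries.C (IsLocalRing.residue B r) := by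
  rw [gr18_redM_apply, ← gr18_rd_C, ← gr18_red_io B (HahnSeries.C r)]
  congr 1
  apply Subtype.ext
  show algebraMap E (LaurentSeries E) (r : E) = gr18_io B (HahnSeries.C r)
  rw [gr18_io_C, algebraMap_eq_C]

/-- `V ∩ E = B`. -/
theorem gr18_mem_B_of_c_mem {c : E} (hc : gr18_c E M c ∈ gr18_VM B M) : c ∈ B := by
  by_contra h
  have hinv : c⁻¹ ∈ B := (B.mem_or_inv_mem c).resolve_left h
  have hc0 : c ≠ 0 := fun h0 => h (by rw [h0]; exact zero_mem _)
  have hnu : ¬ IsUnit (⟨c⁻¹, hinv⟩ : B) := by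
    rintro ⟨u, hu⟩
    apply h
    have h1 : ((u⁻¹ : Bˣ) : B) * (⟨c⁻¹, hinv⟩ : B) = 1 := by rw [← hu]; simp
    have h2 : (((u⁻¹ : Bˣ) : B) : E) * c⁻¹ = 1 := congrArg Subtype.val h1
    have h3 : (((u⁻¹ : Bˣ) : B) : E) = c := by
      field_simp at h2
      exact h2
    rw [← h3]
    exact ((u⁻¹ : Bˣ) : B).2
  have hres : IsLocalRing.residue B (⟨c⁻¹, hinv⟩ : B) = 0 :=
    (IsLocalRing.residue_eq_zero_iff _).mpr hnu
  have h1 : (⟨gr18_c E M c, hc⟩ : gr18_VM B M) * gr18_cV B M ⟨c⁻¹, hinv⟩ = 1 := by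
    apply Subtype.ext
    show gr18_c E M c * gr18_c E M c⁻¹ = 1
    rw [gr18_c, gr18_c, ← map_mul, mul_inv_cancel₀ hc0, map_one]
  have h2 := congrArg (gr18_redM B M) h1
  rw [map_mul, gr18_redM_cV, hres, map_zero, mul_zero, map_one] at h2
  exact zero_ne_one h2

variable (t : gr18_VM B M)

/-- Evaluation of `B`-polynomials at `t`, inside `V`. -/
def gr18_evV : B[X] →+* gr18_VM B M := Polynomial.eval₂RingHom (gr18_cV B M) t

theorem gr18_evV_coe (P : B[X]) :
    ((gr18_evV B M t P : gr18_VM B M) : gr18_F E M) =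
      Polynomial.aeval (t : gr18_F E M) (P.map B.subtype) := by
  rw [gr18_evV, Polynomial.coe_eval₂RingHom, Polynomial.aeval_def, Polynomial.eval₂_map]
  exact Polynomial.hom_eval₂ P (gr18_cV B M) (gr18_VM B M).subtype t

theorem gr18_redM_evV (P : B[X]) :
    gr18_redM B M (gr18_evV B M t P) =
      Polynomial.aeval (gr18_redM B M t) (P.map (IsLocalRing.residue B)) := by
  rw [gr18_evV, Polynomial.coe_eval₂RingHom, Polynomial.hom_eval₂, Polynomial.aeval_def,
    Polynomial.eval₂_map]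
  congr 1
  ext r
  simp only [RingHom.comp_apply, gr18_redM_cV, algebraMap_eq_C]

theorem gr18_evV_mem_gen (P : B[X]) :
    ((gr18_evV B M t P : gr18_VM B M) : gr18_F E M) ∈ gr18_gen B M {(t : gr18_F E M)} := by
  induction P using Polynomial.induction_on' with
  | add p q hp hq =>
    have h : gr18_evV B M t (p + q) = gr18_evV B M t p + gr18_evV B M t q := map_add _ _ _
    rw [h, Subring.coe_add]
    exact add_mem hp hq
  | monomial n a =>
    have h : gr18_evV B M t (Polynomial.monomial n a) = gr18_cV B M a * t ^ n := by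
      rw [gr18_evV, Polynomial.coe_eval₂RingHom, Polynomial.eval₂_monomial]
    rw [h, Subring.coe_mul, Subring.coe_pow]
    have h1 : gr18_c E M (a : E) ∈ gr18_gen B M {(t : gr18_F E M)} :=
      Subring.subset_closure (Or.inl ⟨a, rfl⟩)
    have h2 : (t : gr18_F E M) ∈ gr18_gen B M {(t : gr18_F E M)} :=
      Subring.subset_closure (Or.inr (Set.mem_singleton _))
    exact Subring.mul_mem _ h1 (Subring.pow_mem _ h2 n)

variable (htr : Transcendental (IsLocalRing.ResidueField B) (gr18_redM B M t))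

include htr in
/-- Primitive polynomials in `t` are units of `V`. -/
theorem gr18_redM_evV_ne_zero {P : B[X]} (hP : P.map (IsLocalRing.residue B) ≠ 0) :
    gr18_redM B M (gr18_evV B M t P) ≠ 0 := by
  rw [gr18_redM_evV]
  intro h0
  exact hP ((transcendental_iff.mp htr) _ h0)

include htr in
/-- `V ∩ E[t] = B[t]`. -/
theorem gr18_mem_gen_of_mem_adjoin {a : gr18_F E M} (ha : a ∈ gr18_VM B M)
    (hadj : a ∈ Algebra.adjoin E {(t : gr18_F E M)}) :
    a ∈ gr18_gen B M {(t : gr18_F E M)} := by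
  rw [Algebra.adjoin_singleton_eq_range_aeval] at hadj
  obtain ⟨P, rfl⟩ := hadj
  have ha' : Polynomial.aeval (t : gr18_F E M) P ∈ gr18_VM B M := ha
  show Polynomial.aeval (t : gr18_F E M) P ∈ gr18_gen B M {(t : gr18_F E M)}
  by_cases hP : P = 0
  · rw [hP, map_zero]; exact zero_mem _
  obtain ⟨c, P₀, hc, hPc, hP₀⟩ := gr18_poly_scale B hP
  have hu := gr18_redM_evV_ne_zero B M t htr hP₀
  have hinv := gr18_inv_mem_VM B M _ hu
  have hval : Polynomial.aeval (t : gr18_F E M) P =
      gr18_c E M c * ((gr18_evV B M t P₀ : gr18_VM B M) : gr18_F E M) := by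
    rw [gr18_evV_coe, hPc, map_mul, Polynomial.aeval_C]
    rfl
  have hne : ((gr18_evV B M t P₀ : gr18_VM B M) : gr18_F E M) ≠ 0 := by
    intro h0
    apply hu
    have : gr18_evV B M t P₀ = 0 := Subtype.ext h0
    rw [this, map_zero]
  have hcV : gr18_c E M c ∈ gr18_VM B M := by
    have h1 : gr18_c E M c = Polynomial.aeval (t : gr18_F E M) P *
        (((gr18_evV B M t P₀ : gr18_VM B M) : gr18_F E M))⁻¹ := by
      rw [hval, mul_assoc, mul_inv_cancel₀ hne, mul_one]
    rw [h1]
    exact mul_mem ha' hinv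
  have hcB : c ∈ B := gr18_mem_B_of_c_mem B M hcV
  rw [hval]
  exact mul_mem (Subring.subset_closure (Or.inl ⟨⟨c, hcB⟩, rfl⟩)) (gr18_evV_mem_gen B M t P₀)

include htr in
/-- The reduction of `V ∩ E(t)` lies in `κ(t̃)`. -/
theorem gr18_redM_mem_adjoin (a : gr18_VM B M)
    (hadj : (a : gr18_F E M) ∈ IntermediateField.adjoin E {(t : gr18_F E M)}) :
    gr18_redM B M a ∈
      IntermediateField.adjoin (IsLocalRing.ResidueField B) {gr18_redM B M t} := by
  obtain ⟨P, Q, hPQ⟩ := (IntermediateField.mem_adjoin_simple_iff E _).mp hadj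
  by_cases hP : P = 0
  · have : a = 0 := Subtype.ext (by rw [hPQ, hP, map_zero, zero_div]; rfl)
    rw [this, map_zero]; exact zero_mem _
  by_cases hQ : Q = 0
  · have : a = 0 := Subtype.ext (by rw [hPQ, hQ, map_zero, div_zero]; rfl)
    rw [this, map_zero]; exact zero_mem _
  obtain ⟨c, P₀, hc, hPc, hP₀⟩ := gr18_poly_scale B hP
  obtain ⟨d, Q₀, hd, hQd, hQ₀⟩ := gr18_poly_scale B hQ
  have huP := gr18_redM_evV_ne_zero B M t htr hP₀
  have huQ := gr18_redM_evV_ne_zero B M t htr hQ₀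
  have hinvP := gr18_inv_mem_VM B M _ huP
  have hinvQ := gr18_inv_mem_VM B M _ huQ
  have hvalP : Polynomial.aeval (t : gr18_F E M) P =
      gr18_c E M c * ((gr18_evV B M t P₀ : gr18_VM B M) : gr18_F E M) := by
    rw [gr18_evV_coe, hPc, map_mul, Polynomial.aeval_C]
    rfl
  have hvalQ : Polynomial.aeval (t : gr18_F E M) Q =
      gr18_c E M d * ((gr18_evV B M t Q₀ : gr18_VM B M) : gr18_F E M) := by
    rw [gr18_evV_coe, hQd, map_mul, Polynomial.aeval_C]
    rfl
  have hneP : ((gr18_evV B M t P₀ : gr18_VM B M) : gr18_F E M) ≠ 0 := by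
    intro h0
    apply huP
    have : gr18_evV B M t P₀ = 0 := Subtype.ext h0
    rw [this, map_zero]
  have hneQ : ((gr18_evV B M t Q₀ : gr18_VM B M) : gr18_F E M) ≠ 0 := by
    intro h0
    apply huQ
    have : gr18_evV B M t Q₀ = 0 := Subtype.ext h0
    rw [this, map_zero]
  have hd0 : gr18_c E M d ≠ 0 := by
    intro h0
    have h2 : algebraMap E (gr18_F E M) d = 0 := h0
    exact hd ((map_eq_zero _).mp h2)
  have hcd : gr18_c E M (c / d) = (a : gr18_F E M) *
      (((gr18_evV B M t Q₀ : gr18_VM B M) : gr18_F E M) *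
        (((gr18_evV B M t P₀ : gr18_VM B M) : gr18_F E M))⁻¹) := by
    have h1 : gr18_c E M (c / d) = gr18_c E M c / gr18_c E M d := by
      rw [gr18_c, gr18_c, gr18_c, map_div₀]
    rw [h1, hPQ, hvalP, hvalQ]
    field_simp
  have hcdV : gr18_c E M (c / d) ∈ gr18_VM B M := by
    rw [hcd]
    exact mul_mem a.2 (mul_mem (gr18_evV B M t Q₀).2 hinvP)
  have hcdB : c / d ∈ B := gr18_mem_B_of_c_mem B M hcdV
  have ha : a * gr18_evV B M t Q₀ = gr18_cV B M ⟨c / d, hcdB⟩ * gr18_evV B M t P₀ := by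
    apply Subtype.ext
    show (a : gr18_F E M) * ((gr18_evV B M t Q₀ : gr18_VM B M) : gr18_F E M) =
      gr18_c E M (c / d) * ((gr18_evV B M t P₀ : gr18_VM B M) : gr18_F E M)
    rw [hcd]
    field_simp
  have hred := congrArg (gr18_redM B M) ha
  rw [map_mul, map_mul, gr18_redM_cV, gr18_redM_evV, gr18_redM_evV] at hred
  have hfin : gr18_redM B M a = HahnSeries.C (IsLocalRing.residue B ⟨c / d, hcdB⟩) *
      Polynomial.aeval (gr18_redM B M t) (P₀.map (IsLocalRing.residue B)) /
      Polynomial.aeval (gr18_redM B M t) (Q₀.map (IsLocalRing.residue B)) := by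
    rw [eq_div_iff (by rw [← gr18_redM_evV]; exact huQ)]
    exact hred
  rw [hfin]
  refine div_mem (mul_mem ?_ ?_) ?_
  · rw [← algebraMap_eq_C]
    exact IntermediateField.algebraMap_mem _ _
  · exact IntermediateField.algebra_adjoin_le_adjoin _ _
      (Polynomial.aeval_mem_adjoin_singleton _ _)
  · exact IntermediateField.algebra_adjoin_le_adjoin _ _
      (Polynomial.aeval_mem_adjoin_singleton _ _)

end Param

end Fermat.Agent.S18Lib
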