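/-
S18 sprint (route Q), chunk Gr (helper4), part 4: the S28 input (`ψ(M)` integer series whose
reductions are linearly independent over `κ(J)`, `κ` any finite field of characteristic
`ℓ ∤ M`) and the parameter `j ∈ V`.
-/
import Fermat.Agent.Lib.S18.GrPoly
import Fermat.Agent.Lib.S28.Assembly
import Fermat.Agent.Lib.S28.SmallChar
import Fermat.Agent.Lib.S28.ChainLift
import Fermat.Agent.Lib.S28.PhiField

set_option autoImplicit false

noncomputable section

namespace Fermat.Agent.S18Lib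

open ModularCurve Fermat.Agent.S28Lib Polynomial IntermediateField

/-- The S28 input: `ψ(M)` integer series in the function field of level `M` whose reductions
are linearly independent over `k(J)`, for some algebraically closed `k` of characteristic `ℓ`. -/
theorem gr18_theta_exists (ℓ : ℕ) [Fact ℓ.Prime] (M : ℕ) [NeZero M] (hℓM : ¬ ℓ ∣ M) :
    ∃ (k : Type) (_ : Field k) (_ : CharP k ℓ) (_ : IsAlgClosed k)
      (m : Fin (dedekindPsi M) → LaurentSeries ℤ),
      (∀ i, coeffMap (Int.castRingHom ℚ) (m i) ∈ modularFunctionFieldFull M) ∧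
      LinearIndependent ↥(K0 k) (fun i => coeffMap (Int.castRingHom k) (m i)) := by
  obtain ⟨k, _, _, _, hΦ⟩ := exists_field_phiData ℓ
  have hne : ∀ p : ℕ, p.Prime → p ∣ M → p ≠ ℓ := by
    rintro p _ hpN rfl
    exact hℓM hpN
  have hΦN : ∀ p : ℕ, p.Prime → p ∣ M → Nonempty (PhiData k p) :=
    fun p hp hpN => hΦ p hp (hne p hp hpN)
  have hP1 : ∀ p : ℕ, p.Prime → p ∣ M → ∀ D : PhiData k p, Vq k p (jqModC k) ∉ K0 k :=
    fun p hp hpN D => asm_P1 k ℓ (fun h6 p hp hpl P => sm_not_poly k ℓ h6 p hp hpl P) hp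
      (hne p hp hpN) D
  have hdvd : ∀ p M' : ℕ, M' * p ∣ M → p ∣ M := fun p M' h => (Dvd.intro_left M' rfl).trans h
  obtain ⟨m, -, hmF, hli⟩ := c3_IG' k M hΦN
    (fun p M' hp _ hMN => by
      obtain ⟨D⟩ := hΦN p hp (hdvd p M' hMN)
      exact c1_step_of_P1 hp D (hP1 p hp (hdvd p M' hMN) D) M')
    (fun p M' hp hpM hMN => by
      obtain ⟨D⟩ := hΦN p hp (hdvd p M' hMN)
      have hM0 : M' ≠ 0 := by
        rintro rfl
        rw [zero_mul] at hMN
        exact NeZero.ne M (Nat.eq_zero_of_zero_dvd hMN)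
      exact c2_step_coprime hp D (hP1 p hp (hdvd p M' hMN) D) M' hM0 hpM
        (fun r hr hrM => hΦN r hr ((hrM.trans (Dvd.intro p rfl)).trans hMN)))
  exact ⟨k, inferInstance, inferInstance, inferInstance, m, hmF, hli⟩

/-- The same over any finite field `κ` of characteristic `ℓ`. -/
theorem gr18_theta_indep (ℓ : ℕ) [Fact ℓ.Prime] (κ : Type) [Field κ] [Finite κ] [CharP κ ℓ]
    (M : ℕ) [NeZero M] (hℓM : ¬ ℓ ∣ M) :
    ∃ m : Fin (dedekindPsi M) → LaurentSeries ℤ,
      (∀ i, coeffMap (Int.castRingHom ℚ) (m i) ∈ modularFunctionFieldFull M) ∧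
      LinearIndependent ↥(IntermediateField.adjoin κ {jqModC κ})
        (fun i => coeffMap (Int.castRingHom κ) (m i)) := by
  obtain ⟨k, _, _, _, m, hmF, hli⟩ := gr18_theta_exists ℓ M hℓM
  let _ := ZMod.algebra κ ℓ
  let _ := ZMod.algebra k ℓ
  have : Algebra.IsAlgebraic (ZMod ℓ) κ := Algebra.IsAlgebraic.of_finite (ZMod ℓ) κ
  let ρ : κ →+* k := (IsAlgClosed.lift : κ →ₐ[ZMod ℓ] k).toRingHom
  refine ⟨m, hmF, ?_⟩
  rw [Fintype.linearIndependent_iff] at hli ⊢
  intro c hc i
  have hΦ : ∀ y ∈ IntermediateField.adjoin κ {jqModC κ}, coeffMap ρ y ∈ K0 k := by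
    intro y hy
    have hle : Subfield.closure (Set.range (algebraMap κ (LaurentSeries κ)) ∪ {jqModC κ}) ≤
        (K0 k).toSubfield.comap (coeffMap ρ) := by
      rw [Subfield.closure_le]
      rintro z (⟨a, rfl⟩ | rfl)
      · show coeffMap ρ (algebraMap κ _ a) ∈ K0 k
        rw [algebraMap_eq_C]
        have h1 : coeffMap ρ (HahnSeries.C a) = HahnSeries.C (ρ a) := coeffMap_single ρ 0 a
        rw [h1, ← algebraMap_eq_C]
        exact (K0 k).algebraMap_mem _
      · show coeffMap ρ (jqModC κ) ∈ K0 k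
        rw [coeffMap_jqModC]
        exact IntermediateField.mem_adjoin_simple_self _ _
    exact hle hy
  have hsum : ∑ i, (⟨coeffMap ρ (c i : LaurentSeries κ), hΦ _ (c i).2⟩ : ↥(K0 k)) •
      coeffMap (Int.castRingHom k) (m i) = 0 := by
    have h4 := congrArg (coeffMap ρ) hc
    rw [map_sum, map_zero] at h4
    rw [← h4]
    refine Finset.sum_congr rfl fun i _ => ?_
    show coeffMap ρ (c i : LaurentSeries κ) * coeffMap (Int.castRingHom k) (m i) =
      coeffMap ρ ((c i : LaurentSeries κ) * coeffMap (Int.castRingHom κ) (m i))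
    rw [map_mul, coeffMap_coeffMap]
    congr 1
    exact coeffMap_congr (RingHom.ext_int _ _) (m i)
  have h1 := hli _ hsum i
  have h2 : coeffMap ρ (c i : LaurentSeries κ) = 0 := congrArg Subtype.val h1
  exact Subtype.ext ((map_eq_zero (coeffMap ρ)).mp h2)

section J

variable {E : Type*} [Field E] [Algebra ℚ E] (B : ValuationSubring E) (M : ℕ) [NeZero M]

theorem gr18_j_eq : (gr18_j E M : LaurentSeries E) = coeffMap (Int.castRingHom E) (jqModC ℤ) := by
  rw [gr18_coe_j, ← ca_emb_jqModC, ca_emb, gr18_coeffEmb_int]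

theorem gr18_j_mem_VM : gr18_j E M ∈ gr18_VM B M := by
  show (gr18_j E M : LaurentSeries E) ∈ gr18_VL B
  rw [gr18_j_eq]
  exact gr18_int_mem_VL B _

/-- `j` as an element of `V`. -/
def gr18_jV : gr18_VM B M := ⟨gr18_j E M, gr18_j_mem_VM B M⟩

theorem gr18_redM_jV : gr18_redM B M (gr18_jV B M) = jqModC (IsLocalRing.ResidueField B) := by
  rw [gr18_redM_apply]
  have h := gr18_red_int B (jqModC ℤ)
  have h2 : coeffMap (Int.castRingHom (IsLocalRing.ResidueField B)) (jqModC ℤ) =
      jqModC (IsLocalRing.ResidueField B) := coeffMap_jqModC _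
  rw [← h2, ← h]
  congr 1
  exact Subtype.ext (gr18_j_eq M)

theorem gr18_transcendental_jV :
    Transcendental (IsLocalRing.ResidueField B) (gr18_redM B M (gr18_jV B M)) := by
  rw [gr18_redM_jV]
  exact ca_transcendental_jqModC _

end J

end Fermat.Agent.S18Lib
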