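/-
S18 sprint (route Q), chunk Gr (helper4), part 5: the core.  Every element of the Gauss ring
`V` is integral over `V ∩ E(j)`; uniqueness of the Gauss extension; saturation of the
coordinate rings `gr18_O B M {t}` for a parameter `t ∈ V` with transcendental reduction and
`j ∈ E(t)`.  The degree bound `[F : E(j)] ≤ ψ(M)` is taken as a hypothesis (`hfin`, `hdeg`).
-/
import Fermat.Agent.Lib.S18.GrTheta
import Fermat.Agent.Lib.S28.CAKernel

set_option autoImplicit false

noncomputable section

namespace Fermat.Agent.S18Lib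

open ModularCurve Fermat.Agent.S28Lib Polynomial IntermediateField

section VS

variable {E : Type*} [Field E] [Algebra ℚ E] (B : ValuationSubring E) [IsDiscreteValuationRing B]
  (M : ℕ)

/-- The Gauss ring as a valuation subring. -/
abbrev gr18_VS : ValuationSubring (gr18_F E M) := gr18_Vv B (gr18_F E M) (gr18_val_aux B M)

/-- The reduction map on the valuation subring. -/
def gr18_redS : gr18_VS B M →+* LaurentSeries (IsLocalRing.ResidueField B) :=
  (gr18_redM B M).comp
    { toFun := fun x => ⟨(x : gr18_F E M), x.2⟩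
      map_one' := rfl
      map_mul' := fun _ _ => rfl
      map_zero' := rfl
      map_add' := fun _ _ => rfl }

theorem gr18_redS_apply (x : gr18_VS B M) :
    gr18_redS B M x = gr18_redM B M ⟨(x : gr18_F E M), x.2⟩ := rfl

/-- Integral elements over a subring of `V` lie in `V`. -/
theorem gr18_mem_VM_of_isIntegral {G : Subring (gr18_F E M)} (hG : G ≤ gr18_VM B M)
    {x : gr18_F E M} (hx : IsIntegral G x) : x ∈ gr18_VM B M := by
  let φ : G →+* gr18_VS B M :=
    { toFun := fun g => ⟨(g : gr18_F E M), hG g.2⟩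
      map_one' := rfl
      map_mul' := fun _ _ => rfl
      map_zero' := rfl
      map_add' := fun _ _ => rfl }
  have h1 : IsIntegral (gr18_VS B M) x :=
    hx.map_of_comp_eq φ (RingHom.id (gr18_F E M)) (by ext; rfl)
  obtain ⟨y, hy⟩ := IsIntegrallyClosed.isIntegral_iff.mp h1
  rw [← hy]
  exact y.2

end VS

section Core

variable (ℓ : ℕ) [Fact ℓ.Prime] {E : Type} [Field E] [Algebra ℚ E] (B : ValuationSubring E)
  [IsDiscreteValuationRing B] [CharP (IsLocalRing.ResidueField B) ℓ]
  [Finite (IsLocalRing.ResidueField B)] (M : ℕ) [NeZero M]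

set_option synthInstance.maxHeartbeats 400000 in
set_option maxHeartbeats 1600000 in
/-- **Core**: every element of `V` is integral over `V ∩ E(j)`. -/
theorem gr18_core_isIntegral (hℓM : ¬ ℓ ∣ M)
    (hfin : Module.Finite ↥(IntermediateField.adjoin E {gr18_j E M}) ↥(gr18_F E M))
    (hdeg : Module.finrank ↥(IntermediateField.adjoin E {gr18_j E M}) ↥(gr18_F E M) ≤
      dedekindPsi M)
    (x : gr18_VS B M) :
    IsIntegral ((gr18_VS B M).comap
      (algebraMap ↥(IntermediateField.adjoin E {gr18_j E M}) ↥(gr18_F E M)))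
      (x : gr18_F E M) := by
  obtain ⟨m, hmF, hli⟩ := gr18_theta_indep ℓ (IsLocalRing.ResidueField B) M hℓM
  have hmE : ∀ i, coeffMap (Int.castRingHom E) (m i) ∈ gr18_F E M := fun i => by
    rw [← gr18_coeffEmb_int]
    exact coeffEmb_mem_laurentBaseChange E (hmF i)
  let θ : Fin (dedekindPsi M) → gr18_VS B M := fun i =>
    ⟨⟨coeffMap (Int.castRingHom E) (m i), hmE i⟩, gr18_int_mem_VM B M (m i) (hmE i)⟩
  have hrθ : ∀ i, gr18_redS B M (θ i) =
      coeffMap (Int.castRingHom (IsLocalRing.ResidueField B)) (m i) :=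
    fun i => gr18_redM_int B M (m i) (hmE i)
  have hr : ∀ y : gr18_VS B M, gr18_redS B M y ≠ 0 → (y : gr18_F E M)⁻¹ ∈ gr18_VS B M :=
    fun y hy => gr18_inv_mem_VM B M ⟨(y : gr18_F E M), y.2⟩ hy
  have hθ : ∀ (a : Fin (dedekindPsi M) → ↥(IntermediateField.adjoin E {gr18_j E M}))
      (ha : ∀ i, algebraMap ↥(IntermediateField.adjoin E {gr18_j E M}) ↥(gr18_F E M) (a i) ∈
        gr18_VS B M),
      ∑ i, gr18_redS B M
        ⟨algebraMap ↥(IntermediateField.adjoin E {gr18_j E M}) ↥(gr18_F E M) (a i), ha i⟩ *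
          gr18_redS B M (θ i) = 0 →
      ∀ i, gr18_redS B M
        ⟨algebraMap ↥(IntermediateField.adjoin E {gr18_j E M}) ↥(gr18_F E M) (a i), ha i⟩ = 0 := by
    intro a ha hsum i
    have hmem : ∀ i, gr18_redS B M
        ⟨algebraMap ↥(IntermediateField.adjoin E {gr18_j E M}) ↥(gr18_F E M) (a i), ha i⟩ ∈
        IntermediateField.adjoin (IsLocalRing.ResidueField B)
          {jqModC (IsLocalRing.ResidueField B)} := by
      intro i
      have h := gr18_redM_mem_adjoin B M (gr18_jV B M) (gr18_transcendental_jV B M)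
        ⟨algebraMap ↥(IntermediateField.adjoin E {gr18_j E M}) ↥(gr18_F E M) (a i), ha i⟩ (a i).2
      rw [gr18_redM_jV] at h
      exact h
    have hsum' : ∑ i, (⟨_, hmem i⟩ : ↥(IntermediateField.adjoin (IsLocalRing.ResidueField B)
          {jqModC (IsLocalRing.ResidueField B)})) •
        coeffMap (Int.castRingHom (IsLocalRing.ResidueField B)) (m i) = 0 := by
      rw [← hsum]
      refine Finset.sum_congr rfl fun i _ => ?_
      rw [hrθ]
      rfl
    have h1 := Fintype.linearIndependent_iff.mp hli (fun i => ⟨_, hmem i⟩) hsum' i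
    exact congrArg Subtype.val h1
  have hLI := ca_core_linearIndependent (gr18_VS B M) (gr18_redS B M) θ hθ
  have hcard : Fintype.card (Fin (dedekindPsi M)) =
      Module.finrank ↥(IntermediateField.adjoin E {gr18_j E M}) ↥(gr18_F E M) := by
    have := hLI.fintype_card_le_finrank
    rw [Fintype.card_fin] at this ⊢
    omega
  have hspan : ⊤ ≤ Submodule.span ↥(IntermediateField.adjoin E {gr18_j E M})
      (Set.range fun i => ((θ i : gr18_VS B M) : gr18_F E M)) :=
    (hLI.span_eq_top_of_card_eq_finrank' hcard).ge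
  exact ca_core_isIntegral (gr18_VS B M) (gr18_redS B M) hr θ hθ hspan x

end Core

end Fermat.Agent.S18Lib
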