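/-
S18 sprint (route Q), chunk Gr (helper4), part 4b: every nonzero element of the Gauss ring `V`
is a power of the uniformiser times a unit of `V`.
-/
import Fermat.Agent.Lib.S18.GrField

set_option autoImplicit false

noncomputable section

namespace Fermat.Agent.S18Lib

open ModularCurve Fermat.Agent.S28Lib

section UnitPowL

variable {L : Type*} [Field L] (B : ValuationSubring L) [IsDiscreteValuationRing B]

/-- Series-level form: a nonzero element of the Gauss ring is `ϖ ^ k` times a quotient of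
series with nonzero reductions. -/
theorem gr18_VL_unit_pow {ϖ : B} (hϖ : Irreducible ϖ) (y : LaurentSeries L)
    (hy : y ∈ gr18_VL B) (hy0 : y ≠ 0) :
    ∃ (k : ℕ) (a' b : LaurentSeries B), gr18_rd B b ≠ 0 ∧ gr18_rd B a' ≠ 0 ∧
      ((HahnSeries.C (ϖ : L) : LaurentSeries L) ^ k)⁻¹ * y * gr18_io B b = gr18_io B a' := by
  obtain ⟨a, b, hb, h⟩ := hy
  have ha : a ≠ 0 := by
    rintro rfl
    rw [map_zero] at h
    have hb0 : gr18_io B b ≠ 0 := fun h0 => hb (by rw [(gr18_io_eq_zero_iff B).mp h0, map_zero])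
    rcases mul_eq_zero.mp h with h1 | h1
    · exact hy0 h1
    · exact hb0 h1
  obtain ⟨k, a', rfl, ha'⟩ := gr18_exists_pow_mul hϖ ha
  refine ⟨k, a', b, hb, ha', ?_⟩
  have h4 : y * gr18_io B b = gr18_io B (HahnSeries.C ϖ ^ k * a') := h
  rw [mul_assoc, h4, map_mul, map_pow, gr18_io_C,
    inv_mul_cancel_left₀ (pow_ne_zero k (gr18_C_ne_zero hϖ.ne_zero))]

end UnitPowL

section UnitPowF

variable {E : Type*} [Field E] [Algebra ℚ E] (B : ValuationSubring E) [IsDiscreteValuationRing B]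
  (M : ℕ)

omit [IsDiscreteValuationRing B] in
theorem gr18_c_ne_zero {c : E} (hc : c ≠ 0) : gr18_c E M c ≠ 0 := by
  intro h0
  have h2 : algebraMap E (gr18_F E M) c = 0 := h0
  exact hc ((map_eq_zero _).mp h2)

set_option maxHeartbeats 400000 in
/-- Every nonzero element of `V` is a power of the uniformiser times a unit of `V`. -/
theorem gr18_exists_unit_pow {ϖ : B} (hϖ : Irreducible ϖ) (y : gr18_F E M)
    (hy : y ∈ gr18_VM B M) (hy0 : y ≠ 0) :
    ∃ (k : ℕ) (u : gr18_F E M), u ∈ gr18_VM B M ∧ u⁻¹ ∈ gr18_VM B M ∧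
      y = gr18_c E M (ϖ : E) ^ k * u := by
  have hϖE : (ϖ : E) ≠ 0 := fun h => hϖ.ne_zero (Subtype.ext h)
  have hc0 : gr18_c E M (ϖ : E) ≠ 0 := gr18_c_ne_zero M hϖE
  have hy0' : ((y : gr18_F E M) : LaurentSeries E) ≠ 0 := fun h => hy0 (Subtype.ext h)
  obtain ⟨k, a', b, hb, ha', h⟩ := gr18_VL_unit_pow B hϖ (y : LaurentSeries E) hy hy0'
  have hcoe : (((gr18_c E M (ϖ : E) ^ k)⁻¹ * y : gr18_F E M) : LaurentSeries E) =
      ((HahnSeries.C (ϖ : E) : LaurentSeries E) ^ k)⁻¹ * (y : LaurentSeries E) := by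
    rw [IntermediateField.coe_mul, IntermediateField.coe_inv, IntermediateField.coe_pow,
      gr18_coe_c, algebraMap_eq_C]
  have hu' : (((gr18_c E M (ϖ : E) ^ k)⁻¹ * y : gr18_F E M) : LaurentSeries E) ∈ gr18_VL B := by
    rw [hcoe]
    exact ⟨a', b, hb, h⟩
  have hu : (gr18_c E M (ϖ : E) ^ k)⁻¹ * y ∈ gr18_VM B M := hu'
  have h5 : ((((gr18_c E M (ϖ : E) ^ k)⁻¹ * y : gr18_F E M)) : LaurentSeries E) * gr18_io B b =
      gr18_io B a' := by
    rw [hcoe]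
    exact h
  have h6 : gr18_red B
      ⟨(((gr18_c E M (ϖ : E) ^ k)⁻¹ * y : gr18_F E M) : LaurentSeries E), hu'⟩ =
      gr18_rd B a' / gr18_rd B b :=
    gr18_red_eq B ⟨(((gr18_c E M (ϖ : E) ^ k)⁻¹ * y : gr18_F E M) : LaurentSeries E), hu'⟩ hb h5
  have hred : gr18_redM B M ⟨(gr18_c E M (ϖ : E) ^ k)⁻¹ * y, hu⟩ ≠ 0 := by
    rw [gr18_redM_apply]
    show gr18_red B
      ⟨(((gr18_c E M (ϖ : E) ^ k)⁻¹ * y : gr18_F E M) : LaurentSeries E), hu'⟩ ≠ 0
    rw [h6]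
    exact div_ne_zero ha' hb
  refine ⟨k, (gr18_c E M (ϖ : E) ^ k)⁻¹ * y, hu, ?_, ?_⟩
  · exact gr18_inv_mem_VM B M ⟨(gr18_c E M (ϖ : E) ^ k)⁻¹ * y, hu⟩ hred
  · rw [mul_inv_cancel_left₀ (pow_ne_zero k hc0)]

end UnitPowF

end Fermat.Agent.S18Lib
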