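/-
S18 sprint (route Q), chunk Gr (helper4), part 6: consequences of the core for a parameter
`t ∈ V` with transcendental reduction: Gauss lemma exports, `t` transcendental over `E`,
saturation of `gr18_O B M {t}` when `j ∈ E(t)`, integrality over `V ∩ E(j)` in the `gr18_V0`
form, and uniqueness of the Gauss extension.
-/
import Fermat.Agent.Lib.S18.GrInt
import Fermat.Agent.Lib.S18.GrUnit

set_option autoImplicit false

noncomputable section

namespace Fermat.Agent.S18Lib

open ModularCurve Fermat.Agent.S28Lib Polynomial IntermediateField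

section Exports

variable {E : Type*} [Field E] [Algebra ℚ E] (B : ValuationSubring E) (M : ℕ)
  (t : gr18_VM B M) (htr : Transcendental (IsLocalRing.ResidueField B) (gr18_redM B M t))

include htr in
/-- A parameter with transcendental reduction is transcendental over `E`. -/
theorem gr18_transcendental_param : Transcendental E (t : gr18_F E M) := by
  rw [transcendental_iff]
  intro P hP
  by_contra hP0
  obtain ⟨c, P₀, hc, hPc, hP₀⟩ := gr18_poly_scale B hP0
  have hu := gr18_redM_evV_ne_zero B M t htr hP₀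
  have hval : Polynomial.aeval (t : gr18_F E M) P =
      gr18_c E M c * ((gr18_evV B M t P₀ : gr18_VM B M) : gr18_F E M) := by
    rw [gr18_evV_coe, hPc, map_mul, Polynomial.aeval_C]
    rfl
  rw [hval] at hP
  rcases mul_eq_zero.mp hP with h0 | h0
  · have h2 : algebraMap E (gr18_F E M) c = 0 := h0
    exact hc ((map_eq_zero _).mp h2)
  · apply hu
    have : gr18_evV B M t P₀ = 0 := Subtype.ext h0
    rw [this, map_zero]

include htr in
/-- **Gauss lemma** for `E[t]`: a polynomial in `t` lying in `V` has coefficients in `B`. -/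
theorem gr18_gauss (p : E[X]) (hp : Polynomial.aeval (t : gr18_F E M) p ∈ gr18_VM B M) (i : ℕ) :
    p.coeff i ∈ B := by
  by_cases hP : p = 0
  · rw [hP, coeff_zero]; exact zero_mem _
  obtain ⟨c, P₀, hc, hPc, hP₀⟩ := gr18_poly_scale B hP
  have hu := gr18_redM_evV_ne_zero B M t htr hP₀
  have hinv := gr18_inv_mem_VM B M _ hu
  have hval : Polynomial.aeval (t : gr18_F E M) p =
      gr18_c E M c * ((gr18_evV B M t P₀ : gr18_VM B M) : gr18_F E M) := by
    rw [gr18_evV_coe, hPc, map_mul, Polynomial.aeval_C]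
    rfl
  have hne : ((gr18_evV B M t P₀ : gr18_VM B M) : gr18_F E M) ≠ 0 := by
    intro h0
    apply hu
    have : gr18_evV B M t P₀ = 0 := Subtype.ext h0
    rw [this, map_zero]
  have hcV : gr18_c E M c ∈ gr18_VM B M := by
    have h1 : gr18_c E M c = Polynomial.aeval (t : gr18_F E M) p *
        (((gr18_evV B M t P₀ : gr18_VM B M) : gr18_F E M))⁻¹ := by
      rw [hval, mul_assoc, mul_inv_cancel₀ hne, mul_one]
    rw [h1]
    exact mul_mem hp hinv
  have hcB : c ∈ B := gr18_mem_B_of_c_mem B M hcV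
  rw [hPc, coeff_C_mul, coeff_map]
  exact B.mul_mem _ _ hcB (P₀.coeff i).2

include htr in
/-- Elements of `V ∩ E(t)` are quotients of `B`-polynomials in `t` with unit denominator. -/
theorem gr18_exists_quot (a : gr18_VM B M)
    (hadj : (a : gr18_F E M) ∈ IntermediateField.adjoin E {(t : gr18_F E M)}) :
    ∃ p q : B[X], gr18_redM B M (gr18_evV B M t q) ≠ 0 ∧
      a * gr18_evV B M t q = gr18_evV B M t p := by
  obtain ⟨P, Q, hPQ⟩ := (IntermediateField.mem_adjoin_simple_iff E _).mp hadj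
  have h1 : gr18_redM B M (gr18_evV B M t 1) ≠ 0 := by
    rw [map_one, map_one]; exact one_ne_zero
  by_cases hP : P = 0
  · have : a = 0 := Subtype.ext (by rw [hPQ, hP, map_zero, zero_div]; rfl)
    exact ⟨0, 1, h1, by rw [this, map_zero, zero_mul]⟩
  by_cases hQ : Q = 0
  · have : a = 0 := Subtype.ext (by rw [hPQ, hQ, map_zero, div_zero]; rfl)
    exact ⟨0, 1, h1, by rw [this, map_zero, zero_mul]⟩
  obtain ⟨c, P₀, hc, hPc, hP₀⟩ := gr18_poly_scale B hP
  obtain ⟨d, Q₀, hd, hQd, hQ₀⟩ := gr18_poly_scale B hQ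
  have huP := gr18_redM_evV_ne_zero B M t htr hP₀
  have huQ := gr18_redM_evV_ne_zero B M t htr hQ₀
  have hinvP := gr18_inv_mem_VM B M _ huP
  have hvalP : Polynomial.aeval (t : gr18_F E M) P =
      gr18_c E M c * ((gr18_evV B M t P₀ : gr18_VM B M) : gr18_F E M) := by
    rw [gr18_evV_coe, hPc, map_mul, Polynomial.aeval_C]
    rfl
  have hvalQ : Polynomial.aeval (t : gr18_F E M) Q =
      gr18_c E M d * ((gr18_evV B M t Q₀ : gr18_VM B M) : gr18_F E M) := by
    rw [gr18_evV_coe, hQd, map_mul, Polynomial.aeval_C]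
    rfl
  have hneP : ((gr18_evV B M t P₀ : gr18_VM B M) : gr18_F E M) ≠ 0 := by
    intro h0
    apply huP
    have : gr18_evV B M t P₀ = 0 := Subtype.ext h0
    rw [this, map_zero]
  have hneQ : ((gr18_evV B M t Q₀ : gr18_VM B M) : gr18_F E M) ≠ 0 := by
    intro h0
    apply huQ
    have : gr18_evV B M t Q₀ = 0 := Subtype.ext h0
    rw [this, map_zero]
  have hd0 : gr18_c E M d ≠ 0 := by
    intro h0
    have h2 : algebraMap E (gr18_F E M) d = 0 := h0
    exact hd ((map_eq_zero _).mp h2)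
  have hcd : gr18_c E M (c / d) = (a : gr18_F E M) *
      (((gr18_evV B M t Q₀ : gr18_VM B M) : gr18_F E M) *
        (((gr18_evV B M t P₀ : gr18_VM B M) : gr18_F E M))⁻¹) := by
    have h1 : gr18_c E M (c / d) = gr18_c E M c / gr18_c E M d := by
      rw [gr18_c, gr18_c, gr18_c, map_div₀]
    rw [h1, hPQ, hvalP, hvalQ]
    field_simp
  have hcdV : gr18_c E M (c / d) ∈ gr18_VM B M := by
    rw [hcd]
    exact mul_mem a.2 (mul_mem (gr18_evV B M t Q₀).2 hinvP)
  have hcdB : c / d ∈ B := gr18_mem_B_of_c_mem B M hcdV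
  refine ⟨Polynomial.C (⟨c / d, hcdB⟩ : B) * P₀, Q₀, huQ, ?_⟩
  apply Subtype.ext
  have h2 : gr18_evV B M t (Polynomial.C (⟨c / d, hcdB⟩ : B) * P₀) =
      gr18_cV B M ⟨c / d, hcdB⟩ * gr18_evV B M t P₀ := by
    rw [map_mul]
    congr 1
    rw [gr18_evV, Polynomial.coe_eval₂RingHom, Polynomial.eval₂_C]
  rw [h2]
  show (a : gr18_F E M) * ((gr18_evV B M t Q₀ : gr18_VM B M) : gr18_F E M) =
    gr18_c E M (c / d) * ((gr18_evV B M t P₀ : gr18_VM B M) : gr18_F E M)
  rw [hcd]
  field_simp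

end Exports

section Sat

variable (ℓ : ℕ) [Fact ℓ.Prime] {E : Type} [Field E] [Algebra ℚ E] (B : ValuationSubring E)
  [IsDiscreteValuationRing B] [CharP (IsLocalRing.ResidueField B) ℓ]
  [Finite (IsLocalRing.ResidueField B)] (M : ℕ) [NeZero M]

set_option synthInstance.maxHeartbeats 400000 in
set_option maxHeartbeats 1600000 in
/-- Every element of `V` is integral over `V ∩ E(j)` (`gr18_V0` form). -/
theorem gr18_isIntegral_V0 (hℓM : ¬ ℓ ∣ M)
    (hfin : Module.Finite ↥(IntermediateField.adjoin E {gr18_j E M}) ↥(gr18_F E M))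
    (hdeg : Module.finrank ↥(IntermediateField.adjoin E {gr18_j E M}) ↥(gr18_F E M) ≤
      dedekindPsi M)
    (x : gr18_F E M) (hx : x ∈ gr18_VM B M) : IsIntegral (gr18_V0 B M) x := by
  have h := gr18_core_isIntegral ℓ B M hℓM hfin hdeg ⟨x, hx⟩
  let φ : ↥((gr18_VS B M).comap
      (algebraMap ↥(IntermediateField.adjoin E {gr18_j E M}) ↥(gr18_F E M))) →+*
      ↥(gr18_V0 B M) :=
    { toFun := fun v =>
        ⟨algebraMap ↥(IntermediateField.adjoin E {gr18_j E M}) ↥(gr18_F E M)
          (v : ↥(IntermediateField.adjoin E {gr18_j E M})),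
          Subring.mem_inf.mpr ⟨v.2, (v : ↥(IntermediateField.adjoin E {gr18_j E M})).2⟩⟩
      map_one' := rfl
      map_mul' := fun _ _ => rfl
      map_zero' := rfl
      map_add' := fun _ _ => rfl }
  exact h.map_of_comp_eq φ (RingHom.id _) (by ext; rfl)

set_option synthInstance.maxHeartbeats 400000 in
set_option maxHeartbeats 1600000 in
/-- Uniqueness of the Gauss extension. -/
theorem gr18_unique_ext (hℓM : ¬ ℓ ∣ M)
    (hfin : Module.Finite ↥(IntermediateField.adjoin E {gr18_j E M}) ↥(gr18_F E M))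
    (hdeg : Module.finrank ↥(IntermediateField.adjoin E {gr18_j E M}) ↥(gr18_F E M) ≤
      dedekindPsi M)
    (W : ValuationSubring (gr18_F E M)) (hW : ∀ x ∈ gr18_V0 B M, x ∈ W) (hWtop : W ≠ ⊤)
    (x : gr18_F E M) : x ∈ W ↔ x ∈ gr18_VM B M := by
  have hVW : ∀ y : gr18_F E M, y ∈ gr18_VM B M → y ∈ W := by
    intro y hy
    have h := gr18_isIntegral_V0 ℓ B M hℓM hfin hdeg y hy
    let φ : ↥(gr18_V0 B M) →+* W :=
      { toFun := fun v => ⟨(v : gr18_F E M), hW v v.2⟩
        map_one' := rfl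
        map_mul' := fun _ _ => rfl
        map_zero' := rfl
        map_add' := fun _ _ => rfl }
    have h1 : IsIntegral W y := h.map_of_comp_eq φ (RingHom.id (gr18_F E M)) (by ext; rfl)
    obtain ⟨w, hw⟩ := IsIntegrallyClosed.isIntegral_iff.mp h1
    rw [← hw]
    exact w.2
  refine ⟨fun hxW => ?_, hVW x⟩
  by_contra hxV
  obtain ⟨ϖ, hϖ⟩ := IsDiscreteValuationRing.exists_irreducible B
  have hϖE : (ϖ : E) ≠ 0 := fun h => hϖ.ne_zero (Subtype.ext h)
  have hc0 : gr18_c E M (ϖ : E) ≠ 0 := gr18_c_ne_zero M hϖE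
  have hx0 : x ≠ 0 := fun h => hxV (by rw [h]; exact zero_mem _)
  have hxinv : x⁻¹ ∈ gr18_VM B M := (gr18_val_aux B M x).resolve_left hxV
  obtain ⟨y, hy, hxy⟩ := (gr18_unif E B M).2 ϖ hϖ |>.2 x⁻¹ hxinv (by rwa [inv_inv])
  have hπinv : (gr18_c E M (ϖ : E))⁻¹ ∈ W := by
    have h1 : (gr18_c E M (ϖ : E))⁻¹ = x * y := by
      have h2 : x * (gr18_c E M (ϖ : E) * y) = 1 := by rw [← hxy, mul_inv_cancel₀ hx0]
      field_simp
      rw [← h2]; ring
    rw [h1]
    exact W.mul_mem _ _ hxW (hVW y hy)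
  apply hWtop
  rw [eq_top_iff]
  intro z _
  by_cases hzV : z ∈ gr18_VM B M
  · exact hVW z hzV
  have hz0 : z ≠ 0 := fun h => hzV (by rw [h]; exact zero_mem _)
  have hzinv : z⁻¹ ∈ gr18_VM B M := (gr18_val_aux B M z).resolve_left hzV
  obtain ⟨k, u, hu, huinv, hzu⟩ := gr18_exists_unit_pow B M hϖ z⁻¹ hzinv (inv_ne_zero hz0)
  have hz : z = (gr18_c E M (ϖ : E))⁻¹ ^ k * u⁻¹ := by
    rw [← inv_inv z, hzu, mul_inv, inv_pow]
  rw [hz]
  exact W.mul_mem _ _ (pow_mem hπinv k) (hVW _ huinv)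

set_option synthInstance.maxHeartbeats 400000 in
set_option maxHeartbeats 1600000 in
/-- **Saturation** of the coordinate ring `gr18_O B M {t}` in `V`, for a parameter `t ∈ V`
with transcendental reduction such that `j ∈ E(t)`. -/
theorem gr18_sat_param (hℓM : ¬ ℓ ∣ M)
    (hfin : Module.Finite ↥(IntermediateField.adjoin E {gr18_j E M}) ↥(gr18_F E M))
    (hdeg : Module.finrank ↥(IntermediateField.adjoin E {gr18_j E M}) ↥(gr18_F E M) ≤
      dedekindPsi M)
    (t : gr18_VM B M)
    (htr : Transcendental (IsLocalRing.ResidueField B) (gr18_redM B M t))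
    (hj : gr18_j E M ∈ IntermediateField.adjoin E {(t : gr18_F E M)})
    (c : B) (hc : c ≠ 0) (z : gr18_F E M) (hz : z ∈ gr18_VM B M)
    (hcz : gr18_c E M (c : E) * z ∈ gr18_O B M {(t : gr18_F E M)}) :
    z ∈ gr18_O B M {(t : gr18_F E M)} := by
  have hTr : Transcendental E (t : gr18_F E M) := gr18_transcendental_param B M t htr
  have hgen : ∀ y ∈ gr18_gen B M {(t : gr18_F E M)}, y ∈ Algebra.adjoin E {(t : gr18_F E M)} := by
    intro y hy
    induction hy using Subring.closure_induction with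
    | mem y hy =>
      rcases hy with ⟨r, rfl⟩ | hy
      · exact Subalgebra.algebraMap_mem _ _
      · rw [Set.mem_singleton_iff] at hy
        rw [hy]
        exact Algebra.self_mem_adjoin_singleton _ _
    | zero => exact zero_mem _
    | one => exact one_mem _
    | add a b _ _ ha hb => exact add_mem ha hb
    | neg a _ ha => exact neg_mem ha
    | mul a b _ _ ha hb => exact mul_mem ha hb
  let φ : ↥(gr18_gen B M {(t : gr18_F E M)}) →+* ↥(Algebra.adjoin E {(t : gr18_F E M)}) :=
    { toFun := fun y => ⟨(y : gr18_F E M), hgen y y.2⟩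
      map_one' := rfl
      map_mul' := fun _ _ => rfl
      map_zero' := rfl
      map_add' := fun _ _ => rfl }
  have h1 : IsIntegral ↥(Algebra.adjoin E {(t : gr18_F E M)}) (gr18_c E M (c : E) * z) :=
    ((gr18_mem_O_iff B M).mp hcz).map_of_comp_eq φ (RingHom.id _) (by ext; rfl)
  have hcE : (c : E) ≠ 0 := fun h => hc (Subtype.ext h)
  have hc0 : gr18_c E M (c : E) ≠ 0 := gr18_c_ne_zero M hcE
  have h2 : IsIntegral ↥(Algebra.adjoin E {(t : gr18_F E M)}) z := by
    have hmem : (gr18_c E M (c : E))⁻¹ ∈ Algebra.adjoin E {(t : gr18_F E M)} := by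
      have h : (gr18_c E M (c : E))⁻¹ = algebraMap E (gr18_F E M) ((c : E)⁻¹) := by
        rw [gr18_c, map_inv₀]
      rw [h]
      exact Subalgebra.algebraMap_mem _ _
    have h3 : IsIntegral ↥(Algebra.adjoin E {(t : gr18_F E M)}) ((gr18_c E M (c : E))⁻¹) :=
      isIntegral_algebraMap (x := (⟨_, hmem⟩ : ↥(Algebra.adjoin E {(t : gr18_F E M)})))
    have h4 := h3.mul h1
    rwa [inv_mul_cancel_left₀ hc0] at h4
  have hle : IntermediateField.adjoin E {gr18_j E M} ≤
      IntermediateField.adjoin E {(t : gr18_F E M)} := by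
    rw [IntermediateField.adjoin_simple_le_iff]
    exact hj
  have hcore := gr18_core_isIntegral ℓ B M hℓM hfin hdeg ⟨z, hz⟩
  let ψ : ↥((gr18_VS B M).comap
      (algebraMap ↥(IntermediateField.adjoin E {gr18_j E M}) ↥(gr18_F E M))) →+*
      ↥((gr18_VS B M).comap
        (algebraMap ↥(IntermediateField.adjoin E {(t : gr18_F E M)}) ↥(gr18_F E M))) :=
    { toFun := fun v =>
        ⟨⟨((v : ↥(IntermediateField.adjoin E {gr18_j E M})) : gr18_F E M),
          hle (v : ↥(IntermediateField.adjoin E {gr18_j E M})).2⟩, v.2⟩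
      map_one' := rfl
      map_mul' := fun _ _ => rfl
      map_zero' := rfl
      map_add' := fun _ _ => rfl }
  have h5 : IsIntegral ↥((gr18_VS B M).comap
      (algebraMap ↥(IntermediateField.adjoin E {(t : gr18_F E M)}) ↥(gr18_F E M))) z :=
    hcore.map_of_comp_eq ψ (RingHom.id _) (by ext; rfl)
  have hcoefV : ∀ i, algebraMap ↥(IntermediateField.adjoin E {(t : gr18_F E M)}) ↥(gr18_F E M)
      ((minpoly ↥(IntermediateField.adjoin E {(t : gr18_F E M)}) z).coeff i) ∈ gr18_VM B M := by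
    intro i
    obtain ⟨y, hy⟩ := ca_minpoly_coeff_mem
      (E := ↥(IntermediateField.adjoin E {(t : gr18_F E M)})) h5 i
    rw [← hy]
    exact y.2
  have hcoefA : ∀ i, algebraMap ↥(IntermediateField.adjoin E {(t : gr18_F E M)}) ↥(gr18_F E M)
      ((minpoly ↥(IntermediateField.adjoin E {(t : gr18_F E M)}) z).coeff i) ∈
      Algebra.adjoin E {(t : gr18_F E M)} :=
    fun i => ca_minpoly_coeff_mem_adjoin hTr h2 i
  have hcoef : ∀ i, algebraMap ↥(IntermediateField.adjoin E {(t : gr18_F E M)}) ↥(gr18_F E M)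
      ((minpoly ↥(IntermediateField.adjoin E {(t : gr18_F E M)}) z).coeff i) ∈
      gr18_gen B M {(t : gr18_F E M)} :=
    fun i => gr18_mem_gen_of_mem_adjoin B M t htr (hcoefV i) (hcoefA i)
  have hint : IsIntegral ↥(IntermediateField.adjoin E {(t : gr18_F E M)}) z := h5.tower_top
  have hmonic : ((minpoly ↥(IntermediateField.adjoin E {(t : gr18_F E M)}) z).map
      (algebraMap _ ↥(gr18_F E M))).Monic := (minpoly.monic hint).map _
  have hroot : ((minpoly ↥(IntermediateField.adjoin E {(t : gr18_F E M)}) z).map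
      (algebraMap _ ↥(gr18_F E M))).eval z = 0 := by
    rw [Polynomial.eval_map_algebraMap, minpoly.aeval]
  have hlifts : (minpoly ↥(IntermediateField.adjoin E {(t : gr18_F E M)}) z).map
      (algebraMap _ ↥(gr18_F E M)) ∈
      Polynomial.lifts (algebraMap ↥(gr18_gen B M {(t : gr18_F E M)}) ↥(gr18_F E M)) :=
    (Polynomial.lifts_iff_coeff_lifts _).mpr fun i =>
      ⟨⟨algebraMap ↥(IntermediateField.adjoin E {(t : gr18_F E M)}) ↥(gr18_F E M)
        ((minpoly ↥(IntermediateField.adjoin E {(t : gr18_F E M)}) z).coeff i), hcoef i⟩,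
        by rw [Polynomial.coeff_map]; rfl⟩
  obtain ⟨q', hq'q, -, hq'monic⟩ := Polynomial.lifts_and_natDegree_eq_and_monic hlifts hmonic
  exact (gr18_mem_O_iff B M).mpr
    ⟨q', hq'monic, by rw [Polynomial.eval₂_eq_eval_map, hq'q, hroot]⟩

end Sat

end Fermat.Agent.S18Lib
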