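import Fermat.Agent.Lib.S18.AsConcGssA
import Fermat.Agent.Lib.S18.AsConcPack
import Fermat.Agent.Lib.S18.GrSat
import Fermat.Agent.Lib.S18.GrDeg
import Fermat.Agent.Lib.S18.GrDvr

/-!
# S18 assembly, AsConcrete: the fields `gauss`, `sat`, `sep` of the concrete charts

`ac18_gss (hsep : gr18_sep_stmt) : ac18_gss_stmt` — from helper4's `gr18_gauss`,
`gr18_sat_param` (GrSat), `gr18_unif` (GrField), helper1's `gr18_dvr`, helper3's `gr18_deg`,
helper6's `acp18_range` / `acp18_sep`, and the coordinate facts of `AsConcGssA`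
(`x ∈ V`, transcendental reduction, `j ∈ E(x)`).  The separability input `gr18_sep_stmt`
(helper3, `GrSep.lean`) is a hypothesis.
-/

set_option autoImplicit false
set_option synthInstance.maxHeartbeats 400000
set_option maxHeartbeats 1600000

namespace Fermat.Agent.S18Lib

open ModularCurve Polynomial

theorem acg18_isIntegral_congr {F : Type} [Field F] (S T : Subring F) (h : S = T) (z : F) :
    IsIntegral S z ↔ IsIntegral T z := by
  subst h
  exact Iff.rfl

/-- the chart ring of the concrete chart is `gr18_O B M {x}` -/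
theorem acg18_O_eq (A : ValuationSubring (AlgebraicClosure ℚ))
    (E₀ : IntermediateField ℚ (AlgebraicClosure ℚ)) (M : ℕ) [NeZero M]
    (hval : ∀ x : gr18_F E₀ M, x ∈ gr18_VM (gr18_R A E₀) M ∨ x⁻¹ ∈ gr18_VM (gr18_R A E₀) M)
    (π : gr18_R A E₀) (x : gr18_F E₀ M) (cbr : gr18_R A E₀) :
    (as18_chart A E₀ M hval π x cbr).O = gr18_O (gr18_R A E₀) M {x} := by
  have hR : (as18_chart A E₀ M hval π x cbr).ev.range = gr18_gen (gr18_R A E₀) M {x} :=
    acp18_range (as18_chart A E₀ M hval π x cbr)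
  ext z
  exact acg18_isIntegral_congr _ _ hR z

/-- **Fields `gauss`, `sat`, `sep` for the concrete charts.** -/
theorem ac18_gss (hsep : gr18_sep_stmt) : ac18_gss_stmt := by
  intro ℓ _ A hA E₀ _ M _ hℓM hval π hπ x cbr hx
  obtain ⟨hdvr, hfinκ, hchar⟩ := gr18_dvr ℓ A hA E₀
  have := hdvr
  have := hfinκ
  have := hchar
  have hxV : x ∈ gr18_VM (gr18_R A E₀) M := acg18_mem_V (gr18_R A E₀) hx
  have htr : Transcendental (IsLocalRing.ResidueField (gr18_R A E₀))
      (gr18_redM (gr18_R A E₀) M ⟨x, hxV⟩) := acg18_red_transcendental (gr18_R A E₀) hx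
  have hj : gr18_j E₀ M ∈ IntermediateField.adjoin E₀ {x} := acg18_j_mem hx
  obtain ⟨hcV, hun⟩ := gr18_unif E₀ (gr18_R A E₀) M
  obtain ⟨-, hunif2⟩ := hun π hπ
  have hgauss : ∀ p : Polynomial E₀,
      Polynomial.aeval (as18_chart A E₀ M hval π x cbr).x p ∈
        (as18_chart A E₀ M hval π x cbr).V →
      ∀ i, p.coeff i ∈ (as18_chart A E₀ M hval π x cbr).R := fun p hp i =>
    gr18_gauss (gr18_R A E₀) M ⟨x, hxV⟩ htr p hp i
  refine ⟨hgauss, ?_, ?_⟩
  · -- sat
    intro z hz hπz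
    rw [acg18_O_eq] at hπz ⊢
    exact gr18_sat_param ℓ (gr18_R A E₀) M hℓM (gr18_deg E₀ M).1 (gr18_deg E₀ M).2 ⟨x, hxV⟩ htr hj
      π hπ.ne_zero z hz hπz
  · -- sep
    refine acp18_sep (c := as18_chart A E₀ M hval π x cbr) hdvr hπ (fun r => hcV r) hxV hgauss
      (fun z hz hzinv => hunif2 z hz hzinv) ?_
    intro z hz
    obtain ⟨P, hP, hcoef, hroot, hder, hder0⟩ := hsep ℓ E₀ (gr18_R A E₀) M hℓM z hz
    exact ⟨P, hP, fun i => ⟨(hcoef i).1, acg18_adjoin_j_le hx (hcoef i).2⟩, hroot, hder, hder0⟩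

end Fermat.Agent.S18Lib
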