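import Fermat.Agent.Lib.S18.AsConcIface
import Fermat.Agent.Lib.S18.GrField
import Fermat.Agent.Lib.S18.CgAlgClosed

/-!
# S18 assembly, AsConcrete (gauss / sat / sep): what a coordinate gives, independently of Gr

For a coordinate `x` (`hx : Ac18Coord E M x`) and any valuation subring `B` of `E`:
* `acg18_coe_int`   : `x` is (the coefficient extension of) an integer Laurent series
                      `q^ε · P`, `P ∈ 1 + q ℤ⟦q⟧`, `ε = ± 1`;
* `acg18_mem_V`     : `x ∈ gr18_VM B M`;   `acg18_inv_mem_V` : `x⁻¹ ∈ gr18_VM B M`;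
* `acg18_red`       : the reduction of `x` is `q^ε · P mod B`;
* `acg18_red_transcendental` : the reduction of `x` is transcendental over the residue field;
* `acg18_j_mem`     : `gr18_j E M ∈ E(x)`;  `acg18_adjoin_j_le` : `E(j) ≤ E(x)`.
-/

set_option autoImplicit false
set_option synthInstance.maxHeartbeats 400000
set_option maxHeartbeats 1600000

namespace Fermat.Agent.S18Lib

open ModularCurve Polynomial

variable {E : Type} [Field E] [Algebra ℚ E] {M : ℕ} [NeZero M] {x : gr18_F E M}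

/-- the integer Laurent series `q^ε · P` -/
noncomputable def acg18_ser (ε : ℤ) (P : PowerSeries ℤ) : LaurentSeries ℤ :=
  HahnSeries.single ε (1 : ℤ) * HahnSeries.ofPowerSeries ℤ ℤ P

theorem acg18_coeffMap_ser {S : Type*} [CommRing S] (f : ℤ →+* S) (ε : ℤ) (P : PowerSeries ℤ) :
    coeffMap f (acg18_ser ε P)
      = HahnSeries.single ε (1 : S) * HahnSeries.ofPowerSeries ℤ S (P.map f) := by
  rw [acg18_ser, map_mul, coeffMap_single, coeffMap_ofPowerSeries, map_one]

/-- a coordinate is an integer series `q^ε · P` -/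
theorem acg18_coe_int (hx : Ac18Coord E M x) :
    ∃ (ε : ℤ) (P : PowerSeries ℤ), (ε = 1 ∨ ε = -1) ∧ PowerSeries.constantCoeff P = 1 ∧
      (x : LaurentSeries E) = coeffMap (Int.castRingHom E) (acg18_ser ε P) := by
  obtain ⟨s, ε, P, Q, hxs, hε, hP, -, hs, -⟩ := hx.ser
  refine ⟨ε, P, hε, hP, ?_⟩
  rw [hxs, hs, ← acg18_coeffMap_ser (Int.castRingHom ℚ), gr18_coeffEmb_int]

theorem acg18_mem_V (B : ValuationSubring E) (hx : Ac18Coord E M x) : x ∈ gr18_VM B M := by
  obtain ⟨ε, P, -, -, h⟩ := acg18_coe_int hx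
  show (x : LaurentSeries E) ∈ gr18_VL B
  rw [h]
  exact gr18_int_mem_VL B _

/-- the reduction of a coordinate -/
theorem acg18_red (B : ValuationSubring E) (hx : Ac18Coord E M x) :
    ∃ (ε : ℤ) (P : PowerSeries ℤ), (ε = 1 ∨ ε = -1) ∧ PowerSeries.constantCoeff P = 1 ∧
      gr18_redM B M ⟨x, acg18_mem_V B hx⟩
        = HahnSeries.single ε (1 : IsLocalRing.ResidueField B)
          * HahnSeries.ofPowerSeries ℤ (IsLocalRing.ResidueField B)
              (P.map (Int.castRingHom (IsLocalRing.ResidueField B))) := by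
  obtain ⟨ε, P, hε, hP, h⟩ := acg18_coe_int hx
  refine ⟨ε, P, hε, hP, ?_⟩
  rw [← acg18_coeffMap_ser, ← gr18_red_int B (acg18_ser ε P), gr18_redM_apply]
  congr 1
  exact Subtype.ext h

theorem acg18_red_coeff (B : ValuationSubring E) (hx : Ac18Coord E M x) :
    ∃ ε : ℤ, ε ≠ 0 ∧ (gr18_redM B M ⟨x, acg18_mem_V B hx⟩).coeff ε = 1 := by
  obtain ⟨ε, P, hε, hP, h⟩ := acg18_red B hx
  refine ⟨ε, by rcases hε with rfl | rfl <;> norm_num, ?_⟩
  rw [h]
  have h1 := HahnSeries.coeff_single_mul_add (r := (1 : IsLocalRing.ResidueField B))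
    (x := HahnSeries.ofPowerSeries ℤ (IsLocalRing.ResidueField B)
      (P.map (Int.castRingHom (IsLocalRing.ResidueField B)))) (a := 0) (b := ε)
  rw [zero_add] at h1
  rw [h1, one_mul, show (0 : ℤ) = ((0 : ℕ) : ℤ) from rfl, HahnSeries.ofPowerSeries_apply_coeff,
    PowerSeries.coeff_map, PowerSeries.coeff_zero_eq_constantCoeff_apply, hP, map_one]

theorem acg18_red_ne_zero (B : ValuationSubring E) (hx : Ac18Coord E M x) :
    gr18_redM B M ⟨x, acg18_mem_V B hx⟩ ≠ 0 := by
  obtain ⟨ε, -, h⟩ := acg18_red_coeff B hx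
  intro h0
  rw [h0] at h
  simp at h

theorem acg18_inv_mem_V (B : ValuationSubring E) (hx : Ac18Coord E M x) :
    x⁻¹ ∈ gr18_VM B M :=
  gr18_inv_mem_VM B M ⟨x, acg18_mem_V B hx⟩ (acg18_red_ne_zero B hx)

/-- the reduction of a coordinate is transcendental over the residue field -/
theorem acg18_red_transcendental (B : ValuationSubring E) (hx : Ac18Coord E M x) :
    Transcendental (IsLocalRing.ResidueField B) (gr18_redM B M ⟨x, acg18_mem_V B hx⟩) := by
  intro halg
  obtain ⟨c, hc⟩ := cg18_laurent_const_of_algebraic _ halg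
  obtain ⟨ε, hε, h⟩ := acg18_red_coeff B hx
  rw [hc, algebraMap_laurentSeries_eq_single, HahnSeries.coeff_single_of_ne hε] at h
  exact zero_ne_one h

theorem acg18_ne_zero (hx : Ac18Coord E M x) : x ≠ 0 := by
  obtain ⟨ε, P, hε, hP, h⟩ := acg18_coe_int hx
  intro h0
  have h1 : (coeffMap (Int.castRingHom E) (acg18_ser ε P)).coeff ε = 1 := by
    rw [acg18_coeffMap_ser]
    have h1 := HahnSeries.coeff_single_mul_add (r := (1 : E))
      (x := HahnSeries.ofPowerSeries ℤ E (P.map (Int.castRingHom E))) (a := 0) (b := ε)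
    rw [zero_add] at h1
    rw [h1, one_mul, show (0 : ℤ) = ((0 : ℕ) : ℤ) from rfl, HahnSeries.ofPowerSeries_apply_coeff,
      PowerSeries.coeff_map, PowerSeries.coeff_zero_eq_constantCoeff_apply, hP, map_one]
  rw [← h, h0] at h1
  simp at h1

/-- `j ∈ E(x)` -/
theorem acg18_j_mem (hx : Ac18Coord E M x) :
    gr18_j E M ∈ IntermediateField.adjoin E {x} := by
  obtain ⟨a, b, hb, hrel⟩ := hx.rel
  have hmem : ∀ p : Polynomial E, aeval x p ∈ IntermediateField.adjoin E {x} := fun p =>
    IntermediateField.algebra_adjoin_le_adjoin E _ (Polynomial.aeval_mem_adjoin_singleton E x)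
  have hj : gr18_j E M = aeval x a / aeval x b := eq_div_of_mul_eq hb hrel
  rw [hj]
  exact div_mem (hmem a) (hmem b)

theorem acg18_adjoin_j_le (hx : Ac18Coord E M x) :
    IntermediateField.adjoin E {gr18_j E M} ≤ IntermediateField.adjoin E {x} :=
  IntermediateField.adjoin_simple_le_iff.mpr (acg18_j_mem hx)

end Fermat.Agent.S18Lib
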