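import Fermat.Agent.Lib.S18.BrIface

/-!
# S18 library, chunk Br (ii, over `Kb`): unramifiedness through the tower `x ↦ j = a(x)/b(x)`

From the S24 fibre data (`ord_P (j - c)` is `1` for `c ≠ 0, 1728`, divides `3` for `c = 0` and
divides `2` for `c = 1728`): `br18_tower_generic`, `br18_tower_zero`, `br18_tower_1728`,
`br18_inv_j`.
-/

set_option autoImplicit false

namespace Fermat.Agent.S18Lib

open AlgebraicCurve IntermediateField UpperHalfPlane MatrixGroups Matrix.SpecialLinearGroup
open Fermat.Agent.LibS23 Fermat.Agent.S20Lib ModularCurve Polynomial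
open Fermat.Agent.S24Lib
open scoped Manifold

/-! ### the fibres of `j` -/

/-- the order of `j` at a zero divides `3`. -/
theorem br18_ord_j_zero (M : ℕ) [NeZero M] (P : Place Kb (FN M)) (h : 0 < P.ord (JF M)) :
    P.ord (JF M) ∣ 3 := by
  have hord : analyticOrderAt (fun w : ℂ => jAn (ofComplex w) - iotaK 0)
      ((ellipticRho : ℍ) : ℂ) = ((3 : ℕ) : ℕ∞) := by
    have h3 := jAn_order_rho
    simp only [map_zero, sub_zero]
    rw [h3]
    rfl
  have key := (fibreData_conjEv M).count 0 ellipticRho 3 (by norm_num) hord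
    (ModularGroup.S * ModularGroup.T) elliptic_ST_smul_rho (fun k hk => zetaRho_inv_dvd k hk)
  have h1 := key.2.1 P (by
    show 0 < P.ord (JF M - algebraMap Kb (FN M) 0)
    rwa [map_zero, sub_zero])
  rw [map_zero, sub_zero] at h1
  exact_mod_cast h1

/-- the order of `j - 1728` at a zero divides `2`. -/
theorem br18_ord_j_1728 (M : ℕ) [NeZero M] (P : Place Kb (FN M))
    (h : 0 < P.ord (JF M - algebraMap Kb (FN M) 1728)) :
    P.ord (JF M - algebraMap Kb (FN M) 1728) ∣ 2 := by
  have hord : analyticOrderAt (fun w : ℂ => jAn (ofComplex w) - iotaK 1728)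
      ((UpperHalfPlane.I : ℍ) : ℂ) = ((2 : ℕ) : ℕ∞) := by
    rw [map_ofNat, jAn_order_I]
    rfl
  have key := (fibreData_conjEv M).count 1728 UpperHalfPlane.I 2 two_pos hord ModularGroup.S
    elliptic_S_smul_I
    (fun k hk => by
      have h1 : (1 / denom (mapGL ℝ ModularGroup.S) (UpperHalfPlane.I : ℍ) ^ 2 : ℂ) = -1 :=
        localPt_zeta_I
      rw [h1] at hk
      exact localPt_neg_one_inv_dvd k hk)
  have h1 := key.2.1 P h
  exact_mod_cast h1

/-- the order of `j - c` at a zero is `1` for `c ≠ 0, 1728`. -/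
theorem br18_ord_j_generic (M : ℕ) [NeZero M] (P : Place Kb (FN M)) (c : Kb) (hc0 : c ≠ 0)
    (hc1 : c ≠ 1728) (h : 0 < P.ord (JF M - algebraMap Kb (FN M) c)) :
    P.ord (JF M - algebraMap Kb (FN M) c) = 1 :=
  (places_generic M c hc0 hc1).2.1 P h

theorem br18_JF_sub_ne_zero (M : ℕ) [NeZero M] (c : Kb) : JF M - algebraMap Kb (FN M) c ≠ 0 := by
  intro h
  apply transcendental_JF M
  rw [sub_eq_zero.mp h]
  exact isAlgebraic_algebraMap c

theorem br18_JF_ne_zero (M : ℕ) [NeZero M] : JF M ≠ 0 := by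
  have := br18_JF_sub_ne_zero M 0
  rwa [map_zero, sub_zero] at this

/-! ### polynomials in an element congruent to a constant -/

section Poly

variable {K F : Type*} [Field K] [Field F] [Algebra K F]

theorem br18_ord_neg (P : Place K F) {a : F} (ha : a ≠ 0) : P.ord (-a) = P.ord a :=
  (isIntVal_ord P).val_neg ha

theorem br18_mem_of_pos (P : Place K F) (x : F) (c : K)
    (hpos : 0 < P.ord (x - algebraMap K F c)) : x ∈ P.toValuationSubring := by
  have h0 : x - algebraMap K F c ≠ 0 := ne_zero_of_ord_ne_zero P (by omega)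
  have h1 : x - algebraMap K F c ∈ P.toValuationSubring :=
    (mem_toValuationSubring_iff P h0).mpr hpos.le
  have h2 := add_mem h1 (P.algebraMap_mem' c)
  rwa [sub_add_cancel] at h2

theorem br18_aeval_mem (P : Place K F) (x : F) (hx : x ∈ P.toValuationSubring)
    (p : Polynomial K) : aeval x p ∈ P.toValuationSubring := by
  rw [aeval_eq_sum_range]
  refine sum_mem fun i _ => ?_
  rw [Algebra.smul_def]
  exact mul_mem (P.algebraMap_mem' _) (pow_mem hx i)

/-- a polynomial not vanishing at `c` is a unit at a zero of `x - c`. -/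
theorem br18_ord_aeval_eq_zero (P : Place K F) (x : F) (c : K)
    (hpos : 0 < P.ord (x - algebraMap K F c)) (p : Polynomial K) (hp : p.eval c ≠ 0) :
    aeval x p ≠ 0 ∧ P.ord (aeval x p) = 0 := by
  have hx := br18_mem_of_pos P x c hpos
  have hdiv : p = C (p.eval c) + (X - C c) * (p /ₘ (X - C c)) := by
    have h := modByMonic_add_div p (X - C c)
    rw [modByMonic_X_sub_C_eq_C_eval] at h
    exact h.symm
  have hval : aeval x p = algebraMap K F (p.eval c)
      + (x - algebraMap K F c) * aeval x (p /ₘ (X - C c)) := by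
    conv_lhs => rw [hdiv]
    rw [map_add, map_mul, map_sub, aeval_C, aeval_X, aeval_C]
  have hq : aeval x (p /ₘ (X - C c)) ∈ P.toValuationSubring := br18_aeval_mem P x hx _
  have hc0 : algebraMap K F (p.eval c) ≠ 0 := by simpa using hp
  have hordc : P.ord (algebraMap K F (p.eval c)) = 0 := ord_algebraMap P _
  by_cases hB : (x - algebraMap K F c) * aeval x (p /ₘ (X - C c)) = 0
  · rw [hval, hB, add_zero]
    exact ⟨hc0, hordc⟩
  · have hq0 : aeval x (p /ₘ (X - C c)) ≠ 0 := right_ne_zero_of_mul hB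
    have hxc0 : x - algebraMap K F c ≠ 0 := left_ne_zero_of_mul hB
    have hordB : 0 < P.ord ((x - algebraMap K F c) * aeval x (p /ₘ (X - C c))) := by
      rw [P.ord_mul hxc0 hq0]
      have := ord_nonneg_of_mem P hq
      omega
    have h1 := ord_add_eq_of_lt P hc0 hB (by rw [hordc]; exact hordB)
    rw [hval]
    refine ⟨?_, by rw [h1, hordc]⟩
    intro h0
    have h2 : (x - algebraMap K F c) * aeval x (p /ₘ (X - C c))
        = -algebraMap K F (p.eval c) := by
      rw [eq_neg_iff_add_eq_zero, add_comm]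
      exact h0
    rw [h2, br18_ord_neg P hc0, hordc] at hordB
    exact lt_irrefl _ hordB

end Poly

/-! ### the tower -/

/-- **generic values**. -/
theorem br18_tower_generic : br18_tower_generic_stmt := by
  intro M _ P x a b c hrel hb ha0 ha1 hpos
  set j₀ : Kb := a.eval c / b.eval c with hj₀
  have hj0 : j₀ ≠ 0 := div_ne_zero ha0 hb
  have hj1 : j₀ ≠ 1728 := by
    intro h
    apply ha1
    rw [← h, hj₀, div_mul_cancel₀ _ hb]
  have hxc0 : x - algebraMap Kb (FN M) c ≠ 0 := ne_zero_of_ord_ne_zero P (by omega)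
  have hx := br18_mem_of_pos P x c hpos
  obtain ⟨hB0, hBord⟩ := br18_ord_aeval_eq_zero P x c hpos b hb
  -- the polynomial `a - j₀ b` vanishes at `c`
  have hroot : (a - C j₀ * b).IsRoot c := by
    rw [IsRoot.def, eval_sub, eval_mul, eval_C, hj₀, div_mul_cancel₀ _ hb, sub_self]
  have hfac := mul_divByMonic_eq_iff_isRoot.mpr hroot
  have hQ : aeval x ((a - C j₀ * b) /ₘ (X - C c)) ∈ P.toValuationSubring :=
    br18_aeval_mem P x hx _
  have hkey : (JF M - algebraMap Kb (FN M) j₀) * aeval x b
      = (x - algebraMap Kb (FN M) c) * aeval x ((a - C j₀ * b) /ₘ (X - C c)) := by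
    have h1 : aeval x (a - C j₀ * b)
        = (x - algebraMap Kb (FN M) c) * aeval x ((a - C j₀ * b) /ₘ (X - C c)) := by
      conv_lhs => rw [← hfac]
      rw [map_mul, map_sub, aeval_X, aeval_C]
    rw [← h1, map_sub, map_mul, aeval_C, sub_mul, hrel]
  have hJ0 := br18_JF_sub_ne_zero M j₀
  have hQ0 : aeval x ((a - C j₀ * b) /ₘ (X - C c)) ≠ 0 := by
    intro h0
    rw [h0, mul_zero] at hkey
    exact mul_ne_zero hJ0 hB0 hkey
  have hords := congrArg P.ord hkey
  rw [P.ord_mul hJ0 hB0, P.ord_mul hxc0 hQ0, hBord, add_zero] at hords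
  have hQord := ord_nonneg_of_mem P hQ
  have hJpos : 0 < P.ord (JF M - algebraMap Kb (FN M) j₀) := by omega
  have hJ1 := br18_ord_j_generic M P j₀ hj0 hj1 hJpos
  omega

/-- **over `j = 0`**, at a triple root. -/
theorem br18_tower_zero : br18_tower_zero_stmt := by
  intro M _ P x a b g c hrel hb ha hpos
  have hxc0 : x - algebraMap Kb (FN M) c ≠ 0 := ne_zero_of_ord_ne_zero P (by omega)
  have hx := br18_mem_of_pos P x c hpos
  obtain ⟨hB0, hBord⟩ := br18_ord_aeval_eq_zero P x c hpos b hb
  have hG : aeval x g ∈ P.toValuationSubring := br18_aeval_mem P x hx _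
  have hkey : JF M * aeval x b = (x - algebraMap Kb (FN M) c) ^ 3 * aeval x g := by
    rw [hrel, ha, map_mul, map_pow, map_sub, aeval_X, aeval_C]
  have hJ0 := br18_JF_ne_zero M
  have hG0 : aeval x g ≠ 0 := by
    intro h0
    rw [h0, mul_zero] at hkey
    exact mul_ne_zero hJ0 hB0 hkey
  have hords := congrArg P.ord hkey
  have hpow : P.ord ((x - algebraMap Kb (FN M) c) ^ 3) = 3 * P.ord (x - algebraMap Kb (FN M) c) := by
    have := P.ord_zpow (x - algebraMap Kb (FN M) c) 3
    exact_mod_cast this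
  rw [P.ord_mul hJ0 hB0, P.ord_mul (pow_ne_zero 3 hxc0) hG0, hBord, add_zero, hpow] at hords
  have hGord := ord_nonneg_of_mem P hG
  have hJpos : 0 < P.ord (JF M) := by omega
  have hJ3 := Int.le_of_dvd (by norm_num) (br18_ord_j_zero M P hJpos)
  omega

/-- **over `j = 1728`**, at a double root. -/
theorem br18_tower_1728 : br18_tower_1728_stmt := by
  intro M _ P x a b g c hrel hb ha hpos
  have hxc0 : x - algebraMap Kb (FN M) c ≠ 0 := ne_zero_of_ord_ne_zero P (by omega)
  have hx := br18_mem_of_pos P x c hpos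
  obtain ⟨hB0, hBord⟩ := br18_ord_aeval_eq_zero P x c hpos b hb
  have hG : aeval x g ∈ P.toValuationSubring := br18_aeval_mem P x hx _
  have hkey : (JF M - algebraMap Kb (FN M) 1728) * aeval x b
      = (x - algebraMap Kb (FN M) c) ^ 2 * aeval x g := by
    have h1 : aeval x (a - C 1728 * b) = (x - algebraMap Kb (FN M) c) ^ 2 * aeval x g := by
      rw [ha, map_mul, map_pow, map_sub, aeval_X, aeval_C]
    rw [← h1, map_sub, map_mul, aeval_C, sub_mul, hrel]
  have hJ0 := br18_JF_sub_ne_zero M 1728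
  have hG0 : aeval x g ≠ 0 := by
    intro h0
    rw [h0, mul_zero] at hkey
    exact mul_ne_zero hJ0 hB0 hkey
  have hords := congrArg P.ord hkey
  have hpow : P.ord ((x - algebraMap Kb (FN M) c) ^ 2) = 2 * P.ord (x - algebraMap Kb (FN M) c) := by
    have := P.ord_zpow (x - algebraMap Kb (FN M) c) 2
    exact_mod_cast this
  rw [P.ord_mul hJ0 hB0, P.ord_mul (pow_ne_zero 2 hxc0) hG0, hBord, add_zero, hpow] at hords
  have hGord := ord_nonneg_of_mem P hG
  have hJpos : 0 < P.ord (JF M - algebraMap Kb (FN M) 1728) := by omega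
  have hJ2 := Int.le_of_dvd (by norm_num) (br18_ord_j_1728 M P hJpos)
  omega

/-- **the coordinate `u = 1/j`**. -/
theorem br18_inv_j : br18_inv_j_stmt := by
  intro M _ P c hc0 hc1 hpos
  refine br18_tower_generic M P (JF M)⁻¹ 1 X c ?_ ?_ ?_ ?_ hpos
  · rw [aeval_X, map_one, mul_inv_cancel₀ (br18_JF_ne_zero M)]
  · rwa [eval_X]
  · rw [eval_one]
    exact one_ne_zero
  · rw [eval_one, eval_X]
    intro h
    apply hc1
    rw [mul_comm, ← h]

end Fermat.Agent.S18Lib
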