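import Fermat.Agent.Lib.S18.BrExtend
import Fermat.Agent.Lib.S18.BrTower

/-!
# S18 library, chunk Br (ii)-(iv): unramifiedness at finite level, unit-times-power, lifting

* `br18_unram : br18_unram_stmt`;
* `br18_unit_pow : br18_unit_pow_stmt`;
* `br18_lift : br18_lift_stmt`;
* `br18_unram_of_tower` : `br18_unram` with the hypothesis on the roots of `f` replaced by the
  tower data `j * b(x) = a(x)`;
* the four packaged chart corollaries `br18_unram_h2`, `br18_unram_h2inv`, `br18_unram_h3`,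
  `br18_unram_h3inv`.
-/

set_option autoImplicit false

namespace Fermat.Agent.S18Lib

open AlgebraicCurve ModularCurve Polynomial IntermediateField
open Fermat.Agent.S24Lib

/-- `ι (f(x)) = f^φ(ι x)`. -/
theorem br18_map_aeval {M : ℕ} [NeZero M] {E FE : Type} [Field E] [Field FE] [Algebra E FE]
    (φ : E →+* Kb) (ι : FE →+* FN M)
    (hφ : ∀ e : E, ι (algebraMap E FE e) = algebraMap Kb (FN M) (φ e)) (x : FE)
    (f : Polynomial E) : ι (aeval x f) = aeval (ι x) (f.map φ) := by
  have hcomp : ι.comp (algebraMap E FE) = (algebraMap Kb (FN M)).comp φ := RingHom.ext hφ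
  rw [aeval_def, hom_eval₂, aeval_def, eval₂_map, hcomp]

/-- a non-unit of `W` has positive order at the place extending `W`. -/
theorem br18_ord_pos_of_nonunit {M : ℕ} [NeZero M] {FE : Type} [Field FE] (ι : FE →+* FN M)
    (W : ValuationSubring FE) (P : Place Kb (FN M))
    (hP : ∀ f : FE, f ∈ W ↔ ι f ∈ P.toValuationSubring) (g : FE) (hg : g ∈ W)
    (hginv : g⁻¹ ∉ W) : g ≠ 0 ∧ ι g ≠ 0 ∧ 0 < P.ord (ι g) := by
  have hg0 : g ≠ 0 := by
    intro h0
    apply hginv
    rw [h0, inv_zero]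
    exact W.zero_mem
  have hιg0 : ι g ≠ 0 := (map_ne_zero ι).mpr hg0
  refine ⟨hg0, hιg0, ?_⟩
  have h1 := (mem_toValuationSubring_iff P hιg0).mp ((hP g).mp hg)
  have h2 : ¬ 0 ≤ P.ord (ι g)⁻¹ := by
    intro h
    apply hginv
    rw [hP, map_inv₀]
    exact (mem_toValuationSubring_iff P (inv_ne_zero hιg0)).mpr h
  rw [P.ord_inv] at h2
  omega

/-- **(ii)** unramifiedness at finite level. -/
theorem br18_unram : br18_unram_stmt := by
  intro M _ E FE _ _ _ φ ι hφ W hW hE x f hf hx hgen hfx hfxinv g hg hginv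
  have : CharZero E := φ.charZero
  have hQ : ∀ n : ℕ, n ≠ 0 → ((n : FE))⁻¹ ∈ W := by
    intro n _
    have h1 : ((n : FE))⁻¹ = algebraMap E FE ((n : E)⁻¹) := by
      rw [map_inv₀, map_natCast]
    rw [h1]
    exact hE _
  obtain ⟨P, hP⟩ := br18_extend M FE ι W hW hQ
  obtain ⟨hy0, hιy0, hypos⟩ := br18_ord_pos_of_nonunit ι W P hP (aeval x f) hfx hfxinv
  have hιy : ι (aeval x f) = aeval (ι x) (f.map φ) := br18_map_aeval φ ι hφ x f
  have hxP : ι x ∈ P.toValuationSubring := (hP x).mp hx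
  have key : P.ord (ι (aeval x f)) = 1 := by
    by_cases hxK : ι x ∈ Set.range (algebraMap Kb (FN M))
    · exfalso
      obtain ⟨c, hc⟩ := hxK
      have h1 : ι (aeval x f) = algebraMap Kb (FN M) ((f.map φ).eval c) := by
        rw [hιy, ← hc, aeval_algebraMap_apply_eq_algebraMap_eval]
      rw [h1, ord_algebraMap] at hypos
      exact lt_irrefl _ hypos
    · have hx0 : ι x ≠ 0 := fun h => hxK ⟨0, by rw [h, map_zero]⟩
      have := finite_JF M
      obtain ⟨c, hc⟩ := exists_ord_sub_pos (JF M) (transcendental_JF M) P (ι x)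
        ((mem_toValuationSubring_iff P hx0).mp hxP) hxK
      have hroot : (f.map φ).IsRoot c := by
        by_contra hnr
        have h1 := (br18_ord_aeval_eq_zero P (ι x) c hc (f.map φ) hnr).2
        rw [← hιy] at h1
        omega
      have hord1 := hgen P c hroot hc
      have hfac := mul_divByMonic_eq_iff_isRoot.mpr hroot
      have hsep : (f.map φ).Separable := hf.separable.map
      have hqc : ((f.map φ) /ₘ (X - C c)).eval c ≠ 0 := by
        intro h0
        have h1 := hsep.eval₂_derivative_ne_zero (RingHom.id Kb) (x := c)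
          (by rw [eval₂_id]; exact hroot)
        rw [eval₂_id] at h1
        apply h1
        rw [← hfac, derivative_mul]
        simp [h0]
      obtain ⟨hq0, hqord⟩ := br18_ord_aeval_eq_zero P (ι x) c hc _ hqc
      have hxc0 : ι x - algebraMap Kb (FN M) c ≠ 0 := ne_zero_of_ord_ne_zero P (by omega)
      have h2 : ι (aeval x f)
          = (ι x - algebraMap Kb (FN M) c) * aeval (ι x) ((f.map φ) /ₘ (X - C c)) := by
        rw [hιy]
        conv_lhs => rw [← hfac]
        rw [map_mul, map_sub, aeval_X, aeval_C]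
      rw [h2, P.ord_mul hxc0 hq0, hqord, add_zero, hord1]
  obtain ⟨hg0, hιg0, hgpos⟩ := br18_ord_pos_of_nonunit ι W P hP g hg hginv
  refine ⟨g * (aeval x f)⁻¹, ?_, ?_⟩
  · rw [hP, map_mul, map_inv₀,
      mem_toValuationSubring_iff P (mul_ne_zero hιg0 (inv_ne_zero hιy0)),
      P.ord_mul hιg0 (inv_ne_zero hιy0), P.ord_inv, key]
    omega
  · rw [mul_comm g, ← mul_assoc, mul_inv_cancel₀ hy0, one_mul]

/-- **(iii)** unit times an `m`-th power. -/
theorem br18_unit_pow : br18_unit_pow_stmt := by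
  intro M _ FE _ ι W hW hQ w m hw hdiv hunif
  obtain ⟨P, hP⟩ := br18_extend M FE ι W hW hQ
  have hunit : ∀ u : FE, u ≠ 0 → P.ord (ι u) = 0 → u ∈ W ∧ u⁻¹ ∈ W := by
    intro u hu hord
    have h1 := (ord_eq_zero_iff_mem_and_inv_mem P ((map_ne_zero ι).mpr hu)).mp hord
    refine ⟨(hP u).mpr h1.1, (hP _).mpr ?_⟩
    rw [map_inv₀]
    exact h1.2
  by_cases h0 : P.ord (ι w) = 0
  · exact ⟨1, w, (hunit w hw h0).1, (hunit w hw h0).2, by rw [one_pow, mul_one]⟩
  · obtain ⟨t, ht⟩ := hunif P h0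
    obtain ⟨n, hn⟩ := hdiv P
    have ht0 : t ≠ 0 := by
      intro h
      rw [h, map_zero, Place.ord_zero] at ht
      exact zero_ne_one ht
    have hc0 : t ^ n ≠ 0 := zpow_ne_zero n ht0
    have hcm0 : (t ^ n) ^ m ≠ 0 := pow_ne_zero m hc0
    have hordc : P.ord (ι ((t ^ n) ^ m)) = (m : ℤ) * n := by
      rw [map_pow, map_zpow₀, ← zpow_natCast, P.ord_zpow, P.ord_zpow, ht, mul_one]
    have hu0 : w * ((t ^ n) ^ m)⁻¹ ≠ 0 := mul_ne_zero hw (inv_ne_zero hcm0)
    have hordu : P.ord (ι (w * ((t ^ n) ^ m)⁻¹)) = 0 := by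
      rw [map_mul, map_inv₀, P.ord_mul ((map_ne_zero ι).mpr hw)
        (inv_ne_zero ((map_ne_zero ι).mpr hcm0)), P.ord_inv, hordc, hn]
      ring
    refine ⟨t ^ n, w * ((t ^ n) ^ m)⁻¹, (hunit _ hu0 hordu).1, (hunit _ hu0 hordu).2, ?_⟩
    rw [mul_assoc, inv_mul_cancel₀ hcm0, mul_one]

/-- **(iv)** divisibility of all orders lifts from level `N` to level `M`. -/
theorem br18_lift : br18_lift_stmt := by
  intro N M _ _ hle w m hdiv P
  have hinc0 : ∀ f : FN N, f ≠ 0 → IntermediateField.inclusion hle f ≠ 0 := fun f hf =>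
    (map_ne_zero (IntermediateField.inclusion hle)).mpr hf
  have hJ : IntermediateField.inclusion hle (JF N) = JF M := rfl
  have hw : IsIntVal (fun f : FN N => P.ord (IntermediateField.inclusion hle f)) :=
    { map_mul := fun a b ha hb => by
        show P.ord (IntermediateField.inclusion hle (a * b)) = _
        rw [map_mul, P.ord_mul (hinc0 a ha) (hinc0 b hb)]
      map_add := fun a b ha hb hab => by
        show min _ _ ≤ P.ord (IntermediateField.inclusion hle (a + b))
        rw [map_add]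
        refine (isIntVal_ord P).map_add _ _ (hinc0 a ha) (hinc0 b hb) ?_
        rw [← map_add]
        exact hinc0 _ hab }
  have hK : ∀ c : Kb, c ≠ 0 →
      (fun f : FN N => P.ord (IntermediateField.inclusion hle f)) (algebraMap Kb (FN N) c) = 0 := by
    intro c _
    show P.ord (IntermediateField.inclusion hle (algebraMap Kb (FN N) c)) = 0
    rw [AlgHom.commutes, ord_algebraMap]
  have hne : ∃ f : FN N, f ≠ 0 ∧
      (fun f : FN N => P.ord (IntermediateField.inclusion hle f)) f ≠ 0 := by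
    by_cases h0 : P.ord (JF M) = 0
    · have := finite_JF M
      have hJK : JF M ∉ Set.range (algebraMap Kb (FN M)) := by
        rintro ⟨c, hc⟩
        apply transcendental_JF M
        rw [← hc]
        exact isAlgebraic_algebraMap c
      obtain ⟨c, hc⟩ := exists_ord_sub_pos (JF M) (transcendental_JF M) P (JF M) h0.ge hJK
      refine ⟨JF N - algebraMap Kb (FN N) c, ?_, ?_⟩
      · intro h
        apply transcendental_JF N
        rw [sub_eq_zero.mp h]
        exact isAlgebraic_algebraMap c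
      · show P.ord (IntermediateField.inclusion hle (JF N - algebraMap Kb (FN N) c)) ≠ 0
        rw [map_sub, AlgHom.commutes, hJ]
        exact hc.ne'
    · refine ⟨JF N, ?_, ?_⟩
      · intro h
        apply transcendental_JF N
        rw [h]
        exact isAlgebraic_zero
      · show P.ord (IntermediateField.inclusion hle (JF N)) ≠ 0
        rw [hJ]
        exact h0
  obtain ⟨v, κ, _, hv⟩ := exists_place_of_isIntVal _ hw hK hne
  rcases eq_or_ne w 0 with rfl | hw0
  · rw [map_zero, Place.ord_zero]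
    exact dvd_zero _
  · have h1 : P.ord (IntermediateField.inclusion hle w) = κ * v.ord w := hv w hw0
    rw [h1]
    exact Dvd.dvd.mul_left (hdiv v) κ

/-! ### packaged forms -/

/-- a root of `f^φ` is not the image of a non-root of `f`. -/
theorem br18_root_ne {E : Type} [Field E] (φ : E →+* Kb) (f : Polynomial E) (e : E)
    (he : f.eval e ≠ 0) (c : Kb) (hc : (f.map φ).IsRoot c) : c ≠ φ e := by
  rintro rfl
  rw [IsRoot.def, eval_map, eval₂_hom] at hc
  exact he ((map_eq_zero φ).mp hc)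

/-- `br18_unram` with the root hypothesis supplied by the tower `j * b(x) = a(x)`. -/
theorem br18_unram_of_tower (M : ℕ) [NeZero M] (E FE : Type) [Field E] [Field FE]
    [Algebra E FE] (φ : E →+* Kb) (ι : FE →+* FN M)
    (hφ : ∀ e : E, ι (algebraMap E FE e) = algebraMap Kb (FN M) (φ e))
    (W : ValuationSubring FE) (hW : W ≠ ⊤) (hE : ∀ e : E, algebraMap E FE e ∈ W)
    (x : FE) (hx : x ∈ W) (a b : Polynomial Kb)
    (hrel : JF M * aeval (ι x) b = aeval (ι x) a)
    (f : Polynomial E) (hf : Irreducible f)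
    (hroots : ∀ c : Kb, (f.map φ).IsRoot c → b.eval c ≠ 0 ∧
      ((a.eval c ≠ 0 ∧ a.eval c ≠ 1728 * b.eval c) ∨
        (∃ g : Polynomial Kb, a = (X - C c) ^ 3 * g) ∨
        ∃ g : Polynomial Kb, a - C 1728 * b = (X - C c) ^ 2 * g))
    (hfx : aeval x f ∈ W) (hfxinv : (aeval x f)⁻¹ ∉ W) :
    ∀ g : FE, g ∈ W → g⁻¹ ∉ W → ∃ y : FE, y ∈ W ∧ g = aeval x f * y := by
  refine br18_unram M E FE φ ι hφ W hW hE x f hf hx ?_ hfx hfxinv
  intro P c hc hpos
  obtain ⟨hb, h | ⟨g, hg⟩ | ⟨g, hg⟩⟩ := hroots c hc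
  · exact br18_tower_generic M P (ι x) a b c hrel hb h.1 h.2 hpos
  · exact br18_tower_zero M P (ι x) a b g c hrel hb hg hpos
  · exact br18_tower_1728 M P (ι x) a b g c hrel hb hg hpos

theorem br18_C_eq_zero {c : Kb} (p : Polynomial ℤ) (h : aeval c p = 0) :
    aeval (C c : Polynomial Kb) p = 0 := by
  have h1 : aeval (C c : Polynomial Kb) p = C (aeval c p) := by
    rw [← algebraMap_eq, aeval_algebraMap_apply]
  rw [h1, h, map_zero]

/-- **chart `x = h₂`**: `j x² = (x + 256)³`. -/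
theorem br18_unram_h2 (M : ℕ) [NeZero M] (E FE : Type) [Field E] [Field FE]
    [Algebra E FE] (φ : E →+* Kb) (ι : FE →+* FN M)
    (hφ : ∀ e : E, ι (algebraMap E FE e) = algebraMap Kb (FN M) (φ e))
    (W : ValuationSubring FE) (hW : W ≠ ⊤) (hE : ∀ e : E, algebraMap E FE e ∈ W)
    (x : FE) (hx : x ∈ W) (hrel : JF M * ι x ^ 2 = (ι x + 256) ^ 3)
    (f : Polynomial E) (hf : Irreducible f) (hf0 : f.eval 0 ≠ 0) (hfbr : f.eval (-64) ≠ 0)
    (hfx : aeval x f ∈ W) (hfxinv : (aeval x f)⁻¹ ∉ W) :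
    ∀ g : FE, g ∈ W → g⁻¹ ∉ W → ∃ y : FE, y ∈ W ∧ g = aeval x f * y := by
  have hrel' : JF M * aeval (ι x) (X ^ 2 : Polynomial Kb)
      = aeval (ι x) ((X + 256) ^ 3 : Polynomial Kb) := by
    rw [aeval_def, aeval_def, eval₂_pow, eval₂_X, eval₂_pow, eval₂_add, eval₂_X, eval₂_ofNat]
    exact hrel
  refine br18_unram_of_tower M E FE φ ι hφ W hW hE x hx ((X + 256) ^ 3) (X ^ 2)
    hrel' f hf ?_ hfx hfxinv
  intro c hc
  have hc0 : c ≠ 0 := by
    have h := br18_root_ne φ f 0 hf0 c hc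
    rwa [map_zero] at h
  have hcbr : c ≠ -64 := by
    have h := br18_root_ne φ f (-64) hfbr c hc
    rwa [map_neg, map_ofNat] at h
  refine ⟨by simpa using hc0, ?_⟩
  by_cases h1 : c + 256 = 0
  · right; left
    have hC : (C c : Polynomial Kb) + 256 = 0 := by
      have := congrArg (C : Kb →+* Polynomial Kb) h1
      simpa only [map_add, map_sub, map_mul, map_pow, map_one, map_zero, map_ofNat] using this
    refine ⟨1, ?_⟩
    linear_combination ((X + 256) ^ 2 + (X + 256) * (X - C c) + (X - C c) ^ 2) * hC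
  by_cases h2 : c - 512 = 0
  · right; right
    have hC : (C c : Polynomial Kb) - 512 = 0 := by
      have := congrArg (C : Kb →+* Polynomial Kb) h2
      simpa only [map_add, map_sub, map_mul, map_pow, map_one, map_zero, map_ofNat] using this
    refine ⟨X + 64, ?_⟩
    rw [map_ofNat]
    linear_combination (X + 64) * (2 * X - 512 - C c) * hC
  left
  simp only [eval_pow, eval_add, eval_X, eval_ofNat]
  refine ⟨pow_ne_zero 3 h1, fun h => ?_⟩
  have h3 : (c + 64) * (c - 512) ^ 2 = 0 := by linear_combination h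
  rcases mul_eq_zero.mp h3 with h4 | h4
  · exact hcbr (eq_neg_of_add_eq_zero_left h4)
  · exact h2 (pow_eq_zero_iff two_ne_zero |>.mp h4)

/-- **chart `x = 1/h₂`**: `j x = (1 + 256 x)³`. -/
theorem br18_unram_h2inv (M : ℕ) [NeZero M] (E FE : Type) [Field E] [Field FE]
    [Algebra E FE] (φ : E →+* Kb) (ι : FE →+* FN M)
    (hφ : ∀ e : E, ι (algebraMap E FE e) = algebraMap Kb (FN M) (φ e))
    (W : ValuationSubring FE) (hW : W ≠ ⊤) (hE : ∀ e : E, algebraMap E FE e ∈ W)
    (x : FE) (hx : x ∈ W) (hrel : JF M * ι x = (1 + 256 * ι x) ^ 3)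
    (f : Polynomial E) (hf : Irreducible f) (hf0 : f.eval 0 ≠ 0)
    (hfbr : f.eval (-1 / 64) ≠ 0)
    (hfx : aeval x f ∈ W) (hfxinv : (aeval x f)⁻¹ ∉ W) :
    ∀ g : FE, g ∈ W → g⁻¹ ∉ W → ∃ y : FE, y ∈ W ∧ g = aeval x f * y := by
  have hrel' : JF M * aeval (ι x) (X : Polynomial Kb)
      = aeval (ι x) ((1 + 256 * X) ^ 3 : Polynomial Kb) := by
    rw [aeval_def, aeval_def, eval₂_X, eval₂_pow, eval₂_add, eval₂_mul, eval₂_X, eval₂_ofNat,
      eval₂_one]
    exact hrel
  refine br18_unram_of_tower M E FE φ ι hφ W hW hE x hx ((1 + 256 * X) ^ 3) X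
    hrel' f hf ?_ hfx hfxinv
  intro c hc
  have hc0 : c ≠ 0 := by
    have h := br18_root_ne φ f 0 hf0 c hc
    rwa [map_zero] at h
  have hcbr : c ≠ -1 / 64 := by
    have h := br18_root_ne φ f (-1 / 64) hfbr c hc
    rwa [map_div₀, map_neg, map_one, map_ofNat] at h
  refine ⟨by simpa using hc0, ?_⟩
  by_cases h1 : 256 * c + 1 = 0
  · right; left
    have hC : 256 * (C c : Polynomial Kb) + 1 = 0 := by
      have := congrArg (C : Kb →+* Polynomial Kb) h1
      simpa only [map_add, map_sub, map_mul, map_pow, map_one, map_zero, map_ofNat] using this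
    refine ⟨256 ^ 3, ?_⟩
    linear_combination ((1 + 256 * X) ^ 2 + (1 + 256 * X) * (256 * X - 256 * C c)
        + (256 * X - 256 * C c) ^ 2) * hC
  by_cases h2 : 512 * c - 1 = 0
  · right; right
    have hC : 512 * (C c : Polynomial Kb) - 1 = 0 := by
      have := congrArg (C : Kb →+* Polynomial Kb) h2
      simpa only [map_add, map_sub, map_mul, map_pow, map_one, map_zero, map_ofNat] using this
    refine ⟨512 ^ 2 * (1 + 64 * X), ?_⟩
    rw [map_ofNat]
    linear_combination (1 + 64 * X) * (1024 * X - 1 - 512 * C c) * hC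
  left
  simp only [eval_pow, eval_add, eval_mul, eval_X, eval_ofNat, eval_one]
  refine ⟨pow_ne_zero 3 (fun h => h1 (by linear_combination h)), fun h => ?_⟩
  have h3 : (1 + 64 * c) * (512 * c - 1) ^ 2 = 0 := by linear_combination h
  rcases mul_eq_zero.mp h3 with h4 | h4
  · exact hcbr (by linear_combination (1 / 64 : Kb) * h4)
  · exact h2 (pow_eq_zero_iff two_ne_zero |>.mp h4)

/-- **chart `x = h₃`**: `j x³ = (x + 27)(x + 243)³`. -/
theorem br18_unram_h3 (M : ℕ) [NeZero M] (E FE : Type) [Field E] [Field FE]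
    [Algebra E FE] (φ : E →+* Kb) (ι : FE →+* FN M)
    (hφ : ∀ e : E, ι (algebraMap E FE e) = algebraMap Kb (FN M) (φ e))
    (W : ValuationSubring FE) (hW : W ≠ ⊤) (hE : ∀ e : E, algebraMap E FE e ∈ W)
    (x : FE) (hx : x ∈ W) (hrel : JF M * ι x ^ 3 = (ι x + 27) * (ι x + 243) ^ 3)
    (f : Polynomial E) (hf : Irreducible f) (hf0 : f.eval 0 ≠ 0) (hfbr : f.eval (-27) ≠ 0)
    (hfx : aeval x f ∈ W) (hfxinv : (aeval x f)⁻¹ ∉ W) :
    ∀ g : FE, g ∈ W → g⁻¹ ∉ W → ∃ y : FE, y ∈ W ∧ g = aeval x f * y := by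
  have hrel' : JF M * aeval (ι x) (X ^ 3 : Polynomial Kb)
      = aeval (ι x) ((X + 27) * (X + 243) ^ 3 : Polynomial Kb) := by
    rw [aeval_def, aeval_def, eval₂_pow, eval₂_X, eval₂_mul, eval₂_pow, eval₂_add, eval₂_add,
      eval₂_X, eval₂_ofNat, eval₂_ofNat]
    exact hrel
  refine br18_unram_of_tower M E FE φ ι hφ W hW hE x hx ((X + 27) * (X + 243) ^ 3) (X ^ 3)
    hrel' f hf ?_ hfx hfxinv
  intro c hc
  have hc0 : c ≠ 0 := by
    have h := br18_root_ne φ f 0 hf0 c hc
    rwa [map_zero] at h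
  have hcbr : c ≠ -27 := by
    have h := br18_root_ne φ f (-27) hfbr c hc
    rwa [map_neg, map_ofNat] at h
  refine ⟨by simpa using hc0, ?_⟩
  by_cases h1 : c + 243 = 0
  · right; left
    have hC : (C c : Polynomial Kb) + 243 = 0 := by
      have := congrArg (C : Kb →+* Polynomial Kb) h1
      simpa only [map_add, map_sub, map_mul, map_pow, map_one, map_zero, map_ofNat] using this
    refine ⟨X + 27, ?_⟩
    linear_combination (X + 27) * ((X + 243) ^ 2 + (X + 243) * (X - C c) + (X - C c) ^ 2) * hC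
  by_cases h2 : c ^ 2 - 486 * c - 19683 = 0
  · right; right
    have hC : (C c : Polynomial Kb) ^ 2 - 486 * C c - 19683 = 0 := by
      have := congrArg (C : Kb →+* Polynomial Kb) h2
      simpa only [map_add, map_sub, map_mul, map_pow, map_one, map_zero, map_ofNat] using this
    refine ⟨(X - (486 - C c)) ^ 2, ?_⟩
    rw [map_ofNat]
    linear_combination (2 * (X ^ 2 - 486 * X - 19683) - (C c ^ 2 - 486 * C c - 19683)) * hC
  left
  simp only [eval_pow, eval_add, eval_mul, eval_X, eval_ofNat]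
  refine ⟨mul_ne_zero (fun h => hcbr (eq_neg_of_add_eq_zero_left h)) (pow_ne_zero 3 h1),
    fun h => ?_⟩
  have h3 : (c ^ 2 - 486 * c - 19683) ^ 2 = 0 := by linear_combination h
  exact h2 (pow_eq_zero_iff two_ne_zero |>.mp h3)

/-- **chart `x = 1/h₃`**: `j x = (1 + 27 x)(1 + 243 x)³`. -/
theorem br18_unram_h3inv (M : ℕ) [NeZero M] (E FE : Type) [Field E] [Field FE]
    [Algebra E FE] (φ : E →+* Kb) (ι : FE →+* FN M)
    (hφ : ∀ e : E, ι (algebraMap E FE e) = algebraMap Kb (FN M) (φ e))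
    (W : ValuationSubring FE) (hW : W ≠ ⊤) (hE : ∀ e : E, algebraMap E FE e ∈ W)
    (x : FE) (hx : x ∈ W) (hrel : JF M * ι x = (1 + 27 * ι x) * (1 + 243 * ι x) ^ 3)
    (f : Polynomial E) (hf : Irreducible f) (hf0 : f.eval 0 ≠ 0)
    (hfbr : f.eval (-1 / 27) ≠ 0)
    (hfx : aeval x f ∈ W) (hfxinv : (aeval x f)⁻¹ ∉ W) :
    ∀ g : FE, g ∈ W → g⁻¹ ∉ W → ∃ y : FE, y ∈ W ∧ g = aeval x f * y := by
  have hrel' : JF M * aeval (ι x) (X : Polynomial Kb)
      = aeval (ι x) ((1 + 27 * X) * (1 + 243 * X) ^ 3 : Polynomial Kb) := by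
    rw [aeval_def, aeval_def, eval₂_X, eval₂_mul, eval₂_pow, eval₂_add, eval₂_add, eval₂_mul,
      eval₂_mul, eval₂_X, eval₂_ofNat, eval₂_ofNat, eval₂_one]
    exact hrel
  refine br18_unram_of_tower M E FE φ ι hφ W hW hE x hx
    ((1 + 27 * X) * (1 + 243 * X) ^ 3) X hrel' f hf ?_ hfx hfxinv
  intro c hc
  have hc0 : c ≠ 0 := by
    have h := br18_root_ne φ f 0 hf0 c hc
    rwa [map_zero] at h
  have hcbr : c ≠ -1 / 27 := by
    have h := br18_root_ne φ f (-1 / 27) hfbr c hc
    rwa [map_div₀, map_neg, map_one, map_ofNat] at h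
  refine ⟨by simpa using hc0, ?_⟩
  by_cases h1 : 243 * c + 1 = 0
  · right; left
    have hC : 243 * (C c : Polynomial Kb) + 1 = 0 := by
      have := congrArg (C : Kb →+* Polynomial Kb) h1
      simpa only [map_add, map_sub, map_mul, map_pow, map_one, map_zero, map_ofNat] using this
    refine ⟨243 ^ 3 * (1 + 27 * X), ?_⟩
    linear_combination (1 + 27 * X) * ((1 + 243 * X) ^ 2 + (1 + 243 * X) * (243 * X - 243 * C c)
        + (243 * X - 243 * C c) ^ 2) * hC
  by_cases h2 : 19683 * c ^ 2 + 486 * c - 1 = 0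
  · right; right
    have hC : 19683 * (C c : Polynomial Kb) ^ 2 + 486 * C c - 1 = 0 := by
      have := congrArg (C : Kb →+* Polynomial Kb) h2
      simpa only [map_add, map_sub, map_mul, map_pow, map_one, map_zero, map_ofNat] using this
    refine ⟨(19683 * X + 486 + 19683 * C c) ^ 2, ?_⟩
    rw [map_ofNat]
    linear_combination (-(2 * (1 - 486 * X - 19683 * X ^ 2)
        + (19683 * C c ^ 2 + 486 * C c - 1))) * hC
  left
  simp only [eval_pow, eval_add, eval_mul, eval_X, eval_ofNat, eval_one]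
  refine ⟨mul_ne_zero (fun h => hcbr (by linear_combination (1 / 27 : Kb) * h))
    (pow_ne_zero 3 (fun h => h1 (by linear_combination h))), fun h => ?_⟩
  have h3 : (19683 * c ^ 2 + 486 * c - 1) ^ 2 = 0 := by linear_combination h
  exact h2 (pow_eq_zero_iff two_ne_zero |>.mp h3)

end Fermat.Agent.S18Lib
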