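import Fermat.Agent.Lib.S18.GrIface

/-!
# S18: functoriality in the base field and `F_N^K = ⋃ F_N^E₀`
(`gr18_mono_stmt`, `gr18_union_stmt`)
-/

set_option autoImplicit false

namespace Fermat.Agent.S18Lib

open ModularCurve IntermediateField

theorem cg18_coeffMap_algebraMap {E E' : Type*} [Field E] [Field E'] (φ : E →+* E') (c : E) :
    coeffMap φ (algebraMap E (LaurentSeries E) c) = algebraMap E' (LaurentSeries E') (φ c) := by
  rw [algebraMap_laurentSeries_eq_single, algebraMap_laurentSeries_eq_single, coeffMap_single]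

theorem cg18_coeffMap_coeffEmb {E E' : Type*} [Field E] [Field E'] [Algebra ℚ E] [Algebra ℚ E']
    (φ : E →+* E') (x : LaurentSeries ℚ) : coeffMap φ (coeffEmb E x) = coeffEmb E' x := by
  rw [coeffEmb, coeffMap_coeffMap]
  exact coeffMap_congr (Subsingleton.elim _ _) x

theorem cg18_mono_gen (F₀ : IntermediateField ℚ (LaurentSeries ℚ)) {E E' : Type*} [Field E]
    [Field E'] [Algebra ℚ E] [Algebra ℚ E'] (φ : E →+* E') {y : LaurentSeries E}
    (hy : y ∈ laurentBaseChange E F₀) : coeffMap φ y ∈ laurentBaseChange E' F₀ := by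
  rw [mem_laurentBaseChange_iff] at hy
  induction hy using Subfield.closure_induction with
  | mem y hy =>
      rcases hy with ⟨a, rfl⟩ | ⟨z, hz, rfl⟩
      · rw [cg18_coeffMap_algebraMap]
        exact (laurentBaseChange E' F₀).algebraMap_mem _
      · rw [cg18_coeffMap_coeffEmb]
        exact coeffEmb_mem_laurentBaseChange E' hz
  | one => simp
  | add x y _ _ hx hy => simpa using add_mem hx hy
  | neg x _ hx => simpa using neg_mem hx
  | inv x _ hx => simpa using inv_mem hx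
  | mul x y _ _ hx hy => simpa using mul_mem hx hy

/-- functoriality of `F_N^E` in the base field. -/
theorem cg18_mono : gr18_mono_stmt := by
  intro N E E' _ _ _ _ φ y hy
  exact cg18_mono_gen _ φ hy

/-- `x` is defined over the subfield `E₀` of `ℚbar`. -/
def cg18_DefOver (N : ℕ) (x : LaurentSeries (AlgebraicClosure ℚ))
    (E₀ : IntermediateField ℚ (AlgebraicClosure ℚ)) : Prop :=
  ∃ y : LaurentSeries E₀, y ∈ gr18_F E₀ N ∧
    coeffMap (algebraMap E₀ (AlgebraicClosure ℚ)) y = x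

theorem cg18_defOver_mono {N : ℕ} {x : LaurentSeries (AlgebraicClosure ℚ)}
    {E₁ E₂ : IntermediateField ℚ (AlgebraicClosure ℚ)} (h : E₁ ≤ E₂)
    (hx : cg18_DefOver N x E₁) : cg18_DefOver N x E₂ := by
  obtain ⟨y, hy, rfl⟩ := hx
  refine ⟨coeffMap (IntermediateField.inclusion h).toRingHom y, cg18_mono_gen _ _ hy, ?_⟩
  rw [coeffMap_coeffMap]
  exact coeffMap_congr (RingHom.ext fun c => rfl) y

theorem cg18_exists_defOver (N : ℕ) {x : LaurentSeries (AlgebraicClosure ℚ)}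
    (hx : x ∈ laurentBaseChange (AlgebraicClosure ℚ) (modularFunctionFieldFull N)) :
    ∃ E₀ : IntermediateField ℚ (AlgebraicClosure ℚ),
      FiniteDimensional ℚ E₀ ∧ cg18_DefOver N x E₀ := by
  rw [mem_laurentBaseChange_iff] at hx
  induction hx using Subfield.closure_induction with
  | mem y hy =>
      rcases hy with ⟨a, rfl⟩ | ⟨z, hz, rfl⟩
      · refine ⟨ℚ⟮a⟯, IntermediateField.adjoin.finiteDimensional
          ((AlgebraicClosure.isAlgebraic ℚ).isAlgebraic a).isIntegral, ?_⟩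
        refine ⟨algebraMap ℚ⟮a⟯ (LaurentSeries ℚ⟮a⟯) ⟨a, mem_adjoin_simple_self ℚ a⟩,
          (gr18_F _ N).algebraMap_mem _, ?_⟩
        rw [cg18_coeffMap_algebraMap]
        rfl
      · exact ⟨⊥, inferInstance, coeffEmb _ z, coeffEmb_mem_laurentBaseChange _ hz,
          cg18_coeffMap_coeffEmb _ z⟩
  | one => exact ⟨⊥, inferInstance, 1, one_mem _, map_one _⟩
  | add x y _ _ hx hy =>
      obtain ⟨E₁, h₁, d₁⟩ := hx
      obtain ⟨E₂, h₂, d₂⟩ := hy
      obtain ⟨y₁, hy₁, rfl⟩ := cg18_defOver_mono (le_sup_left : E₁ ≤ E₁ ⊔ E₂) d₁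
      obtain ⟨y₂, hy₂, rfl⟩ := cg18_defOver_mono (le_sup_right : E₂ ≤ E₁ ⊔ E₂) d₂
      exact ⟨E₁ ⊔ E₂, IntermediateField.finiteDimensional_sup E₁ E₂, y₁ + y₂,
        add_mem hy₁ hy₂, map_add _ _ _⟩
  | neg x _ hx =>
      obtain ⟨E₁, h₁, y₁, hy₁, rfl⟩ := hx
      exact ⟨E₁, h₁, -y₁, neg_mem hy₁, map_neg _ _⟩
  | inv x _ hx =>
      obtain ⟨E₁, h₁, y₁, hy₁, rfl⟩ := hx
      exact ⟨E₁, h₁, y₁⁻¹, inv_mem hy₁, map_inv₀ _ _⟩
  | mul x y _ _ hx hy =>
      obtain ⟨E₁, h₁, d₁⟩ := hx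
      obtain ⟨E₂, h₂, d₂⟩ := hy
      obtain ⟨y₁, hy₁, rfl⟩ := cg18_defOver_mono (le_sup_left : E₁ ≤ E₁ ⊔ E₂) d₁
      obtain ⟨y₂, hy₂, rfl⟩ := cg18_defOver_mono (le_sup_right : E₂ ≤ E₁ ⊔ E₂) d₂
      exact ⟨E₁ ⊔ E₂, IntermediateField.finiteDimensional_sup E₁ E₂, y₁ * y₂,
        mul_mem hy₁ hy₂, map_mul _ _ _⟩

/-- `F_N^K` is the union of the `F_N^E₀`, `E₀` finite over `ℚ`. -/
theorem cg18_union : gr18_union_stmt := by
  intro N _ s t hs
  classical
  induction s using Finset.induction_on with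
  | empty =>
    refine ⟨IntermediateField.adjoin ℚ (t : Set (AlgebraicClosure ℚ)), ?_,
      fun c hc => subset_adjoin ℚ _ hc, fun x hx => absurd hx (Finset.notMem_empty x)⟩
    exact IntermediateField.finiteDimensional_adjoin
      (fun x _ => ((AlgebraicClosure.isAlgebraic ℚ).isAlgebraic x).isIntegral)
  | insert a s ha ih =>
    obtain ⟨E₁, h₁, ht, hs'⟩ := ih (fun x hx => hs x (Finset.mem_insert_of_mem hx))
    obtain ⟨E₂, h₂, d₂⟩ := cg18_exists_defOver N (hs a (Finset.mem_insert_self a s))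
    refine ⟨E₁ ⊔ E₂, IntermediateField.finiteDimensional_sup E₁ E₂,
      fun c hc => (le_sup_left : E₁ ≤ E₁ ⊔ E₂) (ht c hc), ?_⟩
    intro x hx
    rcases Finset.mem_insert.mp hx with rfl | hx
    · exact cg18_defOver_mono le_sup_right d₂
    · exact cg18_defOver_mono le_sup_left (hs' x hx)

end Fermat.Agent.S18Lib
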