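import Mathlib

/-!
# S18 sprint, chunk H2: the pure algebra of the level-2 modular equation

`j * h ^ 2 = (h + 256) ^ 3`:
* `h2_alg_1728`: `(j - 1728) * h ^ 2 = (h + 64) * (h - 512) ^ 2`;
* `h2_alg_diff`, `h2_alg_cofactor`, `h2_alg_diff_j`: the tower factorisation of `φ(h) - φ(h₀)`,
  `φ(h) = (h + 256) ^ 3 / h ^ 2`;
* `h2_alg_j`: `j ∈ ℤ[h, 1/h]`;
* `h2_alg_isIntegral`, `h2_alg_isIntegral_inv`: `h` is integral over any ring containing `j`,
  `1/h` over any ring containing `j` in which `2` is invertible;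
* `h2_alg_int`, `h2_alg_int_inv`: the same for integrally closed subrings of `F`.
-/

set_option autoImplicit false

namespace Fermat.Agent.S18Lib

universe u v

theorem h2_alg_1728 {F : Type u} [CommRing F] (j h : F) (e : j * h ^ 2 = (h + 256) ^ 3) :
    (j - 1728) * h ^ 2 = (h + 64) * (h - 512) ^ 2 := by
  linear_combination e

theorem h2_alg_diff {F : Type u} [CommRing F] (h h0 : F) :
    (h + 256) ^ 3 * h0 ^ 2 - (h0 + 256) ^ 3 * h ^ 2 =
      (h - h0) * (h0 ^ 2 * h ^ 2 - 196608 * h * h0 - 16777216 * (h + h0)) := by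
  ring

theorem h2_alg_cofactor {F : Type u} [CommRing F] (h0 : F) :
    h0 ^ 2 * h0 ^ 2 - 196608 * h0 * h0 - 16777216 * (h0 + h0) =
      h0 * (h0 + 256) ^ 2 * (h0 - 512) := by
  ring

/-- Tower factorisation: if `j = φ(h)` and `j0 = φ(h0)` then
`(j - j0) h² h0² = (h - h0) G(h, h0)`. -/
theorem h2_alg_diff_j {F : Type u} [CommRing F] (j h j0 h0 : F)
    (e : j * h ^ 2 = (h + 256) ^ 3) (e0 : j0 * h0 ^ 2 = (h0 + 256) ^ 3) :
    (j - j0) * (h ^ 2 * h0 ^ 2) =
      (h - h0) * (h0 ^ 2 * h ^ 2 - 196608 * h * h0 - 16777216 * (h + h0)) := by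
  linear_combination h0 ^ 2 * e - h ^ 2 * e0

theorem h2_alg_j {F : Type u} [Field F] (j h : F) (hh : h ≠ 0)
    (e : j * h ^ 2 = (h + 256) ^ 3) :
    j = h + 768 + 196608 * h⁻¹ + 16777216 * h⁻¹ ^ 2 := by
  have h1 : j = (h + 256) ^ 3 / h ^ 2 := by
    rw [eq_div_iff (pow_ne_zero 2 hh)]; exact e
  rw [h1]
  field_simp
  ring

/-- `h` is a root of the monic cubic `X³ + (768 - j) X² + 196608 X + 16777216`. -/
theorem h2_alg_isIntegral {A : Type u} {F : Type v} [CommRing A] [CommRing F] [Algebra A F]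
    (a : A) (h : F) (e : algebraMap A F a * h ^ 2 = (h + 256) ^ 3) : IsIntegral A h := by
  refine ⟨Polynomial.X ^ 3 + (Polynomial.C (768 - a) * Polynomial.X ^ 2 +
    Polynomial.C 196608 * Polynomial.X + Polynomial.C 16777216), ?_, ?_⟩
  · apply Polynomial.monic_X_pow_add
    compute_degree!
  · simp only [Polynomial.eval₂_add, Polynomial.eval₂_mul, Polynomial.eval₂_pow,
      Polynomial.eval₂_X, Polynomial.eval₂_C]
    simp only [map_sub, map_ofNat]
    linear_combination -e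

/-- `1/h` is a root of the monic cubic
`X³ + 3·2⁻⁸ X² + 2⁻²⁴ (768 - j) X + 2⁻²⁴`. -/
theorem h2_alg_isIntegral_inv {A : Type u} {F : Type v} [CommRing A] [CommRing F] [Algebra A F]
    (a c : A) (hc : c * 2 = 1) (h g : F) (hg : h * g = 1)
    (e : algebraMap A F a * h ^ 2 = (h + 256) ^ 3) : IsIntegral A g := by
  refine ⟨Polynomial.X ^ 3 + (Polynomial.C (3 * c ^ 8) * Polynomial.X ^ 2 +
    Polynomial.C (c ^ 24 * (768 - a)) * Polynomial.X + Polynomial.C (c ^ 24)), ?_, ?_⟩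
  · apply Polynomial.monic_X_pow_add
    compute_degree!
  · simp only [Polynomial.eval₂_add, Polynomial.eval₂_mul, Polynomial.eval₂_pow,
      Polynomial.eval₂_X, Polynomial.eval₂_C]
    simp only [map_sub, map_mul, map_pow, map_ofNat]
    have hc' : algebraMap A F c * 2 = 1 := by
      have := congrArg (algebraMap A F) hc
      simpa only [map_mul, map_ofNat, map_one] using this
    generalize algebraMap A F c = C at hc' ⊢
    generalize algebraMap A F a = J at e ⊢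
    -- `(1 + 256 g)³ = J g`
    have e' : (1 + 256 * g) ^ 3 = J * g := by
      have h4 : J * g = g ^ 3 * (J * h ^ 2) := by
        have : g ^ 3 * (J * h ^ 2) = (h * g) ^ 2 * (J * g) := by ring
        rw [this, hg]; ring
      have h5 : (1 + 256 * g) ^ 3 = g ^ 3 * (h + 256) ^ 3 := by
        have : g ^ 3 * (h + 256) ^ 3 = (h * g + 256 * g) ^ 3 := by ring
        rw [this, hg]
      rw [h5, h4, e]
    have hC24 : C ^ 24 * 16777216 = 1 := by
      have : C ^ 24 * 16777216 = (C * 2) ^ 24 := by ring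
      rw [this, hc', one_pow]
    have hC16 : C ^ 16 * 65536 = 1 := by
      have : C ^ 16 * 65536 = (C * 2) ^ 16 := by ring
      rw [this, hc', one_pow]
    -- `C²⁴ ((1+256 g)³ - J g) = g³ + 3 C⁸ g² + C²⁴ (768 - J) g + C²⁴`
    have key : g ^ 3 + (3 * C ^ 8 * g ^ 2 + C ^ 24 * (768 - J) * g + C ^ 24)
        = C ^ 24 * ((1 + 256 * g) ^ 3 - J * g)
          + (1 - C ^ 24 * 16777216) * g ^ 3 + 3 * C ^ 8 * (1 - C ^ 16 * 65536) * g ^ 2 := by
      ring
    rw [key, e', hC24, hC16]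
    ring

/-- `h ∈ O` for every integrally closed subring `O ∋ j`. -/
theorem h2_alg_int {F : Type u} [CommRing F] (j h : F) (e : j * h ^ 2 = (h + 256) ^ 3)
    (O : Subring F) (hO : ∀ x : F, IsIntegral O x → x ∈ O) (hj : j ∈ O) : h ∈ O :=
  hO h (h2_alg_isIntegral (A := O) ⟨j, hj⟩ h e)

/-- `h⁻¹ ∈ O` for every integrally closed subring `O ∋ j, 1/2` (`2 ≠ 0` in `F`). -/
theorem h2_alg_int_inv {F : Type u} [Field F] (j h : F) (hh : h ≠ 0)
    (e : j * h ^ 2 = (h + 256) ^ 3)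
    (O : Subring F) (hO : ∀ x : F, IsIntegral O x → x ∈ O) (hj : j ∈ O)
    (h20 : (2 : F) ≠ 0) (h2 : (2 : F)⁻¹ ∈ O) : h⁻¹ ∈ O :=
  hO _ (h2_alg_isIntegral_inv (A := O) ⟨j, hj⟩ ⟨(2 : F)⁻¹, h2⟩
    (Subtype.ext (by
      show (2 : F)⁻¹ * ((2 : O) : F) = 1
      rw [show ((2 : O) : F) = 2 from rfl, inv_mul_cancel₀ h20])) h h⁻¹ (mul_inv_cancel₀ hh) e)

end Fermat.Agent.S18Lib
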