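import Fermat.Agent.Lib.S18.H2Mem
import Fermat.Agent.Lib.S18.H2Alg

/-!
# S18 sprint, chunk H2: the interface statement

`h2_main : h2_stmt` (see `H2Iface.lean`), plus the immediate consequences for the Laurent series
`h2_ser` (`h2_ser_1728`, `h2_ser_j`).
-/

set_option autoImplicit false

namespace Fermat.Agent.S18Lib

open ModularCurve

/-- **Chunk H2.** -/
theorem h2_main : h2_stmt :=
  ⟨fun M _ hM => h2_mem M hM, ⟨h2_P, h2_constantCoeff_P, h2_ser_eq⟩,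
    ⟨h2_Q, h2_constantCoeff_Q, h2_ser_inv_eq⟩, h2_modular_eq⟩

/-- `(j - 1728) h2² = (h2 + 64) (h2 - 512)²`. -/
theorem h2_ser_1728 : (jq - 1728) * h2_ser ^ 2 = (h2_ser + 64) * (h2_ser - 512) ^ 2 :=
  h2_alg_1728 jq h2_ser h2_modular_eq

/-- `j = h2 + 768 + 196608 / h2 + 16777216 / h2²`. -/
theorem h2_ser_j : jq = h2_ser + 768 + 196608 * h2_ser⁻¹ + 16777216 * h2_ser⁻¹ ^ 2 :=
  h2_alg_j jq h2_ser h2_ser_ne_zero h2_modular_eq

end Fermat.Agent.S18Lib
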