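import Fermat.Agent.Lib.S18.AsStarIface
import Fermat.Agent.Lib.S18.BrUnram
import Fermat.Agent.Lib.S18.CgUnion
import Fermat.Agent.Lib.S18.H2Main

/-!
# S18 assembly, AsConcrete: the field `unr` of `As18Chart.Good` for the `h2`-charts

* `acu2_iota E₀ M : gr18_F E₀ M →+* FN M` — base change of the function field to `ℚbar`
  (generic; usable for the `h3`-charts as well), `acu2_iota_algebraMap`, `acu2_iota_coe`;
* `acu2_unr` — unramifiedness off `h2 ∈ {0, -64}` for the chart with coordinate `x = h2`;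
* `acu2_unr_inv` — unramifiedness off `1/h2 ∈ {0, -1/64}` for the chart with coordinate `x⁻¹`.
Both are literally the `unr` fields of `(as18_chart A E₀ M hval π x cbr).Good` and of
`((as18_chart A E₀ M hval π x cbr).inv cbr').Good`.
-/

set_option autoImplicit false

namespace Fermat.Agent.S18Lib

open ModularCurve Polynomial
open Fermat.Agent.S24Lib

/-- base change `F_M^{E₀} → F_M^{ℚbar}` of the function field -/
noncomputable def acu2_iota (E₀ : IntermediateField ℚ (AlgebraicClosure ℚ)) (M : ℕ) [NeZero M] :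
    ↥(gr18_F E₀ M) →+* FN M where
  toFun y := ⟨coeffMap (algebraMap E₀ (AlgebraicClosure ℚ)) (y : LaurentSeries E₀),
    cg18_mono_gen _ _ y.2⟩
  map_one' := Subtype.ext (map_one _)
  map_mul' x y := Subtype.ext (map_mul _ _ _)
  map_zero' := Subtype.ext (map_zero _)
  map_add' x y := Subtype.ext (map_add _ _ _)

theorem acu2_iota_coe (E₀ : IntermediateField ℚ (AlgebraicClosure ℚ)) (M : ℕ) [NeZero M]
    (y : gr18_F E₀ M) :
    ((acu2_iota E₀ M y : FN M) : LaurentSeries Kb)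
      = coeffMap (algebraMap E₀ (AlgebraicClosure ℚ)) (y : LaurentSeries E₀) := rfl

theorem acu2_iota_algebraMap (E₀ : IntermediateField ℚ (AlgebraicClosure ℚ)) (M : ℕ) [NeZero M]
    (e : E₀) :
    acu2_iota E₀ M (algebraMap E₀ (gr18_F E₀ M) e)
      = algebraMap Kb (FN M) (algebraMap E₀ (AlgebraicClosure ℚ) e) :=
  Subtype.ext (cg18_coeffMap_algebraMap _ e)

/-- the image of a rational series -/
theorem acu2_iota_coeffEmb (E₀ : IntermediateField ℚ (AlgebraicClosure ℚ)) (M : ℕ) [NeZero M]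
    (x : gr18_F E₀ M) (s : LaurentSeries ℚ) (hx : (x : LaurentSeries E₀) = coeffEmb E₀ s) :
    ((acu2_iota E₀ M x : FN M) : LaurentSeries Kb) = coeffEmb Kb s := by
  rw [acu2_iota_coe, hx, cg18_coeffMap_coeffEmb]

/-- the modular equation for the image of `h2` in `FN M` -/
theorem acu2_rel (E₀ : IntermediateField ℚ (AlgebraicClosure ℚ)) (M : ℕ) [NeZero M]
    (x : gr18_F E₀ M) (hx : (x : LaurentSeries E₀) = coeffEmb E₀ h2_ser) :
    JF M * acu2_iota E₀ M x ^ 2 = (acu2_iota E₀ M x + 256) ^ 3 := by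
  apply Subtype.ext
  have h := congrArg (coeffEmb Kb) h2_modular_eq
  simp only [map_mul, map_pow, map_add, map_ofNat] at h
  have hx' := acu2_iota_coeffEmb E₀ M x h2_ser hx
  show Jser * ((acu2_iota E₀ M x : FN M) : LaurentSeries Kb) ^ 2
    = (((acu2_iota E₀ M x : FN M) : LaurentSeries Kb) + 256) ^ 3
  rw [hx']
  exact h

/-- **`unr` for the chart `x = h2`, `cbr = -64`.** -/
theorem acu2_unr (E₀ : IntermediateField ℚ (AlgebraicClosure ℚ)) (M : ℕ) [NeZero M]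
    (x : gr18_F E₀ M) (hx : (x : LaurentSeries E₀) = coeffEmb E₀ h2_ser)
    (cbr : E₀) (hcbr : cbr = -64) :
    ∀ W : ValuationSubring (gr18_F E₀ M), W ≠ ⊤ →
      (∀ e : E₀, algebraMap E₀ (gr18_F E₀ M) e ∈ W) → x ∈ W →
      ∀ f : Polynomial E₀, Irreducible f → f.eval 0 ≠ 0 → f.eval cbr ≠ 0 →
      Polynomial.aeval x f ∈ W → (Polynomial.aeval x f)⁻¹ ∉ W →
      ∀ g ∈ W, g⁻¹ ∉ W → ∃ a ∈ W, g = Polynomial.aeval x f * a := by
  intro W hW hE hxW f hf hf0 hfbr hfx hfxinv g hg hginv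
  subst hcbr
  exact br18_unram_h2 M E₀ (gr18_F E₀ M) (algebraMap E₀ (AlgebraicClosure ℚ)) (acu2_iota E₀ M)
    (acu2_iota_algebraMap E₀ M) W hW hE x hxW (acu2_rel E₀ M x hx) f hf hf0 hfbr hfx hfxinv
    g hg hginv

/-- **`unr` for the chart `x = 1/h2`, `cbr' = -1/64`.** -/
theorem acu2_unr_inv (E₀ : IntermediateField ℚ (AlgebraicClosure ℚ)) (M : ℕ) [NeZero M]
    (x : gr18_F E₀ M) (hx : (x : LaurentSeries E₀) = coeffEmb E₀ h2_ser)
    (cbr' : E₀) (hcbr' : cbr' = -1 / 64) :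
    ∀ W : ValuationSubring (gr18_F E₀ M), W ≠ ⊤ →
      (∀ e : E₀, algebraMap E₀ (gr18_F E₀ M) e ∈ W) → x⁻¹ ∈ W →
      ∀ f : Polynomial E₀, Irreducible f → f.eval 0 ≠ 0 → f.eval cbr' ≠ 0 →
      Polynomial.aeval x⁻¹ f ∈ W → (Polynomial.aeval x⁻¹ f)⁻¹ ∉ W →
      ∀ g ∈ W, g⁻¹ ∉ W → ∃ a ∈ W, g = Polynomial.aeval x⁻¹ f * a := by
  intro W hW hE hxW f hf hf0 hfbr hfx hfxinv g hg hginv
  subst hcbr'
  have hrel := acu2_rel E₀ M x hx
  have hx0 : acu2_iota E₀ M x ≠ 0 := by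
    intro h0
    rw [h0] at hrel
    norm_num at hrel
  have hrel' : JF M * acu2_iota E₀ M x⁻¹ = (1 + 256 * acu2_iota E₀ M x⁻¹) ^ 3 := by
    rw [map_inv₀]
    have h1 : (1 + 256 * (acu2_iota E₀ M x)⁻¹) ^ 3
        = (acu2_iota E₀ M x + 256) ^ 3 * ((acu2_iota E₀ M x)⁻¹) ^ 3 := by
      field_simp
    rw [h1, ← hrel]
    field_simp
  exact br18_unram_h2inv M E₀ (gr18_F E₀ M) (algebraMap E₀ (AlgebraicClosure ℚ))
    (acu2_iota E₀ M) (acu2_iota_algebraMap E₀ M) W hW hE x⁻¹ hxW hrel' f hf hf0 hfbr hfx hfxinv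
    g hg hginv

/-- sanity check: `acu2_unr`/`acu2_unr_inv` have exactly the type of the `unr` field -/
example (A : ValuationSubring (AlgebraicClosure ℚ))
    (E₀ : IntermediateField ℚ (AlgebraicClosure ℚ)) (M : ℕ) [NeZero M]
    (hval : ∀ x : gr18_F E₀ M, x ∈ gr18_VM (gr18_R A E₀) M ∨ x⁻¹ ∈ gr18_VM (gr18_R A E₀) M)
    (π : gr18_R A E₀) (x : gr18_F E₀ M) (hx : (x : LaurentSeries E₀) = coeffEmb E₀ h2_ser)
    (cbr cbr' : gr18_R A E₀) (hcbr : (cbr : E₀) = -64) (hcbr' : (cbr' : E₀) = -1 / 64) :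
    (∀ W : ValuationSubring (gr18_F E₀ M), W ≠ ⊤ →
      (∀ e : E₀, algebraMap E₀ (gr18_F E₀ M) e ∈ W) → (as18_chart A E₀ M hval π x cbr).x ∈ W →
      ∀ f : Polynomial E₀, Irreducible f → f.eval 0 ≠ 0 →
      f.eval ((as18_chart A E₀ M hval π x cbr).cbr : E₀) ≠ 0 →
      Polynomial.aeval (as18_chart A E₀ M hval π x cbr).x f ∈ W →
      (Polynomial.aeval (as18_chart A E₀ M hval π x cbr).x f)⁻¹ ∉ W →
      ∀ g ∈ W, g⁻¹ ∉ W → ∃ a ∈ W, g = Polynomial.aeval (as18_chart A E₀ M hval π x cbr).x f * a) ∧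
    (∀ W : ValuationSubring (gr18_F E₀ M), W ≠ ⊤ →
      (∀ e : E₀, algebraMap E₀ (gr18_F E₀ M) e ∈ W) →
      ((as18_chart A E₀ M hval π x cbr).inv cbr').x ∈ W →
      ∀ f : Polynomial E₀, Irreducible f → f.eval 0 ≠ 0 →
      f.eval (((as18_chart A E₀ M hval π x cbr).inv cbr').cbr : E₀) ≠ 0 →
      Polynomial.aeval ((as18_chart A E₀ M hval π x cbr).inv cbr').x f ∈ W →
      (Polynomial.aeval ((as18_chart A E₀ M hval π x cbr).inv cbr').x f)⁻¹ ∉ W →
      ∀ g ∈ W, g⁻¹ ∉ W →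
        ∃ a ∈ W, g = Polynomial.aeval ((as18_chart A E₀ M hval π x cbr).inv cbr').x f * a) :=
  ⟨acu2_unr E₀ M x hx cbr hcbr, acu2_unr_inv E₀ M x hx cbr' hcbr'⟩

end Fermat.Agent.S18Lib
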