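/-
S18, route Q, chunk H3 (helper8): interface of the level-3 Hauptmodul.

`h3_ser = q⁻¹ ∏ ((1 - qⁿ)/(1 - q³ⁿ))¹²` (classically `(η(τ)/η(3τ))¹²`; its square is the
Prelude's `ModularCurve.modularUnitSeries 3 = Δ(q)/Δ(q³)`).  `h3_stmt` is the statement proved
in `H3Main.lean` (`h3_main : h3_stmt`); it has the same shape as `h2_stmt` (chunk H2):
membership in the function field of every level divisible by `3`, integrality of the
`q`-expansions of `h3_ser` and `h3_ser⁻¹`, and the modular equation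
  `j h³ = (h + 27) (h + 243)³`.
Expanded, the modular equation says that `h` is a root of the monic quartic
`X⁴ + (756 - j) X³ + 196830 X² + 19131876 X + 3¹⁸` and `h⁻¹` is a root of
`3¹⁸ X⁴ + 19131876 X³ + 196830 X² + (756 - j) X + 1`; moreover
`(j - 1728) h³ = (h² - 486 h - 19683)²`  (purely algebraic consequences: `H3Alg.lean`).
-/
import Mathlib.RingTheory.PowerSeries.Expand
import Fermat.Prelude.Def_ModularCurve_X0

set_option autoImplicit false

namespace Fermat.Agent.S18Lib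

open ModularCurve

/-- `∏ (1 - q³ⁿ)` -/
noncomputable def h3_eta3 : PowerSeries ℤ := PowerSeries.expand 3 three_ne_zero etaProd

/-- `∏ ((1 - qⁿ)/(1 - q³ⁿ))¹²` as an integer power series -/
noncomputable def h3_P : PowerSeries ℤ := etaProd ^ 12 * (h3_eta3 ^ 12).invOfUnit 1

/-- `∏ ((1 - q³ⁿ)/(1 - qⁿ))¹²` as an integer power series -/
noncomputable def h3_Q : PowerSeries ℤ := h3_eta3 ^ 12 * (etaProd ^ 12).invOfUnit 1

/-- The level-3 Hauptmodul `(η(τ)/η(3τ))¹²` as a rational Laurent series. -/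
noncomputable def h3_ser : LaurentSeries ℚ :=
  HahnSeries.single (-1 : ℤ) (1 : ℚ) *
    HahnSeries.ofPowerSeries ℤ ℚ (h3_P.map (Int.castRingHom ℚ))

/-- The interface statement of chunk H3. -/
def h3_stmt : Prop :=
  -- (a) membership in the level-`M` function field for every `M` divisible by `3`
  (∀ (M : ℕ) [NeZero M], 3 ∣ M → h3_ser ∈ modularFunctionFieldFull M) ∧
  -- (b) `h3 = q⁻¹ · P`, `P ∈ ℤ⟦q⟧`, `P(0) = 1`
  (∃ P : PowerSeries ℤ, PowerSeries.constantCoeff P = 1 ∧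
      h3_ser = HahnSeries.single (-1 : ℤ) (1 : ℚ) *
        HahnSeries.ofPowerSeries ℤ ℚ (P.map (Int.castRingHom ℚ))) ∧
  -- (b') `h3⁻¹ = q · Q`, `Q ∈ ℤ⟦q⟧`, `Q(0) = 1`
  (∃ Q : PowerSeries ℤ, PowerSeries.constantCoeff Q = 1 ∧
      h3_ser⁻¹ = HahnSeries.single (1 : ℤ) (1 : ℚ) *
        HahnSeries.ofPowerSeries ℤ ℚ (Q.map (Int.castRingHom ℚ))) ∧
  -- (c) the modular equation
  jq * h3_ser ^ 3 = (h3_ser + 27) * (h3_ser + 243) ^ 3

end Fermat.Agent.S18Lib
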