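/-
S18, route Q, chunk H3 (helper8), part 1: the kernel computation.

For the integer power series `e = E₄`, `s = E₆`, `A = e³ - s² (= 1728 Δ)`, `B = A(q³)` the
first `17` coefficients of
  `Ψ = A B (1728 e³ - 756 A - 19131876 B)² - (A² + 196830 A B + 387420489 B²)²`
vanish (`h3c_main`).  All products are computed modulo `q¹⁷` on explicit coefficient tables
(`h3c_tab`), each step being checked by kernel evaluation.
-/
import Mathlib.RingTheory.PowerSeries.Expand
import Fermat.Prelude.Def_ModularCurve_X0

set_option autoImplicit false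

namespace Fermat.Agent.S18Lib

open ModularCurve

/-- the `q`-expansion of `E₆` as an integer power series -/
noncomputable def h3c_E6 : PowerSeries ℤ :=
  PowerSeries.mk fun n => if n = 0 then 1 else -504 * ∑ d ∈ n.divisors, (d : ℤ) ^ 5

/-- partial sums of the Cauchy product -/
def h3c_cvAux (a b : ℕ → ℤ) (n : ℕ) : ℕ → ℤ
  | 0 => a 0 * b n
  | (k + 1) => h3c_cvAux a b n k + a (k + 1) * b (n - (k + 1))

/-- the Cauchy product of two sequences -/
def h3c_cv (a b : ℕ → ℤ) (n : ℕ) : ℤ := h3c_cvAux a b n n

theorem h3c_cvAux_eq (a b : ℕ → ℤ) (n k : ℕ) :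
    h3c_cvAux a b n k = ∑ i ∈ Finset.range (k + 1), a i * b (n - i) := by
  induction k with
  | zero => simp [h3c_cvAux]
  | succ k ih => rw [h3c_cvAux, ih, Finset.sum_range_succ _ (k + 1)]

theorem h3c_coeff_mul (f g : PowerSeries ℤ) (n : ℕ) :
    PowerSeries.coeff n (f * g)
      = h3c_cv (fun i => PowerSeries.coeff i f) (fun i => PowerSeries.coeff i g) n := by
  rw [PowerSeries.coeff_mul, h3c_cv, h3c_cvAux_eq,
    Finset.Nat.sum_antidiagonal_eq_sum_range_succ
      (fun i j => PowerSeries.coeff i f * PowerSeries.coeff j g)]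

theorem h3c_cv_congr {a a' b b' : ℕ → ℤ} (n : ℕ) (ha : ∀ i, i ≤ n → a i = a' i)
    (hb : ∀ i, i ≤ n → b i = b' i) : h3c_cv a b n = h3c_cv a' b' n := by
  rw [h3c_cv, h3c_cv, h3c_cvAux_eq, h3c_cvAux_eq]
  refine Finset.sum_congr rfl fun i hi => ?_
  have hi' : i ≤ n := Nat.lt_succ_iff.mp (Finset.mem_range.mp hi)
  rw [ha i hi', hb (n - i) (Nat.sub_le n i)]

/-- `l` is the table of the first `17` coefficients of `f` -/
def h3c_tab (f : PowerSeries ℤ) (l : List ℤ) : Prop :=
  ∀ n : Fin 17, PowerSeries.coeff (n : ℕ) f = l.getD (n : ℕ) 0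

theorem h3c_tab_le {f : PowerSeries ℤ} {l : List ℤ} (h : h3c_tab f l) (i : ℕ) (hi : i ≤ 16) :
    PowerSeries.coeff i f = l.getD i 0 := h ⟨i, Nat.lt_succ_of_le hi⟩

theorem h3c_tab_mul {f g : PowerSeries ℤ} {lf lg : List ℤ} (lh : List ℤ) (hf : h3c_tab f lf)
    (hg : h3c_tab g lg)
    (hc : ∀ n : Fin 17, h3c_cv (fun i => lf.getD i 0) (fun i => lg.getD i 0) (n : ℕ)
      = lh.getD (n : ℕ) 0) : h3c_tab (f * g) lh := by
  intro n
  rw [h3c_coeff_mul, ← hc n]
  have hn : (n : ℕ) ≤ 16 := Nat.lt_succ_iff.mp n.2
  exact h3c_cv_congr _ (fun i hi => h3c_tab_le hf i (hi.trans hn))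
    (fun i hi => h3c_tab_le hg i (hi.trans hn))

theorem h3c_tab_sub {f g : PowerSeries ℤ} {lf lg : List ℤ} (lh : List ℤ) (hf : h3c_tab f lf)
    (hg : h3c_tab g lg)
    (hc : ∀ n : Fin 17, lf.getD (n : ℕ) 0 - lg.getD (n : ℕ) 0 = lh.getD (n : ℕ) 0) :
    h3c_tab (f - g) lh := by
  intro n
  rw [map_sub, hf n, hg n, hc n]

theorem h3c_tab_add {f g : PowerSeries ℤ} {lf lg : List ℤ} (lh : List ℤ) (hf : h3c_tab f lf)
    (hg : h3c_tab g lg)
    (hc : ∀ n : Fin 17, lf.getD (n : ℕ) 0 + lg.getD (n : ℕ) 0 = lh.getD (n : ℕ) 0) :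
    h3c_tab (f + g) lh := by
  intro n
  rw [map_add, hf n, hg n, hc n]

theorem h3c_tab_ofNat_mul (c : ℕ) [c.AtLeastTwo] {f : PowerSeries ℤ} {lf : List ℤ}
    (lh : List ℤ) (hf : h3c_tab f lf)
    (hc : ∀ n : Fin 17, (OfNat.ofNat c : ℤ) * lf.getD (n : ℕ) 0 = lh.getD (n : ℕ) 0) :
    h3c_tab ((OfNat.ofNat c : PowerSeries ℤ) * f) lh := by
  intro n
  rw [← hc n, ← hf n, ← map_ofNat (PowerSeries.C (R := ℤ)) c, PowerSeries.coeff_C_mul]

theorem h3c_tab_expand {f : PowerSeries ℤ} {lf : List ℤ} (lh : List ℤ) (hf : h3c_tab f lf)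
    (hc : ∀ n : Fin 17, (if 3 ∣ (n : ℕ) then lf.getD ((n : ℕ) / 3) 0 else 0)
      = lh.getD (n : ℕ) 0) :
    h3c_tab (PowerSeries.expand 3 three_ne_zero f) lh := by
  intro n
  rw [PowerSeries.coeff_expand, ← hc n]
  split_ifs with h
  · exact h3c_tab_le hf _ ((Nat.div_le_self _ _).trans (Nat.lt_succ_iff.mp n.2))
  · rfl

/-- a coefficient table -/
def h3c_Le : List ℤ :=
  [1, 240, 2160, 6720, 17520, 30240, 60480, 82560, 140400, 181680, 272160, 319680, 490560, 527520, 743040, 846720, 1123440]

/-- a coefficient table -/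
def h3c_Ls : List ℤ :=
  [1, -504, -16632, -122976, -532728, -1575504, -4058208, -8471232, -17047800, -29883672, -51991632, -81170208, -129985632, -187132176, -279550656, -384422976, -545530104]

/-- a coefficient table -/
def h3c_Le2 : List ℤ :=
  [1, 480, 61920, 1050240, 7926240, 37500480, 135480960, 395301120, 1014559200, 2296875360, 4837561920, 9353842560, 17342613120, 30119288640, 50993844480, 82051050240, 129863578080]

/-- a coefficient table -/
def h3c_Le3 : List ℤ :=
  [1, 720, 179280, 16954560, 396974160, 4632858720, 34413301440, 187477879680, 814940600400, 2975469665040, 9486467837280, 27053330840640, 70485969919680, 169930679355360, 384163875688320, 820167497170560, 1668890801059920]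

/-- a coefficient table -/
def h3c_Ls2 : List ℤ :=
  [1, -1008, 220752, 16519104, 399517776, 4624512480, 34423752384, 187506813312, 814794618960, 2975666040144, 9486668147040, 27052407031104, 70486610910912, 169931677686624, 384163181281152, 820165393918080, 1668889095288912]

/-- a coefficient table -/
def h3c_LA : List ℤ :=
  [0, 1728, -41472, 435456, -2543616, 8346240, -10450944, -28933632, 145981440, -196375104, -200309760, 923809536, -640991232, -998331264, 694407168, 2103252480, 1705771008]

/-- a coefficient table -/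
def h3c_LB : List ℤ :=
  [0, 0, 0, 1728, 0, 0, -41472, 0, 0, 435456, 0, 0, -2543616, 0, 0, 8346240, 0]

/-- a coefficient table -/
def h3c_LU : List ℤ :=
  [1728, -62208, 341148672, -4091606784, 687894322176, 7999270110720, 60267522963456, 323983649912832, 1408106995522560, 5133428950572288, 16392767856998400, 46747457292616704, 121848904756482048, 293640968664497664, 663834652217597952, 1417088165823106560, 2883842014668659712]

/-- a coefficient table -/
def h3c_LU2 : List ℤ :=
  [2985984, -214990848, 1182879645696, -56584946221056, 119268840534441984, -2849632023900782592, 485302762417506287616, -177683956740887150592, 448823791293251728048128, 10733018703734086383403008, 145212634256649934060781568, 1401903223387436697627525120, 10721868794351745290329522176, 68539289783030548117805924352, 379072558710826489967900884992, 1856943516018746605479124598784, 8198541688057254599644769550336]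

/-- a coefficient table -/
def h3c_LAB : List ℤ :=
  [0, 0, 0, 0, 2985984, -71663616, 752467968, -4467032064, 16142229504, -36118462464, 56243994624, -111938568192, 283707297792, -258227896320, -717890273280, 1377876344832, 467210944512]

/-- a coefficient table -/
def h3c_LL : List ℤ :=
  [0, 0, 0, 0, 8916100448256, -855945643032576, 3549713574861471744, -253906288973111623680, 361081019006597556338688, -17104057917169124499259392, 1743339069936179343664349184, -37987102958396833157049483264, 1732745690901310649954539143168, -2467588732501555999543469801472, 10898425462369112896532820000768, -169629604069182718275657796681728, 152074052095722051796419125182464]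

/-- a coefficient table -/
def h3c_LA2 : List ℤ :=
  [0, 0, 2985984, -143327232, 3224862720, -44909199360, 429444218880, -2943654690816, 14505671393280, -48656728719360, 84840494653440, 115472778854400, -1267611552055296, 3787273618587648, -3618824968765440, -12859277690142720, 54622879544770560]

/-- a coefficient table -/
def h3c_LB2 : List ℤ :=
  [0, 0, 0, 0, 0, 0, 2985984, 0, 0, -143327232, 0, 0, 3224862720, 0, 0, -44909199360, 0]

/-- a coefficient table -/
def h3c_LW : List ℤ :=
  [0, 0, 2985984, -143327232, 590956093440, -14150458736640, 1305369095786496, -882189575847936, 3191780704665600, -62685760003964928, 11155345956495360, -21917395598376960, 1303952387812614144, -47039723214077952, -144921167458467840, -17140395853386547200, 146584009753067520]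

/-- a coefficient table -/
def h3c_LW2 : List ℤ :=
  [0, 0, 0, 0, 8916100448256, -855945643032576, 3549713574861471744, -253906288973111623680, 361081019006597556338688, -17104057917169124499259392, 1743339069936179343664349184, -37987102958396833157049483264, 1732745690901310649954539143168, -2467588732501555999543469801472, 10898425462369112896532820000768, -169629604069182718275657796681728, 152074052095722051796419125182464]

theorem h3c_tab_e : h3c_tab eisenstein4 h3c_Le := by
  intro n
  rw [eisenstein4, PowerSeries.coeff_mk]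
  revert n
  decide +kernel

theorem h3c_tab_s : h3c_tab h3c_E6 h3c_Ls := by
  intro n
  rw [h3c_E6, PowerSeries.coeff_mk]
  revert n
  decide +kernel

theorem h3c_tab_e2 : h3c_tab (eisenstein4 * eisenstein4) h3c_Le2 :=
  h3c_tab_mul _ h3c_tab_e h3c_tab_e (by decide +kernel)

theorem h3c_tab_e3 : h3c_tab (eisenstein4 * eisenstein4 * eisenstein4) h3c_Le3 :=
  h3c_tab_mul _ h3c_tab_e2 h3c_tab_e (by decide +kernel)

theorem h3c_tab_s2 : h3c_tab (h3c_E6 * h3c_E6) h3c_Ls2 :=
  h3c_tab_mul _ h3c_tab_s h3c_tab_s (by decide +kernel)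

/-- `A = E₄³ - E₆² = 1728 Δ` -/
noncomputable def h3c_A : PowerSeries ℤ :=
  eisenstein4 * eisenstein4 * eisenstein4 - h3c_E6 * h3c_E6

/-- `B = A(q³)` -/
noncomputable def h3c_B : PowerSeries ℤ := PowerSeries.expand 3 three_ne_zero h3c_A

theorem h3c_tab_A : h3c_tab h3c_A h3c_LA :=
  h3c_tab_sub _ h3c_tab_e3 h3c_tab_s2 (by decide +kernel)

theorem h3c_tab_B : h3c_tab h3c_B h3c_LB :=
  h3c_tab_expand _ h3c_tab_A (by decide +kernel)

/-- `U = 1728 E₄³ - 756 A - 19131876 B` -/
noncomputable def h3c_U : PowerSeries ℤ :=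
  1728 * (eisenstein4 * eisenstein4 * eisenstein4) - 756 * h3c_A - 19131876 * h3c_B

theorem h3c_tab_U : h3c_tab h3c_U h3c_LU := by
  refine h3c_tab_sub _ (h3c_tab_sub ([1728, -62208, 341148672, 28968274944, 687894322176, 7999270110720, 59474085801984, 323983649912832, 1408106995522560, 5141760040767744, 16392767856998400, 46747457292616704, 121800240610578432, 293640968664497664, 663834652217597952, 1417247845051852800, 2883842014668659712])
    (h3c_tab_ofNat_mul 1728 ([1728, 1244160, 309795840, 29297479680, 685971348480, 8005579868160, 59466184888320, 323961776087040, 1408217357491200, 5141611581189120, 16392616422819840, 46748155692625920, 121799756021207040, 293640213926062080, 663835177189416960, 1417249435110727680, 2883843304231541760]) h3c_tab_e3 (by decide +kernel))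
    (h3c_tab_ofNat_mul 756 ([0, 1306368, -31352832, 329204736, -1922973696, 6309757440, -7900913664, -21873825792, 110361968640, -148459578624, -151434178560, 698400009216, -484589371392, -754738435584, 524971819008, 1590058874880, 1289562882048]) h3c_tab_A (by decide +kernel))
    (by decide +kernel))
    (h3c_tab_ofNat_mul 19131876 ([0, 0, 0, 33059881728, 0, 0, -793437161472, 0, 0, 8331090195456, 0, 0, -48664145903616, 0, 0, 159679228746240, 0]) h3c_tab_B (by decide +kernel))
    (by decide +kernel)

theorem h3c_tab_U2 : h3c_tab (h3c_U * h3c_U) h3c_LU2 :=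
  h3c_tab_mul _ h3c_tab_U h3c_tab_U (by decide +kernel)

theorem h3c_tab_AB : h3c_tab (h3c_A * h3c_B) h3c_LAB :=
  h3c_tab_mul _ h3c_tab_A h3c_tab_B (by decide +kernel)

theorem h3c_tab_L : h3c_tab (h3c_A * h3c_B * (h3c_U * h3c_U)) h3c_LL :=
  h3c_tab_mul _ h3c_tab_AB h3c_tab_U2 (by decide +kernel)

theorem h3c_tab_A2 : h3c_tab (h3c_A * h3c_A) h3c_LA2 :=
  h3c_tab_mul _ h3c_tab_A h3c_tab_A (by decide +kernel)

theorem h3c_tab_B2 : h3c_tab (h3c_B * h3c_B) h3c_LB2 :=
  h3c_tab_mul _ h3c_tab_B h3c_tab_B (by decide +kernel)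

/-- `W = A² + 196830 A B + 387420489 B²` -/
noncomputable def h3c_W : PowerSeries ℤ :=
  h3c_A * h3c_A + 196830 * (h3c_A * h3c_B) + 387420489 * (h3c_B * h3c_B)

theorem h3c_tab_W : h3c_tab h3c_W h3c_LW := by
  refine h3c_tab_add _ (h3c_tab_add ([0, 0, 2985984, -143327232, 590956093440, -14150458736640, 148537714360320, -882189575847936, 3191780704665600, -7157853695508480, 11155345956495360, -21917395598376960, 54574495872344064, -47039723214077952, -144921167458467840, 258348123263139840, 146584009753067520]) h3c_tab_A2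
    (h3c_tab_ofNat_mul 196830 ([0, 0, 0, 0, 587731230720, -14105549537280, 148108270141440, -879245921157120, 3177275033272320, -7109196966789120, 11070505461841920, -22032868377231360, 55842107424399360, -50826996832665600, -141302342489702400, 271207400953282560, 91961130208296960]) h3c_tab_AB (by decide +kernel))
    (by decide +kernel))
    (h3c_tab_ofNat_mul 387420489 ([0, 0, 0, 0, 0, 0, 1156831381426176, 0, 0, -55527906308456448, 0, 0, 1249377891940270080, 0, 0, -17398743976649687040, 0]) h3c_tab_B2 (by decide +kernel))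
    (by decide +kernel)

theorem h3c_tab_W2 : h3c_tab (h3c_W * h3c_W) h3c_LL :=
  h3c_tab_mul _ h3c_tab_W h3c_tab_W (by decide +kernel)

/-- **the computation**: the first `17` coefficients of `Ψ` vanish -/
theorem h3c_main (n : ℕ) (hn : n ≤ 16) :
    PowerSeries.coeff n (h3c_A * h3c_B * (h3c_U * h3c_U) - h3c_W * h3c_W) = 0 := by
  rw [map_sub, h3c_tab_le h3c_tab_L n hn, h3c_tab_le h3c_tab_W2 n hn, sub_self]

end Fermat.Agent.S18Lib
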