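/-
S18, route Q, chunk H3 (helper8), part 2: the Sturm argument.

`Ψ = A B (1728 E₄³ - 756 A - 19131876 B)² - (A² + 196830 A B + 3¹⁸ B²)²`, with `A = 1728 Δ`,
`B = 1728 Δ(3z)`, is a modular form of weight `48` on `Γ₀(3)`; its first `17` coefficients
vanish (`h3c_main`), hence `Ψ = 0` by the Sturm bound (`h3s_formal`).
-/
import Fermat.Agent.Lib.S16.BdForms
import Fermat.Agent.Lib.S18.H3Comp
import Fermat.Prelude.Thm_ModularForm_sturm_bound_Gamma0

set_option autoImplicit false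

namespace Fermat.Agent.S18Lib

open UpperHalfPlane ModularForm CongruenceSubgroup MatrixGroups EisensteinSeries
open Matrix.SpecialLinearGroup
open Fermat.Agent.LibS23 Fermat.Agent.S20Lib Fermat.Agent.S24Lib Fermat.Agent.S16Lib ModularCurve

noncomputable section

theorem h3s_E6_eq : h3c_E6 = bdf16_E6s := rfl

theorem h3s_A_eq : h3c_A = 1728 * (PowerSeries.X * dedekindEtaUnit) := by
  rw [h3c_A, h3s_E6_eq, bdf16_disc_eq]
  ring

/-- `1728 Δ` -/
def h3s_a : ℍ → ℂ := (1728 : ℂ) • (ModularForm.discriminant : ℍ → ℂ)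

/-- `1728 Δ(3z)` -/
def h3s_b : ℍ → ℂ := ((1728 : ℂ) * ((3 : ℂ) ^ 11)⁻¹) • tFun 3

/-- `E₄³` -/
def h3s_e : ℍ → ℂ := (⇑E₄ : ℍ → ℂ) * ⇑E₄ * ⇑E₄

/-- `1728 E₄³ - 756 A - 19131876 B` -/
def h3s_u : ℍ → ℂ := (1728 : ℂ) • h3s_e - (756 : ℂ) • h3s_a - (19131876 : ℂ) • h3s_b

/-- `A² + 196830 A B + 3¹⁸ B²` -/
def h3s_w : ℍ → ℂ :=
  h3s_a * h3s_a + (196830 : ℂ) • (h3s_a * h3s_b) + (387420489 : ℂ) • (h3s_b * h3s_b)

theorem h3s_form_a : bdf16_IsForm 3 12 h3s_a :=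
  (bdf16_IsForm.of_isLO simple_isLO_discriminant).smul _

theorem h3s_form_t : bdf16_IsForm 3 12 (tFun 3) := ⟨tForm 3, rfl⟩

theorem h3s_form_b : bdf16_IsForm 3 12 h3s_b := h3s_form_t.smul _

theorem h3s_form_E4 : bdf16_IsForm 3 4 (⇑E₄ : ℍ → ℂ) := bdf16_IsForm.of_isLO simple_isLO_E4

theorem h3s_form_e : bdf16_IsForm 3 12 h3s_e :=
  ((h3s_form_E4.mul h3s_form_E4).mul h3s_form_E4).of_eq_weight (by norm_num)

theorem h3s_form_u : bdf16_IsForm 3 12 h3s_u :=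
  ((h3s_form_e.smul _).sub (h3s_form_a.smul _)).sub (h3s_form_b.smul _)

theorem h3s_form_ab : bdf16_IsForm 3 (12 + 12) (h3s_a * h3s_b) := h3s_form_a.mul h3s_form_b

theorem h3s_form_w : bdf16_IsForm 3 (12 + 12) h3s_w :=
  ((h3s_form_a.mul h3s_form_a).add (h3s_form_ab.smul _)).add
    ((h3s_form_b.mul h3s_form_b).smul _)

theorem h3s_form_uu : bdf16_IsForm 3 (12 + 12) (h3s_u * h3s_u) := h3s_form_u.mul h3s_form_u

theorem h3s_form_G : bdf16_IsForm 3 48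
    (h3s_a * h3s_b * (h3s_u * h3s_u) - h3s_w * h3s_w) :=
  ((h3s_form_ab.mul h3s_form_uu).sub (h3s_form_w.mul h3s_form_w)).of_eq_weight (by norm_num)

theorem h3s_C_ofNat (n : ℕ) [n.AtLeastTwo] :
    (PowerSeries.C (OfNat.ofNat n : ℂ) : PowerSeries ℂ) = OfNat.ofNat n := map_ofNat _ n

theorem h3s_qx_a : qx h3s_a = h3c_A.map (Int.castRingHom ℂ) := by
  rw [h3s_a, qx_smul _ QExp.discriminant, qx_discriminant_eq, h3s_A_eq, map_mul, map_mul,
    map_ofNat, PowerSeries.map_X, PowerSeries.smul_eq_C_mul, h3s_C_ofNat]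

theorem h3s_qx_b : qx h3s_b = h3c_B.map (Int.castRingHom ℂ) := by
  ext n
  have ha := congrArg (PowerSeries.coeff (n / 3)) h3s_qx_a
  rw [h3s_a, qx_smul _ QExp.discriminant, PowerSeries.coeff_smul, PowerSeries.coeff_map] at ha
  rw [h3s_b, qx_smul _ (QExp.tFun 3), PowerSeries.coeff_smul, qx_tFun_coeff,
    PowerSeries.coeff_map, h3c_B, PowerSeries.coeff_expand]
  split_ifs with h
  · rw [← ha]
    simp only [smul_eq_mul]
    push_cast
    field_simp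
  · simp

theorem h3s_qx_e : qx h3s_e
    = (eisenstein4 * eisenstein4 * eisenstein4).map (Int.castRingHom ℂ) := by
  rw [h3s_e, qx_mul (h3s_form_E4.mul h3s_form_E4).qexp h3s_form_E4.qexp,
    qx_mul h3s_form_E4.qexp h3s_form_E4.qexp, qx_E4_eq, map_mul, map_mul]

theorem h3s_qx_u : qx h3s_u = h3c_U.map (Int.castRingHom ℂ) := by
  rw [h3s_u, qx_sub ((h3s_form_e.smul _).sub (h3s_form_a.smul _)).qexp (h3s_form_b.smul _).qexp,
    qx_sub (h3s_form_e.smul _).qexp (h3s_form_a.smul _).qexp, qx_smul _ h3s_form_e.qexp,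
    qx_smul _ h3s_form_a.qexp, qx_smul _ h3s_form_b.qexp, h3s_qx_e, h3s_qx_a, h3s_qx_b, h3c_U]
  simp only [PowerSeries.smul_eq_C_mul, map_sub, map_mul, map_ofNat]

theorem h3s_qx_w : qx h3s_w = h3c_W.map (Int.castRingHom ℂ) := by
  rw [h3s_w, qx_add ((h3s_form_a.mul h3s_form_a).add (h3s_form_ab.smul _)).qexp
      ((h3s_form_b.mul h3s_form_b).smul _).qexp,
    qx_add (h3s_form_a.mul h3s_form_a).qexp (h3s_form_ab.smul _).qexp,
    qx_smul _ h3s_form_ab.qexp, qx_smul _ (h3s_form_b.mul h3s_form_b).qexp,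
    qx_mul h3s_form_a.qexp h3s_form_a.qexp, qx_mul h3s_form_a.qexp h3s_form_b.qexp,
    qx_mul h3s_form_b.qexp h3s_form_b.qexp, h3s_qx_a, h3s_qx_b, h3c_W]
  simp only [PowerSeries.smul_eq_C_mul, map_add, map_mul, map_ofNat]

theorem h3s_qx_G : qx (h3s_a * h3s_b * (h3s_u * h3s_u) - h3s_w * h3s_w)
    = (h3c_A * h3c_B * (h3c_U * h3c_U) - h3c_W * h3c_W).map (Int.castRingHom ℂ) := by
  rw [qx_sub (h3s_form_ab.mul h3s_form_uu).qexp (h3s_form_w.mul h3s_form_w).qexp,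
    qx_mul h3s_form_ab.qexp h3s_form_uu.qexp, qx_mul h3s_form_a.qexp h3s_form_b.qexp,
    qx_mul h3s_form_u.qexp h3s_form_u.qexp, qx_mul h3s_form_w.qexp h3s_form_w.qexp,
    h3s_qx_a, h3s_qx_b, h3s_qx_u, h3s_qx_w]
  simp only [map_sub, map_mul]

theorem h3s_index : (Gamma0 3).index = 4 := by
  have h1 : ((Gamma0 3 : Subgroup SL(2, ℤ)) : Subgroup (GL (Fin 2) ℝ)).relIndex 𝒮ℒ
      = (Gamma0 3).index := by
    rw [← Subgroup.index_comap, Subgroup.comap_map_eq_self_of_injective mapGL_injective]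
  have h2 : ((Gamma0 3 : Subgroup SL(2, ℤ)) : Subgroup (GL (Fin 2) ℝ)).relIndex 𝒮ℒ
      = Nat.card (Q 3) := rfl
  rw [← h1, h2, Nat.card_eq_fintype_card, card_Q]
  have h3 := dedekindPsi_prime_pow (p := 3) (n := 0) Nat.prime_three
  norm_num at h3
  exact h3

/-- **the formal identity** (Sturm bound in weight `48`, level `3`) -/
theorem h3s_formal : h3c_A * h3c_B * (h3c_U * h3c_U) - h3c_W * h3c_W = 0 := by
  obtain ⟨G, hG⟩ := h3s_form_G
  have hG0 : G = 0 := by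
    refine ModularForm.sturm_bound_Gamma0 3 G fun n hn => ?_
    rw [h3s_index] at hn
    have hn' : n ≤ 16 := by
      have : ((48 : ℤ) * ((4 : ℕ) : ℤ)).toNat / 12 = 16 := by decide
      omega
    have h1 : qExpansion 1 G = qx (h3s_a * h3s_b * (h3s_u * h3s_u) - h3s_w * h3s_w) := by
      rw [← hG]
    rw [h1, h3s_qx_G, PowerSeries.coeff_map, h3c_main n hn', map_zero]
  have h2 : qx (h3s_a * h3s_b * (h3s_u * h3s_u) - h3s_w * h3s_w) = 0 := by
    rw [← hG, hG0]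
    exact qx_zero
  rw [h3s_qx_G] at h2
  exact bdf16_map_injective (by rw [h2, map_zero])

end

end Fermat.Agent.S18Lib
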