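/-
S18, route Q, chunk H3 (helper8), part 3: from the formal identity to `ℚ((q))`.

* `h3l_identity_H`: `H (j H - 756 H - 19131876)² = (H² + 196830 H + 3¹⁸)²` for
  `H = Δ(q)/Δ(q³) = modularUnitSeries 3`;
* `h3l_sq`: `h3_ser² = H`;
* `h3l_lin`: `h (j H - 756 H - 19131876) = H² + 196830 H + 3¹⁸` (sign resolution by the leading
  coefficient), `h3l_den_ne`;
* `h3l_modular`: `j h³ = (h + 27) (h + 243)³`;
* `h3l_shape`, `h3l_shape_inv`: the `q`-expansion shapes of `h` and `h⁻¹`.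
-/
import Fermat.Agent.Lib.S18.H3Sturm
import Fermat.Agent.Lib.S18.H3Iface
import Fermat.Prelude.Def_ModularCurve_ModularUnit

set_option autoImplicit false

namespace Fermat.Agent.S18Lib

open ModularCurve Fermat.Agent.S16Lib

noncomputable section

/-- `ℤ⟦q⟧ → ℚ((q))` -/
def h3l_phi : PowerSeries ℤ →+* LaurentSeries ℚ :=
  (HahnSeries.ofPowerSeries ℤ ℚ).comp (PowerSeries.map (Int.castRingHom ℚ))

theorem h3l_phi_apply (f : PowerSeries ℤ) :
    h3l_phi f = HahnSeries.ofPowerSeries ℤ ℚ (f.map (Int.castRingHom ℚ)) := rfl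

theorem h3l_phi_X : h3l_phi PowerSeries.X = HahnSeries.single (1 : ℤ) (1 : ℚ) := by
  rw [h3l_phi_apply, PowerSeries.map_X, HahnSeries.ofPowerSeries_X]

theorem h3l_phi_expand (f : PowerSeries ℤ) :
    h3l_phi (PowerSeries.expand 3 three_ne_zero f) = qExpand ℚ 3 (h3l_phi f) := by
  rw [h3l_phi_apply, h3l_phi_apply, PowerSeries.map_expand]
  generalize f.map (Int.castRingHom ℚ) = g
  ext k
  rcases lt_or_ge k 0 with hk | hk
  · rw [ofPowerSeries_coeff_of_neg _ hk]
    by_cases hdk : ((3 : ℕ) : ℤ) ∣ k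
    · obtain ⟨m, rfl⟩ := hdk
      have hm : m < 0 := by
        by_contra hm
        rw [not_lt] at hm
        have : 0 ≤ ((3 : ℕ) : ℤ) * m := mul_nonneg (by positivity) hm
        omega
      rw [qExpand_coeff_mul, ofPowerSeries_coeff_of_neg _ hm]
    · rw [qExpand_coeff_of_not_dvd _ _ hdk]
  · lift k to ℕ using hk
    rw [HahnSeries.ofPowerSeries_apply_coeff, PowerSeries.coeff_expand]
    split_ifs with h
    · obtain ⟨m, rfl⟩ := h
      rw [Nat.mul_div_cancel_left m (by norm_num), Nat.cast_mul, qExpand_coeff_mul,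
        HahnSeries.ofPowerSeries_apply_coeff]
    · rw [qExpand_coeff_of_not_dvd]
      exact fun h' => h (Int.natCast_dvd_natCast.mp h')

theorem h3l_single_mul :
    HahnSeries.single (-1 : ℤ) (1 : ℚ) * HahnSeries.single (1 : ℤ) (1 : ℚ) = 1 := by
  rw [HahnSeries.single_mul_single]
  simp

theorem h3l_delta : deltaSeries = h3l_phi (PowerSeries.X * dedekindEtaUnit) := by
  rw [map_mul, h3l_phi_X]
  rfl

theorem h3l_deltaN :
    deltaSeriesN 3
      = h3l_phi (PowerSeries.expand 3 three_ne_zero (PowerSeries.X * dedekindEtaUnit)) := by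
  rw [h3l_phi_expand, ← h3l_delta]
  rfl

theorem h3l_phi_A : h3l_phi h3c_A = 1728 * deltaSeries := by
  rw [h3s_A_eq, map_mul, map_ofNat, ← h3l_delta]

theorem h3l_phi_B : h3l_phi h3c_B = 1728 * deltaSeriesN 3 := by
  rw [h3c_B, h3l_phi_expand, h3l_phi_A, map_mul, map_ofNat]
  rfl

theorem h3l_phi_e :
    h3l_phi (eisenstein4 * eisenstein4 * eisenstein4) = jq * deltaSeries := by
  have hj : jq = HahnSeries.single (-1 : ℤ) (1 : ℚ) * h3l_phi jNum := rfl
  have h2 : h3l_phi jNum * h3l_phi dedekindEtaUnit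
      = h3l_phi (eisenstein4 * eisenstein4 * eisenstein4) := by
    rw [← map_mul, jNum, mul_assoc, mul_comm dedekindEtaUnitInv, dedekindEtaUnit_mul_inv,
      mul_one]
    congr 1
    ring
  have hd : deltaSeries = HahnSeries.single (1 : ℤ) (1 : ℚ) * h3l_phi dedekindEtaUnit := by
    rw [h3l_delta, map_mul, h3l_phi_X]
  rw [hj, hd, ← h2]
  linear_combination (-(h3l_phi jNum * h3l_phi dedekindEtaUnit)) * h3l_single_mul

theorem h3l_ofNat_ne_zero : (1728 : LaurentSeries ℚ) ≠ 0 := by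
  have h : (1728 : LaurentSeries ℚ) = algebraMap ℚ (LaurentSeries ℚ) 1728 :=
    (map_ofNat _ 1728).symm
  rw [h]
  exact (map_ne_zero _).mpr (by norm_num)

/-- the level-3 identity for `H = Δ(q)/Δ(q³)` -/
theorem h3l_identity_H :
    modularUnitSeries 3 * (jq * modularUnitSeries 3 - 756 * modularUnitSeries 3 - 19131876) ^ 2
      = (modularUnitSeries 3 ^ 2 + 196830 * modularUnitSeries 3 + 387420489) ^ 2 := by
  have hE := congrArg h3l_phi h3s_formal
  rw [h3c_U, h3c_W] at hE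
  have he3 : h3l_phi eisenstein4 * h3l_phi eisenstein4 * h3l_phi eisenstein4
      = jq * deltaSeries := by
    rw [← h3l_phi_e, map_mul, map_mul]
  simp only [map_sub, map_add, map_mul, map_ofNat, map_zero, h3l_phi_A, h3l_phi_B, he3] at hE
  have hH := modularUnitSeries_mul_deltaSeriesN 3
  have h3 : deltaSeriesN 3 ≠ 0 := deltaSeriesN_ne_zero 3
  rw [← hH] at hE
  generalize modularUnitSeries 3 = H at hE ⊢
  generalize deltaSeriesN 3 = d3 at hE h3
  have hc : (1728 : LaurentSeries ℚ) ^ 4 * d3 ^ 4 ≠ 0 :=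
    mul_ne_zero (pow_ne_zero _ h3l_ofNat_ne_zero) (pow_ne_zero _ h3)
  have key : (1728 : LaurentSeries ℚ) ^ 4 * d3 ^ 4
      * (H * (jq * H - 756 * H - 19131876) ^ 2 - (H ^ 2 + 196830 * H + 387420489) ^ 2) = 0 := by
    linear_combination hE
  rcases mul_eq_zero.mp key with h | h
  · exact absurd h hc
  · exact sub_eq_zero.mp h

/-! ### the square root `h3_ser` -/

theorem h3l_cc_eta3 : PowerSeries.constantCoeff h3_eta3 = 1 := by
  rw [h3_eta3, PowerSeries.constantCoeff_expand, constantCoeff_etaProd]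

theorem h3l_cc_eta3_pow : PowerSeries.constantCoeff (h3_eta3 ^ 12) = ((1 : ℤˣ) : ℤ) := by
  rw [map_pow, h3l_cc_eta3, one_pow, Units.val_one]

theorem h3l_cc_eta_pow : PowerSeries.constantCoeff (etaProd ^ 12) = ((1 : ℤˣ) : ℤ) := by
  rw [map_pow, constantCoeff_etaProd, one_pow, Units.val_one]

theorem h3l_P_mul : h3_P * h3_eta3 ^ 12 = etaProd ^ 12 := by
  rw [h3_P, mul_assoc, PowerSeries.invOfUnit_mul _ _ h3l_cc_eta3_pow, mul_one]

theorem h3l_PQ : h3_P * h3_Q = 1 := by
  rw [h3_P, h3_Q]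
  calc etaProd ^ 12 * (h3_eta3 ^ 12).invOfUnit 1 * (h3_eta3 ^ 12 * (etaProd ^ 12).invOfUnit 1)
      = (etaProd ^ 12 * (etaProd ^ 12).invOfUnit 1)
          * ((h3_eta3 ^ 12).invOfUnit 1 * h3_eta3 ^ 12) := by ring
    _ = 1 := by
      rw [PowerSeries.mul_invOfUnit _ _ h3l_cc_eta_pow,
        PowerSeries.invOfUnit_mul _ _ h3l_cc_eta3_pow, mul_one]

theorem h3l_cc_P : PowerSeries.constantCoeff h3_P = 1 := by
  rw [h3_P, map_mul, map_pow, constantCoeff_etaProd, PowerSeries.constantCoeff_invOfUnit]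
  simp

theorem h3l_cc_Q : PowerSeries.constantCoeff h3_Q = 1 := by
  rw [h3_Q, map_mul, map_pow, h3l_cc_eta3, PowerSeries.constantCoeff_invOfUnit]
  simp

theorem h3l_ser : h3_ser = HahnSeries.single (-1 : ℤ) (1 : ℚ) * h3l_phi h3_P := rfl

theorem h3l_sq : h3_ser ^ 2 = modularUnitSeries 3 := by
  have hP2 : h3l_phi h3_P ^ 2 * h3l_phi (h3_eta3 ^ 24) = h3l_phi (etaProd ^ 24) := by
    rw [← map_pow, ← map_mul]
    congr 1
    calc h3_P ^ 2 * h3_eta3 ^ 24 = (h3_P * h3_eta3 ^ 12) ^ 2 := by ring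
      _ = etaProd ^ 24 := by rw [h3l_P_mul]; ring
  have hd3 : deltaSeriesN 3
      = HahnSeries.single (1 : ℤ) (1 : ℚ) ^ 3 * h3l_phi (h3_eta3 ^ 24) := by
    rw [h3l_deltaN, map_mul (PowerSeries.expand 3 three_ne_zero), PowerSeries.expand_X,
      dedekindEtaUnit, map_pow (PowerSeries.expand 3 three_ne_zero), map_mul, map_pow,
      h3l_phi_X]
    rfl
  have hd : deltaSeries = HahnSeries.single (1 : ℤ) (1 : ℚ) * h3l_phi (etaProd ^ 24) := by
    rw [h3l_delta, map_mul, h3l_phi_X]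
    rfl
  have h1 : h3_ser ^ 2 * deltaSeriesN 3 = deltaSeries := by
    rw [hd3, hd, h3l_ser, ← hP2]
    linear_combination (h3l_phi h3_P ^ 2 * h3l_phi (h3_eta3 ^ 24)
      * HahnSeries.single (1 : ℤ) (1 : ℚ)
      * (HahnSeries.single (-1 : ℤ) (1 : ℚ) * HahnSeries.single (1 : ℤ) (1 : ℚ) + 1))
      * h3l_single_mul
  rw [modularUnitSeries, ← h1, mul_assoc, mul_inv_cancel₀ (deltaSeriesN_ne_zero 3), mul_one]

/-- the shape of `h3_ser` -/
theorem h3l_shape : ∃ P : PowerSeries ℤ, PowerSeries.constantCoeff P = 1 ∧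
    h3_ser = HahnSeries.single (-1 : ℤ) (1 : ℚ) *
      HahnSeries.ofPowerSeries ℤ ℚ (P.map (Int.castRingHom ℚ)) :=
  ⟨h3_P, h3l_cc_P, rfl⟩

/-- the shape of `h3_ser⁻¹` -/
theorem h3l_shape_inv : ∃ Q : PowerSeries ℤ, PowerSeries.constantCoeff Q = 1 ∧
    h3_ser⁻¹ = HahnSeries.single (1 : ℤ) (1 : ℚ) *
      HahnSeries.ofPowerSeries ℤ ℚ (Q.map (Int.castRingHom ℚ)) := by
  refine ⟨h3_Q, h3l_cc_Q, ?_⟩
  have hpq : h3l_phi h3_P * h3l_phi h3_Q = 1 := by rw [← map_mul, h3l_PQ, map_one]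
  have h1 : h3_ser * (HahnSeries.single (1 : ℤ) (1 : ℚ) * h3l_phi h3_Q) = 1 := by
    rw [h3l_ser]
    linear_combination (h3l_phi h3_P * h3l_phi h3_Q) * h3l_single_mul + hpq
  exact inv_eq_of_mul_eq_one_right h1

/-! ### sign resolution -/

theorem h3l_monic_cast {f : LaurentSeries ℚ} {m m' : ℤ} (h : IsMonicOfOrder f m)
    (e : m = m') : IsMonicOfOrder f m' := e ▸ h

theorem h3l_monic_j : IsMonicOfOrder jq (-1) := by
  have h := (IsMonicOfOrder.single (-1 : ℤ)).mul
    (IsMonicOfOrder.ofPowerSeries constantCoeff_jNumQ)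
  exact h3l_monic_cast h (by norm_num)

theorem h3l_monic_h : IsMonicOfOrder h3_ser (-1) := by
  have hc : PowerSeries.constantCoeff (h3_P.map (Int.castRingHom ℚ)) = 1 := by
    rw [← PowerSeries.coeff_zero_eq_constantCoeff, PowerSeries.coeff_map,
      PowerSeries.coeff_zero_eq_constantCoeff, h3l_cc_P]
    simp
  have h := (IsMonicOfOrder.single (-1 : ℤ)).mul (IsMonicOfOrder.ofPowerSeries hc)
  exact h3l_monic_cast h (by norm_num)

theorem h3l_monic_H : IsMonicOfOrder (modularUnitSeries 3) (-2) :=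
  h3l_monic_cast (isMonicOfOrder_modularUnitSeries 3) (by norm_num)

theorem h3l_coeff_sum :
    (h3_ser * (jq * modularUnitSeries 3 - 756 * modularUnitSeries 3 - 19131876)
      + (modularUnitSeries 3 ^ 2 + 196830 * modularUnitSeries 3 + 387420489)).coeff (-4 : ℤ)
      = 2 := by
  have e : h3_ser * (jq * modularUnitSeries 3 - 756 * modularUnitSeries 3 - 19131876)
      + (modularUnitSeries 3 ^ 2 + 196830 * modularUnitSeries 3 + 387420489)
      = h3_ser * jq * modularUnitSeries 3 + modularUnitSeries 3 * modularUnitSeries 3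
        - HahnSeries.C (756 : ℚ) * (h3_ser * modularUnitSeries 3)
        - HahnSeries.C (19131876 : ℚ) * h3_ser
        + HahnSeries.C (196830 : ℚ) * modularUnitSeries 3
        + HahnSeries.C (387420489 : ℚ) := by
    simp only [map_ofNat]
    ring
  have c1 : (h3_ser * jq * modularUnitSeries 3).coeff (-4 : ℤ) = 1 :=
    (h3l_monic_cast ((h3l_monic_h.mul h3l_monic_j).mul h3l_monic_H) (by norm_num)).coeff_self
  have c2 : (modularUnitSeries 3 * modularUnitSeries 3).coeff (-4 : ℤ) = 1 :=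
    (h3l_monic_cast (h3l_monic_H.mul h3l_monic_H) (by norm_num)).coeff_self
  have c3 : (h3_ser * modularUnitSeries 3).coeff (-4 : ℤ) = 0 :=
    (h3l_monic_h.mul h3l_monic_H).coeff_of_lt (by norm_num)
  have c4 : h3_ser.coeff (-4 : ℤ) = 0 := h3l_monic_h.coeff_of_lt (by norm_num)
  have c5 : (modularUnitSeries 3).coeff (-4 : ℤ) = 0 := h3l_monic_H.coeff_of_lt (by norm_num)
  have c6 : (HahnSeries.C (387420489 : ℚ) : LaurentSeries ℚ).coeff (-4 : ℤ) = 0 := by
    rw [HahnSeries.C_apply, HahnSeries.coeff_single_of_ne (by norm_num)]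
  rw [e]
  simp only [HahnSeries.coeff_add, HahnSeries.coeff_sub, bd16_coeff_C_mul, c1, c2, c3, c4, c5,
    c6]
  norm_num

/-- the linear relation (sign fixed by the leading coefficients) -/
theorem h3l_lin :
    h3_ser * (jq * modularUnitSeries 3 - 756 * modularUnitSeries 3 - 19131876)
      = modularUnitSeries 3 ^ 2 + 196830 * modularUnitSeries 3 + 387420489 := by
  have hsum := h3l_coeff_sum
  have hsq : (h3_ser * (jq * modularUnitSeries 3 - 756 * modularUnitSeries 3 - 19131876)) ^ 2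
      = (modularUnitSeries 3 ^ 2 + 196830 * modularUnitSeries 3 + 387420489) ^ 2 := by
    rw [mul_pow, h3l_sq]
    exact h3l_identity_H
  generalize h3_ser * (jq * modularUnitSeries 3 - 756 * modularUnitSeries 3 - 19131876) = a
    at hsum hsq ⊢
  generalize modularUnitSeries 3 ^ 2 + 196830 * modularUnitSeries 3 + 387420489 = b
    at hsum hsq ⊢
  have hne : a + b ≠ 0 := by
    intro h0
    rw [h0, HahnSeries.coeff_zero] at hsum
    norm_num at hsum
  have hprod : (a - b) * (a + b) = 0 := by linear_combination hsq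
  rcases mul_eq_zero.mp hprod with h | h
  · exact sub_eq_zero.mp h
  · exact absurd h hne

theorem h3l_den_ne : jq * modularUnitSeries 3 - 756 * modularUnitSeries 3 - 19131876 ≠ 0 := by
  intro h0
  have hsum := h3l_coeff_sum
  have hlin := h3l_lin
  rw [h0, mul_zero] at hlin
  rw [h0, mul_zero, ← hlin, add_zero, HahnSeries.coeff_zero] at hsum
  norm_num at hsum

/-- **the modular equation of level 3** -/
theorem h3l_modular : jq * h3_ser ^ 3 = (h3_ser + 27) * (h3_ser + 243) ^ 3 := by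
  have hlin := h3l_lin
  rw [← h3l_sq] at hlin
  linear_combination hlin

end

end Fermat.Agent.S18Lib
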