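import Fermat.Agent.Lib.S18.AsStarIface
import Fermat.Agent.Lib.S18.BrUnram
import Fermat.Agent.Lib.S18.CgUnion
import Fermat.Agent.Lib.S18.H3Laurent

/-!
# S18 assembly, concrete layer: the `unr` field of `As18Chart.Good` for the two `h3` charts
(helper8, prefix `acu3_`)

* `acu3_iota φ M` : the coefficientwise embedding `F_M^E → F_M^{ℚbar}` along `φ : E →+* ℚbar`;
* `acu3_rel`, `acu3_rel_inv` : the modular equation `j h³ = (h + 27)(h + 243)³` transported to
  `F_M^{ℚbar}`, for `h` and for `1/h`;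
* `acu3_unr`, `acu3_unr_inv` : the `unr` field for `as18_chart A E₀ M hval π x cbr`
  (`x = h3`, `cbr = -27`) and for its inverse chart (`x⁻¹`, `cbr' = -1/27`).
-/

set_option autoImplicit false

noncomputable section

namespace Fermat.Agent.S18Lib

open ModularCurve Polynomial
open Fermat.Agent.S24Lib

/-- The coefficientwise embedding `F_M^E → F_M^{ℚbar}` along `φ : E →+* ℚbar`. -/
def acu3_iota {E : Type} [Field E] [Algebra ℚ E] (φ : E →+* Kb) (M : ℕ) :
    ↥(gr18_F E M) →+* FN M where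
  toFun y := ⟨coeffMap φ y.1, cg18_mono_gen _ φ y.2⟩
  map_one' := Subtype.ext (map_one _)
  map_mul' _ _ := Subtype.ext (map_mul _ _ _)
  map_zero' := Subtype.ext (map_zero _)
  map_add' _ _ := Subtype.ext (map_add _ _ _)

theorem acu3_iota_coe {E : Type} [Field E] [Algebra ℚ E] (φ : E →+* Kb) (M : ℕ)
    (y : ↥(gr18_F E M)) : ((acu3_iota φ M y : FN M) : LaurentSeries Kb) = coeffMap φ y.1 := rfl

theorem acu3_iota_algebraMap {E : Type} [Field E] [Algebra ℚ E] (φ : E →+* Kb) (M : ℕ) (e : E) :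
    acu3_iota φ M (algebraMap E ↥(gr18_F E M) e) = algebraMap Kb (FN M) (φ e) :=
  Subtype.ext (cg18_coeffMap_algebraMap φ e)

/-- the modular equation for `h3` inside `F_M^{ℚbar}` -/
theorem acu3_rel {E : Type} [Field E] [Algebra ℚ E] (φ : E →+* Kb) (M : ℕ) [NeZero M]
    (x : ↥(gr18_F E M)) (hx : (x : LaurentSeries E) = coeffEmb E h3_ser) :
    JF M * acu3_iota φ M x ^ 3 = (acu3_iota φ M x + 27) * (acu3_iota φ M x + 243) ^ 3 := by
  apply Subtype.ext
  have h1 : ((acu3_iota φ M x : FN M) : LaurentSeries Kb) = coeffEmb Kb h3_ser := by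
    rw [acu3_iota_coe]
    show coeffMap φ (x : LaurentSeries E) = _
    rw [hx, cg18_coeffMap_coeffEmb]
  have h2 := congrArg (coeffEmb Kb) h3l_modular
  simp only [map_mul, map_pow, map_add, map_ofNat] at h2
  push_cast
  rw [h1, coe_JF]
  exact h2

theorem acu3_iota_ne {E : Type} [Field E] [Algebra ℚ E] (φ : E →+* Kb) (M : ℕ) [NeZero M]
    (x : ↥(gr18_F E M)) (hx : (x : LaurentSeries E) = coeffEmb E h3_ser) :
    acu3_iota φ M x ≠ 0 := by
  intro h0
  have h := acu3_rel φ M x hx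
  rw [h0] at h
  norm_num at h

/-- the modular equation for `1/h3` inside `F_M^{ℚbar}` -/
theorem acu3_rel_inv {E : Type} [Field E] [Algebra ℚ E] (φ : E →+* Kb) (M : ℕ) [NeZero M]
    (x : ↥(gr18_F E M)) (hx : (x : LaurentSeries E) = coeffEmb E h3_ser) :
    JF M * acu3_iota φ M x⁻¹
      = (1 + 27 * acu3_iota φ M x⁻¹) * (1 + 243 * acu3_iota φ M x⁻¹) ^ 3 := by
  have h := acu3_rel φ M x hx
  have h0 := acu3_iota_ne φ M x hx
  rw [map_inv₀]
  field_simp
  linear_combination h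

variable (A : ValuationSubring (AlgebraicClosure ℚ))
  (E₀ : IntermediateField ℚ (AlgebraicClosure ℚ)) (M : ℕ) [NeZero M]
  (hval : ∀ x : gr18_F E₀ M, x ∈ gr18_VM (gr18_R A E₀) M ∨ x⁻¹ ∈ gr18_VM (gr18_R A E₀) M)
  (π : gr18_R A E₀) (x : gr18_F E₀ M) (cbr cbr' : gr18_R A E₀)

/-- **`unr` for the chart `x = h3`, `cbr = -27`.** -/
theorem acu3_unr (hx : (x : LaurentSeries E₀) = coeffEmb E₀ h3_ser) (hcbr : (cbr : E₀) = -27) :
    ∀ W : ValuationSubring (gr18_F E₀ M), W ≠ ⊤ →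
      (∀ e : E₀, algebraMap E₀ (gr18_F E₀ M) e ∈ W) → (as18_chart A E₀ M hval π x cbr).x ∈ W →
      ∀ f : Polynomial E₀, Irreducible f → f.eval 0 ≠ 0 →
      f.eval ((as18_chart A E₀ M hval π x cbr).cbr : E₀) ≠ 0 →
      Polynomial.aeval (as18_chart A E₀ M hval π x cbr).x f ∈ W →
      (Polynomial.aeval (as18_chart A E₀ M hval π x cbr).x f)⁻¹ ∉ W →
      ∀ g ∈ W, g⁻¹ ∉ W →
        ∃ a ∈ W, g = Polynomial.aeval (as18_chart A E₀ M hval π x cbr).x f * a := by
  intro W hW hE hxW f hf hf0 hfbr hfx hfxinv g hg hginv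
  have hfbr' : f.eval (-27) ≠ 0 := by
    have : ((as18_chart A E₀ M hval π x cbr).cbr : E₀) = -27 := hcbr
    rwa [this] at hfbr
  exact br18_unram_h3 M E₀ (gr18_F E₀ M) (algebraMap E₀ Kb) (acu3_iota (algebraMap E₀ Kb) M)
    (acu3_iota_algebraMap _ M) W hW hE x hxW (acu3_rel _ M x hx) f hf hf0 hfbr' hfx hfxinv
    g hg hginv

/-- **`unr` for the inverse chart `x = 1/h3`, `cbr' = -1/27`.** -/
theorem acu3_unr_inv (hx : (x : LaurentSeries E₀) = coeffEmb E₀ h3_ser)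
    (hcbr' : (cbr' : E₀) = -1 / 27) :
    ∀ W : ValuationSubring (gr18_F E₀ M), W ≠ ⊤ →
      (∀ e : E₀, algebraMap E₀ (gr18_F E₀ M) e ∈ W) →
      ((as18_chart A E₀ M hval π x cbr).inv cbr').x ∈ W →
      ∀ f : Polynomial E₀, Irreducible f → f.eval 0 ≠ 0 →
      f.eval (((as18_chart A E₀ M hval π x cbr).inv cbr').cbr : E₀) ≠ 0 →
      Polynomial.aeval ((as18_chart A E₀ M hval π x cbr).inv cbr').x f ∈ W →
      (Polynomial.aeval ((as18_chart A E₀ M hval π x cbr).inv cbr').x f)⁻¹ ∉ W →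
      ∀ g ∈ W, g⁻¹ ∉ W →
        ∃ a ∈ W, g = Polynomial.aeval ((as18_chart A E₀ M hval π x cbr).inv cbr').x f * a := by
  intro W hW hE hxW f hf hf0 hfbr hfx hfxinv g hg hginv
  have hfbr' : f.eval (-1 / 27) ≠ 0 := by
    have : (((as18_chart A E₀ M hval π x cbr).inv cbr').cbr : E₀) = -1 / 27 := hcbr'
    rwa [this] at hfbr
  exact br18_unram_h3inv M E₀ (gr18_F E₀ M) (algebraMap E₀ Kb)
    (acu3_iota (algebraMap E₀ Kb) M) (acu3_iota_algebraMap _ M) W hW hE x⁻¹ hxW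
    (acu3_rel_inv _ M x hx) f hf hf0 hfbr' hfx hfxinv g hg hginv

end Fermat.Agent.S18Lib
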