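import Fermat.Agent.Lib.S18.AsConcIface
import Fermat.Agent.Lib.S18.AsConcUnr2
import Fermat.Agent.Lib.S18.AsConcUnr3

/-!
# S18 assembly, concrete layer: the field `unr` for the four concrete charts (helper6)

`ac18_unr : ac18_unr_stmt`, from `acu2_unr`, `acu2_unr_inv` (helper7) and `acu3_unr`,
`acu3_unr_inv` (helper8).
-/

set_option autoImplicit false
set_option synthInstance.maxHeartbeats 400000
set_option maxHeartbeats 1600000

namespace Fermat.Agent.S18Lib

open ModularCurve Polynomial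

theorem ac18_unr : ac18_unr_stmt := by
  intro _ _ ℓ _ A _ E₀ _ M _ _ hval π x cbr hcase
  rcases hcase with ⟨-, hx, hcbr⟩ | ⟨-, hx, hcbr⟩ | ⟨-, hx, hcbr⟩ | ⟨-, hx, hcbr⟩
  · exact acu2_unr E₀ M x hx (cbr : E₀) hcbr
  · have hx' : ((x⁻¹ : gr18_F E₀ M) : LaurentSeries E₀) = coeffEmb E₀ h2_ser := by
      rw [IntermediateField.coe_inv, hx, inv_inv]
    have h := acu2_unr_inv E₀ M x⁻¹ hx' (cbr : E₀) hcbr
    rw [inv_inv] at h
    exact h
  · exact acu3_unr A E₀ M hval π x cbr hx hcbr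
  · have hx' : ((x⁻¹ : gr18_F E₀ M) : LaurentSeries E₀) = coeffEmb E₀ h3_ser := by
      rw [IntermediateField.coe_inv, hx, inv_inv]
    have h := acu3_unr_inv A E₀ M hval π x⁻¹ cbr cbr hx' hcbr
    have hxx : ((as18_chart A E₀ M hval π x⁻¹ cbr).inv cbr).x = x := inv_inv x
    rw [hxx] at h
    exact h

end Fermat.Agent.S18Lib
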