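import Fermat.Agent.Lib.S18.AsConcIface

/-!
# S18 assembly: the concrete charts are good (lead)

`as18_concrete : as18_concrete_stmt` from the six field packages of `AsConcIface.lean`.
-/

set_option autoImplicit false
set_option synthInstance.maxHeartbeats 400000
set_option maxHeartbeats 1600000

noncomputable section

namespace Fermat.Agent.S18Lib

open ModularCurve Polynomial

/-- The inverse chart of a concrete chart is the concrete chart of the inverse coordinate. -/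
theorem as18_chart_inv (A : ValuationSubring (AlgebraicClosure ℚ))
    (E₀ : IntermediateField ℚ (AlgebraicClosure ℚ)) (M : ℕ)
    (hval : ∀ x : gr18_F E₀ M, x ∈ gr18_VM (gr18_R A E₀) M ∨ x⁻¹ ∈ gr18_VM (gr18_R A E₀) M)
    (π : gr18_R A E₀) (x : gr18_F E₀ M) (cbr cbr' : gr18_R A E₀) :
    (as18_chart A E₀ M hval π x cbr).inv cbr' = as18_chart A E₀ M hval π x⁻¹ cbr' := rfl

/-- One concrete chart is good, given the packages and its `unr` field. -/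
theorem ac18_good (hbasic : ac18_basic_stmt) (hfin : ac18_fin_stmt) (hgss : ac18_gss_stmt)
    (ℓ : ℕ) [Fact ℓ.Prime] (A : ValuationSubring (AlgebraicClosure ℚ)) (hA : A.LiesOverPrime ℓ)
    (E₀ : IntermediateField ℚ (AlgebraicClosure ℚ)) [FiniteDimensional ℚ E₀]
    (M : ℕ) [NeZero M] (hℓM : ¬ ℓ ∣ M)
    (hval : ∀ x : gr18_F E₀ M, x ∈ gr18_VM (gr18_R A E₀) M ∨ x⁻¹ ∈ gr18_VM (gr18_R A E₀) M)
    (π : gr18_R A E₀) (hπ : Irreducible π) (x : gr18_F E₀ M) (cbr : gr18_R A E₀)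
    (hx : Ac18Coord E₀ M x) (hcbr : IsUnit cbr)
    (hunr : ∀ W : ValuationSubring (gr18_F E₀ M), W ≠ ⊤ →
      (∀ e : E₀, algebraMap E₀ (gr18_F E₀ M) e ∈ W) →
      (as18_chart A E₀ M hval π x cbr).x ∈ W →
      ∀ f : Polynomial E₀, Irreducible f → f.eval 0 ≠ 0 →
        f.eval ((as18_chart A E₀ M hval π x cbr).cbr : E₀) ≠ 0 →
        Polynomial.aeval (as18_chart A E₀ M hval π x cbr).x f ∈ W →
        (Polynomial.aeval (as18_chart A E₀ M hval π x cbr).x f)⁻¹ ∉ W →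
        ∀ g ∈ W, g⁻¹ ∉ W →
          ∃ a ∈ W, g = Polynomial.aeval (as18_chart A E₀ M hval π x cbr).x f * a) :
    (as18_chart A E₀ M hval π x cbr).Good := by
  obtain ⟨h0, hdvr, hcV, hxV, hu1, hu2⟩ := hbasic ℓ A hA E₀ M hℓM hval π hπ x cbr hx
  obtain ⟨hf, hi⟩ := hfin ℓ A hA E₀ M hℓM hval π hπ x cbr hx
  obtain ⟨hg, hs, hsp⟩ := hgss ℓ A hA E₀ M hℓM hval π hπ x cbr hx
  exact
    { char0 := h0
      dvr := hdvr
      irr := hπ
      fin := hf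
      inj := hi
      cV := hcV
      xV := hxV
      gauss := hg
      unif1 := hu1
      unif2 := hu2
      sat := hs
      sep := hsp
      cbrU := hcbr
      unr := hunr }

/-- **The concrete charts are good.** -/
theorem as18_concrete (hh2 : h2_stmt) (hh3 : h3_stmt) (hcoord : ac18_coord_stmt)
    (hunits : ac18_units_stmt) (hbasic : ac18_basic_stmt) (hfin : ac18_fin_stmt)
    (hgss : ac18_gss_stmt) (hunr : ac18_unr_stmt) : as18_concrete_stmt := by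
  constructor
  · intro ℓ _ A hA hℓ2 E₀ _ M _ hℓM h2M hval π hπ x hx cbr cbr' hcbr hcbr'
    obtain ⟨hc1, hc2⟩ := hcoord hh2 hh3 E₀ M x (Or.inl ⟨h2M, hx⟩)
    have hxinv : ((x⁻¹ : gr18_F E₀ M) : LaurentSeries E₀) = (coeffEmb E₀ h2_ser)⁻¹ := by
      rw [← hx]; rfl
    refine ⟨ac18_good hbasic hfin hgss ℓ A hA E₀ M hℓM hval π hπ x cbr hc1
      (hunits ℓ A hA E₀ cbr (Or.inl ⟨hℓ2, Or.inl hcbr⟩))
      (hunr hh2 hh3 ℓ A hA E₀ M hℓM hval π x cbr (Or.inl ⟨h2M, hx, hcbr⟩)), ?_⟩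
    rw [as18_chart_inv]
    exact ac18_good hbasic hfin hgss ℓ A hA E₀ M hℓM hval π hπ x⁻¹ cbr' hc2
      (hunits ℓ A hA E₀ cbr' (Or.inl ⟨hℓ2, Or.inr hcbr'⟩))
      (hunr hh2 hh3 ℓ A hA E₀ M hℓM hval π x⁻¹ cbr' (Or.inr (Or.inl ⟨h2M, hxinv, hcbr'⟩)))
  · intro ℓ _ A hA hℓ2 E₀ _ M _ hℓM h3M hval π hπ x hx cbr cbr' hcbr hcbr'
    obtain ⟨hc1, hc2⟩ := hcoord hh2 hh3 E₀ M x (Or.inr ⟨h3M, hx⟩)
    have hxinv : ((x⁻¹ : gr18_F E₀ M) : LaurentSeries E₀) = (coeffEmb E₀ h3_ser)⁻¹ := by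
      rw [← hx]; rfl
    refine ⟨ac18_good hbasic hfin hgss ℓ A hA E₀ M hℓM hval π hπ x cbr hc1
      (hunits ℓ A hA E₀ cbr (Or.inr ⟨hℓ2, Or.inl hcbr⟩))
      (hunr hh2 hh3 ℓ A hA E₀ M hℓM hval π x cbr (Or.inr (Or.inr (Or.inl ⟨h3M, hx, hcbr⟩)))), ?_⟩
    rw [as18_chart_inv]
    exact ac18_good hbasic hfin hgss ℓ A hA E₀ M hℓM hval π hπ x⁻¹ cbr' hc2
      (hunits ℓ A hA E₀ cbr' (Or.inr ⟨hℓ2, Or.inr hcbr'⟩))
      (hunr hh2 hh3 ℓ A hA E₀ M hℓM hval π x⁻¹ cbr'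
        (Or.inr (Or.inr (Or.inr ⟨h3M, hxinv, hcbr'⟩))))

end Fermat.Agent.S18Lib
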