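import Fermat.Agent.Lib.S18.AsIface3

/-!
# S18 assembly: `O_U ∩ O_V` consists of constants (lead)

`as18_const : as18_const_stmt`: an element of `F` integral over `R[x]` and over `R[x⁻¹]` is
algebraic over `E`.  The minimal polynomial over `K = E(x)` has coefficients in
`E[x] ∩ E[x⁻¹] = E`.
-/

set_option autoImplicit false
set_option linter.style.haveILetI false

open Polynomial

namespace Fermat.Agent.S18Lib

section General

variable {E F : Type} [Field E] [Field F] [Algebra E F]

/-- `E[y] ∩ E[y⁻¹] = E` for `y` transcendental. -/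
theorem asc18_inter {y : F} (hy : Transcendental E y) (p q : Polynomial E)
    (h : aeval y p = aeval y⁻¹ q) : ∃ e : E, aeval y p = algebraMap E F e := by
  have hy0 : y ≠ 0 := by
    rintro rfl
    exact hy ⟨X, X_ne_zero, by simp⟩
  have hinj : Function.Injective (aeval y : Polynomial E →ₐ[E] F) :=
    transcendental_iff_injective.mp hy
  set n := q.natDegree with hn
  -- `q(y⁻¹) * y ^ n = (reverse q)(y)`
  have h1 : aeval y (reverse q) = aeval y⁻¹ q * y ^ n := by
    letI : Invertible (y⁻¹) := invertibleOfNonzero (inv_ne_zero hy0)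
    have h2 := eval₂_reverse_mul_pow (algebraMap E F) y⁻¹ q
    simp only [invOf_eq_inv, inv_inv] at h2
    rw [aeval_def, aeval_def, ← h2, mul_assoc, ← mul_pow, inv_mul_cancel₀ hy0, one_pow, mul_one]
  have h3 : aeval y (X ^ n * p) = aeval y (reverse q) := by
    rw [h1, map_mul, map_pow, aeval_X, h, mul_comm]
  have h4 : X ^ n * p = reverse q := hinj h3
  by_cases hp : p = 0
  · exact ⟨0, by simp [hp]⟩
  have h5 : (X ^ n * p).natDegree = n + p.natDegree := by
    rw [natDegree_mul (pow_ne_zero _ X_ne_zero) hp, natDegree_X_pow]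
  have h6 : (reverse q).natDegree ≤ n := reverse_natDegree_le q
  have h7 : p.natDegree = 0 := by
    rw [h4] at h5; omega
  obtain ⟨e, rfl⟩ := natDegree_eq_zero.mp h7
  exact ⟨e, by simp⟩

/-- The coefficients of the minimal polynomial over `K = E(y)` of an element integral over
`E[y]` lie in `E[y]`. -/
theorem asc18_coeff {y : F} (hy : Transcendental E y) (K : IntermediateField E F) (hyK : y ∈ K)
    (hK : ∀ k : K, ∃ a b : Polynomial E, aeval y b ≠ 0 ∧ (k : F) * aeval y b = aeval y a)
    (z : F) (hz : ((aeval y : Polynomial E →ₐ[E] F) : Polynomial E →+* F).IsIntegralElem z)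
    (i : ℕ) : ∃ p : Polynomial E, ((minpoly K z).coeff i : F) = aeval y p := by
  letI algF : Algebra (Polynomial E) F := ((aeval y : Polynomial E →ₐ[E] F) : Polynomial E →+* F).toAlgebra
  letI algK : Algebra (Polynomial E) K :=
    ((aeval (⟨y, hyK⟩ : K) : Polynomial E →ₐ[E] K) : Polynomial E →+* K).toAlgebra
  have hcoe : ∀ p : Polynomial E, ((aeval (⟨y, hyK⟩ : K) p : K) : F) = aeval y p := by
    intro p
    exact (IntermediateField.aeval_coe K (⟨y, hyK⟩ : K) p).symm
  haveI : IsScalarTower (Polynomial E) K F :=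
    IsScalarTower.of_algebraMap_eq (fun p => (hcoe p).symm)
  have hinj : Function.Injective (aeval y : Polynomial E →ₐ[E] F) :=
    transcendental_iff_injective.mp hy
  haveI : FaithfulSMul (Polynomial E) K := by
    rw [faithfulSMul_iff_algebraMap_injective]
    intro a b hab
    apply hinj
    rw [← hcoe a, ← hcoe b]
    exact congrArg (fun k : K => (k : F)) hab
  haveI : IsFractionRing (Polynomial E) K := by
    refine IsFractionRing.of_field (Polynomial E) K (fun k => ?_)
    obtain ⟨a, b, hb, hab⟩ := hK k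
    refine ⟨a, b, ?_⟩
    apply Subtype.ext
    have h1 : ((algebraMap (Polynomial E) K a / algebraMap (Polynomial E) K b : K) : F)
        = aeval y a / aeval y b := by
      show ((aeval (⟨y, hyK⟩ : K) a : K) : F) / ((aeval (⟨y, hyK⟩ : K) b : K) : F) = _
      rw [hcoe, hcoe]
    rw [h1, eq_div_iff hb, hab]
  have hint : IsIntegral (Polynomial E) z := hz
  have hmin := minpoly.isIntegrallyClosed_eq_field_fractions' K hint
  refine ⟨(minpoly (Polynomial E) z).coeff i, ?_⟩
  rw [hmin, coeff_map]
  exact hcoe _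

end General

namespace As18Chart

variable {E F : Type} [Field E] [Field F] [Algebra E F] {c : As18Chart E F}

/-- the chart coordinate is transcendental over `E`. -/
theorem Good.transcendental_x (hc : c.Good) : Transcendental E c.x := by
  haveI := hc.dvr
  rw [transcendental_iff_injective, injective_iff_map_eq_zero]
  intro r hr
  obtain ⟨b, hb, hr'⟩ := IsLocalization.integerNormalization_spec (nonZeroDivisors c.R) r
  set r' := IsLocalization.integerNormalization (nonZeroDivisors c.R) r with hr'def
  have hb0 : (b : E) ≠ 0 := by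
    intro h0; exact (nonZeroDivisors.ne_zero hb) (Subtype.ext h0)
  have her : c.ev r' = algebraMap E F (b : E) * Polynomial.aeval c.x r := by
    rw [c.ev_eq_aeval]
    have : r'.map c.R.subtype = b • r := hr'
    rw [this, Algebra.smul_def, map_mul]
    simp
  have h0 : c.ev r' = 0 := by rw [her, hr, mul_zero]
  have h1 : r' = 0 := hc.inj (by rw [h0, map_zero])
  have h2 : b • r = 0 := by
    have : r'.map c.R.subtype = b • r := hr'
    rw [← this, h1, Polynomial.map_zero]
  rcases smul_eq_zero.mp h2 with h3 | h3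
  · exact absurd (by rw [h3]; rfl) hb0
  · exact h3

/-- integrality over `R[x]` gives integrality over `E[x]`. -/
theorem isIntegralElem_of_mem_O {z : F} (hz : z ∈ c.O) :
    ((aeval c.x : Polynomial E →ₐ[E] F) : Polynomial E →+* F).IsIntegralElem z := by
  obtain ⟨P, hP, hPz⟩ := (c.mem_O_iff).mp hz
  obtain ⟨Q, hQ, -, hQm⟩ := Polynomial.lifts_and_degree_eq_and_monic
    ((Polynomial.mem_lifts P).mpr
      (Polynomial.map_surjective c.ev.rangeRestrict c.ev.rangeRestrict_surjective P)) hP
  refine ⟨Q.map (Polynomial.mapRingHom c.R.subtype), hQm.map _, ?_⟩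
  rw [Polynomial.eval₂_map]
  have hcomp : ((aeval c.x : Polynomial E →ₐ[E] F) : Polynomial E →+* F).comp
      (Polynomial.mapRingHom c.R.subtype) = c.ev := by
    ext p
    · simp [As18Chart.ev, As18Chart.cst]
    · simp [As18Chart.ev]
  rw [hcomp]
  have h1 : Polynomial.eval₂ c.ev z Q
      = Polynomial.eval₂ (algebraMap c.ev.range F) z (Q.map c.ev.rangeRestrict) := by
    rw [Polynomial.eval₂_map]; rfl
  rw [h1, hQ]
  exact hPz

end As18Chart

/-- **(CONST)** -/
theorem as18_const : as18_const_stmt := by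
  intro E F _ _ _ c cbr' hc hc' z hz hz'
  have hx : Transcendental E c.x := hc.transcendental_x
  have hx' : Transcendental E c.x⁻¹ := hc'.transcendental_x
  have hx0 : c.x ≠ 0 := by
    intro h0
    exact hx ⟨X, X_ne_zero, by simp [h0]⟩
  set K : IntermediateField E F := IntermediateField.adjoin E {c.x} with hKdef
  have hxK : c.x ∈ K := IntermediateField.mem_adjoin_simple_self E c.x
  have hxK' : c.x⁻¹ ∈ K := K.inv_mem hxK
  have hKeq : IntermediateField.adjoin E {c.x⁻¹} = K := by
    apply le_antisymm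
    · rw [IntermediateField.adjoin_simple_le_iff]; exact hxK'
    · rw [hKdef, IntermediateField.adjoin_simple_le_iff]
      have := (IntermediateField.adjoin E {c.x⁻¹}).inv_mem
        (IntermediateField.mem_adjoin_simple_self E c.x⁻¹)
      rwa [inv_inv] at this
  have hinj : Function.Injective (aeval c.x : Polynomial E →ₐ[E] F) :=
    transcendental_iff_injective.mp hx
  have hinj' : Function.Injective (aeval c.x⁻¹ : Polynomial E →ₐ[E] F) :=
    transcendental_iff_injective.mp hx'
  have hK : ∀ k : K, ∃ a b : Polynomial E, aeval c.x b ≠ 0 ∧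
      (k : F) * aeval c.x b = aeval c.x a := by
    intro k
    obtain ⟨r, s, hrs⟩ := (IntermediateField.mem_adjoin_simple_iff E (k : F)).mp k.2
    by_cases hs : aeval c.x s = 0
    · refine ⟨0, 1, by simp, ?_⟩
      rw [hrs, hs]; simp
    · exact ⟨r, s, hs, by rw [hrs, div_mul_cancel₀ _ hs]⟩
  have hK' : ∀ k : K, ∃ a b : Polynomial E, aeval c.x⁻¹ b ≠ 0 ∧
      (k : F) * aeval c.x⁻¹ b = aeval c.x⁻¹ a := by
    intro k
    have hk : (k : F) ∈ IntermediateField.adjoin E {c.x⁻¹} := by rw [hKeq]; exact k.2
    obtain ⟨r, s, hrs⟩ := (IntermediateField.mem_adjoin_simple_iff E (k : F)).mp hk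
    by_cases hs : aeval c.x⁻¹ s = 0
    · refine ⟨0, 1, by simp, ?_⟩
      rw [hrs, hs]; simp
    · exact ⟨r, s, hs, by rw [hrs, div_mul_cancel₀ _ hs]⟩
  have hzint : ((aeval c.x : Polynomial E →ₐ[E] F) : Polynomial E →+* F).IsIntegralElem z :=
    As18Chart.isIntegralElem_of_mem_O hz
  have hzint' : ((aeval c.x⁻¹ : Polynomial E →ₐ[E] F) : Polynomial E →+* F).IsIntegralElem z :=
    As18Chart.isIntegralElem_of_mem_O (c := c.inv cbr') hz'
  -- all coefficients of the minimal polynomial over `K` are constants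
  have hcoeff : ∀ i, ∃ e : E, ((minpoly K z).coeff i : F) = algebraMap E F e := by
    intro i
    obtain ⟨p, hp⟩ := asc18_coeff hx K hxK hK z hzint i
    obtain ⟨q, hq⟩ := asc18_coeff hx' K hxK' hK' z hzint' i
    obtain ⟨e, he⟩ := asc18_inter hx p q (by rw [← hp, ← hq])
    exact ⟨e, by rw [hp, he]⟩
  have hcoe : ∀ p : Polynomial E, ((aeval (⟨c.x, hxK⟩ : K) p : K) : F) = aeval c.x p := by
    intro p
    exact (IntermediateField.aeval_coe K (⟨c.x, hxK⟩ : K) p).symm
  have hzK : IsIntegral K z := by
    obtain ⟨P, hP, hPz⟩ := hzint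
    refine ⟨P.map ((aeval (⟨c.x, hxK⟩ : K) : Polynomial E →ₐ[E] K) : Polynomial E →+* K),
      hP.map _, ?_⟩
    rw [Polynomial.eval₂_map]
    have hcomp : (algebraMap K F).comp
        ((aeval (⟨c.x, hxK⟩ : K) : Polynomial E →ₐ[E] K) : Polynomial E →+* K)
        = ((aeval c.x : Polynomial E →ₐ[E] F) : Polynomial E →+* F) := by
      ext p
      · simp
      · simp
    rw [hcomp]; exact hPz
  have hlift : minpoly K z ∈ Polynomial.lifts (algebraMap E K) := by
    rw [Polynomial.lifts_iff_coeff_lifts]
    intro i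
    obtain ⟨e, he⟩ := hcoeff i
    exact ⟨e, Subtype.ext he.symm⟩
  obtain ⟨Q, hQ⟩ := (Polynomial.mem_lifts _).mp hlift
  refine ⟨Q, ?_, ?_⟩
  · intro h0
    rw [h0, Polynomial.map_zero] at hQ
    exact minpoly.ne_zero hzK hQ.symm
  · have h1 : aeval z Q = aeval z (Q.map (algebraMap E K)) := (aeval_map_algebraMap K z Q).symm
    rw [h1, hQ]
    exact minpoly.aeval K z

end Fermat.Agent.S18Lib
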