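import Mathlib

/-!
# S18 assembly: the abstract chart context (lead, prefix `as18_` / `As18Chart`)

One chart of the arithmetic surface: `E ⊆ F` fields (`F = F_M^E`), `R ⊆ E` a discrete valuation
ring with uniformiser `π`, `V` the Gauss valuation ring of `F`, `x ∈ F` the chart coordinate
(`h` or `1/h`), `cbr` the branch value of `x`.  Everything lives inside `F`:

* `c.cst : R →+* F`, `c.ev : R[X] →+* F` (`X ↦ x`),
* `c.O : Subring F`, the integral closure of `R[x]` in `F` (the chart ring),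
* `c.S n : Subring F`, the localisation of `R[x]` at a prime `n` of `R[X]`,
* `c.B n`, the integral closure of `c.S n` in `F` (a `Subalgebra (c.S n) F`).

`As18Chart.Good` collects the hypotheses supplied by the concrete layer (chunks Gr, Br, H2/H3),
`As18Chart.WData` those on `w`.
-/

set_option autoImplicit false

open Polynomial

namespace Fermat.Agent.S18Lib

/-- Data of one chart. -/
structure As18Chart (E F : Type) [Field E] [Field F] [Algebra E F] where
  /-- the discrete valuation ring of constants -/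
  R : ValuationSubring E
  /-- its uniformiser -/
  π : R
  /-- the Gauss valuation ring of `F` -/
  V : ValuationSubring F
  /-- the chart coordinate -/
  x : F
  /-- the branch value of the coordinate -/
  cbr : R

namespace As18Chart

variable {E F : Type} [Field E] [Field F] [Algebra E F] (c : As18Chart E F)

/-- The structure map `R → F`. -/
noncomputable def cst : c.R →+* F := (algebraMap E F).comp c.R.subtype

/-- Evaluation `R[X] → F`, `X ↦ x`. -/
noncomputable def ev : Polynomial c.R →+* F := Polynomial.eval₂RingHom c.cst c.x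

/-- The chart ring: integral closure of `R[x]` in `F`. -/
noncomputable def O : Subring F := (integralClosure c.ev.range F).toSubring

theorem mem_O_iff {z : F} : z ∈ c.O ↔ IsIntegral c.ev.range z := Iff.rfl

/-- The local ring of `R[x]` at the prime `n` of `R[X]`, as a subring of `F`. -/
def S (n : Ideal (Polynomial c.R)) [hn : n.IsPrime] : Subring F where
  carrier := {z | ∃ p q : Polynomial c.R, q ∉ n ∧ z * c.ev q = c.ev p}
  mul_mem' := by
    rintro a b ⟨p, q, hq, h⟩ ⟨p', q', hq', h'⟩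
    refine ⟨p * p', q * q', fun hqq => (hn.mem_or_mem hqq).elim hq hq', ?_⟩
    rw [map_mul, map_mul, ← h, ← h']; ring
  one_mem' := ⟨1, 1, fun h1 => hn.ne_top ((Ideal.eq_top_iff_one n).mpr h1), by simp⟩
  add_mem' := by
    rintro a b ⟨p, q, hq, h⟩ ⟨p', q', hq', h'⟩
    refine ⟨p * q' + p' * q, q * q', fun hqq => (hn.mem_or_mem hqq).elim hq hq', ?_⟩
    rw [map_add, map_mul, map_mul, map_mul, ← h, ← h']; ring
  zero_mem' := ⟨0, 1, fun h1 => hn.ne_top ((Ideal.eq_top_iff_one n).mpr h1), by simp⟩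
  neg_mem' := by
    rintro a ⟨p, q, hq, h⟩
    exact ⟨-p, q, hq, by rw [map_neg, ← h]; ring⟩

theorem mem_S_iff {n : Ideal (Polynomial c.R)} [n.IsPrime] {z : F} :
    z ∈ c.S n ↔ ∃ p q : Polynomial c.R, q ∉ n ∧ z * c.ev q = c.ev p := Iff.rfl

theorem ev_mem_S (n : Ideal (Polynomial c.R)) [hn : n.IsPrime] (p : Polynomial c.R) :
    c.ev p ∈ c.S n :=
  ⟨p, 1, fun h1 => hn.ne_top ((Ideal.eq_top_iff_one n).mpr h1), by simp⟩

/-- The integral closure of `c.S n` in `F`. -/
noncomputable def B (n : Ideal (Polynomial c.R)) [n.IsPrime] : Subalgebra (c.S n) F :=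
  integralClosure (c.S n) F

/-- `π` as an element of `c.S n`. -/
noncomputable def πS (n : Ideal (Polynomial c.R)) [n.IsPrime] : c.S n :=
  ⟨c.ev (C c.π), c.ev_mem_S n _⟩

/-- Hypotheses on a chart (supplied by the concrete layer). -/
structure Good : Prop where
  char0 : CharZero E
  dvr : IsDiscreteValuationRing c.R
  irr : Irreducible c.π
  fin : FiniteDimensional (IntermediateField.adjoin E {c.x}) F
  inj : Function.Injective c.ev
  cV : ∀ r : c.R, c.cst r ∈ c.V
  xV : c.x ∈ c.V
  /-- Gauss lemma for `E[x]` -/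
  gauss : ∀ p : Polynomial E, Polynomial.aeval c.x p ∈ c.V → ∀ i, p.coeff i ∈ c.R
  unif1 : (c.cst c.π)⁻¹ ∉ c.V
  /-- the maximal ideal of `V` is `π V` -/
  unif2 : ∀ z ∈ c.V, z⁻¹ ∉ c.V → ∃ y ∈ c.V, z = c.cst c.π * y
  /-- saturation of the chart ring in `V` -/
  sat : ∀ z ∈ c.V, c.cst c.π * z ∈ c.O → z ∈ c.O
  /-- the residue field of `V` is separable over that of `R[x]_(π)` -/
  sep : ∀ z ∈ c.V, ∃ P : Polynomial F, P.Monic ∧
    (∀ i, ∃ p q : Polynomial c.R, (c.ev q)⁻¹ ∈ c.V ∧ c.ev q ≠ 0 ∧ P.coeff i * c.ev q = c.ev p) ∧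
    (∃ y ∈ c.V, Polynomial.aeval z P = c.cst c.π * y) ∧
    (Polynomial.aeval z (Polynomial.derivative P))⁻¹ ∈ c.V ∧
    Polynomial.aeval z (Polynomial.derivative P) ≠ 0
  cbrU : IsUnit c.cbr
  /-- unramifiedness off the branch value and off `x = 0` (characteristic zero) -/
  unr : ∀ W : ValuationSubring F, W ≠ ⊤ → (∀ e : E, algebraMap E F e ∈ W) → c.x ∈ W →
    ∀ f : Polynomial E, Irreducible f → f.eval 0 ≠ 0 → f.eval (c.cbr : E) ≠ 0 →
    Polynomial.aeval c.x f ∈ W → (Polynomial.aeval c.x f)⁻¹ ∉ W →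
    ∀ g ∈ W, g⁻¹ ∉ W → ∃ a ∈ W, g = Polynomial.aeval c.x f * a

/-- Hypotheses on `w` relative to a chart. -/
structure WData (m : ℕ) (w : F) : Prop where
  mpos : 0 < m
  w1 : ∃ v ∈ c.V, w = 1 + c.cst c.π * v
  wpow : ∀ W : ValuationSubring F, W ≠ ⊤ → (∀ e : E, algebraMap E F e ∈ W) →
    ∃ c' u : F, u ∈ W ∧ u⁻¹ ∈ W ∧ w = u * c' ^ m

/-- (NORMAL) at the closed point `n` of the chart: the special fibre of the semilocal ring
`c.B n` is integrally closed. -/
def NormalAt (n : Ideal (Polynomial c.R)) [n.IsPrime] : Prop :=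
  IsIntegrallyClosed (c.B n ⧸ Ideal.span {algebraMap (c.S n) (c.B n) (c.πS n)})

end As18Chart

end Fermat.Agent.S18Lib
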