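import Mathlib

/-!
# S18, chunk Cg: interface of the abstract (G) + (C) + (H) core

`cg18_stmt` is the exact statement proved in `Fermat/Agent/Lib/S18/CgMain.lean`
(theorem `cg18_main`).  Everything lives in one field `F`; all rings are `Subring F`;
all hypotheses are elementwise.

Notation of the plan: `L(O) = {x : F | x ^ m * w ∈ O}`.
-/

set_option autoImplicit false

universe uF uP

namespace Fermat.Agent.S18Lib

/-- Local hypothesis of step (G) for the subring `O`: for every maximal ideal `y` of `O`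
containing `π` there are `s ∈ O`, `s ∉ y`, and `a ∈ L(O)` with `a - s ∈ π V`. -/
def cg18_localHyp {F : Type uF} [Field F] (V : ValuationSubring F) (π : F) (m : ℕ) (w : F)
    (O : Subring F) : Prop :=
  ∀ y : Ideal ↥O, y.IsMaximal → (∃ p ∈ y, (p : F) = π) →
    ∃ s : ↥O, s ∉ y ∧ ∃ a : F, a ^ m * w ∈ O ∧ ∃ v ∈ V, a = (s : F) + π * v

/-- The abstract (G) + (C) + (H) statement. -/
def cg18_stmt : Prop :=
  ∀ (F : Type uF) [Field F] (V : ValuationSubring F) (π : F) (m : ℕ) (w j u : F)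
    (R OU OV OUV : Subring F) (P : Type uP) [CommRing P] [Algebra P F],
    -- `π` is a nonzero nonunit of `V` lying in `R`
    π ≠ 0 → π⁻¹ ∉ V → π ∈ R →
    -- `m` is positive and invertible in `R`
    0 < m → (∃ μ ∈ R, (m : F) * μ = 1) →
    -- `w ≡ 1 mod π V`
    (∃ v ∈ V, w = 1 + π * v) →
    -- inclusions, `R` noetherian
    R ≤ OU → R ≤ OV → OU ≤ OUV → OV ≤ OUV → OUV ≤ V.toSubring → IsNoetherianRing ↥R →
    -- `m`-th-root closedness (implied by: integrally closed in `F`)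
    (∀ x : F, x ^ m ∈ OU → x ∈ OU) → (∀ x : F, x ^ m ∈ OV → x ∈ OV) →
    (∀ x : F, x ^ m ∈ OUV → x ∈ OUV) →
    -- saturation of `OUV` in `V`
    (∀ x : F, π * x ∈ OUV → x ∈ V → x ∈ OUV) →
    -- the two charts: `j ∈ OU`, `u = 1/j ∈ OV`, `OUV = OU[1/j] = OV[1/u]` elementwise
    j * u = 1 → j ∈ OU → u ∈ OV →
    (∀ x ∈ OUV, ∃ k : ℕ, j ^ k * x ∈ OU) → (∀ x ∈ OUV, ∃ k : ℕ, u ^ k * x ∈ OV) →
    -- `OV` is a noetherian module over `R[u]`; `P` is any presentation of `R[u]`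
    (∀ p : P, ∃ q : Polynomial ↥R, algebraMap P F p = Polynomial.aeval u q) →
    (∀ N : Submodule P F, (∀ x ∈ N, x ∈ OV) → N.FG) →
    -- local hypotheses of (G)
    cg18_localHyp V π m w OU → cg18_localHyp V π m w OV →
    ∃ x : F, (∃ v ∈ V, x = 1 + π * v) ∧ x ^ m * w ∈ OU ∧ x ^ m * w ∈ OV

end Fermat.Agent.S18Lib
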