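import Mathlib

/-!
# S18, chunk Na (helper6): interface statements

`na_stmt` : first half of LEMMA N (freeness of `B` over `S`, factoriality of `S`,
  shape `unit * t ^ a` of the discriminant of every basis).
`nk_stmt` : the local lemma (K).
Both are proved in `Lib/S18/Na.lean` (`na_proof : na_stmt`, `nk_proof : nk_stmt`).
-/

set_option autoImplicit false

namespace Fermat.Agent.S18Lib

open IsLocalRing

universe u v w₁ w₂

/-- LEMMA N, first half.  `S` noetherian local domain, `π` a prime element of the maximal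
ideal with `S ⧸ π` a principal ideal ring, `t` a prime element; `B` a domain, finite and
injective over `S`, with `π B` prime and `π B ∩ S = π S`; the special fibre is separable
(`k₀ = Frac (S/π)`, `L = Frac (B/π B)`, `L/k₀` separable); nonzero integers divide powers of
`π`; every prime `ρ` of `S` other than `π`, `t` is unramified in `B` (`B_(ρ)/ρ` reduced).
Conclusion: `B` is `S`-free, `S` is a UFD and every discriminant is `unit * t ^ a`. -/
def na_stmt : Prop :=
  ∀ (S : Type u) (B : Type v) [CommRing S] [IsDomain S] [IsLocalRing S] [IsNoetherianRing S]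
    [CommRing B] [IsDomain B] [Algebra S B] [Module.Finite S B]
    (π t : S),
    π ∈ maximalIdeal S → Prime π → IsPrincipalIdealRing (S ⧸ Ideal.span {π}) → Prime t →
    Function.Injective (algebraMap S B) →
    (Ideal.span {algebraMap S B π}).IsPrime →
    (∀ s : S, algebraMap S B π ∣ algebraMap S B s → π ∣ s) →
    -- separable special fibre
    (∃ (k₀ : Type w₁) (L : Type w₂) (_ : Field k₀) (_ : Field L) (_ : Algebra k₀ L)
        (_ : Algebra.IsSeparable k₀ L) (φ : S →+* k₀) (ψ : B →+* L),
        (∀ s : S, ψ (algebraMap S B s) = algebraMap k₀ L (φ s)) ∧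
        (∀ s : S, φ s = 0 ↔ π ∣ s) ∧
        (∀ x : B, ψ x = 0 ↔ algebraMap S B π ∣ x) ∧
        (∀ c : k₀, ∃ s s' : S, φ s' ≠ 0 ∧ c * φ s' = φ s) ∧
        (∀ y : L, ∃ x x' : B, ψ x' ≠ 0 ∧ y * ψ x' = ψ x)) →
    -- residue characteristic zero away from π
    (∀ n : ℕ, n ≠ 0 → ∃ k : ℕ, (n : S) ∣ π ^ k) →
    -- unramified at the primes other than π, t
    (∀ ρ : S, Prime ρ → ¬ Associated ρ π → ¬ Associated ρ t →
        ∀ x : B, algebraMap S B ρ ∣ x ^ 2 → ∃ s : S, ¬ ρ ∣ s ∧ algebraMap S B ρ ∣ s • x) →
    Module.Free S B ∧ UniqueFactorizationMonoid S ∧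
      ∀ (ι : Type) [Fintype ι] [DecidableEq ι] (b : Module.Basis ι S B),
        ∃ (e : Sˣ) (a : ℕ), Algebra.discr S b = e * t ^ a

/-- Local lemma (K).  `O` noetherian local domain with fraction field `F`, `π` a prime element
of the maximal ideal with `O ⧸ π` a principal ideal ring (so `O` is a UFD); `w : F` is a unit at
`π` and an `m`-th power up to a unit in every DVR `W ⊇ O` of `F` in which `π` is invertible.
Then `w = unit of O * c ^ m`. -/
def nk_stmt : Prop :=
  ∀ (O : Type u) (F : Type v) [CommRing O] [IsDomain O] [IsLocalRing O] [IsNoetherianRing O]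
    [Field F] [Algebra O F] [IsFractionRing O F]
    (π : O) (m : ℕ) (w : F),
    π ∈ maximalIdeal O → Prime π → IsPrincipalIdealRing (O ⧸ Ideal.span {π}) → 0 < m →
    (∃ a b : O, ¬ π ∣ a ∧ ¬ π ∣ b ∧ w * algebraMap O F b = algebraMap O F a) →
    (∀ W : ValuationSubring F, (∀ x : O, algebraMap O F x ∈ W) →
        IsDiscreteValuationRing W → (algebraMap O F π)⁻¹ ∈ W →
        ∃ c u : F, u ∈ W ∧ u⁻¹ ∈ W ∧ w = u * c ^ m) →
    ∃ (c : F) (e : Oˣ), w = algebraMap O F (e : O) * c ^ m

/-- Factoriality used in both: noetherian local domain, `π` prime in the maximal ideal,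
`S ⧸ π` a principal ideal ring. -/
def na_ufd_stmt : Prop :=
  ∀ (S : Type u) [CommRing S] [IsDomain S] [IsLocalRing S] [IsNoetherianRing S] (π : S),
    π ∈ maximalIdeal S → Prime π → IsPrincipalIdealRing (S ⧸ Ideal.span {π}) →
    UniqueFactorizationMonoid S

end Fermat.Agent.S18Lib
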