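import Fermat.Agent.Lib.S18.AsBasic
import Fermat.Agent.Lib.S18.NaIface
import Fermat.Agent.Lib.S18.CgIface

/-!
# S18 assembly: statements of the assembly lemmas (lead)

* `as18_unr_stmt` : the "unramified" hypothesis of `na_stmt` for `S = c.S n`, `B = c.B n`;
* `as18_sep_stmt` : the "separable special fibre" data of `na_stmt`;
* `as18_normal_stmt` (T1) : `c.NormalAt n` at every closed point of a good chart;
* `as18_local_stmt` (T2) : (NORMAL) + lemma (K) give the local hypothesis of `cg18_stmt`.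
-/

set_option autoImplicit false

open Polynomial

namespace Fermat.Agent.S18Lib

namespace As18Chart

variable {E F : Type} [Field E] [Field F] [Algebra E F] (c : As18Chart E F)

/-- `f₀` is an admissible second parameter at the closed point `n`: `n = (π, f₀)`, `f₀` prime,
and `f₀` is the cusp section `X` resp. the branch section `X - cbr` when that section passes
through `n`. -/
def IsParam (n : Ideal (Polynomial c.R)) (f₀ : Polynomial c.R) : Prop :=
  n = Ideal.span {C c.π, f₀} ∧ Prime f₀ ∧ (X ∈ n → f₀ = X) ∧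
    (X - C c.cbr ∈ n → f₀ = X - C c.cbr)

/-- the second parameter as an element of `c.S n`. -/
noncomputable def tS (n : Ideal (Polynomial c.R)) [n.IsPrime] (f₀ : Polynomial c.R) : c.S n :=
  ⟨c.ev f₀, c.ev_mem_S n _⟩

end As18Chart

/-- unramifiedness of `c.B n` over `c.S n` at all primes other than `π`, `t`
(`na_stmt`'s last hypothesis). -/
def as18_unr_stmt : Prop :=
  ∀ (E F : Type) [Field E] [Field F] [Algebra E F] (c : As18Chart E F), c.Good →
  ∀ (n : Ideal (Polynomial c.R)) [n.IsMaximal] (f₀ : Polynomial c.R), c.IsParam n f₀ →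
  ∀ ρ : c.S n, Prime ρ → ¬ Associated ρ (c.πS n) → ¬ Associated ρ (c.tS n f₀) →
    ∀ z : c.B n, algebraMap (c.S n) (c.B n) ρ ∣ z ^ 2 →
      ∃ s : c.S n, ¬ ρ ∣ s ∧ algebraMap (c.S n) (c.B n) ρ ∣ s • z

/-- the separable special fibre of `c.B n` over `c.S n` (`na_stmt`'s separability datum). -/
def as18_sep_stmt : Prop :=
  ∀ (E F : Type) [Field E] [Field F] [Algebra E F] (c : As18Chart E F), c.Good →
  ∀ (n : Ideal (Polynomial c.R)) [n.IsMaximal], C c.π ∈ n →
  ∃ (k₀ : Type) (L : Type) (_ : Field k₀) (_ : Field L) (_ : Algebra k₀ L)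
      (_ : Algebra.IsSeparable k₀ L) (φ : c.S n →+* k₀) (ψ : c.B n →+* L),
      (∀ s : c.S n, ψ (algebraMap (c.S n) (c.B n) s) = algebraMap k₀ L (φ s)) ∧
      (∀ s : c.S n, φ s = 0 ↔ c.πS n ∣ s) ∧
      (∀ z : c.B n, ψ z = 0 ↔ algebraMap (c.S n) (c.B n) (c.πS n) ∣ z) ∧
      (∀ a : k₀, ∃ s s' : c.S n, φ s' ≠ 0 ∧ a * φ s' = φ s) ∧
      (∀ y : L, ∃ z z' : c.B n, ψ z' ≠ 0 ∧ y * ψ z' = ψ z)

/-- (T1) normality of the special fibre at every closed point of a good chart. -/
def as18_normal_stmt : Prop :=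
  ∀ (E F : Type) [Field E] [Field F] [Algebra E F] (c : As18Chart E F), c.Good →
  ∀ (n : Ideal (Polynomial c.R)) [n.IsMaximal], C c.π ∈ n → c.NormalAt n

/-- (T2) from (NORMAL) at all closed points and lemma (K) to the local hypothesis of (G). -/
def as18_local_stmt : Prop :=
  ∀ (E F : Type) [Field E] [Field F] [Algebra E F] (c : As18Chart E F), c.Good →
  ∀ (m : ℕ) (w : F), c.WData m w →
  (∀ (n : Ideal (Polynomial c.R)) [n.IsMaximal], C c.π ∈ n → c.NormalAt n) →
  cg18_localHyp c.V (c.cst c.π) m w c.O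

end Fermat.Agent.S18Lib
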