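import Fermat.Agent.Lib.S18.AsIface

/-!
# S18 assembly: the MACHINE statement (lead)

Two charts with coordinates `x` and `x⁻¹` over the same `R`, `π`, `V`.
-/

set_option autoImplicit false

open Polynomial

namespace Fermat.Agent.S18Lib

namespace As18Chart

variable {E F : Type} [Field E] [Field F] [Algebra E F] (c : As18Chart E F)

/-- The opposite chart: same `R`, `π`, `V`, coordinate `x⁻¹`, branch value `cbr'`. -/
def inv (cbr' : c.R) : As18Chart E F where
  R := c.R
  π := c.π
  V := c.V
  x := c.x⁻¹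
  cbr := cbr'

@[simp] theorem inv_R (cbr' : c.R) : (c.inv cbr').R = c.R := rfl
@[simp] theorem inv_π (cbr' : c.R) : (c.inv cbr').π = c.π := rfl
@[simp] theorem inv_V (cbr' : c.R) : (c.inv cbr').V = c.V := rfl
@[simp] theorem inv_x (cbr' : c.R) : (c.inv cbr').x = c.x⁻¹ := rfl
@[simp] theorem inv_cst (cbr' : c.R) : (c.inv cbr').cst = c.cst := rfl

end As18Chart

/-- MACHINE: for two good charts `c` (coordinate `x`) and `c.inv cbr'` (coordinate `x⁻¹`) whose
special fibres are normal at all closed points, an element `w ≡ 1 mod π V` which is locally an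
`m`-th power up to units (`m` invertible in `R`) is `constant * m-th power`, the root being
`≡ 1 mod π V`. -/
def as18_machine_stmt : Prop :=
  ∀ (E F : Type) [Field E] [Field F] [Algebra E F] (c : As18Chart E F) (cbr' : c.R),
    c.Good → (c.inv cbr').Good →
    (∀ z : F, IsAlgebraic E z → ∃ e : E, z = algebraMap E F e) →
    ∀ (m : ℕ) (w : F), c.WData m w → (∃ μ : c.R, (m : E) * (μ : E) = 1) →
    (∀ (n : Ideal (Polynomial c.R)) [n.IsMaximal], C c.π ∈ n → c.NormalAt n) →
    (∀ (n : Ideal (Polynomial (c.inv cbr').R)) [n.IsMaximal], C (c.inv cbr').π ∈ n →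
      (c.inv cbr').NormalAt n) →
    ∃ (x₀ : F) (e₀ : E), (∃ v ∈ c.V, x₀ = 1 + c.cst c.π * v) ∧
      x₀ ^ m * w = algebraMap E F e₀

end Fermat.Agent.S18Lib
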