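import Fermat.Agent.Lib.S18.AsIface2

/-!
# S18 assembly: two inputs of the MACHINE (lead)

* `as18_noeth_stmt` : the chart ring `c.O` is a noetherian module over `R[X]` (acting through
  `c.ev`);
* `as18_const_stmt` : an element integral over both `R[x]` and `R[x⁻¹]` is algebraic over `E`.
-/

set_option autoImplicit false

open Polynomial

namespace Fermat.Agent.S18Lib

/-- (NOETH) every `R[X]`-submodule of `F` contained in the chart ring is finitely generated
(`R[X]` acts on `F` through `c.ev`). -/
def as18_noeth_stmt : Prop :=
  ∀ (E F : Type) [Field E] [Field F] [Algebra E F] (c : As18Chart E F), c.Good →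
    letI := c.ev.toAlgebra
    ∀ N : Submodule (Polynomial c.R) F, (∀ z ∈ N, z ∈ c.O) → N.FG

/-- (CONST) an element of `O_U ∩ O_V` is algebraic over the constant field. -/
def as18_const_stmt : Prop :=
  ∀ (E F : Type) [Field E] [Field F] [Algebra E F] (c : As18Chart E F) (cbr' : c.R),
    c.Good → (c.inv cbr').Good →
    ∀ z : F, z ∈ c.O → z ∈ (c.inv cbr').O → IsAlgebraic E z

end Fermat.Agent.S18Lib
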