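import Mathlib

set_option autoImplicit false

open Ideal IsLocalRing

namespace Fermat.Agent.S18Lib

section SFacts

variable {P : Type*} [CommRing P] [IsDomain P] (n : Ideal P) [hn : n.IsMaximal]
  (S : Type*) [CommRing S] [Algebra P S] [IsLocalization.AtPrime S n]

include hn in
theorem as18_algebraMap_injective : Function.Injective (algebraMap P S) :=
  IsLocalization.injective S n.primeCompl_le_nonZeroDivisors

include hn in
theorem as18_prime_map [IsDomain S] {p : P} (hp : Prime p) (hpn : p ∈ n) :
    Prime (algebraMap P S p) := by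
  have hI : (Ideal.span {p} : Ideal P).IsPrime := (Ideal.span_singleton_prime hp.ne_zero).mpr hp
  have hdisj : Disjoint (n.primeCompl : Set P) ((Ideal.span {p} : Ideal P) : Set P) := by
    rw [Set.disjoint_left]
    intro a ha ha'
    exact ha ((Ideal.span_singleton_le_iff_mem n).mpr hpn ha')
  have h := IsLocalization.isPrime_of_isPrime_disjoint n.primeCompl S _ hI hdisj
  rw [Ideal.map_span, Set.image_singleton] at h
  exact (Ideal.span_singleton_prime
    ((map_ne_zero_iff _ (as18_algebraMap_injective n S)).mpr hp.ne_zero)).mp h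

theorem as18_maximalIdeal_eq [IsLocalRing S] {p f : P} (h : n = Ideal.span {p, f}) :
    maximalIdeal S = Ideal.span {algebraMap P S p, algebraMap P S f} := by
  rw [← IsLocalization.AtPrime.map_eq_maximalIdeal n S, h, Ideal.map_span, Set.image_pair]

theorem as18_pir_quot [IsDomain S] [IsNoetherianRing S] [IsLocalRing S] {p f : P} (hp : Prime p)
    (h : n = Ideal.span {p, f}) :
    IsPrincipalIdealRing (S ⧸ Ideal.span {algebraMap P S p}) := by
  have hpn : p ∈ n := by rw [h]; exact Ideal.subset_span (Set.mem_insert _ _)
  set I : Ideal S := Ideal.span {algebraMap P S p} with hIdef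
  have hpS := as18_prime_map n S hp hpn
  have hIprime : I.IsPrime := (Ideal.span_singleton_prime hpS.ne_zero).mpr hpS
  haveI := hIprime
  haveI : IsLocalRing (S ⧸ I) :=
    IsLocalRing.of_surjective' (Ideal.Quotient.mk I) Ideal.Quotient.mk_surjective
  have hIle : I ≤ maximalIdeal S := IsLocalRing.le_maximalIdeal hIprime.ne_top
  have h1 : (maximalIdeal S).map (Ideal.Quotient.mk I) = maximalIdeal (S ⧸ I) := by
    rcases Ideal.map_eq_top_or_isMaximal_of_surjective (Ideal.Quotient.mk I)
      Ideal.Quotient.mk_surjective (maximalIdeal.isMaximal S) with h' | h'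
    · exfalso
      have hc : ((maximalIdeal S).map (Ideal.Quotient.mk I)).comap (Ideal.Quotient.mk I)
          = maximalIdeal S := by
        rw [Ideal.comap_map_of_surjective _ Ideal.Quotient.mk_surjective,
          ← RingHom.ker_eq_comap_bot, Ideal.mk_ker]
        exact sup_eq_left.mpr hIle
      rw [h', Ideal.comap_top] at hc
      exact (maximalIdeal.isMaximal S).ne_top hc.symm
    · exact IsLocalRing.eq_maximalIdeal h'
  have hmax : maximalIdeal (S ⧸ I) = Ideal.span {Ideal.Quotient.mk I (algebraMap P S f)} := by
    rw [← h1, as18_maximalIdeal_eq n S h, Ideal.map_span, Set.image_pair]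
    have h0 : Ideal.Quotient.mk I (algebraMap P S p) = 0 :=
      Ideal.Quotient.eq_zero_iff_mem.mpr (Ideal.mem_span_singleton_self _)
    rw [h0]
    apply le_antisymm
    · rw [Ideal.span_le]
      rintro z (rfl | rfl)
      · exact Ideal.zero_mem _
      · exact Ideal.mem_span_singleton_self _
    · exact Ideal.span_mono (by intro z hz; exact Set.mem_insert_of_mem _ hz)
  have hprinc : (maximalIdeal (S ⧸ I)).IsPrincipal := ⟨⟨_, hmax⟩⟩
  exact ((tfae_of_isNoetherianRing_of_isLocalRing_of_isDomain (S ⧸ I)).out 4 0).mp hprinc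

end SFacts

end Fermat.Agent.S18Lib
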