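import Fermat.Agent.Lib.S18.NaK

/-!
# S18 assembly, (T2) core: lemma (K) + normalisation at a prime of a normal surface chart

Abstract form (Mathlib + `nk_main` only).  `B` is a noetherian domain with fraction field `F`,
contained in a valuation subring `V` of `F` whose maximal ideal is `π V`, saturated in `V`
(`π V ∩ B = π B`), `π` prime in `B`, `B ⧸ π` integrally closed of dimension `≤ 1`; `P` a prime of
`B` containing `π`.  If `w ≡ 1 mod π V` is, in every discrete valuation ring `W ⊇ B` in which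
`π` is invertible, a unit times an `m`-th power, then there is `b ≡ 1 mod π V` with
`b ^ m * w ∈ B_P`.
-/

set_option autoImplicit false
set_option linter.style.haveILetI false

open IsLocalRing

namespace Fermat.Agent.S18Lib

section Core

variable {F : Type} [Field F] (V : ValuationSubring F) (π : F)
  {B : Type} [CommRing B] [IsDomain B] [Algebra B F]

omit [IsDomain B] in
/-- elements of `B` outside `π B` are units of `V`. -/
theorem as18k_unit (hunif : ∀ z ∈ V, z⁻¹ ∉ V → ∃ y ∈ V, z = π * y)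
    (hBV : ∀ b : B, algebraMap B F b ∈ V) (πB : B)
    (hsat : ∀ b : B, (∃ z ∈ V, algebraMap B F b = π * z) → πB ∣ b) {b : B} (hb : ¬ πB ∣ b) :
    (algebraMap B F b)⁻¹ ∈ V := by
  by_contra h
  exact hb (hsat b (hunif _ (hBV b) h))

/-- units of `V` are quotients of elements of `B` outside `π B`. -/
theorem as18k_quot [IsNoetherianRing B] [IsFractionRing B F] (hπinv : π⁻¹ ∉ V)
    (hunif : ∀ z ∈ V, z⁻¹ ∉ V → ∃ y ∈ V, z = π * y)
    (hBV : ∀ b : B, algebraMap B F b ∈ V) (πB : B) (hπB : algebraMap B F πB = π)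
    (hprime : Prime πB)
    (hsat : ∀ b : B, (∃ z ∈ V, algebraMap B F b = π * z) → πB ∣ b)
    {z : F} (hz : z ∈ V) (hzinv : z⁻¹ ∈ V) (hz0 : z ≠ 0) :
    ∃ a b : B, ¬ πB ∣ a ∧ ¬ πB ∣ b ∧ z * algebraMap B F b = algebraMap B F a := by
  obtain ⟨β₁, β₂, hβ₂, hβ⟩ := IsFractionRing.div_surjective B (K := F) z
  have hβ₂0 : β₂ ≠ 0 := nonZeroDivisors.ne_zero hβ₂
  have hinj : Function.Injective (algebraMap B F) := IsFractionRing.injective B F
  have hβ₂F : algebraMap B F β₂ ≠ 0 := (map_ne_zero_iff _ hinj).mpr hβ₂0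
  have hβ₁0 : β₁ ≠ 0 := by
    rintro rfl
    rw [map_zero, zero_div] at hβ
    exact hz0 hβ.symm
  obtain ⟨i, a, ha, hia⟩ := WfDvdMonoid.max_power_factor hβ₁0 hprime.irreducible
  obtain ⟨j, b, hb, hjb⟩ := WfDvdMonoid.max_power_factor hβ₂0 hprime.irreducible
  refine ⟨a, b, ha, hb, ?_⟩
  have hau := as18k_unit V π hunif hBV πB hsat ha
  have hbu := as18k_unit V π hunif hBV πB hsat hb
  have ha0 : algebraMap B F a ≠ 0 :=
    (map_ne_zero_iff _ hinj).mpr (fun h => ha (h ▸ dvd_zero _))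
  have hb0 : algebraMap B F b ≠ 0 :=
    (map_ne_zero_iff _ hinj).mpr (fun h => hb (h ▸ dvd_zero _))
  have hπ0 : π ≠ 0 := fun h => hπinv (by rw [h, inv_zero]; exact V.zero_mem)
  have hπV : π ∈ V := hπB ▸ hBV πB
  -- `z * π ^ j * b = π ^ i * a`
  have hE : z * (π ^ j * algebraMap B F b) = π ^ i * algebraMap B F a := by
    have h1 : algebraMap B F β₁ = π ^ i * algebraMap B F a := by
      rw [hia, map_mul, map_pow, hπB]
    have h2 : algebraMap B F β₂ = π ^ j * algebraMap B F b := by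
      rw [hjb, map_mul, map_pow, hπB]
    rw [← h1, ← h2, ← hβ, div_mul_cancel₀ _ hβ₂F]
  -- `u := z * b / a` is a unit of `V`
  have huV : z * algebraMap B F b * (algebraMap B F a)⁻¹ ∈ V :=
    V.mul_mem _ _ (V.mul_mem _ _ hz (hBV b)) hau
  have huinvV : z⁻¹ * (algebraMap B F b)⁻¹ * algebraMap B F a ∈ V :=
    V.mul_mem _ _ (V.mul_mem _ _ hzinv hbu) (hBV a)
  have hij : i = j := by
    rcases lt_trichotomy i j with h | h | h
    · exfalso
      obtain ⟨k, rfl⟩ : ∃ k, j = i + k + 1 := ⟨j - i - 1, by omega⟩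
      apply hπinv
      have h3 : π⁻¹ = z * algebraMap B F b * (algebraMap B F a)⁻¹ * π ^ k := by
        have hπi : π ^ i ≠ 0 := pow_ne_zero _ hπ0
        have h4 : z * algebraMap B F b * π ^ k * π = algebraMap B F a := by
          apply mul_left_cancel₀ hπi
          rw [← hE, pow_add, pow_add, pow_one]
          ring
        rw [← h4]
        field_simp
      rw [h3]
      exact V.mul_mem _ _ huV (V.pow_mem hπV k)
    · exact h
    · exfalso
      obtain ⟨k, rfl⟩ : ∃ k, i = j + k + 1 := ⟨i - j - 1, by omega⟩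
      apply hπinv
      have h3 : π⁻¹ = z⁻¹ * (algebraMap B F b)⁻¹ * algebraMap B F a * π ^ k := by
        have hπj : π ^ j ≠ 0 := pow_ne_zero _ hπ0
        have h4 : z * algebraMap B F b = π ^ k * π * algebraMap B F a := by
          apply mul_left_cancel₀ hπj
          rw [pow_add, pow_add, pow_one] at hE
          rw [← mul_assoc, ← mul_assoc, mul_comm (π ^ j) z, mul_assoc z, hE]
          ring
        have h5 : z⁻¹ * (algebraMap B F b)⁻¹ = (π ^ k * π * algebraMap B F a)⁻¹ := by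
          rw [← h4, mul_inv]
        rw [h5]
        field_simp
      rw [h3]
      exact V.mul_mem _ _ huinvV (V.pow_mem hπV k)
  subst hij
  exact mul_left_cancel₀ (pow_ne_zero i hπ0) (by rw [← hE]; ring)

/-- the core, for an arbitrary model `O'` of the localisation of `B` at `P`. -/
theorem as18k_core_aux [IsNoetherianRing B] [IsFractionRing B F] (hπinv : π⁻¹ ∉ V)
    (hunif : ∀ z ∈ V, z⁻¹ ∉ V → ∃ y ∈ V, z = π * y)
    (hBV : ∀ b : B, algebraMap B F b ∈ V) (πB : B) (hπB : algebraMap B F πB = π)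
    (hprime : Prime πB)
    (hsat : ∀ b : B, (∃ z ∈ V, algebraMap B F b = π * z) → πB ∣ b)
    (hIC : IsIntegrallyClosed (B ⧸ Ideal.span {πB}))
    (hdim : Ring.DimensionLEOne (B ⧸ Ideal.span {πB}))
    (P : Ideal B) [hP : P.IsPrime] (hπP : πB ∈ P)
    (O' : Type) [CommRing O'] [IsDomain O'] [Algebra B O'] [IsLocalization.AtPrime O' P]
    [Algebra O' F] [IsScalarTower B O' F]
    (m : ℕ) (hm : 0 < m) (w : F) (hw1 : ∃ v ∈ V, w = 1 + π * v)
    (hW : ∀ W : ValuationSubring F, (∀ b : B, algebraMap B F b ∈ W) →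
      IsDiscreteValuationRing W → π⁻¹ ∈ W → ∃ c u : F, u ∈ W ∧ u⁻¹ ∈ W ∧ w = u * c ^ m) :
    ∃ b : F, (∃ v ∈ V, b = 1 + π * v) ∧
      ∃ β s : B, s ∉ P ∧ b ^ m * w * algebraMap B F s = algebraMap B F β := by
  classical
  haveI : IsLocalRing O' := IsLocalization.AtPrime.isLocalRing O' P
  haveI : IsNoetherianRing O' := IsLocalization.isNoetherianRing P.primeCompl O' inferInstance
  haveI : IsFractionRing O' F :=
    IsFractionRing.isFractionRing_of_isDomain_of_isLocalization P.primeCompl O' F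
  have hinj : Function.Injective (algebraMap B F) := IsFractionRing.injective B F
  have hπ0 : π ≠ 0 := fun h => hπinv (by rw [h, inv_zero]; exact V.zero_mem)
  have hπV : π ∈ V := hπB ▸ hBV πB
  set π' : O' := algebraMap B O' πB with hπ'
  have hπ'F : algebraMap O' F π' = π := by
    rw [hπ', ← IsScalarTower.algebraMap_apply, hπB]
  have htower : ∀ b : B, algebraMap O' F (algebraMap B O' b) = algebraMap B F b := fun b =>
    (IsScalarTower.algebraMap_apply B O' F b).symm
  -- elements outside `P` are units of `V`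
  have hsV : ∀ s : B, s ∉ P → (algebraMap B F s)⁻¹ ∈ V := by
    intro s hs
    refine as18k_unit V π hunif hBV πB hsat (fun hd => hs ?_)
    obtain ⟨t, rfl⟩ := hd
    exact P.mul_mem_right _ hπP
  have hs0 : ∀ s : B, s ∉ P → algebraMap B F s ≠ 0 := fun s hs =>
    (map_ne_zero_iff _ hinj).mpr (fun h0 => hs (h0 ▸ P.zero_mem))
  -- representation of the elements of `O'`
  have hrep : ∀ o : O', ∃ β s : B, s ∉ P ∧ o * algebraMap B O' s = algebraMap B O' β ∧
      algebraMap O' F o * algebraMap B F s = algebraMap B F β := by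
    intro o
    obtain ⟨⟨β, s⟩, h⟩ := IsLocalization.surj P.primeCompl o
    refine ⟨β, s, s.2, h, ?_⟩
    have := congrArg (algebraMap O' F) h
    rwa [map_mul, htower, htower] at this
  have hO'V : ∀ o : O', algebraMap O' F o ∈ V := by
    intro o
    obtain ⟨β, s, hs, -, h⟩ := hrep o
    have : algebraMap O' F o = algebraMap B F β * (algebraMap B F s)⁻¹ := by
      rw [← h, mul_assoc, mul_inv_cancel₀ (hs0 s hs), mul_one]
    rw [this]
    exact V.mul_mem _ _ (hBV β) (hsV s hs)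
  -- saturation of `O'` in `V`
  have hsat' : ∀ o : O', (∃ z ∈ V, algebraMap O' F o = π * z) → π' ∣ o := by
    rintro o ⟨z, hz, hoz⟩
    obtain ⟨β, s, hs, h, hF⟩ := hrep o
    have hβ : πB ∣ β := by
      refine hsat β ⟨z * algebraMap B F s, V.mul_mem _ _ hz (hBV s), ?_⟩
      rw [← hF, hoz, mul_assoc]
    obtain ⟨β', rfl⟩ := hβ
    have hu : IsUnit (algebraMap B O' s) := IsLocalization.map_units O' (⟨s, hs⟩ : P.primeCompl)
    refine (hu.dvd_mul_right).mp ?_
    rw [h, map_mul]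
    exact dvd_mul_right _ _
  have hndvd : ∀ a : B, ¬ πB ∣ a → ¬ π' ∣ algebraMap B O' a := by
    rintro a ha ⟨o, ho⟩
    apply ha
    refine hsat a ⟨algebraMap O' F o, hO'V o, ?_⟩
    rw [← htower, ho, map_mul, hπ'F]
  -- `π'` is a prime element of the maximal ideal with principal quotient
  have hπm : π' ∈ maximalIdeal O' :=
    (IsLocalization.AtPrime.to_map_mem_maximal_iff O' P πB).mpr hπP
  have hI : (Ideal.span {πB} : Ideal B).IsPrime :=
    (Ideal.span_singleton_prime hprime.ne_zero).mpr hprime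
  have hIP : Ideal.span {πB} ≤ P := (Ideal.span_singleton_le_iff_mem P).mpr hπP
  have hdisj : Disjoint (P.primeCompl : Set B) ((Ideal.span {πB} : Ideal B) : Set B) := by
    rw [Set.disjoint_left]
    intro a ha ha'
    exact ha (hIP ha')
  have hmapprime : ((Ideal.span {πB}).map (algebraMap B O')).IsPrime :=
    IsLocalization.isPrime_of_isPrime_disjoint P.primeCompl O' _ hI hdisj
  have hmap : (Ideal.span {πB}).map (algebraMap B O') = Ideal.span {π'} := by
    rw [Ideal.map_span, Set.image_singleton]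
  have hπ'0 : π' ≠ 0 := by
    intro h0
    apply hπ0
    rw [← hπ'F, h0, map_zero]
  have hπ'prime : Prime π' := by
    rw [← Ideal.span_singleton_prime hπ'0, ← hmap]
    exact hmapprime
  haveI := hI
  haveI := hmapprime
  have hM : Algebra.algebraMapSubmonoid (B ⧸ Ideal.span {πB}) P.primeCompl
      ≤ nonZeroDivisors (B ⧸ Ideal.span {πB}) := by
    rintro _ ⟨s, hs, rfl⟩
    apply mem_nonZeroDivisors_of_ne_zero
    intro h0
    exact hs (hIP (Ideal.Quotient.eq_zero_iff_mem.mp h0))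
  haveI hICD' : IsIntegrallyClosed (O' ⧸ (Ideal.span {πB}).map (algebraMap B O')) :=
    isIntegrallyClosed_of_isLocalization _ _ hM
  haveI hdimD' : Ring.DimensionLEOne (O' ⧸ (Ideal.span {πB}).map (algebraMap B O')) :=
    Ring.DimensionLEOne.localization _ hM
  haveI : IsLocalRing (O' ⧸ (Ideal.span {πB}).map (algebraMap B O')) :=
    IsLocalRing.of_surjective' (Ideal.Quotient.mk _) Ideal.Quotient.mk_surjective
  have hpid0 : IsPrincipalIdealRing (O' ⧸ (Ideal.span {πB}).map (algebraMap B O')) := by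
    have h30 := (tfae_of_isNoetherianRing_of_isLocalRing_of_isDomain
      (O' ⧸ (Ideal.span {πB}).map (algebraMap B O'))).out 3 0
    exact h30.mp ⟨hICD', fun Q hQ hQp => IsLocalRing.eq_maximalIdeal (hQp.isMaximal hQ)⟩
  have hpid : IsPrincipalIdealRing (O' ⧸ Ideal.span {π'}) := hmap ▸ hpid0
  -- `w` is a unit of `V`
  obtain ⟨v, hv, hwv⟩ := hw1
  have hwV : w ∈ V := by
    rw [hwv]
    exact V.add_mem _ _ V.one_mem (V.mul_mem _ _ hπV hv)
  have hw0 : w ≠ 0 := by
    intro h0
    apply hπinv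
    have h1 : π * v = -1 := by
      rw [h0] at hwv
      linear_combination -hwv
    have : π⁻¹ = -v :=
      (eq_inv_of_mul_eq_one_left (by linear_combination -h1 : (-v) * π = 1)).symm
    rw [this]
    exact V.neg_mem _ hv
  have hwinvV : w⁻¹ ∈ V := by
    by_contra hcon
    obtain ⟨y, hy, hwy⟩ := hunif w hwV hcon
    apply hπinv
    have h1 : π * (y - v) = 1 := by linear_combination hwv - hwy
    have : π⁻¹ = y - v :=
      (eq_inv_of_mul_eq_one_left (by linear_combination h1 : (y - v) * π = 1)).symm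
    rw [this]
    exact sub_mem hy hv
  -- hypotheses of lemma (K)
  obtain ⟨a₀, b₀, ha₀, hb₀, hab₀⟩ :=
    as18k_quot V π hπinv hunif hBV πB hπB hprime hsat hwV hwinvV hw0
  have hwπ : ∃ a b : O', ¬ π' ∣ a ∧ ¬ π' ∣ b ∧ w * algebraMap O' F b = algebraMap O' F a :=
    ⟨algebraMap B O' a₀, algebraMap B O' b₀, hndvd a₀ ha₀, hndvd b₀ hb₀, by
      rw [htower, htower]; exact hab₀⟩
  have hW' : ∀ W : ValuationSubring F, (∀ x : O', algebraMap O' F x ∈ W) →
      IsDiscreteValuationRing W → (algebraMap O' F π')⁻¹ ∈ W →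
      ∃ c u : F, u ∈ W ∧ u⁻¹ ∈ W ∧ w = u * c ^ m := by
    intro W hOW hdvr hπW
    refine hW W (fun b => ?_) hdvr (hπ'F ▸ hπW)
    rw [← htower]
    exact hOW _
  obtain ⟨c, e, hwe⟩ := nk_main π' m w hπm hπ'prime hpid hm hwπ hW'
  -- normalisation
  set ε : F := algebraMap O' F (e : O') with hε
  set εi : F := algebraMap O' F ((e⁻¹ : O'ˣ) : O') with hεi
  have hεεi : ε * εi = 1 := by
    rw [hε, hεi, ← map_mul, ← Units.val_mul, mul_inv_cancel, Units.val_one, map_one]
  have hεV : ε ∈ V := hO'V _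
  have hεiV : εi ∈ V := hO'V _
  have hε0 : ε ≠ 0 := left_ne_zero_of_mul_eq_one hεεi
  have hεi0 : εi ≠ 0 := right_ne_zero_of_mul_eq_one hεεi
  have hc0 : c ≠ 0 := by
    rintro rfl
    rw [zero_pow hm.ne', mul_zero] at hwe
    exact hw0 hwe
  have hcm : c ^ m = w * εi := by
    rw [hwe]
    linear_combination (-(c ^ m)) * hεεi
  have hcmV : c ^ m ∈ V := by
    rw [hcm]
    exact V.mul_mem _ _ hwV hεiV
  have hcminvV : (c ^ m)⁻¹ ∈ V := by
    have : (c ^ m)⁻¹ = w⁻¹ * ε := by
      rw [hcm, mul_inv]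
      congr 1
      exact inv_eq_of_mul_eq_one_left hεεi
    rw [this]
    exact V.mul_mem _ _ hwinvV hεV
  obtain ⟨k, hk⟩ : ∃ k, m = k + 1 := ⟨m - 1, by omega⟩
  have hcV : c ∈ V := by
    rcases V.mem_or_inv_mem c with h | h
    · exact h
    · have : c = c ^ m * c⁻¹ ^ k := by
        rw [hk, pow_succ, mul_right_comm, ← mul_pow, mul_inv_cancel₀ hc0, one_pow, one_mul]
      rw [this]
      exact V.mul_mem _ _ hcmV (V.pow_mem h _)
  have hcinvV : c⁻¹ ∈ V := by
    have : c⁻¹ = (c ^ m)⁻¹ * c ^ k := by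
      rw [hk, pow_succ, mul_inv, mul_right_comm, inv_mul_cancel₀ (pow_ne_zero k hc0), one_mul]
    rw [this]
    exact V.mul_mem _ _ hcminvV (V.pow_mem hcV _)
  obtain ⟨a', b', ha', hb', hcab⟩ :=
    as18k_quot V π hπinv hunif hBV πB hπB hprime hsat hcV hcinvV hc0
  have hαu : (algebraMap B F a')⁻¹ ∈ V := as18k_unit V π hunif hBV πB hsat ha'
  have hα0 : algebraMap B F a' ≠ 0 :=
    (map_ne_zero_iff _ hinj).mpr (fun h => ha' (h ▸ dvd_zero _))
  have hβ0 : algebraMap B F b' ≠ 0 :=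
    (map_ne_zero_iff _ hinj).mpr (fun h => hb' (h ▸ dvd_zero _))
  -- `a' ^ m ≡ e⁻¹ * b' ^ m` modulo `π'`
  have hdvd1 : π' ∣ algebraMap B O' a' ^ m - ((e⁻¹ : O'ˣ) : O') * algebraMap B O' b' ^ m := by
    refine hsat' _ ⟨v * εi * algebraMap B F b' ^ m,
      V.mul_mem _ _ (V.mul_mem _ _ hv hεiV) (V.pow_mem (hBV b') m), ?_⟩
    rw [map_sub, map_mul, map_pow, map_pow, htower, htower, ← hcab, mul_pow, hcm, hwv]
    ring
  have hmem1 : algebraMap B O' a' ^ m - ((e⁻¹ : O'ˣ) : O') * algebraMap B O' b' ^ m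
      ∈ (Ideal.span {πB}).map (algebraMap B O') := by
    rw [hmap]
    exact Ideal.mem_span_singleton.mpr hdvd1
  have hq1 : (Ideal.Quotient.mk ((Ideal.span {πB}).map (algebraMap B O'))) (algebraMap B O' b') ^ m
      ∣ (Ideal.Quotient.mk ((Ideal.span {πB}).map (algebraMap B O'))) (algebraMap B O' a') ^ m := by
    refine ⟨(Ideal.Quotient.mk ((Ideal.span {πB}).map (algebraMap B O'))) ((e⁻¹ : O'ˣ) : O'), ?_⟩
    have h := Ideal.Quotient.eq.mpr hmem1
    rw [map_mul, map_pow, map_pow] at h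
    rw [h, mul_comm]
  obtain ⟨C₁, hC₁⟩ := (IsIntegrallyClosed.pow_dvd_pow_iff hm.ne').mp hq1
  obtain ⟨c₁, rfl⟩ := Ideal.Quotient.mk_surjective C₁
  have hmem2 : algebraMap B O' a' - algebraMap B O' b' * c₁
      ∈ (Ideal.span {πB}).map (algebraMap B O') := by
    rw [← map_mul] at hC₁
    exact Ideal.Quotient.eq.mp hC₁
  rw [hmap] at hmem2
  obtain ⟨o, ho⟩ := Ideal.mem_span_singleton.mp hmem2
  have hF : algebraMap B F a' - algebraMap B F b' * algebraMap O' F c₁
      = π * algebraMap O' F o := by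
    have := congrArg (algebraMap O' F) ho
    rwa [map_sub, map_mul, map_mul, htower, htower, hπ'F] at this
  -- the element `b := γ₁ / c`
  refine ⟨algebraMap O' F c₁ * c⁻¹,
    ⟨-(algebraMap O' F o) * (algebraMap B F a')⁻¹,
      V.mul_mem _ _ (V.neg_mem _ (hO'V o)) hαu, ?_⟩, ?_⟩
  · have hc : c⁻¹ = algebraMap B F b' * (algebraMap B F a')⁻¹ := by
      rw [← hcab]
      field_simp
    rw [hc]
    have h1 : algebraMap B F b' * algebraMap O' F c₁
        = algebraMap B F a' - π * algebraMap O' F o := by linear_combination -hF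
    have h2 : algebraMap O' F c₁ * (algebraMap B F b' * (algebraMap B F a')⁻¹)
        = (algebraMap B F b' * algebraMap O' F c₁) * (algebraMap B F a')⁻¹ := by ring
    rw [h2, h1]
    field_simp
    ring
  · obtain ⟨β, s, hs, -, hβs⟩ := hrep ((e : O') * c₁ ^ m)
    refine ⟨β, s, hs, ?_⟩
    rw [← hβs, map_mul, map_pow, hwe]
    congr 1
    rw [mul_pow, inv_pow]
    field_simp
    rw [hε]

/-- **(T2) core**: lemma (K) + normalisation at the prime `P`. -/
theorem as18k_core [IsNoetherianRing B] [IsFractionRing B F] (hπinv : π⁻¹ ∉ V)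
    (hunif : ∀ z ∈ V, z⁻¹ ∉ V → ∃ y ∈ V, z = π * y)
    (hBV : ∀ b : B, algebraMap B F b ∈ V) (πB : B) (hπB : algebraMap B F πB = π)
    (hprime : Prime πB)
    (hsat : ∀ b : B, (∃ z ∈ V, algebraMap B F b = π * z) → πB ∣ b)
    (hIC : IsIntegrallyClosed (B ⧸ Ideal.span {πB}))
    (hdim : Ring.DimensionLEOne (B ⧸ Ideal.span {πB}))
    (P : Ideal B) [hP : P.IsPrime] (hπP : πB ∈ P)
    (m : ℕ) (hm : 0 < m) (w : F) (hw1 : ∃ v ∈ V, w = 1 + π * v)
    (hW : ∀ W : ValuationSubring F, (∀ b : B, algebraMap B F b ∈ W) →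
      IsDiscreteValuationRing W → π⁻¹ ∈ W → ∃ c u : F, u ∈ W ∧ u⁻¹ ∈ W ∧ w = u * c ^ m) :
    ∃ b : F, (∃ v ∈ V, b = 1 + π * v) ∧
      ∃ β s : B, s ∉ P ∧ b ^ m * w * algebraMap B F s = algebraMap B F β := by
  have hinj : Function.Injective (algebraMap B F) := IsFractionRing.injective B F
  have hunitsF : ∀ s : P.primeCompl, IsUnit (algebraMap B F (s : B)) := fun s =>
    IsUnit.mk0 _ ((map_ne_zero_iff _ hinj).mpr (fun h0 => s.2 (h0 ▸ P.zero_mem)))
  letI algO'F : Algebra (Localization.AtPrime P) F :=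
    (IsLocalization.lift (M := P.primeCompl) (S := Localization.AtPrime P) hunitsF).toAlgebra
  haveI : IsScalarTower B (Localization.AtPrime P) F :=
    IsScalarTower.of_algebraMap_eq fun x => (IsLocalization.lift_eq hunitsF x).symm
  exact as18k_core_aux V π hπinv hunif hBV πB hπB hprime hsat hIC hdim P hπP
    (Localization.AtPrime P) m hm w hw1 hW

end Core

end Fermat.Agent.S18Lib
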