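import Mathlib

/-!
# S18, chunk Nb (helper3): interface statement

`nb_stmt` : second half of LEMMA N.  From `S` (noetherian local domain with maximal ideal
`(π, t)`, `π` prime with `S ⧸ π` a principal ideal ring, `t` prime, nonzero integers dividing
powers of `π`), `B` an integrally closed domain which is `S`-free with a finite basis `b`
whose discriminant is `unit * t ^ a`, and `π B` prime, conclude that `B ⧸ π B` is integrally
closed.  (Hypotheses on `S`, `π`, `t` are in the same form as in `na_stmt`.)
Proved in `Lib/S18/Nb.lean` (`nb_proof : nb_stmt`).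
-/

set_option autoImplicit false

namespace Fermat.Agent.S18Lib

open IsLocalRing

universe u v

/-- LEMMA N, second half (tame bound at `t` in characteristic zero + special fibre). -/
def nb_stmt : Prop :=
  ∀ (S : Type u) (B : Type v) [CommRing S] [IsDomain S] [IsLocalRing S] [IsNoetherianRing S]
    [CommRing B] [IsDomain B] [Algebra S B] [IsIntegrallyClosed B]
    (ι : Type) [Fintype ι] [DecidableEq ι] (b : Module.Basis ι S B)
    (π t : S) (e : Sˣ) (a : ℕ) (P : Ideal B),
    maximalIdeal S = Ideal.span {π, t} →
    Prime π → IsPrincipalIdealRing (S ⧸ Ideal.span {π}) →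
    Prime t →
    (∀ n : ℕ, n ≠ 0 → ∃ k : ℕ, (n : S) ∣ π ^ k) →
    Algebra.discr S b = (e : S) * t ^ a →
    P = Ideal.span {algebraMap S B π} → P.IsPrime →
    IsIntegrallyClosed (B ⧸ P)

end Fermat.Agent.S18Lib
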