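import Fermat.Agent.Lib.S18.AsParam
import Fermat.Agent.Lib.S18.AsLocal
import Fermat.Agent.Lib.S18.NbIface
import Fermat.Agent.Lib.S18.NaIface

/-!
# S18 assembly: (NORMAL) at every closed point of a good chart (lead)

`as18_normal : na_stmt → nb_stmt → as18_unr_stmt → as18_sep_stmt → as18_normal_stmt`.
-/

set_option autoImplicit false
set_option linter.style.haveILetI false

open Polynomial IsLocalRing

namespace Fermat.Agent.S18Lib

namespace As18Chart

variable {E F : Type} [Field E] [Field F] [Algebra E F] {c : As18Chart E F}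

section AtN

variable (n : Ideal (Polynomial c.R)) [hn : n.IsMaximal]

theorem Good.isLocalRing_S (hc : c.Good) : IsLocalRing (c.S n) := by
  letI := algPS (c := c) n
  haveI := hc.isLocalization_S n
  exact IsLocalization.AtPrime.isLocalRing (c.S n) n

theorem Good.isNoetherianRing_S (hc : c.Good) : IsNoetherianRing (c.S n) := by
  haveI := hc.dvr
  letI := algPS (c := c) n
  haveI := hc.isLocalization_S n
  exact IsLocalization.isNoetherianRing n.primeCompl (c.S n) inferInstance

theorem Good.prime_C_π (hc : c.Good) : Prime (C c.π : Polynomial c.R) := by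
  haveI := hc.dvr
  exact Polynomial.prime_C_iff.mpr hc.irr.prime

theorem Good.prime_πS (hc : c.Good) (hπn : C c.π ∈ n) : Prime (c.πS n) := by
  letI := algPS (c := c) n
  haveI := hc.isLocalization_S n
  exact as18_prime_map n (c.S n) hc.prime_C_π hπn

theorem Good.prime_tS (hc : c.Good) {f₀ : Polynomial c.R} (hf : c.IsParam n f₀) :
    Prime (c.tS n f₀) := by
  letI := algPS (c := c) n
  haveI := hc.isLocalization_S n
  have hfn : f₀ ∈ n := by
    rw [hf.1]; exact Ideal.subset_span (Set.mem_insert_of_mem _ rfl)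
  exact as18_prime_map n (c.S n) hf.2.1 hfn

theorem Good.maximalIdeal_S (hc : c.Good) {f₀ : Polynomial c.R} (hf : c.IsParam n f₀) :
    letI := hc.isLocalRing_S n
    maximalIdeal (c.S n) = Ideal.span {c.πS n, c.tS n f₀} := by
  letI := algPS (c := c) n
  haveI := hc.isLocalization_S n
  letI := hc.isLocalRing_S n
  exact as18_maximalIdeal_eq n (c.S n) hf.1

theorem Good.pir_S (hc : c.Good) {f₀ : Polynomial c.R} (hf : c.IsParam n f₀) :
    IsPrincipalIdealRing (c.S n ⧸ Ideal.span {c.πS n}) := by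
  letI := algPS (c := c) n
  haveI := hc.isLocalization_S n
  haveI := hc.isLocalRing_S n
  haveI := hc.isNoetherianRing_S n
  exact as18_pir_quot n (c.S n) hc.prime_C_π hf.1

theorem Good.natCast_dvd_S (hc : c.Good) (k : ℕ) (hk : k ≠ 0) :
    ∃ j : ℕ, (k : c.S n) ∣ c.πS n ^ j := by
  haveI := hc.dvr
  haveI := hc.char0
  have hk0 : (k : c.R) ≠ 0 := by
    intro h0
    apply hk
    have : ((k : c.R) : E) = 0 := by rw [h0]; rfl
    exact_mod_cast this
  obtain ⟨j, hj⟩ := IsDiscreteValuationRing.associated_pow_irreducible hk0 hc.irr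
  refine ⟨j, ?_⟩
  letI := algPS (c := c) n
  have h1 : (k : c.R) ∣ c.π ^ j := hj.dvd
  have h2 := map_dvd ((algebraMap (Polynomial c.R) (c.S n)).comp (C : c.R →+* Polynomial c.R)) h1
  have h3 : (algebraMap (Polynomial c.R) (c.S n)) (C c.π) = c.πS n := rfl
  simp only [RingHom.comp_apply, map_natCast, map_pow, h3] at h2
  exact h2


/-! ### `c.B n` is a finite, integrally closed `c.S n`-algebra -/

theorem ev_mem_adjoin (p : Polynomial c.R) : c.ev p ∈ IntermediateField.adjoin E {c.x} := by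
  rw [c.ev_eq_aeval]
  exact IntermediateField.algebra_adjoin_le_adjoin E _ (Polynomial.aeval_mem_adjoin_singleton E c.x)

theorem Good.S_le_adjoin (hc : c.Good) :
    c.S n ≤ (IntermediateField.adjoin E {c.x}).toSubring := by
  rintro z ⟨p, q, hq, h⟩
  have hq0 : c.ev q ≠ 0 := hc.ev_ne_zero (fun h0 => hq (by rw [h0]; exact n.zero_mem))
  have hz : z = c.ev p / c.ev q := by
    rw [eq_div_iff hq0]; exact h
  rw [hz]
  exact (IntermediateField.adjoin E {c.x}).div_mem (ev_mem_adjoin p) (ev_mem_adjoin q)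

/-- the algebra structure `c.S n → E(x)` (local instance material) -/
@[instance_reducible] noncomputable def Good.algSK (hc : c.Good) :
    Algebra (c.S n) (IntermediateField.adjoin E {c.x}) :=
  ((c.S n).subtype.codRestrict (IntermediateField.adjoin E {c.x})
    (fun z => hc.S_le_adjoin n z.2)).toAlgebra

theorem Good.isFractionRing_S (hc : c.Good) :
    @IsFractionRing (c.S n) _ (IntermediateField.adjoin E {c.x}) _ (hc.algSK n) := by
  letI := hc.algSK n
  have halg : ∀ s : c.S n, ((algebraMap (c.S n) (IntermediateField.adjoin E {c.x}) s :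
      IntermediateField.adjoin E {c.x}) : F) = (s : F) := fun s => rfl
  haveI : FaithfulSMul (c.S n) (IntermediateField.adjoin E {c.x}) := by
    rw [faithfulSMul_iff_algebraMap_injective]
    intro a b hab
    apply Subtype.ext
    rw [← halg a, ← halg b, hab]
  refine IsFractionRing.of_field (c.S n) _ (fun z => ?_)
  obtain ⟨r, s, hrs⟩ := (IntermediateField.mem_adjoin_simple_iff E (z : F)).mp z.2
  obtain ⟨br, hbr, hr⟩ := IsLocalization.integerNormalization_spec (nonZeroDivisors c.R) r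
  obtain ⟨bs, hbs, hs⟩ := IsLocalization.integerNormalization_spec (nonZeroDivisors c.R) s
  set r' := IsLocalization.integerNormalization (nonZeroDivisors c.R) r with hr'
  set s' := IsLocalization.integerNormalization (nonZeroDivisors c.R) s with hs'
  have hbr0 : (br : E) ≠ 0 := by
    intro h0; exact (nonZeroDivisors.ne_zero hbr) (Subtype.ext h0)
  have hbs0 : (bs : E) ≠ 0 := by
    intro h0; exact (nonZeroDivisors.ne_zero hbs) (Subtype.ext h0)
  have her : c.ev r' = algebraMap E F (br : E) * Polynomial.aeval c.x r := by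
    rw [c.ev_eq_aeval]
    have : r'.map c.R.subtype = br • r := hr
    rw [this, Algebra.smul_def, map_mul]
    simp
  have hes : c.ev s' = algebraMap E F (bs : E) * Polynomial.aeval c.x s := by
    rw [c.ev_eq_aeval]
    have : s'.map c.R.subtype = bs • s := hs
    rw [this, Algebra.smul_def, map_mul]
    simp
  refine ⟨⟨c.ev (C bs * r'), c.ev_mem_S n _⟩, ⟨c.ev (C br * s'), c.ev_mem_S n _⟩, ?_⟩
  apply Subtype.ext
  show (z : F) = c.ev (C bs * r') / c.ev (C br * s')
  rw [map_mul, map_mul, c.ev_C, c.ev_C, her, hes, hrs, c.cst_apply, c.cst_apply]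
  have h1 : algebraMap E F (br : E) ≠ 0 := (_root_.map_ne_zero _).mpr hbr0
  have h2 : algebraMap E F (bs : E) ≠ 0 := (_root_.map_ne_zero _).mpr hbs0
  by_cases hs0 : Polynomial.aeval c.x s = 0
  · simp [hs0]
  · field_simp

theorem Good.finite_B (hc : c.Good) :
    Module.Finite (c.S n) (c.B n) ∧ IsIntegrallyClosed (c.B n) := by
  haveI := hc.dvr
  haveI := hc.isLocalRing_S n
  haveI := hc.isNoetherianRing_S n
  haveI : IsIntegrallyClosed (c.S n) := by
    letI := algPS (c := c) n
    haveI := hc.isLocalization_S n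
    exact isIntegrallyClosed_of_isLocalization (c.S n) n.primeCompl
      n.primeCompl_le_nonZeroDivisors
  letI := hc.algSK n
  haveI := hc.isFractionRing_S n
  haveI := hc.fin
  haveI := hc.char0
  haveI : CharZero (IntermediateField.adjoin E {c.x}) :=
    charZero_of_injective_algebraMap (algebraMap E _).injective
  haveI : IsScalarTower (c.S n) (IntermediateField.adjoin E {c.x}) F :=
    IsScalarTower.of_algebraMap_eq (fun _ => rfl)
  haveI : IsIntegralClosure (c.B n) (c.S n) F :=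
    (inferInstance : IsIntegralClosure (integralClosure (c.S n) F) (c.S n) F)
  refine ⟨IsIntegralClosure.finite (c.S n) (IntermediateField.adjoin E {c.x}) F (c.B n), ?_⟩
  exact (integralClosure.isIntegrallyClosedOfFiniteExtension
    (R := c.S n) (IntermediateField.adjoin E {c.x}) (L := F))

theorem coe_πB : ((algebraMap (c.S n) (c.B n) (c.πS n) : c.B n) : F) = c.cst c.π := by
  show c.ev (C c.π) = c.cst c.π
  exact c.ev_C _

theorem Good.cst_π_ne_zero (hc : c.Good) : c.cst c.π ≠ 0 := by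
  rw [c.cst_apply]
  refine (_root_.map_ne_zero _).mpr (fun h0 => hc.irr.ne_zero (Subtype.ext h0))

theorem Good.πB_dvd_iff (hc : c.Good) (hπn : C c.π ∈ n) (z : c.B n) :
    algebraMap (c.S n) (c.B n) (c.πS n) ∣ z ↔ ∃ y ∈ c.V, (z : F) = c.cst c.π * y := by
  constructor
  · rintro ⟨z', rfl⟩
    refine ⟨(z' : F), hc.B_le_V n hπn z'.2, ?_⟩
    rw [← coe_πB n]; rfl
  · rintro ⟨y, hy, hzy⟩
    have hyB : y ∈ c.B n := hc.sat_B n hπn hy (by rw [← hzy]; exact z.2)
    refine ⟨⟨y, hyB⟩, Subtype.ext ?_⟩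
    show (z : F) = (algebraMap (c.S n) (c.B n) (c.πS n) : c.B n) * y
    rw [coe_πB n, hzy]

theorem Good.prime_πB (hc : c.Good) (hπn : C c.π ∈ n) :
    (Ideal.span {algebraMap (c.S n) (c.B n) (c.πS n)}).IsPrime := by
  have hne : algebraMap (c.S n) (c.B n) (c.πS n) ≠ 0 := by
    intro h0
    apply hc.cst_π_ne_zero
    rw [← coe_πB n, h0]; rfl
  rw [Ideal.span_singleton_prime hne]
  refine ⟨hne, ?_, fun a b hab => ?_⟩
  · intro hu
    obtain ⟨u, hu'⟩ := hu.exists_right_inv
    have h1 : c.cst c.π * (u : F) = 1 := by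
      rw [← coe_πB n]; exact congrArg (fun z : c.B n => (z : F)) hu'
    apply hc.unif1
    have : (c.cst c.π)⁻¹ = (u : F) := by
      rw [inv_eq_iff_eq_inv]; exact eq_inv_of_mul_eq_one_left h1
    rw [this]; exact hc.B_le_V n hπn u.2
  · obtain ⟨y, hy, hab'⟩ := (hc.πB_dvd_iff n hπn _).mp hab
    have hab'' : (a : F) * (b : F) = c.cst c.π * y := hab'
    by_cases ha0 : (a : F) = 0
    · left; exact (hc.πB_dvd_iff n hπn a).mpr ⟨0, c.V.zero_mem, by rw [ha0, mul_zero]⟩
    by_cases hb0 : (b : F) = 0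
    · right; exact (hc.πB_dvd_iff n hπn b).mpr ⟨0, c.V.zero_mem, by rw [hb0, mul_zero]⟩
    by_cases hainv : (a : F)⁻¹ ∈ c.V
    · by_cases hbinv : (b : F)⁻¹ ∈ c.V
      · exfalso
        apply hc.unif1
        have : (c.cst c.π)⁻¹ = y * ((a : F)⁻¹ * (b : F)⁻¹) := by
          have hy0 : y ≠ 0 := by
            intro h0; rw [h0, mul_zero] at hab''
            exact (mul_ne_zero ha0 hb0) hab''
          have hπ0 := hc.cst_π_ne_zero
          field_simp
          rw [← hab'']
        rw [this]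
        exact c.V.mul_mem _ _ hy (c.V.mul_mem _ _ hainv hbinv)
      · right
        obtain ⟨y', hy', hby⟩ := hc.unif2 _ (hc.B_le_V n hπn b.2) hbinv
        exact (hc.πB_dvd_iff n hπn b).mpr ⟨y', hy', hby⟩
    · left
      obtain ⟨y', hy', hay⟩ := hc.unif2 _ (hc.B_le_V n hπn a.2) hainv
      exact (hc.πB_dvd_iff n hπn a).mpr ⟨y', hy', hay⟩

/-- `ev p ∈ π V` forces `C π ∣ p`. -/
theorem Good.C_dvd_of_ev (hc : c.Good) {p : Polynomial c.R} {y : F} (hy : y ∈ c.V)
    (hpy : c.ev p = c.cst c.π * y) : C c.π ∣ p := by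
  by_contra hnd
  have hu := hc.ev_unit hnd
  apply hc.unif1
  have hp0 : c.ev p ≠ 0 := hc.ev_ne_zero (fun h0 => hnd (by rw [h0]; exact dvd_zero _))
  have hπ0 := hc.cst_π_ne_zero
  have : (c.cst c.π)⁻¹ = y * (c.ev p)⁻¹ := by
    have hy0 : y ≠ 0 := by
      intro h0; rw [h0, mul_zero] at hpy; exact hp0 hpy
    rw [hpy]; field_simp
  rw [this]
  exact c.V.mul_mem _ _ hy hu

theorem Good.πB_dvd_S (hc : c.Good) (hπn : C c.π ∈ n) (s : c.S n)
    (h : algebraMap (c.S n) (c.B n) (c.πS n) ∣ algebraMap (c.S n) (c.B n) s) : c.πS n ∣ s := by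
  obtain ⟨y, hy, hsy⟩ := (hc.πB_dvd_iff n hπn _).mp h
  have hsy' : (s : F) = c.cst c.π * y := hsy
  obtain ⟨p, q, hq, hpq⟩ := s.2
  have hq0 : c.ev q ≠ 0 := hc.ev_ne_zero (fun h0 => hq (by rw [h0]; exact n.zero_mem))
  have hp : c.ev p = c.cst c.π * (y * c.ev q) := by
    rw [← hpq, hsy']; ring
  obtain ⟨p', rfl⟩ := hc.C_dvd_of_ev (c.V.mul_mem _ _ hy (hc.ev_mem_V q)) hp
  have hmem : c.ev p' * (c.ev q)⁻¹ ∈ c.S n :=
    ⟨p', q, hq, by rw [mul_assoc, inv_mul_cancel₀ hq0, mul_one]⟩
  refine ⟨⟨_, hmem⟩, Subtype.ext ?_⟩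
  show (s : F) = c.ev (C c.π) * (c.ev p' * (c.ev q)⁻¹)
  have : (s : F) = c.ev (C c.π * p') * (c.ev q)⁻¹ := by
    rw [← hpq, mul_assoc, mul_inv_cancel₀ hq0, mul_one]
  rw [this, map_mul]; ring

end AtN

end As18Chart

/-- **(T1)** normality of the special fibre at every closed point of a good chart. -/
theorem as18_normal (hna : na_stmt.{0, 0, 0, 0}) (hnb : nb_stmt.{0, 0}) (hunr : as18_unr_stmt)
    (hsep : as18_sep_stmt) : as18_normal_stmt := by
  intro E F _ _ _ c hc n hn hπn
  obtain ⟨f₀, hf⟩ := hc.exists_param n hπn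
  haveI := hc.isLocalRing_S n
  haveI := hc.isNoetherianRing_S n
  obtain ⟨hfin, hic⟩ := hc.finite_B n
  haveI := hfin
  haveI := hic
  have hπm : c.πS n ∈ IsLocalRing.maximalIdeal (c.S n) := by
    rw [hc.maximalIdeal_S n hf]; exact Ideal.subset_span (Set.mem_insert _ _)
  have hinj : Function.Injective (algebraMap (c.S n) (c.B n)) := fun a b hab =>
    Subtype.ext (congrArg (fun z : c.B n => (z : F)) hab)
  obtain ⟨hfree, -, hdisc⟩ := hna (c.S n) (c.B n) (c.πS n) (c.tS n f₀) hπm (hc.prime_πS n hπn)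
    (hc.pir_S n hf) (hc.prime_tS n hf) hinj (hc.prime_πB n hπn) (hc.πB_dvd_S n hπn)
    (hsep E F c hc n hπn) (hc.natCast_dvd_S n) (hunr E F c hc n f₀ hf)
  haveI := hfree
  classical
  obtain ⟨e, a, hea⟩ := hdisc (Module.Free.ChooseBasisIndex (c.S n) (c.B n))
    (Module.Free.chooseBasis (c.S n) (c.B n))
  exact hnb (c.S n) (c.B n) _ (Module.Free.chooseBasis (c.S n) (c.B n)) (c.πS n) (c.tS n f₀) e a _
    (hc.maximalIdeal_S n hf) (hc.prime_πS n hπn) (hc.pir_S n hf) (hc.prime_tS n hf)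
    (hc.natCast_dvd_S n) hea rfl (hc.prime_πB n hπn)

end Fermat.Agent.S18Lib
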