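import Fermat.Agent.Lib.S18.CgIface

/-!
# S18, chunk Cg: the abstract (G) + (C) + (H) core

`cg18_main : cg18_stmt`.  Notation: `cg18_L m w O = {x | x ^ m * w ∈ O}`.
-/

set_option autoImplicit false

namespace Fermat.Agent.S18Lib

section CgBasic

variable {F : Type*} [Field F]

/-- `L(O) = {x | x ^ m * w ∈ O}`. -/
def cg18_L (m : ℕ) (w : F) (O : Subring F) : Set F := {x | x ^ m * w ∈ O}

theorem cg18_L_zero {m : ℕ} (hm : 0 < m) (w : F) (O : Subring F) :
    (0 : F) ∈ cg18_L m w O := by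
  show (0 : F) ^ m * w ∈ O
  rw [zero_pow hm.ne', zero_mul]
  exact O.zero_mem

theorem cg18_L_smul {m : ℕ} {w : F} {O : Subring F} {s x : F} (hs : s ∈ O)
    (hx : x ∈ cg18_L m w O) : s * x ∈ cg18_L m w O := by
  show (s * x) ^ m * w ∈ O
  have h : (s * x) ^ m * w = s ^ m * (x ^ m * w) := by ring
  rw [h]
  exact O.mul_mem (O.pow_mem hs m) hx

theorem cg18_L_mixed {m : ℕ} {w : F} {O : Subring F} (hrc : ∀ x : F, x ^ m ∈ O → x ∈ O)
    {x y : F} (hx : x ∈ cg18_L m w O) (hy : y ∈ cg18_L m w O) (i : ℕ) (hi : i ≤ m) :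
    x ^ i * y ^ (m - i) * w ∈ O := by
  apply hrc
  have hw : w ^ m = w ^ i * w ^ (m - i) := by rw [← pow_add, Nat.add_sub_cancel' hi]
  have h : (x ^ i * y ^ (m - i) * w) ^ m = (x ^ m * w) ^ i * (y ^ m * w) ^ (m - i) := by
    rw [mul_pow, mul_pow, hw, mul_pow, mul_pow, ← pow_mul, ← pow_mul, ← pow_mul, ← pow_mul,
      mul_comm i m, mul_comm (m - i) m]
    ring
  rw [h]
  exact O.mul_mem (O.pow_mem hx i) (O.pow_mem hy (m - i))

theorem cg18_L_add {m : ℕ} {w : F} {O : Subring F} (hrc : ∀ x : F, x ^ m ∈ O → x ∈ O)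
    {x y : F} (hx : x ∈ cg18_L m w O) (hy : y ∈ cg18_L m w O) : x + y ∈ cg18_L m w O := by
  show (x + y) ^ m * w ∈ O
  rw [add_pow, Finset.sum_mul]
  refine O.sum_mem fun i hi => ?_
  have hi' : i ≤ m := Nat.lt_succ_iff.mp (Finset.mem_range.mp hi)
  have h : x ^ i * y ^ (m - i) * (m.choose i : F) * w
      = (m.choose i : F) * (x ^ i * y ^ (m - i) * w) := by ring
  rw [h]
  exact O.mul_mem (natCast_mem O _) (cg18_L_mixed hrc hx hy i hi')

theorem cg18_L_neg {m : ℕ} {w : F} {O : Subring F} {x : F} (hx : x ∈ cg18_L m w O) :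
    -x ∈ cg18_L m w O := by
  have h := cg18_L_smul (O.neg_mem O.one_mem) hx
  simpa using h

theorem cg18_L_sub {m : ℕ} {w : F} {O : Subring F} (hrc : ∀ x : F, x ^ m ∈ O → x ∈ O)
    {x y : F} (hx : x ∈ cg18_L m w O) (hy : y ∈ cg18_L m w O) : x - y ∈ cg18_L m w O := by
  rw [sub_eq_add_neg]
  exact cg18_L_add hrc hx (cg18_L_neg hy)

theorem cg18_L_mono {m : ℕ} {w : F} {O O' : Subring F} (h : O ≤ O') :
    cg18_L m w O ⊆ cg18_L m w O' := fun _ hx => h hx

/-! ### valuation facts -/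

theorem cg18_val_lt_one (V : ValuationSubring F) {π : F} (hπV : π ∈ V) (hπ : π⁻¹ ∉ V) :
    V.valuation π < 1 := by
  rcases lt_or_eq_of_le ((V.valuation_le_one_iff π).mpr hπV) with h | h
  · exact h
  · exfalso
    apply hπ
    rw [← V.valuation_le_one_iff, map_inv₀, h, inv_one]

theorem cg18_cong_iff (V : ValuationSubring F) {π : F} (hπ0 : π ≠ 0) (x y : F) :
    (∃ v ∈ V, x = y + π * v) ↔ V.valuation (x - y) ≤ V.valuation π := by
  constructor
  · rintro ⟨v, hv, rfl⟩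
    have h : y + π * v - y = π * v := by ring
    rw [h, map_mul]
    exact mul_le_of_le_one_right' ((V.valuation_le_one_iff v).mpr hv)
  · intro h
    have hne : V.valuation π ≠ 0 := (Valuation.ne_zero_iff _).mpr hπ0
    refine ⟨(x - y) / π, ?_, ?_⟩
    · rw [← V.valuation_le_one_iff, map_div₀]
      exact (div_le_one₀ (zero_lt_iff.mpr hne)).mpr h
    · field_simp
      ring

/-- `1 + πV` is closed under multiplication (valuation form). -/
theorem cg18_one_mul (V : ValuationSubring F) {g : V.ValueGroup} (hg : g ≤ 1) {x y : F}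
    (hx : V.valuation (x - 1) ≤ g) (hy : V.valuation (y - 1) ≤ g) :
    V.valuation (x * y - 1) ≤ g := by
  have hy1 : V.valuation y ≤ 1 := by
    have h : y = (y - 1) + 1 := by ring
    rw [h]
    exact Valuation.map_add_le _ (hy.trans hg) (by simp)
  have h : x * y - 1 = (x - 1) * y + (y - 1) := by ring
  rw [h]
  refine Valuation.map_add_le _ ?_ hy
  rw [map_mul]
  exact (mul_le_of_le_one_right' hy1).trans hx

theorem cg18_one_pow (V : ValuationSubring F) {g : V.ValueGroup} (hg : g ≤ 1) {x : F}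
    (hx : V.valuation (x - 1) ≤ g) (k : ℕ) : V.valuation (x ^ k - 1) ≤ g := by
  induction k with
  | zero => simp
  | succ k ih =>
    rw [pow_succ]
    exact cg18_one_mul V hg ih hx

theorem cg18_val_le_one_of (V : ValuationSubring F) {g : V.ValueGroup} (hg : g ≤ 1) {x : F}
    (hx : V.valuation (x - 1) ≤ g) : V.valuation x ≤ 1 := by
  have h : x = (x - 1) + 1 := by ring
  rw [h]
  exact Valuation.map_add_le _ (hx.trans hg) (by simp)

theorem cg18_val_eq_one_of (V : ValuationSubring F) {g : V.ValueGroup} (hg : g < 1) {x : F}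
    (hx : V.valuation (x - 1) ≤ g) : V.valuation x = 1 := by
  have h : x = 1 + (x - 1) := by ring
  rw [h]
  exact Valuation.map_one_add_of_lt _ (lt_of_le_of_lt hx hg)

/-! ### step (G) -/

theorem cg18_G (V : ValuationSubring F) {π : F} {m : ℕ} {w : F} {O : Subring F}
    (hm : 0 < m) (hOV : O ≤ V.toSubring) (hrc : ∀ x : F, x ^ m ∈ O → x ∈ O)
    (hπO : π ∈ O) (hloc : cg18_localHyp V π m w O) :
    ∃ a : F, a ∈ cg18_L m w O ∧ V.valuation (a - 1) ≤ V.valuation π := by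
  classical
  let I : Ideal ↥O :=
    { carrier := {s | ∃ a : F, a ∈ cg18_L m w O ∧ V.valuation (a - (s : F)) ≤ V.valuation π}
      zero_mem' := ⟨0, cg18_L_zero hm w O, by simp⟩
      add_mem' := by
        rintro s t ⟨a, ha, has⟩ ⟨b, hb, hbt⟩
        refine ⟨a + b, cg18_L_add hrc ha hb, ?_⟩
        have h : a + b - ((s + t : ↥O) : F) = (a - s) + (b - t) := by
          push_cast
          ring
        rw [h]
        exact Valuation.map_add_le _ has hbt
      smul_mem' := by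
        rintro c s ⟨a, ha, has⟩
        refine ⟨c * a, cg18_L_smul c.2 ha, ?_⟩
        have h : (c : F) * a - ((c • s : ↥O) : F) = c * (a - s) := by
          rw [smul_eq_mul]
          push_cast
          ring
        rw [h, map_mul]
        exact (mul_le_of_le_one_left' ((V.valuation_le_one_iff _).mpr (hOV c.2))).trans has }
  have hI : I = ⊤ := by
    by_contra hne
    obtain ⟨y, hy, hIy⟩ := Ideal.exists_le_maximal I hne
    have hπy : (⟨π, hπO⟩ : ↥O) ∈ y := hIy ⟨0, cg18_L_zero hm w O, by simp⟩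
    obtain ⟨s, hsy, a, ha, v, hv, rfl⟩ := hloc y hy ⟨⟨π, hπO⟩, hπy, rfl⟩
    apply hsy
    apply hIy
    refine ⟨_, ha, ?_⟩
    have h : (s : F) + π * v - s = π * v := by ring
    rw [h, map_mul]
    exact mul_le_of_le_one_right' ((V.valuation_le_one_iff _).mpr hv)
  have h1 : (1 : ↥O) ∈ I := by
    rw [hI]
    trivial
  obtain ⟨a, ha, h⟩ := h1
  exact ⟨a, ha, by simpa using h⟩

/-! ### step (C): Newton iteration -/

theorem cg18_binom (V : ValuationSubring F) {t : F} (ht : t ∈ V) (k : ℕ) :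
    ∃ c ∈ V, (1 + t) ^ k = 1 + (k : F) * t + t ^ 2 * c := by
  induction k with
  | zero => exact ⟨0, V.zero_mem, by simp⟩
  | succ k ih =>
    obtain ⟨c, hc, h⟩ := ih
    refine ⟨(k : F) + c + c * t, ?_, ?_⟩
    · exact add_mem (add_mem (natCast_mem V k) hc) (mul_mem hc ht)
    · rw [pow_succ, h]
      push_cast
      ring

theorem cg18_newton_step (V : ValuationSubring F) {m : ℕ} {μ e : F} (hμ : (m : F) * μ = 1)
    (hμV : μ ∈ V) (he : e ∈ V) :
    ∃ c ∈ V, (1 + e) * (1 - μ * e) ^ m = 1 + e ^ 2 * c := by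
  obtain ⟨c, hc, h⟩ := cg18_binom V (neg_mem (mul_mem hμV he)) m
  refine ⟨-1 + μ ^ 2 * c * (1 + e), ?_, ?_⟩
  · exact add_mem (neg_mem (one_mem V))
      (mul_mem (mul_mem (pow_mem hμV 2) hc) (add_mem (one_mem V) he))
  · have h' : (1 - μ * e) ^ m = 1 - e + e ^ 2 * (μ ^ 2 * c) := by
      rw [sub_eq_add_neg, h]
      have h2 : (m : F) * -(μ * e) = -e := by rw [mul_neg, ← mul_assoc, hμ, one_mul]
      rw [h2]
      ring
    rw [h']
    ring

theorem cg18_C (V : ValuationSubring F) {π : F} {m : ℕ} {w μ : F} {O : Subring F}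
    (hπlt : V.valuation π < 1) (hOV : O ≤ V.toSubring)
    (hμO : μ ∈ O) (hμ : (m : F) * μ = 1)
    (hw : V.valuation (w - 1) ≤ V.valuation π)
    {a : F} (ha : a ∈ cg18_L m w O) (ha1 : V.valuation (a - 1) ≤ V.valuation π)
    (n : ℕ) (hn : 1 ≤ n) :
    ∃ a' : F, a' ∈ cg18_L m w O ∧ V.valuation (a' - 1) ≤ V.valuation π ∧
      V.valuation (a' ^ m * w - 1) ≤ V.valuation π ^ n := by
  induction n, hn using Nat.le_induction with
  | base =>
    refine ⟨a, ha, ha1, ?_⟩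
    rw [pow_one]
    exact cg18_one_mul V hπlt.le (cg18_one_pow V hπlt.le ha1 m) hw
  | succ n hn ih =>
    obtain ⟨b, hb, hb1, hbn⟩ := ih
    set e : F := b ^ m * w - 1 with he
    have heO : e ∈ O := O.sub_mem hb O.one_mem
    have heV : e ∈ V := hOV heO
    have hμV : μ ∈ V := hOV hμO
    have hbV : V.valuation b ≤ 1 := cg18_val_le_one_of V hπlt.le hb1
    have hen : V.valuation e ≤ V.valuation π := by
      refine hbn.trans ?_
      calc V.valuation π ^ n ≤ V.valuation π ^ 1 := pow_le_pow_right_of_le_one' hπlt.le hn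
        _ = V.valuation π := pow_one _
    refine ⟨(1 - μ * e) * b, cg18_L_smul (O.sub_mem O.one_mem (O.mul_mem hμO heO)) hb, ?_, ?_⟩
    · have h : (1 - μ * e) * b - 1 = (b - 1) - μ * e * b := by ring
      rw [h]
      refine Valuation.map_sub_le _ hb1 ?_
      rw [map_mul, map_mul]
      have h1 : V.valuation μ * V.valuation e * V.valuation b ≤ V.valuation e := by
        calc V.valuation μ * V.valuation e * V.valuation b
            ≤ V.valuation μ * V.valuation e := mul_le_of_le_one_right' hbV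
          _ ≤ V.valuation e := mul_le_of_le_one_left' ((V.valuation_le_one_iff _).mpr hμV)
      exact h1.trans hen
    · obtain ⟨c, hc, hstep⟩ := cg18_newton_step V hμ hμV heV
      have h : ((1 - μ * e) * b) ^ m * w - 1 = e ^ 2 * c := by
        have hbe : b ^ m * w = 1 + e := by
          rw [he]
          ring
        have h2 : ((1 - μ * e) * b) ^ m * w = (1 + e) * (1 - μ * e) ^ m := by
          rw [← hbe, mul_pow]
          ring
        rw [h2, hstep]
        ring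
      rw [h, map_mul, map_pow]
      calc V.valuation e ^ 2 * V.valuation c ≤ V.valuation e ^ 2 :=
            mul_le_of_le_one_right' ((V.valuation_le_one_iff _).mpr hc)
        _ ≤ (V.valuation π ^ n) ^ 2 := pow_le_pow_left' hbn 2
        _ = V.valuation π ^ (n * 2) := (pow_mul _ _ _).symm
        _ ≤ V.valuation π ^ (n + 1) := pow_le_pow_right_of_le_one' hπlt.le (by omega)

/-! ### comparing the two Newton sequences -/

theorem cg18_diff (V : ValuationSubring F) {π : F} {m : ℕ} {w μ : F}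
    (hπlt : V.valuation π < 1) (hμV : μ ∈ V) (hμ : (m : F) * μ = 1)
    (hw : V.valuation (w - 1) ≤ V.valuation π)
    {a b : F} (ha1 : V.valuation (a - 1) ≤ V.valuation π)
    (hb1 : V.valuation (b - 1) ≤ V.valuation π)
    {g : V.ValueGroup} (ha : V.valuation (a ^ m * w - 1) ≤ g)
    (hb : V.valuation (b ^ m * w - 1) ≤ g) :
    V.valuation (a - b) ≤ g := by
  have hw1 : V.valuation w = 1 := cg18_val_eq_one_of V hπlt hw
  have h1 : V.valuation (a ^ m - b ^ m) ≤ g := by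
    have h : (a ^ m - b ^ m) * w = (a ^ m * w - 1) - (b ^ m * w - 1) := by ring
    have h2 : V.valuation ((a ^ m - b ^ m) * w) ≤ g := by
      rw [h]
      exact Valuation.map_sub_le _ ha hb
    rwa [map_mul, hw1, mul_one] at h2
  have hm1 : V.valuation (m : F) = 1 := by
    have hmV : V.valuation (m : F) ≤ 1 := (V.valuation_le_one_iff _).mpr (natCast_mem V m)
    have hμ1 : V.valuation μ ≤ 1 := (V.valuation_le_one_iff _).mpr hμV
    have hprod : V.valuation (m : F) * V.valuation μ = 1 := by rw [← map_mul, hμ, map_one]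
    refine le_antisymm hmV ?_
    rw [← hprod]
    exact mul_le_of_le_one_right' hμ1
  set S : F := ∑ i ∈ Finset.range m, a ^ i * b ^ (m - 1 - i) with hS
  have hSm : V.valuation (S - m) ≤ V.valuation π := by
    have h : S - m = ∑ i ∈ Finset.range m, (a ^ i * b ^ (m - 1 - i) - 1) := by
      rw [Finset.sum_sub_distrib, Finset.sum_const, Finset.card_range, nsmul_eq_mul, mul_one]
    rw [h]
    refine Valuation.map_sum_le _ fun i _ => ?_
    exact cg18_one_mul V hπlt.le (cg18_one_pow V hπlt.le ha1 i) (cg18_one_pow V hπlt.le hb1 _)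
  have hS1 : V.valuation S = 1 := by
    have h : S = (S - m) + m := by ring
    rw [h, Valuation.map_add_eq_of_lt_right, hm1]
    rw [hm1]
    exact lt_of_le_of_lt hSm hπlt
  have hfac : (a - b) * S = a ^ m - b ^ m := (Commute.all a b).mul_geom_sum₂ m
  have h3 : V.valuation (a - b) = V.valuation (a ^ m - b ^ m) := by
    rw [← hfac, map_mul, hS1, mul_one]
  rw [h3]
  exact h1

/-! ### saturation of `L(O)` -/

theorem cg18_sat_L (V : ValuationSubring F) {π : F} {m : ℕ} {w : F} {O : Subring F}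
    (hπV : π ∈ V) (hwV : w ∈ V)
    (hsat : ∀ x : F, π * x ∈ O → x ∈ V → x ∈ O)
    {x : F} (hxV : x ∈ V) (hx : π * x ∈ cg18_L m w O) : x ∈ cg18_L m w O := by
  have key : ∀ i : ℕ, i ≤ m → π ^ (m - i) * (x ^ m * w) ∈ O := by
    intro i
    induction i with
    | zero =>
      intro _
      have h : π ^ (m - 0) * (x ^ m * w) = (π * x) ^ m * w := by
        rw [Nat.sub_zero]
        ring
      rw [h]
      exact hx
    | succ i ih =>
      intro hi
      apply hsat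
      · have h : π * (π ^ (m - (i + 1)) * (x ^ m * w)) = π ^ (m - i) * (x ^ m * w) := by
          have h2 : m - i = (m - (i + 1)) + 1 := by omega
          rw [h2, pow_succ]
          ring
        rw [h]
        exact ih (by omega)
      · exact mul_mem (pow_mem hπV _) (mul_mem (pow_mem hxV _) hwV)
  have h := key m le_rfl
  rw [Nat.sub_self, pow_zero, one_mul] at h
  exact h

theorem cg18_sat_L_pow (V : ValuationSubring F) {π : F} {m : ℕ} {w : F} {O : Subring F}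
    (hπV : π ∈ V) (hwV : w ∈ V)
    (hsat : ∀ x : F, π * x ∈ O → x ∈ V → x ∈ O) (n : ℕ)
    {x : F} (hxV : x ∈ V) (hx : π ^ n * x ∈ cg18_L m w O) : x ∈ cg18_L m w O := by
  induction n with
  | zero =>
    rw [pow_zero, one_mul] at hx
    exact hx
  | succ n ih =>
    apply ih
    apply cg18_sat_L V hπV hwV hsat (mul_mem (pow_mem hπV n) hxV)
    have h : π * (π ^ n * x) = π ^ (n + 1) * x := by ring
    rw [h]
    exact hx

theorem cg18_L_subset_V (V : ValuationSubring F) {m : ℕ} {w : F} {O : Subring F} (hm : 0 < m)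
    (hOV : O ≤ V.toSubring) (hw1 : V.valuation w = 1) {x : F} (hx : x ∈ cg18_L m w O) :
    x ∈ V := by
  have h : V.valuation (x ^ m * w) ≤ 1 := (V.valuation_le_one_iff _).mpr (hOV hx)
  rw [map_mul, hw1, mul_one, map_pow, pow_le_one_iff hm.ne'] at h
  exact (V.valuation_le_one_iff x).mp h

end CgBasic

/-! ### step (H) -/

section CgH

variable {F : Type*} [Field F]

/-- `L(O)` as an `R`-submodule of `F`. -/
def cg18_LR (m : ℕ) (w : F) (R O : Subring F) (hm : 0 < m) (hRO : R ≤ O)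
    (hrc : ∀ x : F, x ^ m ∈ O → x ∈ O) : Submodule ↥R F where
  carrier := cg18_L m w O
  zero_mem' := cg18_L_zero hm w O
  add_mem' := fun hx hy => cg18_L_add hrc hx hy
  smul_mem' := fun c x hx => by
    have h := cg18_L_smul (hRO c.2) hx
    show c • x ∈ cg18_L m w O
    rw [Subring.smul_def, smul_eq_mul]
    exact h

theorem cg18_mem_LR {m : ℕ} {w : F} {R O : Subring F} {hm : 0 < m} {hRO : R ≤ O}
    {hrc : ∀ x : F, x ^ m ∈ O → x ∈ O} {x : F} :
    x ∈ cg18_LR m w R O hm hRO hrc ↔ x ∈ cg18_L m w O := Iff.rfl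

theorem cg18_loc_L {m : ℕ} {w j : F} {O O' : Subring F} (hm : 0 < m) (hj : j ∈ O)
    (hloc : ∀ x ∈ O', ∃ k : ℕ, j ^ k * x ∈ O) {x : F} (hx : x ∈ cg18_L m w O') :
    ∃ k : ℕ, ∀ e : ℕ, k ≤ e → j ^ e * x ∈ cg18_L m w O := by
  obtain ⟨k, hk⟩ := hloc _ hx
  refine ⟨k, fun e hke => ?_⟩
  show (j ^ e * x) ^ m * w ∈ O
  have hkem : k ≤ e * m := le_trans hke (Nat.le_mul_of_pos_right e hm)
  have h : (j ^ e * x) ^ m * w = j ^ (e * m - k) * (j ^ k * (x ^ m * w)) := by
    have h2 : j ^ (e * m) = j ^ (e * m - k) * j ^ k := by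
      rw [← pow_add, Nat.sub_add_cancel hkem]
    rw [mul_pow, ← pow_mul, h2]
    ring
  rw [h]
  exact O.mul_mem (O.pow_mem hj _) hk

theorem cg18_aeval_mem {R O : Subring F} (hRO : R ≤ O) {u : F} (hu : u ∈ O)
    (q : Polynomial ↥R) : Polynomial.aeval u q ∈ O := by
  rw [Polynomial.aeval_eq_sum_range]
  refine O.sum_mem fun i _ => ?_
  rw [Subring.smul_def, smul_eq_mul]
  exact O.mul_mem (hRO (q.coeff i).2) (O.pow_mem hu i)

theorem cg18_fg_LV {m : ℕ} {w u : F} {R OV : Subring F} {P : Type*} [CommRing P] [Algebra P F]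
    (hm : 0 < m) (hw0 : w ≠ 0) (hROV : R ≤ OV) (hrcV : ∀ x : F, x ^ m ∈ OV → x ∈ OV)
    (huV : u ∈ OV)
    (hP : ∀ p : P, ∃ q : Polynomial ↥R, algebraMap P F p = Polynomial.aeval u q)
    (hnoeth : ∀ N : Submodule P F, (∀ x ∈ N, x ∈ OV) → N.FG)
    {x₀ : F} (hx₀ : x₀ ∈ cg18_L m w OV) (hx₀0 : x₀ ≠ 0) :
    ∃ s : Finset F, (∀ v ∈ s, v ∈ cg18_L m w OV) ∧
      ∀ x ∈ cg18_L m w OV, ∃ c : F → Polynomial ↥R,
        x = ∑ v ∈ s, Polynomial.aeval u (c v) * v := by
  classical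
  let NP : Submodule P F :=
    { carrier := cg18_L m w OV
      zero_mem' := cg18_L_zero hm w OV
      add_mem' := fun hx hy => cg18_L_add hrcV hx hy
      smul_mem' := fun p x hx => by
        obtain ⟨q, hq⟩ := hP p
        have h := cg18_L_smul (cg18_aeval_mem hROV huV q) hx
        rw [← hq, ← Algebra.smul_def] at h
        exact h }
  set cm : F := x₀ ^ (m - 1) * w with hcm
  have hcm0 : cm ≠ 0 := mul_ne_zero (pow_ne_zero _ hx₀0) hw0
  let f : F →ₗ[P] F := LinearMap.mulLeft P cm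
  have hf : Function.Injective f := fun a b hab => mul_left_cancel₀ hcm0 hab
  have hfg : (NP.map f).FG := by
    apply hnoeth
    rintro _ ⟨x, hx, rfl⟩
    have h := cg18_L_mixed hrcV hx₀ hx (m - 1) (Nat.sub_le m 1)
    have h2 : m - (m - 1) = 1 := by omega
    rw [h2, pow_one] at h
    show cm * x ∈ OV
    have h3 : cm * x = x₀ ^ (m - 1) * x * w := by
      rw [hcm]
      ring
    rw [h3]
    exact h
  have hNP : NP.FG := Submodule.fg_of_fg_map_injective f hf hfg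
  obtain ⟨S, hSfin, hS⟩ := Submodule.fg_def.mp hNP
  refine ⟨hSfin.toFinset, ?_, ?_⟩
  · intro v hv
    have hvN : v ∈ NP := by
      rw [← hS]
      exact Submodule.subset_span (hSfin.mem_toFinset.mp hv)
    exact hvN
  · intro x hx
    have hx' : x ∈ Submodule.span P (↑hSfin.toFinset : Set F) := by
      rw [Set.Finite.coe_toFinset, hS]
      exact hx
    obtain ⟨c, -, hc⟩ := Submodule.mem_span_finset.mp hx'
    refine ⟨fun v => (hP (c v)).choose, ?_⟩
    rw [← hc]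
    refine Finset.sum_congr rfl fun v _ => ?_
    rw [Algebra.smul_def, (hP (c v)).choose_spec]

theorem cg18_term {m : ℕ} {w j u : F} {R OU OV : Subring F} (hm : 0 < m)
    (hRU : R ≤ OU) (hRV : R ≤ OV)
    (hrcU : ∀ x : F, x ^ m ∈ OU → x ∈ OU) (hrcV : ∀ x : F, x ^ m ∈ OV → x ∈ OV)
    (hju : j * u = 1) (huV : u ∈ OV)
    {n0 : ℕ} {v : F} (hvV : v ∈ cg18_L m w OV)
    (hvU : ∀ e, n0 ≤ e → j ^ e * v ∈ cg18_L m w OU)
    (G : Submodule ↥R F) (hG : ∀ e, e < n0 → j ^ e * v ∈ G) (k d : ℕ) :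
    j ^ k * u ^ d * v ∈
      cg18_LR m w R OU hm hRU hrcU ⊔ cg18_LR m w R OV hm hRV hrcV ⊔ G := by
  by_cases hkd : k ≤ d
  · have h : j ^ k * u ^ d * v = u ^ (d - k) * v := by
      have h2 : u ^ d = u ^ k * u ^ (d - k) := by rw [← pow_add, Nat.add_sub_cancel' hkd]
      rw [h2, ← mul_assoc, ← mul_pow, hju, one_pow, one_mul]
    rw [h]
    refine Submodule.mem_sup_left (Submodule.mem_sup_right ?_)
    exact cg18_L_smul (OV.pow_mem huV _) hvV
  · have hdk : d ≤ k := by omega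
    have h : j ^ k * u ^ d * v = j ^ (k - d) * v := by
      have h2 : j ^ k = j ^ (k - d) * j ^ d := by rw [← pow_add, Nat.sub_add_cancel hdk]
      rw [h2, mul_assoc (j ^ (k - d)), ← mul_pow, hju, one_pow, mul_one]
    rw [h]
    by_cases hn0 : n0 ≤ k - d
    · exact Submodule.mem_sup_left (Submodule.mem_sup_left (hvU _ hn0))
    · exact Submodule.mem_sup_right (hG _ (by omega))

theorem cg18_H_span {m : ℕ} {w j u : F} {R OU OV OUV : Subring F} {P : Type*} [CommRing P]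
    [Algebra P F] (hm : 0 < m) (hw0 : w ≠ 0)
    (hRU : R ≤ OU) (hRV : R ≤ OV) (hV : OV ≤ OUV)
    (hrcU : ∀ x : F, x ^ m ∈ OU → x ∈ OU) (hrcV : ∀ x : F, x ^ m ∈ OV → x ∈ OV)
    (hju : j * u = 1) (hjU : j ∈ OU) (huV : u ∈ OV)
    (hlocU : ∀ x ∈ OUV, ∃ k : ℕ, j ^ k * x ∈ OU) (hlocV : ∀ x ∈ OUV, ∃ k : ℕ, u ^ k * x ∈ OV)
    (hP : ∀ p : P, ∃ q : Polynomial ↥R, algebraMap P F p = Polynomial.aeval u q)
    (hnoeth : ∀ N : Submodule P F, (∀ x ∈ N, x ∈ OV) → N.FG)
    {x₀ : F} (hx₀ : x₀ ∈ cg18_L m w OV) (hx₀0 : x₀ ≠ 0) :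
    ∃ G : Submodule ↥R F, G.FG ∧ ∀ x ∈ cg18_L m w OUV,
      x ∈ cg18_LR m w R OU hm hRU hrcU ⊔ cg18_LR m w R OV hm hRV hrcV ⊔ G := by
  classical
  obtain ⟨s, hsL, hsgen⟩ := cg18_fg_LV hm hw0 hRV hrcV huV hP hnoeth hx₀ hx₀0
  have hex : ∀ v ∈ s, ∃ k : ℕ, ∀ e : ℕ, k ≤ e → j ^ e * v ∈ cg18_L m w OU :=
    fun v hv => cg18_loc_L hm hjU hlocU (cg18_L_mono hV (hsL v hv))
  choose! K hK using hex
  let G₀ : Finset F := (s ×ˢ Finset.range (s.sup K)).image (fun p => j ^ p.2 * p.1)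
  refine ⟨Submodule.span ↥R (G₀ : Set F), Submodule.fg_span (Finset.finite_toSet _), ?_⟩
  intro x hx
  obtain ⟨k, hk⟩ := cg18_loc_L hm huV hlocV hx
  obtain ⟨c, hc⟩ := hsgen _ (hk k le_rfl)
  have hx' : x = ∑ v ∈ s, j ^ k * (Polynomial.aeval u (c v) * v) := by
    rw [← Finset.mul_sum, ← hc, ← mul_assoc, ← mul_pow, hju, one_pow, one_mul]
  rw [hx']
  refine Submodule.sum_mem _ fun v hv => ?_
  rw [Polynomial.aeval_eq_sum_range, Finset.sum_mul, Finset.mul_sum]
  refine Submodule.sum_mem _ fun d _ => ?_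
  have h : j ^ k * ((c v).coeff d • u ^ d * v) = (c v).coeff d • (j ^ k * u ^ d * v) := by
    rw [Subring.smul_def, Subring.smul_def, smul_eq_mul, smul_eq_mul]
    ring
  rw [h]
  refine Submodule.smul_mem _ _ ?_
  refine cg18_term hm hRU hRV hrcU hrcV hju huV (n0 := s.sup K) (hsL v hv)
    (fun e he => hK v hv e (le_trans (Finset.le_sup hv) he)) _ (fun e he => ?_) k d
  refine Submodule.subset_span (Finset.mem_coe.mpr (Finset.mem_image.mpr ⟨(v, e), ?_, rfl⟩))
  exact Finset.mem_product.mpr ⟨hv, Finset.mem_range.mpr he⟩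

theorem cg18_chain {R : Subring F} [IsNoetherianRing ↥R] {π : F} (hπR : π ∈ R)
    (N G : Submodule ↥R F) (hG : G.FG) :
    ∃ c : ℕ, ∀ n : ℕ, ∀ δ : F, δ ∈ N ⊔ G → π ^ n * δ ∈ N → π ^ c * δ ∈ N := by
  have hGn : IsNoetherian ↥R ↥G := isNoetherian_of_fg_of_noetherian G hG
  have hsm : ∀ (n : ℕ) (x : F), π ^ n * x = (⟨π ^ n, R.pow_mem hπR n⟩ : ↥R) • x := by
    intro n x
    rw [Subring.smul_def, smul_eq_mul]
  let T : ℕ →o Submodule ↥R ↥G :=
    { toFun := fun n => Submodule.comap G.subtype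
        (Submodule.comap ((⟨π ^ n, R.pow_mem hπR n⟩ : ↥R) • (LinearMap.id : F →ₗ[↥R] F)) N)
      monotone' := by
        intro a b hab g hg
        have hg' : π ^ a * (g : F) ∈ N := by
          rw [hsm]
          exact hg
        show (⟨π ^ b, R.pow_mem hπR b⟩ : ↥R) • (g : F) ∈ N
        rw [← hsm]
        have h1 : π ^ b * (g : F) = π ^ (b - a) * (π ^ a * (g : F)) := by
          rw [← mul_assoc, ← pow_add, Nat.sub_add_cancel hab]
        rw [h1, hsm]
        exact N.smul_mem _ hg' }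
  have hT : ∀ (n : ℕ) (g : ↥G), g ∈ T n ↔ π ^ n * (g : F) ∈ N := by
    intro n g
    rw [hsm]
    exact Iff.rfl
  obtain ⟨c, hc⟩ := monotone_stabilizes_iff_noetherian.mpr hGn T
  refine ⟨c, fun n δ hδ hn => ?_⟩
  obtain ⟨ν, hν, g, hg, rfl⟩ := Submodule.mem_sup.mp hδ
  have hgn : π ^ n * g ∈ N := by
    have h : π ^ n * g = π ^ n * (ν + g) - π ^ n * ν := by ring
    rw [h]
    refine N.sub_mem hn ?_
    rw [hsm]
    exact N.smul_mem _ hν
  have hgT : (⟨g, hg⟩ : ↥G) ∈ T n := (hT n ⟨g, hg⟩).mpr hgn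
  have hgT' : (⟨g, hg⟩ : ↥G) ∈ T (max n c) := T.monotone (le_max_left n c) hgT
  rw [← hc (max n c) (le_max_right n c)] at hgT'
  have hgc : π ^ c * g ∈ N := (hT c ⟨g, hg⟩).mp hgT'
  have h : π ^ c * (ν + g) = π ^ c * ν + π ^ c * g := by ring
  rw [h]
  refine N.add_mem ?_ hgc
  rw [hsm]
  exact N.smul_mem _ hν

end CgH

/-! ### the main theorem -/

section CgMainSec

universe uF uP

theorem cg18_main' {F : Type uF} [Field F] (V : ValuationSubring F) (π : F) (m : ℕ)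
    (w j u : F) (R OU OV OUV : Subring F) (P : Type uP) [CommRing P] [Algebra P F]
    (hπ0 : π ≠ 0) (hπ : π⁻¹ ∉ V) (hπR : π ∈ R)
    (hm : 0 < m) (hμ : ∃ μ ∈ R, (m : F) * μ = 1)
    (hw : ∃ v ∈ V, w = 1 + π * v)
    (hRU : R ≤ OU) (hRV : R ≤ OV) (hU : OU ≤ OUV) (hV : OV ≤ OUV) (hUV : OUV ≤ V.toSubring)
    (hR : IsNoetherianRing ↥R)
    (hrcU : ∀ x : F, x ^ m ∈ OU → x ∈ OU) (hrcV : ∀ x : F, x ^ m ∈ OV → x ∈ OV)
    (hrcUV : ∀ x : F, x ^ m ∈ OUV → x ∈ OUV)
    (hsat : ∀ x : F, π * x ∈ OUV → x ∈ V → x ∈ OUV)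
    (hju : j * u = 1) (hjU : j ∈ OU) (huV : u ∈ OV)
    (hlocU : ∀ x ∈ OUV, ∃ k : ℕ, j ^ k * x ∈ OU) (hlocV : ∀ x ∈ OUV, ∃ k : ℕ, u ^ k * x ∈ OV)
    (hP : ∀ p : P, ∃ q : Polynomial ↥R, algebraMap P F p = Polynomial.aeval u q)
    (hnoeth : ∀ N : Submodule P F, (∀ x ∈ N, x ∈ OV) → N.FG)
    (hGU : cg18_localHyp V π m w OU) (hGV : cg18_localHyp V π m w OV) :
    ∃ x : F, (∃ v ∈ V, x = 1 + π * v) ∧ x ^ m * w ∈ OU ∧ x ^ m * w ∈ OV := by
  obtain ⟨μ, hμR, hμ⟩ := hμ
  have hUle : OU ≤ V.toSubring := hU.trans hUV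
  have hVle : OV ≤ V.toSubring := hV.trans hUV
  have hπV : π ∈ V := hUle (hRU hπR)
  have hπlt := cg18_val_lt_one V hπV hπ
  have hw' : V.valuation (w - 1) ≤ V.valuation π := (cg18_cong_iff V hπ0 w 1).mp hw
  have hw1 : V.valuation w = 1 := cg18_val_eq_one_of V hπlt hw'
  have hwV : w ∈ V := (V.valuation_le_one_iff w).mp hw1.le
  have hw0 : w ≠ 0 := by
    intro h
    rw [h, map_zero] at hw1
    exact zero_ne_one hw1
  -- (G)
  obtain ⟨a₁, ha₁, ha₁1⟩ := cg18_G V hm hUle hrcU (hRU hπR) hGU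
  obtain ⟨b₁, hb₁, hb₁1⟩ := cg18_G V hm hVle hrcV (hRV hπR) hGV
  have hb₁0 : b₁ ≠ 0 := by
    intro h
    have h1 := cg18_val_eq_one_of V hπlt hb₁1
    rw [h, map_zero] at h1
    exact zero_ne_one h1
  -- (H)
  obtain ⟨G, hGfg, hGspan⟩ := cg18_H_span hm hw0 hRU hRV hV hrcU hrcV hju hjU huV hlocU hlocV
    hP hnoeth hb₁ hb₁0
  obtain ⟨c, hc⟩ := cg18_chain hπR
    (cg18_LR m w R OU hm hRU hrcU ⊔ cg18_LR m w R OV hm hRV hrcV) G hGfg
  -- (C)
  obtain ⟨a, ha, ha1, han⟩ :=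
    cg18_C V hπlt hUle (hRU hμR) hμ hw' ha₁ ha₁1 (c + 1) (by omega)
  obtain ⟨b, hb, hb1, hbn⟩ :=
    cg18_C V hπlt hVle (hRV hμR) hμ hw' hb₁ hb₁1 (c + 1) (by omega)
  have hab : V.valuation (a - b) ≤ V.valuation π ^ (c + 1) :=
    cg18_diff V hπlt (hUle (hRU hμR)) hμ hw' ha1 hb1 han hbn
  have hγ0 : V.valuation π ≠ 0 := (Valuation.ne_zero_iff _).mpr hπ0
  set δ : F := (a - b) / π ^ (c + 1) with hδ
  have hδV : δ ∈ V := by
    rw [← V.valuation_le_one_iff, hδ, map_div₀, map_pow]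
    exact (div_le_one₀ (pow_pos (zero_lt_iff.mpr hγ0) _)).mpr hab
  have hπδ : π ^ (c + 1) * δ = a - b := by
    rw [hδ]
    field_simp
  have hδL : δ ∈ cg18_L m w OUV := by
    apply cg18_sat_L_pow V hπV hwV hsat (c + 1) hδV
    rw [hπδ]
    exact cg18_L_sub hrcUV (cg18_L_mono hU ha) (cg18_L_mono hV hb)
  have h1 : π ^ (c + 1) * δ ∈
      cg18_LR m w R OU hm hRU hrcU ⊔ cg18_LR m w R OV hm hRV hrcV := by
    rw [hπδ, sub_eq_add_neg]
    exact Submodule.add_mem_sup (cg18_mem_LR.mpr ha) (cg18_mem_LR.mpr (cg18_L_neg hb))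
  have h2 := hc (c + 1) δ (hGspan δ hδL) h1
  obtain ⟨α, hα, β, hβ, hαβ⟩ := Submodule.mem_sup.mp h2
  have hαL : α ∈ cg18_L m w OU := hα
  have hβL : β ∈ cg18_L m w OV := hβ
  have hαV : α ∈ V := cg18_L_subset_V V hm hUle hw1 hαL
  have hkey : a - b = π * (α + β) := by
    rw [← hπδ, hαβ, pow_succ]
    ring
  refine ⟨a - π * α, ?_, ?_, ?_⟩
  · rw [cg18_cong_iff V hπ0]
    have h3 : a - π * α - 1 = (a - 1) - π * α := by ring
    rw [h3]
    refine Valuation.map_sub_le _ ha1 ?_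
    rw [map_mul]
    exact mul_le_of_le_one_right' ((V.valuation_le_one_iff _).mpr hαV)
  · exact cg18_L_sub hrcU ha (cg18_L_smul (hRU hπR) hαL)
  · have h3 : a - π * α = b + π * β := by linear_combination hkey
    rw [h3]
    exact cg18_L_add hrcV hb (cg18_L_smul (hRV hπR) hβL)

/-- The abstract (G) + (C) + (H) core, in the bundled form of `CgIface`. -/
theorem cg18_main : cg18_stmt.{uF, uP} := by
  intro F _ V π m w j u R OU OV OUV P _ _ hπ0 hπ hπR hm hμ hw hRU hRV hU hV hUV hR hrcU hrcV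
    hrcUV hsat hju hjU huV hlocU hlocV hP hnoeth hGU hGV
  exact cg18_main' V π m w j u R OU OV OUV P hπ0 hπ hπR hm hμ hw hRU hRV hU hV hUV hR hrcU hrcV
    hrcUV hsat hju hjU huV hlocU hlocV hP hnoeth hGU hGV

/-- Convenience: the local hypothesis of (G) from the output of (K):
`b ≡ 1 mod π V` with `b ^ m * w ∈ O_y` (written as `d * (b ^ m * w) ∈ O` with `d ∈ O \ y`). -/
theorem cg18_localHyp_of_unit {F : Type uF} [Field F] (V : ValuationSubring F) (π : F) (m : ℕ)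
    (w : F) (O : Subring F) (hm : 0 < m) (hOV : O ≤ V.toSubring)
    (h : ∀ y : Ideal ↥O, y.IsMaximal → (∃ p ∈ y, (p : F) = π) →
      ∃ b : F, (∃ v ∈ V, b = 1 + π * v) ∧ ∃ d : ↥O, d ∉ y ∧ (d : F) * (b ^ m * w) ∈ O) :
    cg18_localHyp V π m w O := by
  intro y hy hπy
  obtain ⟨b, ⟨v, hv, rfl⟩, d, hdy, hd⟩ := h y hy hπy
  refine ⟨d, hdy, (d : F) * (1 + π * v), ?_, (d : F) * v, mul_mem (hOV d.2) hv, by ring⟩
  have h1 : ((d : F) * (1 + π * v)) ^ m * w
      = (d : F) ^ (m - 1) * ((d : F) * ((1 + π * v) ^ m * w)) := by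
    have h2 : (d : F) ^ m = (d : F) ^ (m - 1) * d := by
      rw [← pow_succ, Nat.sub_add_cancel hm]
    rw [mul_pow, h2]
    ring
  rw [h1]
  exact O.mul_mem (O.pow_mem d.2 _) hd

end CgMainSec

end Fermat.Agent.S18Lib
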