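import Fermat.Agent.Lib.S18.AsLocalCore
import Fermat.Agent.Lib.S18.AsNormal
import Fermat.Agent.Lib.S18.CgMain

/-!
# S18 assembly: (T2) `as18_local : as18_local_stmt`

From (NORMAL) at all closed points of a good chart and the local lemma (K) to the local
hypothesis of step (G).  A maximal ideal `y` of the chart ring `c.O` with `π ∈ y` contracts to a
maximal ideal `n` of `R[X]`; `yB` is the prime of `c.B n` above `y`; `as18k_core` applied to
`B = c.B n`, `P = yB` gives `b ≡ 1 mod π V` with `b ^ m * w ∈ (c.B n)_yB = (c.O)_y`.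
-/

set_option autoImplicit false
set_option linter.style.haveILetI false

open Polynomial IsLocalRing

namespace Fermat.Agent.S18Lib

namespace As18Chart

variable {E F : Type} [Field E] [Field F] [Algebra E F] {c : As18Chart E F}

theorem as18k_ev_mem_O (p : Polynomial c.R) : c.ev p ∈ c.O :=
  (c.mem_O_iff).mpr (isIntegral_algebraMap (x := (⟨c.ev p, p, rfl⟩ : c.ev.range)))

/-- evaluation into the chart ring. -/
noncomputable def as18k_evO (c : As18Chart E F) : Polynomial c.R →+* c.O :=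
  c.ev.codRestrict c.O (fun p => as18k_ev_mem_O p)

theorem as18k_evO_coe (p : Polynomial c.R) : ((as18k_evO c p : c.O) : F) = c.ev p := rfl

/-- the chart ring is integral over `R[X]`. -/
theorem as18k_evO_isIntegral : (as18k_evO c).IsIntegral := by
  intro o
  letI : Algebra (Polynomial c.R) F := c.ev.toAlgebra
  letI : Algebra (Polynomial c.R) c.ev.range := c.ev.rangeRestrict.toAlgebra
  haveI : IsScalarTower (Polynomial c.R) c.ev.range F :=
    IsScalarTower.of_algebraMap_eq (fun _ => rfl)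
  haveI : Algebra.IsIntegral (Polynomial c.R) c.ev.range :=
    Algebra.IsIntegral.of_surjective (Algebra.ofId (Polynomial c.R) c.ev.range)
      c.ev.rangeRestrict_surjective
  have h : IsIntegral (Polynomial c.R) (o : F) := isIntegral_trans _ ((c.mem_O_iff).mp o.2)
  obtain ⟨P, hP, hPz⟩ := h
  refine ⟨P, hP, Subtype.ext ?_⟩
  have h1 := Polynomial.hom_eval₂ P (as18k_evO c) c.O.subtype o
  have h2 : c.O.subtype.comp (as18k_evO c) = c.ev := rfl
  rw [h2] at h1
  exact h1.trans hPz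

/-- the ideal of `c.B n` above an ideal `y` of the chart ring. -/
def as18k_yB (hc : c.Good) (y : Ideal c.O) (n : Ideal (Polynomial c.R)) [hn : n.IsMaximal] :
    Ideal (c.B n) where
  carrier := {z | ∃ q : Polynomial c.R, q ∉ n ∧ ∃ o : c.O, o ∈ y ∧ (o : F) = c.ev q * (z : F)}
  add_mem' := by
    rintro a b ⟨q, hq, o, ho, hoa⟩ ⟨q', hq', o', ho', hob⟩
    refine ⟨q * q', fun hqq => (hn.isPrime.mem_or_mem hqq).elim hq hq',
      as18k_evO c q' * o + as18k_evO c q * o',
      y.add_mem (y.mul_mem_left _ ho) (y.mul_mem_left _ ho'), ?_⟩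
    show c.ev q' * (o : F) + c.ev q * (o' : F) = c.ev (q * q') * ((a : F) + (b : F))
    rw [hoa, hob, map_mul]
    ring
  zero_mem' := ⟨1, fun h1 => hn.ne_top ((Ideal.eq_top_iff_one n).mpr h1), 0, y.zero_mem, by
    show (0 : F) = c.ev 1 * (0 : F)
    rw [mul_zero]⟩
  smul_mem' := by
    rintro β z ⟨q, hq, o, ho, hoz⟩
    obtain ⟨q', hq', hβ⟩ := hc.exists_mul_mem_O n β.2
    refine ⟨q * q', fun hqq => (hn.isPrime.mem_or_mem hqq).elim hq hq',
      ⟨_, hβ⟩ * o, y.mul_mem_left _ ho, ?_⟩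
    show c.ev q' * (β : F) * (o : F) = c.ev (q * q') * ((β : F) * (z : F))
    rw [hoz, map_mul]
    ring

theorem as18k_mem_yB (hc : c.Good) (y : Ideal c.O) (n : Ideal (Polynomial c.R)) [n.IsMaximal]
    (z : c.B n) : z ∈ as18k_yB hc y n ↔
      ∃ q : Polynomial c.R, q ∉ n ∧ ∃ o : c.O, o ∈ y ∧ (o : F) = c.ev q * (z : F) := Iff.rfl

theorem as18k_yB_isPrime (hc : c.Good) (y : Ideal c.O) [hy : y.IsPrime]
    (n : Ideal (Polynomial c.R)) [n.IsMaximal]
    (hqy : ∀ q : Polynomial c.R, q ∉ n → as18k_evO c q ∉ y) : (as18k_yB hc y n).IsPrime := by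
  refine ⟨?_, ?_⟩
  · intro htop
    have h1 : (1 : c.B n) ∈ as18k_yB hc y n := htop ▸ Submodule.mem_top
    obtain ⟨q, hq, o, ho, ho1⟩ := h1
    apply hqy q hq
    have : as18k_evO c q = o := Subtype.ext (by
      rw [as18k_evO_coe, ho1]
      show c.ev q = c.ev q * (1 : F)
      rw [mul_one])
    rw [this]
    exact ho
  · intro a b hab
    obtain ⟨q, hq, o, ho, hoab⟩ := hab
    obtain ⟨q₁, hq₁, ha⟩ := hc.exists_mul_mem_O n a.2
    obtain ⟨q₂, hq₂, hb⟩ := hc.exists_mul_mem_O n b.2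
    have hprod : (⟨_, ha⟩ : c.O) * ⟨_, hb⟩ * as18k_evO c q ∈ y := by
      have : (⟨_, ha⟩ : c.O) * ⟨_, hb⟩ * as18k_evO c q
          = as18k_evO c q₁ * as18k_evO c q₂ * o := Subtype.ext (by
        show c.ev q₁ * (a : F) * (c.ev q₂ * (b : F)) * c.ev q = c.ev q₁ * c.ev q₂ * (o : F)
        rw [hoab]
        show c.ev q₁ * (a : F) * (c.ev q₂ * (b : F)) * c.ev q
          = c.ev q₁ * c.ev q₂ * (c.ev q * ((a : F) * (b : F)))
        ring)
      rw [this]
      exact y.mul_mem_left _ ho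
    rcases hy.mem_or_mem hprod with h | h
    · rcases hy.mem_or_mem h with h' | h'
      · exact Or.inl ⟨q₁, hq₁, _, h', rfl⟩
      · exact Or.inr ⟨q₂, hq₂, _, h', rfl⟩
    · exact absurd h (hqy q hq)

end As18Chart

open As18Chart in
/-- **(T2)** from (NORMAL) at all closed points and lemma (K) to the local hypothesis of (G). -/
theorem as18_local : as18_local_stmt := by
  intro E F _ _ _ c hc m w hw hnormal
  refine cg18_localHyp_of_unit c.V (c.cst c.π) m w c.O hw.mpos hc.O_le_V ?_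
  intro y hy hπy
  obtain ⟨p₀, hp₀y, hp₀⟩ := hπy
  haveI hyprime : y.IsPrime := hy.isPrime
  -- the closed point of the base
  obtain ⟨n, hn⟩ : ∃ n : Ideal (Polynomial c.R), n = y.comap (as18k_evO c) := ⟨_, rfl⟩
  haveI hnmax : n.IsMaximal := by
    rw [hn]
    exact Ideal.isMaximal_comap_of_isIntegral_of_isMaximal' _ as18k_evO_isIntegral y
  have hqy : ∀ q : Polynomial c.R, q ∉ n → as18k_evO c q ∉ y := by
    intro q hq h
    apply hq
    rw [hn]
    exact h
  have hπn : C c.π ∈ n := by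
    rw [hn]
    show as18k_evO c (C c.π) ∈ y
    have : as18k_evO c (C c.π) = p₀ := Subtype.ext (by rw [as18k_evO_coe, c.ev_C, hp₀])
    rw [this]
    exact hp₀y
  -- instances for `B := c.B n`
  haveI := hc.dvr
  haveI := hc.isLocalRing_S n
  haveI := hc.isNoetherianRing_S n
  obtain ⟨hfin, -⟩ := hc.finite_B n
  haveI := hfin
  haveI : IsNoetherianRing (c.B n) := IsNoetherianRing.of_finite (c.S n) (c.B n)
  haveI : IsFractionRing (c.B n) F := by
    letI := hc.algSK n
    haveI := hc.isFractionRing_S n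
    haveI := hc.fin
    haveI : IsScalarTower (c.S n) (IntermediateField.adjoin E {c.x}) F :=
      IsScalarTower.of_algebraMap_eq (fun _ => rfl)
    exact integralClosure.isFractionRing_of_finite_extension (A := c.S n)
      (IntermediateField.adjoin E {c.x}) F
  -- `π` in `B`
  obtain ⟨f₀, hf⟩ := hc.exists_param n hπn
  have hprimeI := hc.prime_πB n hπn
  have hπB0 : algebraMap (c.S n) (c.B n) (c.πS n) ≠ 0 := by
    intro h0
    apply hc.cst_π_ne_zero
    rw [← coe_πB n, h0]
    rfl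
  have hprimeπB : Prime (algebraMap (c.S n) (c.B n) (c.πS n)) :=
    (Ideal.span_singleton_prime hπB0).mp hprimeI
  have hcomap : (Ideal.span {algebraMap (c.S n) (c.B n) (c.πS n)}).comap
      (algebraMap (c.S n) (c.B n)) = Ideal.span {c.πS n} := by
    ext s
    rw [Ideal.mem_comap, Ideal.mem_span_singleton, Ideal.mem_span_singleton]
    exact ⟨hc.πB_dvd_S n hπn s, fun h => map_dvd _ h⟩
  haveI := hprimeI
  haveI : Algebra.IsIntegral (c.S n) (c.B n) :=
    inferInstanceAs (Algebra.IsIntegral (c.S n) (integralClosure (c.S n) F))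
  have hpir : IsPrincipalIdealRing (c.S n ⧸ (Ideal.span
      {algebraMap (c.S n) (c.B n) (c.πS n)}).comap (algebraMap (c.S n) (c.B n))) := by
    rw [hcomap]
    exact hc.pir_S n hf
  haveI := hpir
  have hdim : Ring.DimensionLEOne (c.B n ⧸ Ideal.span {algebraMap (c.S n) (c.B n) (c.πS n)}) :=
    Ring.DimensionLEOne.of_isIntegral (c.S n ⧸ (Ideal.span
      {algebraMap (c.S n) (c.B n) (c.πS n)}).comap (algebraMap (c.S n) (c.B n))) _
  -- the prime above `y`
  haveI hyB : (as18k_yB hc y n).IsPrime := as18k_yB_isPrime hc y n hqy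
  have hπyB : algebraMap (c.S n) (c.B n) (c.πS n) ∈ as18k_yB hc y n := by
    refine ⟨1, fun h1 => hnmax.ne_top ((Ideal.eq_top_iff_one n).mpr h1), p₀, hp₀y, ?_⟩
    rw [hp₀, coe_πB n, map_one, one_mul]
  -- hypothesis on `w`
  have hW : ∀ W : ValuationSubring F, (∀ b : c.B n, algebraMap (c.B n) F b ∈ W) →
      IsDiscreteValuationRing W → (c.cst c.π)⁻¹ ∈ W →
      ∃ c' u : F, u ∈ W ∧ u⁻¹ ∈ W ∧ w = u * c' ^ m := by
    intro W hBW hdvr hπW
    refine hw.wpow W ?_ ?_
    · intro htop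
      have hall : ∀ z : F, z ∈ W := by
        rw [htop]
        exact fun z => ValuationSubring.mem_top z
      haveI := hdvr
      obtain ⟨ϖ, hϖ⟩ := IsDiscreteValuationRing.exists_irreducible W
      apply hϖ.not_isUnit
      have hϖ0 : (ϖ : F) ≠ 0 := fun h => hϖ.ne_zero (Subtype.ext h)
      have hinv : (ϖ : F)⁻¹ ∈ W := hall _
      exact isUnit_iff_exists_inv.mpr ⟨⟨_, hinv⟩, Subtype.ext (mul_inv_cancel₀ hϖ0)⟩
    · intro e
      have hR : ∀ r : c.R, algebraMap E F (r : E) ∈ W := by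
        intro r
        have h1 : c.ev (C r) ∈ c.B n := (c.B n).algebraMap_mem ⟨_, c.ev_mem_S n (C r)⟩
        have h2 : algebraMap (c.B n) F ⟨_, h1⟩ ∈ W := hBW ⟨_, h1⟩
        have h3 : algebraMap (c.B n) F ⟨_, h1⟩ = algebraMap E F (r : E) := by
          show c.ev (C r) = _
          rw [c.ev_C, c.cst_apply]
        rwa [h3] at h2
      rcases eq_or_ne e 0 with rfl | he0
      · rw [map_zero]
        exact W.zero_mem
      rcases c.R.mem_or_inv_mem e with he | he
      · exact hR ⟨e, he⟩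
      · have hne : (⟨e⁻¹, he⟩ : c.R) ≠ 0 := fun h =>
          (inv_ne_zero he0) (congrArg Subtype.val h)
        obtain ⟨k, u, hu⟩ := IsDiscreteValuationRing.eq_unit_mul_pow_irreducible hne hc.irr
        have h1 : e⁻¹ = ((u : c.R) : E) * (c.π : E) ^ k := by
          have := congrArg Subtype.val hu
          simpa using this
        have h2 : ((u : c.R) : E) * (((u⁻¹ : c.Rˣ) : c.R) : E) = 1 :=
          congrArg Subtype.val (u.mul_inv)
        have he' : e = (((u⁻¹ : c.Rˣ) : c.R) : E) * ((c.π : E)⁻¹) ^ k := by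
          rw [← inv_inv e, h1, mul_inv, inv_pow]
          congr 1
          exact inv_eq_of_mul_eq_one_right h2
        rw [he', map_mul, map_pow, map_inv₀]
        refine W.mul_mem _ _ (hR _) (W.pow_mem ?_ k)
        rw [← c.cst_apply]
        exact hπW
  obtain ⟨b, hb1, β, s, hs, hbs⟩ := as18k_core c.V (c.cst c.π) hc.unif1 hc.unif2
    (fun b => hc.B_le_V n hπn b.2) (algebraMap (c.S n) (c.B n) (c.πS n)) (coe_πB n) hprimeπB
    (fun b h => (hc.πB_dvd_iff n hπn b).mpr h) (hnormal n hπn) hdim (as18k_yB hc y n) hπyB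
    m hw.mpos w hw.w1 hW
  refine ⟨b, hb1, ?_⟩
  obtain ⟨q₁, hq₁, hβO⟩ := hc.exists_mul_mem_O n β.2
  obtain ⟨q₂, hq₂, hsO⟩ := hc.exists_mul_mem_O n s.2
  refine ⟨as18k_evO c q₁ * ⟨_, hsO⟩, ?_, ?_⟩
  · intro hmem
    rcases hyprime.mem_or_mem hmem with h | h
    · exact hqy q₁ hq₁ h
    · exact hs ⟨q₂, hq₂, _, h, rfl⟩
  · have hbs' : b ^ m * w * (s : F) = (β : F) := hbs
    have : ((as18k_evO c q₁ * ⟨_, hsO⟩ : c.O) : F) * (b ^ m * w)
        = c.ev q₂ * (c.ev q₁ * (β : F)) := by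
      show c.ev q₁ * (c.ev q₂ * (s : F)) * (b ^ m * w) = _
      rw [← hbs']
      ring
    rw [this]
    exact c.O.mul_mem (as18k_ev_mem_O q₂) hβO

end Fermat.Agent.S18Lib
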