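import Mathlib

/-!
# S18, chunk Cg: glue lemmas for integral closures of subrings of a field

Generic (Mathlib-only) facts about `cg18_IC A = (integralClosure ↥A F).toSubring` for a subring
`A` of a field `F`, in the shapes needed as hypotheses of `cg18_main'`:
root-closedness, inclusions, the elementwise localisation property, and the noetherian property
over `R[u]`.
-/

set_option autoImplicit false

namespace Fermat.Agent.S18Lib

open Polynomial

section CgGlue

variable {F : Type*} [Field F]

/-- The integral closure of a subring `A` of `F` in `F`, as a subring of `F`. -/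
def cg18_IC (A : Subring F) : Subring F := (integralClosure ↥A F).toSubring

theorem cg18_mem_IC {A : Subring F} {z : F} : z ∈ cg18_IC A ↔ IsIntegral ↥A z := Iff.rfl

theorem cg18_IC_rootClosed (A : Subring F) {m : ℕ} (hm : 0 < m) (z : F)
    (h : z ^ m ∈ cg18_IC A) : z ∈ cg18_IC A :=
  IsIntegral.of_pow hm h

theorem cg18_le_IC (A : Subring F) : A ≤ cg18_IC A := by
  intro a ha
  exact isIntegral_algebraMap (R := ↥A) (A := F) (x := ⟨a, ha⟩)

theorem cg18_IC_mono {A A' : Subring F} (h : A ≤ A') : cg18_IC A ≤ cg18_IC A' := by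
  rintro z ⟨p, hp, hz⟩
  refine ⟨p.map (Subring.inclusion h), hp.map _, ?_⟩
  rw [eval₂_map]
  exact hz

/-- Elementwise localisation: if every element of `A'` becomes an element of `A` after
multiplication by a power of `x ∈ A`, the same holds for the integral closures. -/
theorem cg18_IC_loc {A A' : Subring F} {x : F} (hx : x ∈ A)
    (h : ∀ a ∈ A', ∃ k : ℕ, x ^ k * a ∈ A) {z : F} (hz : z ∈ cg18_IC A') :
    ∃ k : ℕ, x ^ k * z ∈ cg18_IC A := by
  classical
  obtain ⟨p, hp, hpz⟩ := hz
  set n := p.natDegree with hn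
  have hex : ∀ i : ℕ, ∃ k : ℕ, x ^ k * ((p.coeff i : ↥A') : F) ∈ A := fun i => h _ (p.coeff i).2
  choose K hK using hex
  set k := (Finset.range n).sup K with hk
  have hcoef : ∀ i : ℕ, ∃ a : ↥A, i < n → (a : F) = x ^ (k * (n - i)) * ((p.coeff i : ↥A') : F) := by
    intro i
    by_cases hi : i < n
    · have hKi : K i ≤ k * (n - i) := by
        have h1 : K i ≤ k := Finset.le_sup (f := K) (Finset.mem_range.mpr hi)
        have h2 : k ≤ k * (n - i) := Nat.le_mul_of_pos_right k (by omega)
        exact h1.trans h2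
      have hmem : x ^ (k * (n - i)) * ((p.coeff i : ↥A') : F) ∈ A := by
        have h3 : x ^ (k * (n - i)) * ((p.coeff i : ↥A') : F)
            = x ^ (k * (n - i) - K i) * (x ^ K i * ((p.coeff i : ↥A') : F)) := by
          rw [← mul_assoc, ← pow_add, Nat.sub_add_cancel hKi]
        rw [h3]
        exact A.mul_mem (A.pow_mem hx _) (hK i)
      exact ⟨⟨_, hmem⟩, fun _ => rfl⟩
    · exact ⟨0, fun h' => absurd h' hi⟩
  choose g hg using hcoef
  refine ⟨k, ⟨X ^ n + ∑ i ∈ Finset.range n, C (g i) * X ^ i, ?_, ?_⟩⟩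
  · apply monic_X_pow_add
    refine lt_of_le_of_lt (degree_sum_le _ _) ?_
    refine (Finset.sup_lt_iff (WithBot.bot_lt_coe n)).mpr ?_
    intro i hi
    exact lt_of_le_of_lt (degree_C_mul_X_pow_le i (g i))
      (WithBot.coe_lt_coe.mpr (Finset.mem_range.mp hi))
  · have hpe : z ^ n + ∑ i ∈ Finset.range n, ((p.coeff i : ↥A') : F) * z ^ i = 0 := by
      have h1 := congrArg (eval₂ (algebraMap ↥A' F) z) hp.as_sum
      rw [hpz] at h1
      rw [h1, eval₂_add, eval₂_pow, eval₂_X, eval₂_finsetSum]
      congr 1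
      refine Finset.sum_congr rfl fun i _ => ?_
      rw [eval₂_mul, eval₂_C, eval₂_pow, eval₂_X]
      rfl
    rw [eval₂_add, eval₂_pow, eval₂_X, eval₂_finsetSum]
    have h2 : ∑ i ∈ Finset.range n, eval₂ (algebraMap ↥A F) (x ^ k * z) (C (g i) * X ^ i)
        = ∑ i ∈ Finset.range n, x ^ (k * n) * (((p.coeff i : ↥A') : F) * z ^ i) := by
      refine Finset.sum_congr rfl fun i hi => ?_
      have hi' : i < n := Finset.mem_range.mp hi
      rw [eval₂_mul, eval₂_C, eval₂_pow, eval₂_X]
      have h3 : algebraMap ↥A F (g i) = x ^ (k * (n - i)) * ((p.coeff i : ↥A') : F) := hg i hi'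
      rw [h3]
      have h4 : x ^ (k * n) = x ^ (k * (n - i)) * x ^ (k * i) := by
        rw [← pow_add, ← Nat.mul_add, Nat.sub_add_cancel hi'.le]
      rw [h4, mul_pow, ← pow_mul]
      ring
    rw [h2, ← Finset.mul_sum]
    have h5 : (x ^ k * z) ^ n = x ^ (k * n) * z ^ n := by rw [mul_pow, ← pow_mul]
    rw [h5, ← mul_add, hpe, mul_zero]

/-- `B[x, x⁻¹]` is the localisation of `B[x]` at `x`, elementwise. -/
theorem cg18_gen_loc (T : Set F) {x : F} (hx0 : x ≠ 0) :
    ∀ a ∈ Subring.closure (T ∪ {x, x⁻¹}), ∃ k : ℕ, x ^ k * a ∈ Subring.closure (T ∪ {x}) := by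
  have hxmem : x ∈ Subring.closure (T ∪ {x}) := Subring.subset_closure (Or.inr rfl)
  intro a ha
  induction ha using Subring.closure_induction with
  | mem a ha =>
    rcases ha with ha | ha | ha
    · exact ⟨0, by rw [pow_zero, one_mul]; exact Subring.subset_closure (Or.inl ha)⟩
    · exact ⟨0, by rw [pow_zero, one_mul, ha]; exact hxmem⟩
    · refine ⟨1, ?_⟩
      rw [Set.mem_singleton_iff] at ha
      rw [ha, pow_one, mul_inv_cancel₀ hx0]
      exact Subring.one_mem _
  | zero => exact ⟨0, by rw [mul_zero]; exact Subring.zero_mem _⟩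
  | one => exact ⟨0, by rw [pow_zero, one_mul]; exact Subring.one_mem _⟩
  | add a b _ _ iha ihb =>
    obtain ⟨k₁, h₁⟩ := iha
    obtain ⟨k₂, h₂⟩ := ihb
    refine ⟨k₁ + k₂, ?_⟩
    have h : x ^ (k₁ + k₂) * (a + b) = x ^ k₂ * (x ^ k₁ * a) + x ^ k₁ * (x ^ k₂ * b) := by
      rw [pow_add]
      ring
    rw [h]
    exact Subring.add_mem _ (Subring.mul_mem _ (Subring.pow_mem _ hxmem _) h₁)
      (Subring.mul_mem _ (Subring.pow_mem _ hxmem _) h₂)
  | neg a _ iha =>
    obtain ⟨k, h⟩ := iha
    exact ⟨k, by rw [mul_neg]; exact Subring.neg_mem _ h⟩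
  | mul a b _ _ iha ihb =>
    obtain ⟨k₁, h₁⟩ := iha
    obtain ⟨k₂, h₂⟩ := ihb
    refine ⟨k₁ + k₂, ?_⟩
    have h : x ^ (k₁ + k₂) * (a * b) = (x ^ k₁ * a) * (x ^ k₂ * b) := by
      rw [pow_add]
      ring
    rw [h]
    exact Subring.mul_mem _ h₁ h₂

theorem cg18_gen_loc_inv (T : Set F) {x : F} (hx0 : x ≠ 0) :
    ∀ a ∈ Subring.closure (T ∪ {x, x⁻¹}),
      ∃ k : ℕ, x⁻¹ ^ k * a ∈ Subring.closure (T ∪ {x⁻¹}) := by
  have h := cg18_gen_loc T (inv_ne_zero hx0)
  rw [inv_inv, Set.pair_comm] at h
  exact h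

/-- hypothesis `hlocU` of `cg18_main'` for the integral closures. -/
theorem cg18_IC_locU (T : Set F) {x : F} (hx0 : x ≠ 0) :
    ∀ z ∈ cg18_IC (Subring.closure (T ∪ {x, x⁻¹})),
      ∃ k : ℕ, x ^ k * z ∈ cg18_IC (Subring.closure (T ∪ {x})) := by
  intro z hz
  have hxm : x ∈ Subring.closure (T ∪ {x}) := Subring.subset_closure (Or.inr rfl)
  exact cg18_IC_loc hxm (cg18_gen_loc T hx0) hz

/-- hypothesis `hlocV` of `cg18_main'` for the integral closures. -/
theorem cg18_IC_locV (T : Set F) {x : F} (hx0 : x ≠ 0) :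
    ∀ z ∈ cg18_IC (Subring.closure (T ∪ {x, x⁻¹})),
      ∃ k : ℕ, x⁻¹ ^ k * z ∈ cg18_IC (Subring.closure (T ∪ {x⁻¹})) := by
  intro z hz
  have hxm : x⁻¹ ∈ Subring.closure (T ∪ {x⁻¹}) := Subring.subset_closure (Or.inr rfl)
  exact cg18_IC_loc hxm (cg18_gen_loc_inv T hx0) hz

theorem cg18_IC_leU (T : Set F) (x : F) :
    cg18_IC (Subring.closure (T ∪ {x})) ≤ cg18_IC (Subring.closure (T ∪ {x, x⁻¹})) := by
  have hsub : T ∪ {x} ⊆ T ∪ {x, x⁻¹} := by
    rintro a (ha | ha)
    · exact Or.inl ha
    · exact Or.inr (Or.inl ha)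
  exact cg18_IC_mono (Subring.closure_mono hsub)

theorem cg18_IC_leV (T : Set F) (x : F) :
    cg18_IC (Subring.closure (T ∪ {x⁻¹})) ≤ cg18_IC (Subring.closure (T ∪ {x, x⁻¹})) := by
  have hsub : T ∪ {x⁻¹} ⊆ T ∪ {x, x⁻¹} := by
    rintro a (ha | ha)
    · exact Or.inl ha
    · exact Or.inr (Or.inr ha)
  exact cg18_IC_mono (Subring.closure_mono hsub)

theorem cg18_closure_le_IC (T S : Set F) :
    Subring.closure T ≤ cg18_IC (Subring.closure (T ∪ S)) :=
  (Subring.closure_mono Set.subset_union_left).trans (cg18_le_IC _)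

theorem cg18_mem_IC_gen (T : Set F) {S : Set F} {x : F} (hx : x ∈ S) :
    x ∈ cg18_IC (Subring.closure (T ∪ S)) :=
  cg18_le_IC _ (Subring.subset_closure (Or.inr hx))

end CgGlue

/-! ### the noetherian hypothesis -/

section CgNoeth

variable {F : Type*} [Field F]

/-- An element integral over a subring `G` contained in the range of `f : A →+* F` is integral
with respect to `f`. -/
theorem cg18_isIntegralElem_of_le_range {A : Type*} [CommRing A] (f : A →+* F) {G : Subring F}
    (hG : ∀ a ∈ G, a ∈ f.range) {z : F} (hz : IsIntegral ↥G z) : f.IsIntegralElem z := by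
  obtain ⟨p, hp, hpz⟩ := hz
  have hl : p.map G.subtype ∈ Polynomial.lifts f := by
    rw [Polynomial.lifts_iff_coeff_lifts]
    intro n
    rw [Polynomial.coeff_map]
    exact hG _ (p.coeff n).2
  obtain ⟨q, hq, -, hqm⟩ := Polynomial.lifts_and_degree_eq_and_monic hl (hp.map _)
  refine ⟨q, hqm, ?_⟩
  rw [← Polynomial.eval_map, hq, Polynomial.eval_map]
  exact hpz

/-- `F` as an algebra over `R[X]` via `X ↦ u`. -/
@[reducible] noncomputable def cg18_polyAlg (R : Subring F) (u : F) : Algebra (Polynomial ↥R) F :=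
  (aeval u : Polynomial ↥R →ₐ[↥R] F).toRingHom.toAlgebra

theorem cg18_polyAlg_apply (R : Subring F) (u : F) (p : Polynomial ↥R) :
    letI := cg18_polyAlg R u
    algebraMap (Polynomial ↥R) F p = aeval u p := rfl

/-- every element of `closure (T ∪ {u})` is a polynomial in `u` over `closure T`. -/
theorem cg18_closure_le_range (T : Set F) (u : F) :
    ∀ a ∈ Subring.closure (T ∪ {u}),
      a ∈ (aeval u : Polynomial ↥(Subring.closure T) →ₐ[↥(Subring.closure T)] F).toRingHom.range := by
  have h : Subring.closure (T ∪ {u})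
      ≤ (aeval u : Polynomial ↥(Subring.closure T) →ₐ[↥(Subring.closure T)] F).toRingHom.range := by
    rw [Subring.closure_le]
    rintro a (ha | ha)
    · refine ⟨C ⟨a, Subring.subset_closure ha⟩, ?_⟩
      show aeval u (C (⟨a, Subring.subset_closure ha⟩ : ↥(Subring.closure T))) = a
      rw [aeval_C]
      rfl
    · refine ⟨X, ?_⟩
      show aeval u (X : Polynomial ↥(Subring.closure T)) = a
      rw [aeval_X]
      exact ha.symm
  exact fun a ha => h ha

/-- Finite generation of `F` over the subfield generated by `T` and `u`, elementwise. -/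
def cg18_FinOver (T : Set F) (u : F) : Prop :=
  ∃ s : Finset F, ∀ z : F, ∃ c : F → F,
    (∀ v, c v ∈ Subfield.closure (T ∪ {u})) ∧ z = ∑ v ∈ s, c v * v

theorem cg18_finOver_of_finite (T : Set F) (u : F) {K₂ : Type*} [Field K₂] [Algebra K₂ F]
    [FiniteDimensional K₂ F]
    (h : ∀ κ : K₂, algebraMap K₂ F κ ∈ Subfield.closure (T ∪ {u})) : cg18_FinOver T u := by
  classical
  obtain ⟨s, hs⟩ := (Module.finite_def.mp (inferInstance : Module.Finite K₂ F))
  refine ⟨s, fun z => ?_⟩
  have hz : z ∈ Submodule.span K₂ (s : Set F) := by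
    rw [hs]
    trivial
  obtain ⟨f, -, hf⟩ := Submodule.mem_span_finset.mp hz
  refine ⟨fun v => algebraMap K₂ F (f v), fun v => h _, ?_⟩
  rw [← hf]
  refine Finset.sum_congr rfl fun v _ => ?_
  rw [Algebra.smul_def]

/-- The noetherian hypothesis of `cg18_main'` for `OV = cg18_IC (closure (T ∪ {u}))`, with
`R = closure T` a noetherian UFD, `u` transcendental over `R`, `F` of characteristic zero and
finite over the subfield generated by `T` and `u`. -/
theorem cg18_noeth (T : Set F) (u : F) [CharZero F]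
    (hN : IsNoetherianRing ↥(Subring.closure T))
    (hUFD : UniqueFactorizationMonoid ↥(Subring.closure T))
    (hu : Transcendental ↥(Subring.closure T) u) (hfin : cg18_FinOver T u) :
    letI := cg18_polyAlg (Subring.closure T) u
    ∀ N : Submodule (Polynomial ↥(Subring.closure T)) F,
      (∀ z ∈ N, z ∈ cg18_IC (Subring.closure (T ∪ {u}))) → N.FG := by
  classical
  let _ := cg18_polyAlg (Subring.closure T) u
  set A := Polynomial ↥(Subring.closure T) with hA
  have hinj : Function.Injective (algebraMap A F) := transcendental_iff_injective.mp hu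
  have : FaithfulSMul A F := (faithfulSMul_iff_algebraMap_injective A F).mpr hinj
  let _ : Algebra (FractionRing A) F := FractionRing.liftAlgebra A F
  have : IsScalarTower A (FractionRing A) F := FractionRing.isScalarTower_liftAlgebra A F
  have : CharZero (FractionRing A) :=
    (RingHom.charZero_iff (algebraMap (FractionRing A) F).injective).mpr inferInstance
  -- finiteness
  have : FiniteDimensional (FractionRing A) F := by
    obtain ⟨s, hs⟩ := hfin
    refine Module.finite_def.mpr ⟨s, ?_⟩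
    rw [eq_top_iff]
    intro z _
    obtain ⟨c, hc, hz⟩ := hs z
    rw [hz]
    refine Submodule.sum_mem _ fun v hv => ?_
    obtain ⟨y, hy, y', hy', hyy⟩ := Subfield.mem_closure_iff.mp (hc v)
    obtain ⟨p, hp⟩ := cg18_closure_le_range T u y hy
    obtain ⟨q, hq⟩ := cg18_closure_le_range T u y' hy'
    have hcv : c v = algebraMap (FractionRing A) F
        (algebraMap A (FractionRing A) p / algebraMap A (FractionRing A) q) := by
      rw [map_div₀, ← IsScalarTower.algebraMap_apply, ← IsScalarTower.algebraMap_apply, ← hyy]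
      congr 1
      · exact hp.symm
      · exact hq.symm
    rw [hcv, ← Algebra.smul_def]
    exact Submodule.smul_mem _ _ (Submodule.subset_span hv)
  have hnoeth : IsNoetherian A ↥(integralClosure A F) :=
    IsIntegralClosure.isNoetherian A (FractionRing A) F (integralClosure A F)
  intro N hNO
  have hle : N ≤ Subalgebra.toSubmodule (integralClosure A F) := by
    intro z hz
    exact cg18_isIntegralElem_of_le_range (algebraMap A F) (cg18_closure_le_range T u) (hNO z hz)
  exact isNoetherian_submodule.mp hnoeth N hle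

end CgNoeth

end Fermat.Agent.S18Lib
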