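import Fermat.Agent.Lib.S18.AsIface3
import Fermat.Agent.Lib.S18.CgMain
import Fermat.Agent.Lib.S18.CgGlue

/-!
# S18 assembly: the MACHINE from `cg18_main'` (helper6, prefix `amp18_`)

`amp18_machine : as18_local_stmt → as18_noeth_stmt → as18_const_stmt → as18_machine_stmt`.
-/

set_option autoImplicit false
set_option linter.style.haveILetI false

open Polynomial

namespace Fermat.Agent.S18Lib

variable {E F : Type} [Field E] [Field F] [Algebra E F] (c : As18Chart E F)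

/-- `R[x]` is the subring generated by the constants and `x`. -/
theorem amp18_range : c.ev.range = Subring.closure (Set.range c.cst ∪ {c.x}) := by
  apply le_antisymm
  · rintro _ ⟨p, rfl⟩
    induction p using Polynomial.induction_on' with
    | add p q hp hq => rw [map_add]; exact add_mem hp hq
    | monomial n a =>
      rw [← Polynomial.C_mul_X_pow_eq_monomial, map_mul, map_pow, c.ev_C, c.ev_X]
      have hx : c.x ∈ Subring.closure (Set.range c.cst ∪ {c.x}) :=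
        Subring.subset_closure (Or.inr rfl)
      have ha : c.cst a ∈ Subring.closure (Set.range c.cst ∪ {c.x}) :=
        Subring.subset_closure (Or.inl ⟨a, rfl⟩)
      exact mul_mem ha (pow_mem hx n)
  · rw [Subring.closure_le]
    rintro z (⟨r, rfl⟩ | rfl)
    · exact ⟨C r, c.ev_C r⟩
    · exact ⟨X, c.ev_X⟩

/-- the chart ring as a `cg18_IC`. -/
theorem amp18_O_eq : c.O = cg18_IC (Subring.closure (Set.range c.cst ∪ {c.x})) := by
  show cg18_IC c.ev.range = _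
  rw [amp18_range]

theorem amp18_O_inv_eq (cbr' : c.R) :
    (c.inv cbr').O = cg18_IC (Subring.closure (Set.range c.cst ∪ {c.x⁻¹})) :=
  amp18_O_eq (c.inv cbr')

theorem amp18_ev_mem_O (p : Polynomial c.R) : c.ev p ∈ c.O :=
  cg18_le_IC c.ev.range ⟨p, rfl⟩

variable {c}

theorem amp18_x_ne_zero (hc : c.Good) : c.x ≠ 0 := by
  rw [← c.ev_X]
  exact hc.ev_ne_zero Polynomial.X_ne_zero

/-- `O_UV ⊆ V`. -/
theorem amp18_OUV_le_V (hc : c.Good) (hxinv : c.x⁻¹ ∈ c.V) :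
    cg18_IC (Subring.closure (Set.range c.cst ∪ {c.x, c.x⁻¹})) ≤ c.V.toSubring := by
  have hA : Subring.closure (Set.range c.cst ∪ {c.x, c.x⁻¹}) ≤ c.V.toSubring := by
    rw [Subring.closure_le]
    rintro z (⟨r, rfl⟩ | rfl | rfl)
    · exact hc.cV r
    · exact hc.xV
    · exact hxinv
  intro z hz
  exact as18_mem_of_isIntegral_subring c.V hA hz

/-- saturation of `O_UV` in `V`. -/
theorem amp18_OUV_sat (hc : c.Good) (z : F)
    (hz : c.cst c.π * z ∈ cg18_IC (Subring.closure (Set.range c.cst ∪ {c.x, c.x⁻¹})))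
    (hzV : z ∈ c.V) :
    z ∈ cg18_IC (Subring.closure (Set.range c.cst ∪ {c.x, c.x⁻¹})) := by
  have hx0 := amp18_x_ne_zero hc
  obtain ⟨k, hk⟩ := cg18_IC_locU (Set.range c.cst) hx0 _ hz
  rw [← amp18_O_eq] at hk
  have h1 : c.x ^ k * z ∈ c.O := by
    apply hc.sat _ (c.V.mul_mem _ _ (c.V.pow_mem hc.xV k) hzV)
    have : c.cst c.π * (c.x ^ k * z) = c.x ^ k * (c.cst c.π * z) := by ring
    rw [this]; exact hk
  have h2 : c.x ^ k * z ∈ cg18_IC (Subring.closure (Set.range c.cst ∪ {c.x, c.x⁻¹})) := by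
    rw [amp18_O_eq] at h1
    exact cg18_IC_leU (Set.range c.cst) c.x h1
  have h3 : c.x⁻¹ ∈ cg18_IC (Subring.closure (Set.range c.cst ∪ {c.x, c.x⁻¹})) :=
    cg18_mem_IC_gen (Set.range c.cst) (Or.inr rfl)
  have h4 : z = c.x⁻¹ ^ k * (c.x ^ k * z) := by
    rw [← mul_assoc, ← mul_pow, inv_mul_cancel₀ hx0, one_pow, one_mul]
  rw [h4]
  exact mul_mem (pow_mem h3 k) h2

/-- the presentation hypothesis of `cg18_main'` for `P = R[X]` acting through the inverse chart. -/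
theorem amp18_present (cbr' : c.R) (p : Polynomial c.R) :
    ∃ q : Polynomial ↥c.cst.range, (c.inv cbr').ev p = Polynomial.aeval c.x⁻¹ q := by
  refine ⟨p.map c.cst.rangeRestrict, ?_⟩
  rw [Polynomial.aeval_def, Polynomial.eval₂_map]
  rfl

/-- **MACHINE** from the abstract (G) + (C) + (H) core. -/
theorem amp18_machine (hT2 : as18_local_stmt) (hno : as18_noeth_stmt) (hco : as18_const_stmt) :
    as18_machine_stmt := by
  intro E F _ _ _ c cbr' hc hc' halg m w hw hμ hnorm hnorm'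
  haveI := hc.dvr
  have hx0 := amp18_x_ne_zero hc
  have hxinv : c.x⁻¹ ∈ c.V := hc'.xV
  have hw' : (c.inv cbr').WData m w := ⟨hw.mpos, hw.w1, hw.wpow⟩
  have hπ0 : c.cst c.π ≠ 0 := by
    rw [c.cst_apply]
    exact (_root_.map_ne_zero _).mpr (fun h0 => hc.irr.ne_zero (Subtype.ext h0))
  have hμ' : ∃ μ ∈ c.cst.range, (m : F) * μ = 1 := by
    obtain ⟨μ, hμ⟩ := hμ
    refine ⟨c.cst μ, ⟨μ, rfl⟩, ?_⟩
    rw [c.cst_apply, ← map_natCast (algebraMap E F) m, ← map_mul, hμ, map_one]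
  have hRU : c.cst.range ≤ c.O := by
    rintro _ ⟨r, rfl⟩
    rw [← c.ev_C]
    exact amp18_ev_mem_O c (C r)
  have hRV : c.cst.range ≤ (c.inv cbr').O := by
    rintro _ ⟨r, rfl⟩
    have h1 := amp18_ev_mem_O (c.inv cbr') (C r)
    have h2 : (c.inv cbr').ev (C r) = c.cst r := (c.inv cbr').ev_C r
    rw [← h2]
    exact h1
  have hU : c.O ≤ cg18_IC (Subring.closure (Set.range c.cst ∪ {c.x, c.x⁻¹})) := by
    rw [amp18_O_eq]
    exact cg18_IC_leU (Set.range c.cst) c.x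
  have hV : (c.inv cbr').O ≤ cg18_IC (Subring.closure (Set.range c.cst ∪ {c.x, c.x⁻¹})) := by
    rw [amp18_O_inv_eq]
    exact cg18_IC_leV (Set.range c.cst) c.x
  have hjU : c.x ∈ c.O := by
    have h1 := amp18_ev_mem_O c X
    rw [c.ev_X] at h1
    exact h1
  have huV : c.x⁻¹ ∈ (c.inv cbr').O := by
    have h1 := amp18_ev_mem_O (c.inv cbr') X
    have h2 : (c.inv cbr').ev X = c.x⁻¹ := (c.inv cbr').ev_X
    rw [← h2]
    exact h1
  have hlocU : ∀ z ∈ cg18_IC (Subring.closure (Set.range c.cst ∪ {c.x, c.x⁻¹})),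
      ∃ k : ℕ, c.x ^ k * z ∈ c.O := by
    intro z hz
    rw [amp18_O_eq]
    exact cg18_IC_locU (Set.range c.cst) hx0 z hz
  have hlocV : ∀ z ∈ cg18_IC (Subring.closure (Set.range c.cst ∪ {c.x, c.x⁻¹})),
      ∃ k : ℕ, c.x⁻¹ ^ k * z ∈ (c.inv cbr').O := by
    intro z hz
    rw [amp18_O_inv_eq]
    exact cg18_IC_locV (Set.range c.cst) hx0 z hz
  have hGU : cg18_localHyp c.V (c.cst c.π) m w c.O := hT2 E F c hc m w hw hnorm
  have hGV : cg18_localHyp c.V (c.cst c.π) m w (c.inv cbr').O :=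
    hT2 E F (c.inv cbr') hc' m w hw' hnorm'
  letI algP : Algebra (Polynomial c.R) F := (c.inv cbr').ev.toAlgebra
  have hnoeth : ∀ N : Submodule (Polynomial c.R) F, (∀ z ∈ N, z ∈ (c.inv cbr').O) → N.FG :=
    hno E F (c.inv cbr') hc'
  obtain ⟨x₀, hx₀, h1, h2⟩ := cg18_main' c.V (c.cst c.π) m w c.x c.x⁻¹ c.cst.range c.O
    (c.inv cbr').O (cg18_IC (Subring.closure (Set.range c.cst ∪ {c.x, c.x⁻¹})))
    (Polynomial c.R) hπ0 hc.unif1 ⟨c.π, rfl⟩ hw.mpos hμ' hw.w1 hRU hRV hU hV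
    (amp18_OUV_le_V hc hxinv) inferInstance
    (fun z => cg18_IC_rootClosed _ hw.mpos z) (fun z => cg18_IC_rootClosed _ hw.mpos z)
    (fun z => cg18_IC_rootClosed _ hw.mpos z)
    (amp18_OUV_sat hc) (mul_inv_cancel₀ hx0) hjU huV hlocU hlocV
    (fun p => amp18_present cbr' p) hnoeth hGU hGV
  obtain ⟨e₀, he₀⟩ := halg _ (hco E F c cbr' hc hc' _ h1 h2)
  exact ⟨x₀, e₀, hx₀, he₀⟩

end Fermat.Agent.S18Lib
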