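import Fermat.Agent.Lib.S18.AsIface

/-!
# S18 assembly: the separable special fibre, second independent proof (`as18s_sep : as18_sep_stmt`), helper3 (prefix `as18s_`; the official `as18_sep` is in `AsSep.lean`, helper5)

`L :=` residue field of the Gauss valuation ring `c.V`, `ψ :=` residue map on `c.B n`,
`k₀ :=` the subfield of `L` generated by the image of `c.S n`.
-/

set_option autoImplicit false

open Polynomial

namespace Fermat.Agent.S18Lib

namespace As18Chart

variable {E F : Type} [Field E] [Field F] [Algebra E F] {c : As18Chart E F}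

/-- the residue of `z ∈ V` vanishes iff `z ∈ π V`. -/
theorem Good.as18s_res_eq_zero_iff (hc : c.Good) {z : F} (hz : z ∈ c.V) :
    IsLocalRing.residue c.V ⟨z, hz⟩ = 0 ↔ ∃ y ∈ c.V, z = c.cst c.π * y := by
  rw [IsLocalRing.residue_eq_zero_iff, IsLocalRing.mem_maximalIdeal, mem_nonunits_iff]
  constructor
  · intro hnu
    by_cases hz0 : z = 0
    · exact ⟨0, c.V.zero_mem, by rw [hz0, mul_zero]⟩
    · apply hc.unif2 z hz
      intro hinv
      apply hnu
      refine isUnit_iff_exists_inv.mpr ⟨⟨z⁻¹, hinv⟩, ?_⟩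
      apply Subtype.ext
      show z * z⁻¹ = 1
      exact mul_inv_cancel₀ hz0
  · rintro ⟨y, hy, rfl⟩ hu
    obtain ⟨u, hu⟩ := isUnit_iff_exists_inv.mp hu
    have h1 : c.cst c.π * y * (u : F) = 1 := congrArg Subtype.val hu
    apply hc.unif1
    have hπ0 : c.cst c.π ≠ 0 := by
      intro h0; rw [h0, zero_mul, zero_mul] at h1; exact zero_ne_one h1
    have h2 : (c.cst c.π)⁻¹ = y * (u : F) := by
      rw [inv_eq_iff_eq_inv, ← one_div, eq_div_iff (by
        intro h0; rw [mul_assoc, h0, mul_zero] at h1; exact zero_ne_one h1)]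
      rw [← h1]; ring
    rw [h2]
    exact c.V.mul_mem _ _ hy u.2

section AtN

variable (n : Ideal (Polynomial c.R)) [hn : n.IsMaximal]

/-- the residue map on `c.B n`. -/
noncomputable def as18s_psi (hc : c.Good) (hπn : C c.π ∈ n) :
    c.B n →+* IsLocalRing.ResidueField c.V :=
  (IsLocalRing.residue c.V).comp
    ((c.B n).val.toRingHom.codRestrict c.V (fun z => hc.B_le_V n hπn z.2))

theorem as18s_psi_apply (hc : c.Good) (hπn : C c.π ∈ n) (z : c.B n) :
    as18s_psi n hc hπn z = IsLocalRing.residue c.V ⟨(z : F), hc.B_le_V n hπn z.2⟩ := rfl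

theorem as18s_coe_algebraMap_πS :
    ((algebraMap (c.S n) (c.B n) (c.πS n) : c.B n) : F) = c.cst c.π := by
  show c.ev (C c.π) = c.cst c.π
  exact c.ev_C c.π

/-- (3) the kernel of `ψ` is `π B`. -/
theorem as18s_psi_eq_zero_iff (hc : c.Good) (hπn : C c.π ∈ n) (z : c.B n) :
    as18s_psi n hc hπn z = 0 ↔ algebraMap (c.S n) (c.B n) (c.πS n) ∣ z := by
  rw [as18s_psi_apply, hc.as18s_res_eq_zero_iff]
  constructor
  · rintro ⟨y, hy, hzy⟩
    have hyB : y ∈ c.B n := hc.sat_B n hπn hy (by rw [← hzy]; exact z.2)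
    refine ⟨⟨y, hyB⟩, Subtype.ext ?_⟩
    show (z : F) = ((algebraMap (c.S n) (c.B n) (c.πS n) : c.B n) : F) * y
    rw [as18s_coe_algebraMap_πS, hzy]
  · rintro ⟨z', rfl⟩
    refine ⟨(z' : F), hc.B_le_V n hπn z'.2, ?_⟩
    show ((algebraMap (c.S n) (c.B n) (c.πS n) : c.B n) : F) * (z' : F) = _
    rw [as18s_coe_algebraMap_πS]

/-- the image of `c.S n` in the residue field of `V`. -/
noncomputable def as18s_phi0 (hc : c.Good) (hπn : C c.π ∈ n) :
    c.S n →+* IsLocalRing.ResidueField c.V :=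
  (as18s_psi n hc hπn).comp (algebraMap (c.S n) (c.B n))

/-- (2) the kernel of `φ` is `π S`. -/
theorem as18s_phi0_eq_zero_iff (hc : c.Good) (hπn : C c.π ∈ n) (s : c.S n) :
    as18s_phi0 n hc hπn s = 0 ↔ c.πS n ∣ s := by
  constructor
  · intro h0
    have h1 : as18s_psi n hc hπn (algebraMap (c.S n) (c.B n) s) = 0 := h0
    rw [as18s_psi_apply, hc.as18s_res_eq_zero_iff] at h1
    obtain ⟨y, hy, hsy⟩ := h1
    have hsy' : (s : F) = c.cst c.π * y := hsy
    obtain ⟨p, q, hq, hpq⟩ := s.2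
    have hq0 : c.ev q ≠ 0 := hc.ev_ne_zero (fun h0 => hq (by rw [h0]; exact n.zero_mem))
    have hdvd : C c.π ∣ p := by
      by_contra hnd
      have hu := hc.ev_unit hnd
      have hp0 : c.ev p ≠ 0 := hc.ev_ne_zero (fun h0 => hnd (by rw [h0]; exact dvd_zero _))
      apply hc.unif1
      have h2 : (c.cst c.π)⁻¹ = y * c.ev q * (c.ev p)⁻¹ := by
        have hπ0 : c.cst c.π ≠ 0 := by
          intro h0
          rw [hsy', h0, zero_mul, zero_mul] at hpq
          exact hp0 hpq.symm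
        have hy0 : y ≠ 0 := by
          intro h0'
          rw [hsy', h0', mul_zero, zero_mul] at hpq
          exact hp0 hpq.symm
        rw [← hpq, hsy']
        field_simp
      rw [h2]
      exact c.V.mul_mem _ _ (c.V.mul_mem _ _ hy (hc.ev_mem_V q)) hu
    obtain ⟨p', rfl⟩ := hdvd
    have hs' : c.ev p' * (c.ev q)⁻¹ ∈ c.S n :=
      ⟨p', q, hq, by rw [mul_assoc, inv_mul_cancel₀ hq0, mul_one]⟩
    refine ⟨⟨_, hs'⟩, Subtype.ext ?_⟩
    show (s : F) = c.ev (C c.π) * (c.ev p' * (c.ev q)⁻¹)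
    rw [map_mul] at hpq
    rw [← mul_assoc, ← hpq, mul_assoc, mul_inv_cancel₀ hq0, mul_one]
  · rintro ⟨s', rfl⟩
    show as18s_psi n hc hπn (algebraMap (c.S n) (c.B n) (c.πS n * s')) = 0
    rw [as18s_psi_eq_zero_iff, map_mul]
    exact dvd_mul_right _ _

/-- the subfield generated by the image of `c.S n`. -/
noncomputable def as18s_k0 (hc : c.Good) (hπn : C c.π ∈ n) :
    Subfield (IsLocalRing.ResidueField c.V) :=
  Subfield.closure (Set.range (as18s_phi0 n hc hπn))

/-- `φ : c.S n → k₀`. -/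
noncomputable def as18s_phi (hc : c.Good) (hπn : C c.π ∈ n) :
    c.S n →+* ↥(as18s_k0 n hc hπn) :=
  (as18s_phi0 n hc hπn).codRestrict _ (fun s => Subfield.subset_closure ⟨s, rfl⟩)

theorem as18s_coe_phi (hc : c.Good) (hπn : C c.π ∈ n) (s : c.S n) :
    ((as18s_phi n hc hπn s : ↥(as18s_k0 n hc hπn)) : IsLocalRing.ResidueField c.V)
      = as18s_phi0 n hc hπn s := rfl

/-- (4) `k₀` is the field of fractions of the image of `c.S n`. -/
theorem as18s_frac_k0 (hc : c.Good) (hπn : C c.π ∈ n) (a : ↥(as18s_k0 n hc hπn)) :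
    ∃ s s' : c.S n, as18s_phi n hc hπn s' ≠ 0 ∧
      a * as18s_phi n hc hπn s' = as18s_phi n hc hπn s := by
  obtain ⟨y, hy, z, hz, hyz⟩ := Subfield.mem_closure_iff.mp a.2
  have hcl : Subring.closure (Set.range (as18s_phi0 n hc hπn)) = (as18s_phi0 n hc hπn).range := by
    rw [← RingHom.coe_range, Subring.closure_eq]
  rw [hcl] at hy hz
  obtain ⟨s, rfl⟩ := hy
  obtain ⟨s', rfl⟩ := hz
  by_cases h0 : as18s_phi0 n hc hπn s' = 0
  · refine ⟨0, 1, ?_, ?_⟩
    · rw [map_one]; exact one_ne_zero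
    · apply Subtype.ext
      rw [map_one, mul_one, map_zero]
      show (a : IsLocalRing.ResidueField c.V) = 0
      rw [← hyz, h0, div_zero]
  · refine ⟨s, s', ?_, ?_⟩
    · intro h1
      apply h0
      rw [← as18s_coe_phi, h1]; rfl
    · apply Subtype.ext
      show (a : IsLocalRing.ResidueField c.V) * as18s_phi0 n hc hπn s' = as18s_phi0 n hc hπn s
      rw [← hyz, div_mul_cancel₀ _ h0]

end AtN

/-- a unit of `V` has nonzero residue. -/
theorem Good.as18s_res_ne_zero (hc : c.Good) {z : F} (hz : z ∈ c.V) (hz0 : z ≠ 0)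
    (hinv : z⁻¹ ∈ c.V) : IsLocalRing.residue c.V ⟨z, hz⟩ ≠ 0 := by
  intro h0
  obtain ⟨y, hy, hzy⟩ := (hc.as18s_res_eq_zero_iff hz).mp h0
  apply hc.unif1
  have hπ0 : c.cst c.π ≠ 0 := by
    intro h1; rw [h1, zero_mul] at hzy; exact hz0 hzy
  have hy0 : y ≠ 0 := by
    intro h1; rw [h1, mul_zero] at hzy; exact hz0 hzy
  have h2 : (c.cst c.π)⁻¹ = y * z⁻¹ := by
    rw [hzy]; field_simp
  rw [h2]
  exact c.V.mul_mem _ _ hy hinv

/-- every element of `E(x)` is a quotient of two elements of `R[x]`. -/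
theorem Good.as18s_frac (hc : c.Good) (a : F) (ha : a ∈ IntermediateField.adjoin E {c.x}) :
    ∃ p q : Polynomial c.R, q ≠ 0 ∧ a * c.ev q = c.ev p := by
  induction ha using IntermediateField.adjoin_induction with
  | mem y hy =>
    rw [Set.mem_singleton_iff] at hy
    exact ⟨X, 1, one_ne_zero, by rw [hy, map_one, mul_one, c.ev_X]⟩
  | algebraMap e =>
    rcases c.R.mem_or_inv_mem e with he | he
    · exact ⟨C ⟨e, he⟩, 1, one_ne_zero, by rw [map_one, mul_one, c.ev_C]; rfl⟩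
    · by_cases he0 : e = 0
      · exact ⟨0, 1, one_ne_zero, by rw [he0]; simp⟩
      · refine ⟨1, C ⟨e⁻¹, he⟩, ?_, ?_⟩
        · intro h0
          apply he0
          have h1 : (⟨e⁻¹, he⟩ : c.R) = 0 := Polynomial.C_eq_zero.mp h0
          have h2 : e⁻¹ = 0 := congrArg Subtype.val h1
          exact inv_eq_zero.mp h2
        · rw [c.ev_C, map_one, c.cst_apply]
          show algebraMap E F e * algebraMap E F e⁻¹ = 1
          rw [← map_mul, mul_inv_cancel₀ he0, map_one]
  | add a b _ _ ha hb =>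
    obtain ⟨p, q, hq, h⟩ := ha
    obtain ⟨p', q', hq', h'⟩ := hb
    exact ⟨p * q' + p' * q, q * q', mul_ne_zero hq hq', by
      rw [map_add, map_mul, map_mul, map_mul, ← h, ← h']; ring⟩
  | inv a _ ha =>
    obtain ⟨p, q, hq, h⟩ := ha
    by_cases ha0 : a = 0
    · exact ⟨0, 1, one_ne_zero, by rw [ha0]; simp⟩
    · have hp : p ≠ 0 := by
        rintro rfl
        rw [map_zero] at h
        exact (mul_ne_zero ha0 (hc.ev_ne_zero hq)) h
      exact ⟨q, p, hp, by rw [← h, ← mul_assoc, inv_mul_cancel₀ ha0, one_mul]⟩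
  | mul a b _ _ ha hb =>
    obtain ⟨p, q, hq, h⟩ := ha
    obtain ⟨p', q', hq', h'⟩ := hb
    exact ⟨p * p', q * q', mul_ne_zero hq hq', by rw [map_mul, map_mul, ← h, ← h']; ring⟩

/-- `F` is the field of fractions of the chart ring, with denominators in `R[x]`. -/
theorem Good.as18s_exists_mul_mem_O (hc : c.Good) (v : F) :
    ∃ q : Polynomial c.R, q ≠ 0 ∧ c.ev q * v ∈ c.O := by
  haveI := hc.fin
  letI : Algebra (Polynomial c.R) F := c.ev.toAlgebra
  have hmemK : ∀ p : Polynomial c.R, c.ev p ∈ IntermediateField.adjoin E {c.x} := by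
    intro p
    rw [c.ev_eq_aeval]
    exact IntermediateField.algebra_adjoin_le_adjoin E {c.x}
      (Polynomial.aeval_mem_adjoin_singleton E c.x)
  letI algK : Algebra (Polynomial c.R) ↥(IntermediateField.adjoin E {c.x}) :=
    (c.ev.codRestrict (IntermediateField.adjoin E {c.x}) hmemK).toAlgebra
  haveI : IsScalarTower (Polynomial c.R) ↥(IntermediateField.adjoin E {c.x}) F :=
    IsScalarTower.of_algebraMap_eq (fun _ => rfl)
  haveI : Algebra.IsAlgebraic (Polynomial c.R) ↥(IntermediateField.adjoin E {c.x}) := by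
    refine ⟨fun a => ?_⟩
    obtain ⟨p, q, hq, h⟩ := hc.as18s_frac a.1 a.2
    refine ⟨C q * X - C p, ?_, ?_⟩
    · intro h0
      have h1 := congrArg (fun P => P.coeff 1) h0
      simp only [Polynomial.coeff_sub, Polynomial.coeff_C_mul, Polynomial.coeff_X_one, mul_one,
        Polynomial.coeff_C_succ, sub_zero, Polynomial.coeff_zero] at h1
      exact hq h1
    · apply Subtype.ext
      rw [map_sub, map_mul, Polynomial.aeval_X, Polynomial.aeval_C, Polynomial.aeval_C]
      show c.ev q * (a : F) - c.ev p = 0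
      rw [mul_comm, h, sub_self]
  haveI : Algebra.IsAlgebraic ↥(IntermediateField.adjoin E {c.x}) F :=
    Algebra.IsAlgebraic.of_finite _ F
  have halg : IsAlgebraic (Polynomial c.R) v :=
    (Algebra.IsAlgebraic.trans (Polynomial c.R) ↥(IntermediateField.adjoin E {c.x}) F).isAlgebraic v
  obtain ⟨q, hq0, hint⟩ := halg.exists_integral_multiple
  refine ⟨q, hq0, ?_⟩
  obtain ⟨P, hP, hPz⟩ := hint
  rw [c.mem_O_iff]
  refine ⟨P.map c.ev.rangeRestrict, hP.map _, ?_⟩
  rw [Polynomial.eval₂_map]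
  exact hPz

/-- iterated saturation of the chart ring. -/
theorem Good.as18s_sat_pow (hc : c.Good) : ∀ (k : ℕ) (u : F), u ∈ c.V →
    c.cst c.π ^ k * u ∈ c.O → u ∈ c.O := by
  intro k
  induction k with
  | zero => intro u _ h; rwa [pow_zero, one_mul] at h
  | succ k ih =>
    intro u hu h
    apply ih u hu
    apply hc.sat _ (c.V.mul_mem _ _ (c.V.pow_mem (hc.cV c.π) k) hu)
    rw [← mul_assoc, ← pow_succ']
    exact h

/-- every element of `V` is, up to a unit denominator from `R[x]`, in the chart ring. -/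
theorem Good.as18s_exists_unit_mul_mem_O (hc : c.Good) {v : F} (hv : v ∈ c.V) :
    ∃ q : Polynomial c.R, ¬ C c.π ∣ q ∧ c.ev q * v ∈ c.O := by
  haveI := hc.dvr
  obtain ⟨q, hq0, hqv⟩ := hc.as18s_exists_mul_mem_O v
  have hnu : ¬ IsUnit (C c.π : Polynomial c.R) := by
    rw [Polynomial.isUnit_C]; exact hc.irr.not_isUnit
  obtain ⟨k, q', hq', hqq⟩ := WfDvdMonoid.max_power_factor' hq0 hnu
  refine ⟨q', hq', ?_⟩
  apply hc.as18s_sat_pow k _ (c.V.mul_mem _ _ (hc.ev_mem_V q') hv)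
  rw [hqq, map_mul, map_pow, c.ev_C, mul_assoc] at hqv
  exact hqv

section AtN2

variable (n : Ideal (Polynomial c.R)) [hn : n.IsMaximal]

/-- (5) the residue field of `V` is the field of fractions of the image of `c.B n`. -/
theorem as18s_frac_L (hc : c.Good) (hπn : C c.π ∈ n) (y : IsLocalRing.ResidueField c.V) :
    ∃ z z' : c.B n, as18s_psi n hc hπn z' ≠ 0 ∧
      y * as18s_psi n hc hπn z' = as18s_psi n hc hπn z := by
  obtain ⟨⟨v, hv⟩, rfl⟩ := IsLocalRing.residue_surjective y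
  obtain ⟨q, hq, hqv⟩ := hc.as18s_exists_unit_mul_mem_O hv
  have hq0 : c.ev q ≠ 0 := hc.ev_ne_zero (fun h0 => hq (by rw [h0]; exact dvd_zero _))
  have hqB : c.ev q ∈ c.B n := (c.B n).algebraMap_mem ⟨_, c.ev_mem_S n q⟩
  refine ⟨⟨c.ev q * v, O_le_B n hqv⟩, ⟨c.ev q, hqB⟩, ?_, ?_⟩
  · rw [as18s_psi_apply]
    exact hc.as18s_res_ne_zero _ hq0 (hc.ev_unit hq)
  · rw [as18s_psi_apply, as18s_psi_apply, ← map_mul]
    congr 1
    apply Subtype.ext
    show v * c.ev q = c.ev q * v
    ring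

end AtN2

/-- evaluation of a polynomial over `V`, read in `F`. -/
theorem as18s_eval_lift (PV : Polynomial c.V) (v : F) (hv : v ∈ c.V) :
    ((PV.eval ⟨v, hv⟩ : c.V) : F) = (PV.map c.V.subtype).eval v := by
  rw [Polynomial.eval_map]
  exact (Polynomial.eval₂_at_apply c.V.subtype ⟨v, hv⟩).symm

section Sep

variable (n : Ideal (Polynomial c.R)) [hn : n.IsMaximal]

/-- the residue field of `V` is separable over `k₀`. -/
theorem as18s_isSeparable (hc : c.Good) (hπn : C c.π ∈ n) :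
    Algebra.IsSeparable ↥(as18s_k0 n hc hπn) (IsLocalRing.ResidueField c.V) := by
  refine ⟨fun y => ?_⟩
  obtain ⟨⟨v, hv⟩, rfl⟩ := IsLocalRing.residue_surjective y
  obtain ⟨P, hPm, hcoef, ⟨y0, hy0, hPv⟩, hder, hder0⟩ := hc.sep v hv
  have hlift : P ∈ Polynomial.lifts c.V.subtype := by
    rw [Polynomial.lifts_iff_coeff_lifts]
    intro i
    obtain ⟨p, q, hqu, hq0, hpq⟩ := hcoef i
    have h1 : P.coeff i = c.ev p * (c.ev q)⁻¹ := by
      rw [← hpq, mul_assoc, mul_inv_cancel₀ hq0, mul_one]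
    exact ⟨⟨P.coeff i, by rw [h1]; exact c.V.mul_mem _ _ (hc.ev_mem_V p) hqu⟩, rfl⟩
  obtain ⟨PV, hPV, -, hPVm⟩ := Polynomial.lifts_and_natDegree_eq_and_monic hlift hPm
  have hlift2 : PV.map (IsLocalRing.residue c.V) ∈ Polynomial.lifts
      (algebraMap ↥(as18s_k0 n hc hπn) (IsLocalRing.ResidueField c.V)) := by
    rw [Polynomial.lifts_iff_coeff_lifts]
    intro i
    obtain ⟨p, q, hqu, hq0, hpq⟩ := hcoef i
    rw [Polynomial.coeff_map]
    have hPVi : ((PV.coeff i : c.V) : F) = P.coeff i := by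
      rw [← hPV, Polynomial.coeff_map]; rfl
    have hφq : as18s_phi0 n hc hπn ⟨c.ev q, c.ev_mem_S n q⟩ ≠ 0 :=
      hc.as18s_res_ne_zero _ hq0 hqu
    have hmul : IsLocalRing.residue c.V (PV.coeff i)
        * as18s_phi0 n hc hπn ⟨c.ev q, c.ev_mem_S n q⟩
        = as18s_phi0 n hc hπn ⟨c.ev p, c.ev_mem_S n p⟩ := by
      show IsLocalRing.residue c.V (PV.coeff i)
          * IsLocalRing.residue c.V ⟨c.ev q, hc.ev_mem_V q⟩
        = IsLocalRing.residue c.V ⟨c.ev p, hc.ev_mem_V p⟩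
      rw [← map_mul]
      congr 1
      apply Subtype.ext
      show ((PV.coeff i : c.V) : F) * c.ev q = c.ev p
      rw [hPVi, hpq]
    have hmem : IsLocalRing.residue c.V (PV.coeff i) ∈ as18s_k0 n hc hπn := by
      have h2 : IsLocalRing.residue c.V (PV.coeff i)
          = as18s_phi0 n hc hπn ⟨c.ev p, c.ev_mem_S n p⟩
            / as18s_phi0 n hc hπn ⟨c.ev q, c.ev_mem_S n q⟩ := by
        rw [eq_div_iff hφq, hmul]
      rw [h2]
      exact (as18s_k0 n hc hπn).div_mem (Subfield.subset_closure ⟨_, rfl⟩)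
        (Subfield.subset_closure ⟨_, rfl⟩)
    exact ⟨⟨_, hmem⟩, rfl⟩
  obtain ⟨P0, hP0, -, hP0m⟩ :=
    Polynomial.lifts_and_natDegree_eq_and_monic hlift2 (hPVm.map _)
  have hev : ∀ Q : Polynomial c.V, IsLocalRing.residue c.V (Q.eval ⟨v, hv⟩)
      = (Q.map (IsLocalRing.residue c.V)).eval (IsLocalRing.residue c.V ⟨v, hv⟩) := by
    intro Q
    rw [Polynomial.eval_map, Polynomial.eval₂_at_apply]
  have hroot : Polynomial.aeval (IsLocalRing.residue c.V ⟨v, hv⟩) P0 = 0 := by
    rw [Polynomial.aeval_def, ← Polynomial.eval_map, hP0, ← hev]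
    refine (hc.as18s_res_eq_zero_iff (PV.eval ⟨v, hv⟩).2).mpr ⟨y0, hy0, ?_⟩
    rw [as18s_eval_lift, hPV, ← hPv, Polynomial.coe_aeval_eq_eval]
  have hderne : Polynomial.aeval (IsLocalRing.residue c.V ⟨v, hv⟩) (Polynomial.derivative P0)
      ≠ 0 := by
    rw [Polynomial.aeval_def, ← Polynomial.eval_map, ← Polynomial.derivative_map, hP0,
      Polynomial.derivative_map, ← hev]
    have h1 : (((Polynomial.derivative PV).eval ⟨v, hv⟩ : c.V) : F)
        = Polynomial.aeval v (Polynomial.derivative P) := by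
      rw [as18s_eval_lift, ← Polynomial.derivative_map, hPV, Polynomial.coe_aeval_eq_eval]
    refine hc.as18s_res_ne_zero ((Polynomial.derivative PV).eval ⟨v, hv⟩).2 ?_ ?_
    · rw [h1]; exact hder0
    · rw [h1]; exact hder
  have hint : IsIntegral ↥(as18s_k0 n hc hπn) (IsLocalRing.residue c.V ⟨v, hv⟩) :=
    ⟨P0, hP0m, by rw [← Polynomial.aeval_def]; exact hroot⟩
  obtain ⟨g, hg⟩ := minpoly.dvd ↥(as18s_k0 n hc hπn) _ hroot
  show (minpoly ↥(as18s_k0 n hc hπn) (IsLocalRing.residue c.V ⟨v, hv⟩)).Separable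
  rw [Polynomial.separable_iff_derivative_ne_zero (minpoly.irreducible hint)]
  intro hd0
  apply hderne
  rw [hg, Polynomial.derivative_mul, hd0, zero_mul, zero_add, map_mul, minpoly.aeval, zero_mul]

end Sep

end As18Chart

/-- the separable special fibre datum of `na_stmt` for a good chart. -/
theorem as18s_sep : as18_sep_stmt := by
  intro E F _ _ _ c hc n hn hπn
  refine ⟨↥(As18Chart.as18s_k0 n hc hπn), IsLocalRing.ResidueField c.V, inferInstance,
    inferInstance, inferInstance, As18Chart.as18s_isSeparable n hc hπn,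
    As18Chart.as18s_phi n hc hπn, As18Chart.as18s_psi n hc hπn, fun s => rfl, ?_,
    As18Chart.as18s_psi_eq_zero_iff n hc hπn, As18Chart.as18s_frac_k0 n hc hπn,
    As18Chart.as18s_frac_L n hc hπn⟩
  intro s
  rw [← As18Chart.as18s_phi0_eq_zero_iff n hc hπn s, ← As18Chart.as18s_coe_phi]
  exact ⟨fun h => by rw [h]; rfl, fun h => Subtype.ext h⟩

end Fermat.Agent.S18Lib
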