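import Fermat.Agent.Lib.S18.CgMain
import Fermat.Agent.Lib.S18.CgGlue

/-!
# S18, chunk Cg: the (G) + (C) + (H) core for integral closures

`cg18_main_IC`: `cg18_main'` instantiated at
`O_U = cg18_IC (closure (T ∪ {x}))`, `O_V = cg18_IC (closure (T ∪ {x⁻¹}))`,
`O_UV = cg18_IC (closure (T ∪ {x, x⁻¹}))`, `R = closure T`, with all the formal hypotheses
(inclusions, root-closedness, localisation, noetherianity over `R[x⁻¹]`) discharged.
-/

set_option autoImplicit false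

namespace Fermat.Agent.S18Lib

theorem cg18_main_IC {F : Type*} [Field F] [CharZero F] (V : ValuationSubring F) (π : F) (m : ℕ)
    (w x : F) (T : Set F) (hx0 : x ≠ 0)
    (hπ0 : π ≠ 0) (hπ : π⁻¹ ∉ V) (hπR : π ∈ Subring.closure T)
    (hm : 0 < m) (hμ : ∃ μ ∈ Subring.closure T, (m : F) * μ = 1)
    (hw : ∃ v ∈ V, w = 1 + π * v)
    (hUV : cg18_IC (Subring.closure (T ∪ {x, x⁻¹})) ≤ V.toSubring)
    (hN : IsNoetherianRing ↥(Subring.closure T))
    (hUFD : UniqueFactorizationMonoid ↥(Subring.closure T))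
    (hsat : ∀ z : F, π * z ∈ cg18_IC (Subring.closure (T ∪ {x, x⁻¹})) → z ∈ V →
      z ∈ cg18_IC (Subring.closure (T ∪ {x, x⁻¹})))
    (hu : Transcendental ↥(Subring.closure T) x⁻¹) (hfin : cg18_FinOver T x⁻¹)
    (hGU : cg18_localHyp V π m w (cg18_IC (Subring.closure (T ∪ {x}))))
    (hGV : cg18_localHyp V π m w (cg18_IC (Subring.closure (T ∪ {x⁻¹})))) :
    ∃ y : F, (∃ v ∈ V, y = 1 + π * v) ∧
      y ^ m * w ∈ cg18_IC (Subring.closure (T ∪ {x})) ∧
      y ^ m * w ∈ cg18_IC (Subring.closure (T ∪ {x⁻¹})) := by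
  let _ := cg18_polyAlg (Subring.closure T) x⁻¹
  exact cg18_main' V π m w x x⁻¹ (Subring.closure T)
    (cg18_IC (Subring.closure (T ∪ {x}))) (cg18_IC (Subring.closure (T ∪ {x⁻¹})))
    (cg18_IC (Subring.closure (T ∪ {x, x⁻¹}))) (Polynomial ↥(Subring.closure T))
    hπ0 hπ hπR hm hμ hw
    (cg18_closure_le_IC T _) (cg18_closure_le_IC T _) (cg18_IC_leU T x) (cg18_IC_leV T x) hUV hN
    (fun z => cg18_IC_rootClosed _ hm z) (fun z => cg18_IC_rootClosed _ hm z)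
    (fun z => cg18_IC_rootClosed _ hm z)
    hsat (mul_inv_cancel₀ hx0) (cg18_mem_IC_gen T (Set.mem_singleton x))
    (cg18_mem_IC_gen T (Set.mem_singleton x⁻¹))
    (cg18_IC_locU T hx0) (cg18_IC_locV T hx0)
    (fun p => ⟨p, rfl⟩) (cg18_noeth T x⁻¹ hN hUFD hu hfin) hGU hGV

end Fermat.Agent.S18Lib
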