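import Fermat.Agent.Lib.S18.AsIface2
import Fermat.Agent.Lib.S18.AsIface3
import Fermat.Agent.Lib.S18.AsNormal
import Fermat.Agent.Lib.S18.AsSepB
import Fermat.Agent.Lib.S18.CgPack

/-!
# S18 assembly: the MACHINE (`as18_machine_stmt`)

`as18_machine_core (hT2 : as18_local_stmt) : as18_machine_stmt` (and `as18_machine`, the same
with two unused extra hypotheses): `cg18_main_IC` for the two charts
`c` (coordinate `x`) and `c.inv cbr'` (coordinate `x⁻¹`), followed by
"integral over `R[x]` and over `R[x⁻¹]` ⇒ algebraic over `E`".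
All auxiliary names are prefixed `mc_`.
-/

set_option autoImplicit false

open Polynomial

namespace Fermat.Agent.S18Lib

namespace As18Chart

variable {E F : Type} [Field E] [Field F] [Algebra E F] (c : As18Chart E F)

/-- `R[x]` is the subring generated by the constants of `R` and `x`. -/
theorem mc_range_ev : c.ev.range = Subring.closure (Set.range c.cst ∪ {c.x}) := by
  have hxm : c.x ∈ Subring.closure (Set.range c.cst ∪ {c.x}) :=
    Subring.subset_closure (Or.inr rfl)
  have hcm : ∀ a : c.R, c.cst a ∈ Subring.closure (Set.range c.cst ∪ {c.x}) :=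
    fun a => Subring.subset_closure (Or.inl ⟨a, rfl⟩)
  apply le_antisymm
  · rintro _ ⟨p, rfl⟩
    induction p using Polynomial.induction_on' with
    | add p q hp hq =>
      rw [map_add]
      exact Subring.add_mem _ hp hq
    | monomial n a =>
      rw [← Polynomial.C_mul_X_pow_eq_monomial, map_mul, map_pow, c.ev_C, c.ev_X]
      exact Subring.mul_mem _ (hcm a) (Subring.pow_mem _ hxm n)
  · rw [Subring.closure_le]
    rintro a (⟨r, rfl⟩ | ha)
    · exact ⟨C r, c.ev_C r⟩
    · rw [Set.mem_singleton_iff] at ha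
      rw [ha]
      exact ⟨X, c.ev_X⟩

theorem mc_O_eq : c.O = cg18_IC (Subring.closure (Set.range c.cst ∪ {c.x})) := by
  rw [← c.mc_range_ev]
  rfl

variable {c}

/-- `R[x]` is integrally closed in `E(x)`. -/
theorem Good.mc_mem_range_of_integral (hc : c.Good) {κ : F}
    (hκK : κ ∈ IntermediateField.adjoin E {c.x}) (hκO : κ ∈ c.O) :
    ∃ p : Polynomial c.R, κ = c.ev p := by
  have := hc.dvr
  let _ : Algebra (Polynomial c.R) F := c.ev.toAlgebra
  have hev : ∀ p : Polynomial c.R, algebraMap (Polynomial c.R) F p = c.ev p := fun _ => rfl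
  have : FaithfulSMul (Polynomial c.R) F :=
    (faithfulSMul_iff_algebraMap_injective _ _).mpr hc.inj
  let _ : Algebra (FractionRing (Polynomial c.R)) F := FractionRing.liftAlgebra _ F
  have : IsScalarTower (Polynomial c.R) (FractionRing (Polynomial c.R)) F :=
    FractionRing.isScalarTower_liftAlgebra _ F
  obtain ⟨p, q, hq, h⟩ := hc.as18s_frac κ hκK
  have hq0 : c.ev q ≠ 0 := hc.ev_ne_zero hq
  have hκ : algebraMap (FractionRing (Polynomial c.R)) F
      (algebraMap _ _ p / algebraMap _ _ q) = κ := by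
    rw [map_div₀, ← IsScalarTower.algebraMap_apply, ← IsScalarTower.algebraMap_apply, hev, hev,
      ← h, mul_div_assoc, div_self hq0, mul_one]
  have hint : IsIntegral (Polynomial c.R) κ :=
    cg18_isIntegralElem_of_le_range c.ev (fun a ha => ha) hκO
  have hint' : IsIntegral (Polynomial c.R)
      (algebraMap (Polynomial c.R) (FractionRing (Polynomial c.R)) p /
        algebraMap (Polynomial c.R) (FractionRing (Polynomial c.R)) q) := by
    rw [← hκ] at hint
    exact (isIntegral_algHom_iff
      (IsScalarTower.toAlgHom (Polynomial c.R) (FractionRing (Polynomial c.R)) F)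
      (algebraMap (FractionRing (Polynomial c.R)) F).injective).mp hint
  obtain ⟨p₀, hp₀⟩ := IsIntegrallyClosed.isIntegral_iff.mp hint'
  refine ⟨p₀, ?_⟩
  rw [← hκ, ← hp₀, ← IsScalarTower.algebraMap_apply, hev]

/-- a polynomial in `x` which is also a polynomial in `x⁻¹` is a constant. -/
theorem Good.mc_const_of_ev_eq (hc : c.Good) (cbr' : c.R) {p p' : Polynomial c.R}
    (h : c.ev p = (c.inv cbr').ev p') : ∃ r : c.R, c.ev p = c.cst r := by
  have hx0 : c.x ≠ 0 := by
    intro h0
    have h1 : c.ev X = c.ev 0 := by rw [c.ev_X, h0, map_zero]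
    exact X_ne_zero (hc.inj h1)
  have hsum : (c.inv cbr').ev p'
      = ∑ i ∈ Finset.range (p'.natDegree + 1), c.cst (p'.coeff i) * (c.x⁻¹) ^ i := by
    show Polynomial.eval₂ c.cst c.x⁻¹ p' = _
    rw [Polynomial.eval₂_eq_sum_range]
  have hR₂ : c.ev (∑ i ∈ Finset.range (p'.natDegree + 1),
      C (p'.coeff i) * X ^ (p'.natDegree - i)) = c.x ^ p'.natDegree * (c.inv cbr').ev p' := by
    rw [hsum, Finset.mul_sum, map_sum]
    refine Finset.sum_congr rfl fun i hi => ?_
    have hi' : i ≤ p'.natDegree := Nat.lt_succ_iff.mp (Finset.mem_range.mp hi)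
    rw [map_mul, map_pow, c.ev_C, c.ev_X]
    have h1 : c.x ^ p'.natDegree = c.x ^ (p'.natDegree - i) * c.x ^ i := by
      rw [← pow_add, Nat.sub_add_cancel hi']
    rw [h1, inv_pow]
    field_simp
  have hdeg : (∑ i ∈ Finset.range (p'.natDegree + 1),
      C (p'.coeff i) * X ^ (p'.natDegree - i)).natDegree ≤ p'.natDegree := by
    apply Polynomial.natDegree_sum_le_of_forall_le
    intro i _
    exact (natDegree_C_mul_X_pow_le _ _).trans (Nat.sub_le _ _)
  have heq : (∑ i ∈ Finset.range (p'.natDegree + 1),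
      C (p'.coeff i) * X ^ (p'.natDegree - i)) = X ^ p'.natDegree * p :=
    hc.inj (by rw [hR₂, ← h, map_mul, map_pow, c.ev_X])
  by_cases hp : p = 0
  · exact ⟨0, by rw [hp, map_zero, map_zero]⟩
  · have h2 : (X ^ p'.natDegree * p).natDegree = p.natDegree + p'.natDegree :=
      Polynomial.natDegree_X_pow_mul _ hp
    rw [← heq] at h2
    have h3 : p.natDegree = 0 := by omega
    obtain ⟨r, hr⟩ := Polynomial.natDegree_eq_zero.mp h3
    exact ⟨r, by rw [← hr, c.ev_C]⟩

variable (c)

/-- the coefficients of the minimal polynomial over `K ⊇ R[x]` of an element of the chart ring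
lie in the chart ring. -/
theorem mc_minpoly_coeff_mem_O (K : IntermediateField E F) [FiniteDimensional K F]
    (hK : ∀ p : Polynomial c.R, c.ev p ∈ K) {z : F} (hz : z ∈ c.O) (i : ℕ) :
    (((minpoly K z).coeff i : K) : F) ∈ c.O := by
  let _ : Algebra (Polynomial c.R) F := c.ev.toAlgebra
  let _ : Algebra (Polynomial c.R) K := (c.ev.codRestrict K hK).toAlgebra
  have : IsScalarTower (Polynomial c.R) K F := IsScalarTower.of_algebraMap_eq (fun _ => rfl)
  have hzint : IsIntegral (Polynomial c.R) z :=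
    cg18_isIntegralElem_of_le_range c.ev (fun a ha => ha) hz
  obtain ⟨P, hP, hPz⟩ := hzint
  have hKint : IsIntegral K z := IsIntegral.of_finite K z
  have hdvd : minpoly K z ∣ P.map (algebraMap (Polynomial c.R) K) := by
    apply minpoly.dvd
    rw [Polynomial.aeval_def, Polynomial.eval₂_map, ← IsScalarTower.algebraMap_eq]
    exact hPz
  have hcoef : IsIntegral (Polynomial c.R) ((minpoly K z).coeff i) :=
    Polynomial.isIntegral_coeff_of_dvd P _ hP (minpoly.monic hKint) hdvd i
  have hF : IsIntegral (Polynomial c.R) (algebraMap K F ((minpoly K z).coeff i)) :=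
    hcoef.algebraMap
  obtain ⟨Q, hQ, hQz⟩ := hF
  rw [c.mem_O_iff]
  refine ⟨Q.map c.ev.rangeRestrict, hQ.map _, ?_⟩
  rw [Polynomial.eval₂_map]
  exact hQz

variable {c}

/-- an element integral over `R[x]` and over `R[x⁻¹]` is algebraic over `E`. -/
theorem Good.mc_isAlgebraic (hc : c.Good) {cbr' : c.R} (hc' : (c.inv cbr').Good) {z : F}
    (hzU : z ∈ c.O) (hzV : z ∈ (c.inv cbr').O) : IsAlgebraic E z := by
  have := hc.fin
  have hxinvK : c.x⁻¹ ∈ IntermediateField.adjoin E {c.x} :=
    inv_mem (IntermediateField.mem_adjoin_simple_self E c.x)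
  have hxK' : c.x ∈ IntermediateField.adjoin E {(c.inv cbr').x} := by
    have h1 := inv_mem (IntermediateField.mem_adjoin_simple_self E (c.inv cbr').x)
    rwa [show ((c.inv cbr').x)⁻¹ = c.x from inv_inv c.x] at h1
  have hle1 : IntermediateField.adjoin E {(c.inv cbr').x} ≤ IntermediateField.adjoin E {c.x} := by
    rw [IntermediateField.adjoin_le_iff]
    intro a ha
    rw [Set.mem_singleton_iff] at ha
    rw [ha]
    exact hxinvK
  have hle2 : IntermediateField.adjoin E {c.x} ≤ IntermediateField.adjoin E {(c.inv cbr').x} := by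
    rw [IntermediateField.adjoin_le_iff]
    intro a ha
    rw [Set.mem_singleton_iff] at ha
    rw [ha]
    exact hxK'
  have hK1 : ∀ p : Polynomial c.R, c.ev p ∈ IntermediateField.adjoin E {c.x} := c.ev_mem_adjoin
  have hK2 : ∀ p : Polynomial c.R, (c.inv cbr').ev p ∈ IntermediateField.adjoin E {c.x} :=
    fun p => hle1 ((c.inv cbr').ev_mem_adjoin p)
  have hKint : IsIntegral (IntermediateField.adjoin E {c.x}) z := IsIntegral.of_finite _ z
  have hcoef : ∀ i, ∃ e : E, (minpoly (IntermediateField.adjoin E {c.x}) z).coeff i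
      = algebraMap E (IntermediateField.adjoin E {c.x}) e := by
    intro i
    have h1 := c.mc_minpoly_coeff_mem_O (IntermediateField.adjoin E {c.x}) hK1 hzU i
    have h2 := (c.inv cbr').mc_minpoly_coeff_mem_O (IntermediateField.adjoin E {c.x}) hK2 hzV i
    obtain ⟨p, hp⟩ := hc.mc_mem_range_of_integral
      ((minpoly (IntermediateField.adjoin E {c.x}) z).coeff i).2 h1
    obtain ⟨p', hp'⟩ := hc'.mc_mem_range_of_integral
      (hle2 ((minpoly (IntermediateField.adjoin E {c.x}) z).coeff i).2) h2
    obtain ⟨r, hr⟩ := hc.mc_const_of_ev_eq cbr' (hp.symm.trans hp')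
    refine ⟨(r : E), Subtype.ext ?_⟩
    rw [hp, hr]
    rfl
  have hl : minpoly (IntermediateField.adjoin E {c.x}) z ∈
      Polynomial.lifts (algebraMap E (IntermediateField.adjoin E {c.x})) := by
    rw [Polynomial.lifts_iff_coeff_lifts]
    intro i
    obtain ⟨e, he⟩ := hcoef i
    exact ⟨e, he.symm⟩
  obtain ⟨μ₀, hμ₀⟩ := (Polynomial.mem_lifts _).mp hl
  refine ⟨μ₀, ?_, ?_⟩
  · intro h0
    rw [h0, Polynomial.map_zero] at hμ₀
    exact minpoly.ne_zero hKint hμ₀.symm
  · have h3 := minpoly.aeval (IntermediateField.adjoin E {c.x}) z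
    rw [← hμ₀, Polynomial.aeval_def, Polynomial.eval₂_map, ← IsScalarTower.algebraMap_eq] at h3
    exact h3

end As18Chart

open As18Chart in
/-- MACHINE (only the local statement `as18_local_stmt` is needed). -/
theorem as18_machine_core (hT2 : as18_local_stmt) : as18_machine_stmt := by
  intro E F _ _ _ c cbr' hc hc' halg m w hw hμ hnorm hnorm'
  classical
  have := hc.char0
  have hF0 : CharZero F := charZero_of_injective_algebraMap (algebraMap E F).injective
  have hx0 : c.x ≠ 0 := by
    intro h0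
    have h1 : c.ev X = c.ev 0 := by rw [c.ev_X, h0, map_zero]
    exact X_ne_zero (hc.inj h1)
  -- the constants
  have hcl : Subring.closure (Set.range c.cst) = c.cst.range := by
    rw [← RingHom.coe_range, Subring.closure_eq]
  have hcst_inj : Function.Injective c.cst :=
    (algebraMap E F).injective.comp Subtype.val_injective
  let ρ : c.R →+* Subring.closure (Set.range c.cst) :=
    c.cst.codRestrict _ (fun r => Subring.subset_closure ⟨r, rfl⟩)
  have hρ_inj : Function.Injective ρ := fun a b hab => hcst_inj (congrArg Subtype.val hab)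
  have hρ_surj : Function.Surjective ρ := by
    rintro ⟨a, ha⟩
    have ha' := ha
    rw [hcl] at ha'
    obtain ⟨r, hr⟩ := ha'
    exact ⟨r, Subtype.ext hr⟩
  let e : c.R ≃+* Subring.closure (Set.range c.cst) := RingEquiv.ofBijective ρ ⟨hρ_inj, hρ_surj⟩
  have := hc.dvr
  have hN : IsNoetherianRing (Subring.closure (Set.range c.cst)) :=
    isNoetherianRing_of_ringEquiv c.R e
  have hUFD : UniqueFactorizationMonoid (Subring.closure (Set.range c.cst)) :=
    MulEquiv.uniqueFactorizationMonoid e.toMulEquiv inferInstance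
  -- transcendence of `x⁻¹`
  have hu : Transcendental (Subring.closure (Set.range c.cst)) c.x⁻¹ := by
    rw [transcendental_iff_injective, injective_iff_map_eq_zero]
    intro q hq
    have hl : q ∈ Polynomial.lifts ρ := by
      rw [Polynomial.lifts_iff_coeff_lifts]
      intro i
      exact hρ_surj _
    obtain ⟨p, rfl⟩ := (Polynomial.mem_lifts q).mp hl
    have h0 : (c.inv cbr').ev p = 0 := by
      rw [← hq, Polynomial.aeval_def, Polynomial.eval₂_map]
      rfl
    have hp0 : p = 0 := hc'.inj (h0.trans (map_zero (c.inv cbr').ev).symm)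
    rw [hp0, Polynomial.map_zero]
  -- finiteness
  have hfin : cg18_FinOver (Set.range c.cst) c.x⁻¹ := by
    have := hc'.fin
    refine cg18_finOver_of_finite (Set.range c.cst) c.x⁻¹
      (K₂ := IntermediateField.adjoin E {(c.inv cbr').x}) ?_
    intro κ
    have hle : Subfield.closure (Set.range (algebraMap E F) ∪ {c.x⁻¹})
        ≤ Subfield.closure (Set.range c.cst ∪ {c.x⁻¹}) := by
      rw [Subfield.closure_le]
      rintro a (⟨e', rfl⟩ | ha)
      · rcases c.R.mem_or_inv_mem e' with h | h
        · exact Subfield.subset_closure (Or.inl ⟨⟨e', h⟩, rfl⟩)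
        · have h1 : algebraMap E F e' = (c.cst ⟨e'⁻¹, h⟩)⁻¹ := by
            rw [c.cst_apply, ← map_inv₀]
            simp
          rw [h1]
          exact inv_mem (Subfield.subset_closure (Or.inl ⟨_, rfl⟩))
      · exact Subfield.subset_closure (Or.inr ha)
    exact hle κ.2
  -- the chart rings
  have hOU : c.O = cg18_IC (Subring.closure (Set.range c.cst ∪ {c.x})) := c.mc_O_eq
  have hOV : (c.inv cbr').O = cg18_IC (Subring.closure (Set.range c.cst ∪ {c.x⁻¹})) :=
    (c.inv cbr').mc_O_eq
  have hw' : (c.inv cbr').WData m w := ⟨hw.mpos, hw.w1, hw.wpow⟩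
  have hGU : cg18_localHyp c.V (c.cst c.π) m w
      (cg18_IC (Subring.closure (Set.range c.cst ∪ {c.x}))) := by
    rw [← hOU]
    exact hT2 E F c hc m w hw hnorm
  have hGV : cg18_localHyp c.V (c.cst c.π) m w
      (cg18_IC (Subring.closure (Set.range c.cst ∪ {c.x⁻¹}))) := by
    rw [← hOV]
    exact hT2 E F (c.inv cbr') hc' m w hw' hnorm'
  have hUV : cg18_IC (Subring.closure (Set.range c.cst ∪ {c.x, c.x⁻¹})) ≤ c.V.toSubring := by
    intro z hz
    refine as18_mem_of_isIntegral_subring c.V ?_ hz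
    rw [Subring.closure_le]
    rintro a (⟨r, rfl⟩ | ha | ha)
    · exact hc.cV r
    · rw [ha]
      exact hc.xV
    · rw [Set.mem_singleton_iff] at ha
      rw [ha]
      exact hc'.xV
  have hsat : ∀ z : F, c.cst c.π * z ∈ cg18_IC (Subring.closure (Set.range c.cst ∪ {c.x, c.x⁻¹})) →
      z ∈ c.V → z ∈ cg18_IC (Subring.closure (Set.range c.cst ∪ {c.x, c.x⁻¹})) := by
    intro z hz hzV
    obtain ⟨k, hk⟩ := cg18_IC_locU (Set.range c.cst) hx0 _ hz
    rw [← hOU] at hk
    have h1 : c.x ^ k * z ∈ c.O := by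
      apply hc.sat _ (c.V.mul_mem _ _ (c.V.pow_mem hc.xV k) hzV)
      have h5 : c.cst c.π * (c.x ^ k * z) = c.x ^ k * (c.cst c.π * z) := by ring
      rw [h5]
      exact hk
    rw [hOU] at h1
    have h2 := cg18_IC_leU (Set.range c.cst) c.x h1
    have h3 : c.x⁻¹ ∈ cg18_IC (Subring.closure (Set.range c.cst ∪ {c.x, c.x⁻¹})) :=
      cg18_mem_IC_gen (Set.range c.cst) (Or.inr rfl)
    have h4 : z = c.x⁻¹ ^ k * (c.x ^ k * z) := by
      rw [← mul_assoc, ← mul_pow, inv_mul_cancel₀ hx0, one_pow, one_mul]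
    rw [h4]
    exact Subring.mul_mem _ (Subring.pow_mem _ h3 k) h2
  obtain ⟨μ, hμ⟩ := hμ
  have hμ' : ∃ μ' ∈ Subring.closure (Set.range c.cst), (m : F) * μ' = 1 := by
    refine ⟨c.cst μ, Subring.subset_closure ⟨μ, rfl⟩, ?_⟩
    rw [c.cst_apply, ← map_natCast (algebraMap E F), ← map_mul, hμ, map_one]
  obtain ⟨y, hy, hyU, hyV⟩ := cg18_main_IC c.V (c.cst c.π) m w c.x (Set.range c.cst) hx0
    hc.cst_π_ne_zero hc.unif1 (Subring.subset_closure ⟨c.π, rfl⟩) hw.mpos hμ' hw.w1 hUV hN hUFD
    hsat hu hfin hGU hGV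
  rw [← hOU] at hyU
  rw [← hOV] at hyV
  obtain ⟨e₀, he₀⟩ := halg _ (hc.mc_isAlgebraic hc' hyU hyV)
  exact ⟨y, e₀, hy, he₀⟩

/-- MACHINE, in the signature of the assembly plan (the two extra inputs are not needed). -/
theorem as18_machine (hT2 : as18_local_stmt) (_hno : as18_noeth_stmt)
    (_hco : as18_const_stmt) : as18_machine_stmt :=
  as18_machine_core hT2

end Fermat.Agent.S18Lib
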