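import Fermat.Agent.Lib.S18.AsIface3

/-!
# S18 assembly: the chart ring is a noetherian `R[X]`-module (helper6)

`as18_noeth : as18_noeth_stmt`.
-/

set_option autoImplicit false
set_option linter.style.haveILetI false

open Polynomial

namespace Fermat.Agent.S18Lib

variable {E F : Type} [Field E] [Field F] [Algebra E F] {c : As18Chart E F}

theorem as18n_ev_mem_adjoin (p : Polynomial c.R) :
    c.ev p ∈ IntermediateField.adjoin E {c.x} := by
  rw [c.ev_eq_aeval]
  exact IntermediateField.algebra_adjoin_le_adjoin E _
    (Polynomial.aeval_mem_adjoin_singleton E c.x)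

/-- the algebra structure `R[X] → E(x)` -/
@[instance_reducible] noncomputable def as18n_algAK (c : As18Chart E F) :
    Algebra (Polynomial c.R) (IntermediateField.adjoin E {c.x}) :=
  (c.ev.codRestrict (IntermediateField.adjoin E {c.x}) (fun p => as18n_ev_mem_adjoin p)).toAlgebra

/-- `E(x)` is the fraction field of `R[X]` (via `ev`). -/
theorem as18n_isFractionRing (hc : c.Good) :
    @IsFractionRing (Polynomial c.R) _ (IntermediateField.adjoin E {c.x}) _ (as18n_algAK c) := by
  letI := as18n_algAK c
  have halg : ∀ s : Polynomial c.R,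
      ((algebraMap (Polynomial c.R) (IntermediateField.adjoin E {c.x}) s :
      IntermediateField.adjoin E {c.x}) : F) = c.ev s := fun s => rfl
  haveI : FaithfulSMul (Polynomial c.R) (IntermediateField.adjoin E {c.x}) := by
    rw [faithfulSMul_iff_algebraMap_injective]
    intro a b hab
    apply hc.inj
    rw [← halg a, ← halg b, hab]
  refine IsFractionRing.of_field (Polynomial c.R) _ (fun z => ?_)
  obtain ⟨r, s, hrs⟩ := (IntermediateField.mem_adjoin_simple_iff E (z : F)).mp z.2
  obtain ⟨br, hbr, hr⟩ := IsLocalization.integerNormalization_spec (nonZeroDivisors c.R) r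
  obtain ⟨bs, hbs, hs⟩ := IsLocalization.integerNormalization_spec (nonZeroDivisors c.R) s
  set r' := IsLocalization.integerNormalization (nonZeroDivisors c.R) r with hr'
  set s' := IsLocalization.integerNormalization (nonZeroDivisors c.R) s with hs'
  have hbr0 : (br : E) ≠ 0 := by
    intro h0; exact (nonZeroDivisors.ne_zero hbr) (Subtype.ext h0)
  have hbs0 : (bs : E) ≠ 0 := by
    intro h0; exact (nonZeroDivisors.ne_zero hbs) (Subtype.ext h0)
  have her : c.ev r' = algebraMap E F (br : E) * Polynomial.aeval c.x r := by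
    rw [c.ev_eq_aeval]
    have : r'.map c.R.subtype = br • r := hr
    rw [this, Algebra.smul_def, map_mul]
    simp
  have hes : c.ev s' = algebraMap E F (bs : E) * Polynomial.aeval c.x s := by
    rw [c.ev_eq_aeval]
    have : s'.map c.R.subtype = bs • s := hs
    rw [this, Algebra.smul_def, map_mul]
    simp
  refine ⟨C bs * r', C br * s', ?_⟩
  apply Subtype.ext
  show (z : F) = c.ev (C bs * r') / c.ev (C br * s')
  rw [map_mul, map_mul, c.ev_C, c.ev_C, her, hes, hrs, c.cst_apply, c.cst_apply]
  have h1 : algebraMap E F (br : E) ≠ 0 := (_root_.map_ne_zero _).mpr hbr0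
  have h2 : algebraMap E F (bs : E) ≠ 0 := (_root_.map_ne_zero _).mpr hbs0
  by_cases hs0 : Polynomial.aeval c.x s = 0
  · simp [hs0]
  · field_simp

/-- integrality over `R[x] = c.ev.range` is integrality over `R[X]` (acting through `ev`). -/
theorem as18n_isIntegral {z : F} (hz : z ∈ c.O) :
    @IsIntegral (Polynomial c.R) F _ _ c.ev.toAlgebra z := by
  letI := c.ev.toAlgebra
  obtain ⟨P, hP, hPz⟩ := (c.mem_O_iff).mp hz
  have hlift : P ∈ Polynomial.lifts c.ev.rangeRestrict := by
    rw [Polynomial.lifts_iff_coeff_lifts]
    intro i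
    exact c.ev.rangeRestrict_surjective (P.coeff i)
  obtain ⟨Q, hQ, -, hQmon⟩ := Polynomial.lifts_and_natDegree_eq_and_monic hlift hP
  refine ⟨Q, hQmon, ?_⟩
  rw [← hQ, Polynomial.eval₂_map] at hPz
  exact hPz

theorem as18_noeth : as18_noeth_stmt := by
  intro E F _ _ _ c hc
  letI algAF : Algebra (Polynomial c.R) F := c.ev.toAlgebra
  intro N hN
  haveI := hc.dvr
  haveI := hc.fin
  haveI := hc.char0
  letI := as18n_algAK c
  haveI := as18n_isFractionRing hc
  haveI : CharZero (IntermediateField.adjoin E {c.x}) :=
    charZero_of_injective_algebraMap (algebraMap E _).injective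
  haveI : IsScalarTower (Polynomial c.R) (IntermediateField.adjoin E {c.x}) F :=
    IsScalarTower.of_algebraMap_eq (fun _ => rfl)
  have hnoeth : IsNoetherian (Polynomial c.R) (integralClosure (Polynomial c.R) F) :=
    IsIntegralClosure.isNoetherian (Polynomial c.R) (IntermediateField.adjoin E {c.x}) F
      (integralClosure (Polynomial c.R) F)
  have hnoeth' : IsNoetherian (Polynomial c.R)
      (Subalgebra.toSubmodule (integralClosure (Polynomial c.R) F)) := hnoeth
  have hle : N ≤ Subalgebra.toSubmodule (integralClosure (Polynomial c.R) F) := by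
    intro z hz
    exact as18n_isIntegral (hN z hz)
  exact (isNoetherian_submodule.mp hnoeth') N hle

end Fermat.Agent.S18Lib
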