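import Mathlib

set_option autoImplicit false

open Polynomial Ideal

namespace Fermat.Agent.S18Lib

section PolyLocal

variable {R : Type*} [CommRing R] [IsDomain R] [IsDiscreteValuationRing R]

/-- kernel of reduction of polynomials modulo `π` -/
theorem as18_ker_map (π : R) :
    RingHom.ker (mapRingHom (Ideal.Quotient.mk (span {π} : Ideal R))) = span {C π} := by
  rw [Polynomial.ker_mapRingHom, Ideal.mk_ker, Ideal.map_span, Set.image_singleton]

theorem as18_exists_gen (π : R) (hπ : Irreducible π) (n : Ideal R[X]) [hn : n.IsMaximal]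
    (hπn : C π ∈ n) :
    ∃ f : R[X], f.Monic ∧ Irreducible (f.map (Ideal.Quotient.mk (span {π} : Ideal R))) ∧
      n = span {C π, f} := by
  classical
  have hmax : (span {π} : Ideal R).IsMaximal :=
    PrincipalIdealRing.isMaximal_of_irreducible hπ
  letI : Field (R ⧸ (span {π} : Ideal R)) := Ideal.Quotient.field _
  set φ := mapRingHom (Ideal.Quotient.mk (span {π} : Ideal R)) with hφ
  have hφs : Function.Surjective φ := Polynomial.map_surjective _ Ideal.Quotient.mk_surjective
  have hkerle : RingHom.ker φ ≤ n := by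
    rw [hφ, as18_ker_map, Ideal.span_singleton_le_iff_mem]
    exact hπn
  have hcm : (n.map φ).comap φ = n := by
    rw [Ideal.comap_map_of_surjective φ hφs, ← RingHom.ker_eq_comap_bot]
    exact sup_eq_left.mpr hkerle
  have hmax' : (n.map φ).IsMaximal := by
    rcases Ideal.map_eq_top_or_isMaximal_of_surjective φ hφs hn with h | h
    · exfalso
      apply hn.ne_top
      rw [← hcm, h, Ideal.comap_top]
    · exact h
  have hne : n.map φ ≠ ⊥ := by
    intro h
    rw [h] at hmax'
    exact Polynomial.not_isField _ (Ring.isField_iff_maximal_bot.mpr hmax')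
  have hprime : Prime (Submodule.IsPrincipal.generator (n.map φ)) :=
    Submodule.IsPrincipal.prime_generator_of_isPrime _ hne
  set g := Submodule.IsPrincipal.generator (n.map φ) with hg
  have hg0 : g ≠ 0 := hprime.ne_zero
  set g' := g * C (g.leadingCoeff)⁻¹ with hg'
  have hg'mon : g'.Monic := Polynomial.monic_mul_leadingCoeff_inv hg0
  have hunit : IsUnit (C (g.leadingCoeff)⁻¹) :=
    Polynomial.isUnit_C.mpr (IsUnit.mk0 _ (inv_ne_zero (leadingCoeff_ne_zero.mpr hg0)))
  have hassoc : Associated g g' := ⟨hunit.unit, rfl⟩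
  have hspan : n.map φ = span {g'} := by
    rw [← Ideal.span_singleton_eq_span_singleton.mpr hassoc, hg]
    exact (Ideal.span_singleton_generator _).symm
  have hg'irr : Irreducible g' := (hassoc.irreducible_iff).mp hprime.irreducible
  obtain ⟨f, hfmap, -, hfmon⟩ := Polynomial.lifts_and_natDegree_eq_and_monic
    ((Polynomial.mem_lifts _).mpr (hφs g')) hg'mon
  refine ⟨f, hfmon, by rw [hfmap]; exact hg'irr, ?_⟩
  have hfn : f ∈ n := by
    rw [← hcm, Ideal.mem_comap, hspan]
    show φ f ∈ _
    rw [hφ, coe_mapRingHom, hfmap]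
    exact Ideal.mem_span_singleton_self _
  apply le_antisymm
  · intro x hx
    have hx' : φ x ∈ span {g'} := by
      rw [← hspan]; exact Ideal.mem_map_of_mem φ hx
    obtain ⟨c, hc⟩ := Ideal.mem_span_singleton'.mp hx'
    obtain ⟨c', rfl⟩ := hφs c
    have hk : x - c' * f ∈ RingHom.ker φ := by
      have hff : φ f = g' := by rw [hφ, coe_mapRingHom, hfmap]
      rw [RingHom.mem_ker, map_sub, map_mul, hff, hc, sub_self]
    rw [hφ, as18_ker_map] at hk
    obtain ⟨d, hd⟩ := Ideal.mem_span_singleton'.mp hk
    rw [Ideal.mem_span_pair]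
    exact ⟨d, c', by rw [hd]; ring⟩
  · rw [Ideal.span_le]
    rintro x (rfl | rfl)
    · exact hπn
    · exact hfn

end PolyLocal

end Fermat.Agent.S18Lib
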