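import Fermat.Agent.Lib.S18.AsIface
import Fermat.Agent.Lib.S18.AsPoly

/-!
# S18 assembly: existence of an admissible second parameter at a closed point (lead)
-/

set_option autoImplicit false

open Polynomial

namespace Fermat.Agent.S18Lib

namespace As18Chart

variable {E F : Type} [Field E] [Field F] [Algebra E F] {c : As18Chart E F}

/-- a maximal ideal over `π` containing `X - C a` is `(π, X - C a)`. -/
theorem as18_eq_span_of_linear [IsDiscreteValuationRing c.R] (hirr : Irreducible c.π)
    (n : Ideal (Polynomial c.R)) [hn : n.IsMaximal] (hπn : C c.π ∈ n) (a : c.R)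
    (ha : X - C a ∈ n) : n = Ideal.span {C c.π, X - C a} := by
  apply le_antisymm
  · -- `n ≤ span`: the span is maximal-ish; use that every element differs from a constant
    intro p hp
    -- p = (X - C a) * q + C (p.eval a)
    have hdiv : p = (X - C a) * (p /ₘ (X - C a)) + C (p.eval a) := by
      have := Polynomial.modByMonic_add_div p (X - C a)
      rw [Polynomial.modByMonic_X_sub_C_eq_C_eval] at this
      rw [add_comm]; exact this.symm
    have hC : C (p.eval a) ∈ n := by
      have h1 : (X - C a) * (p /ₘ (X - C a)) ∈ n := n.mul_mem_right _ ha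
      have h2 : p - (X - C a) * (p /ₘ (X - C a)) ∈ n := n.sub_mem hp h1
      have h3 : p - (X - C a) * (p /ₘ (X - C a)) = C (p.eval a) := by
        nth_rewrite 1 [hdiv]; ring
      rwa [h3] at h2
    -- `p.eval a` is a non-unit of `R`, hence a multiple of `π`
    have hnu : ¬ IsUnit (p.eval a) := by
      intro hu
      apply hn.ne_top
      rw [Ideal.eq_top_iff_one]
      obtain ⟨b, hb⟩ := hu.exists_left_inv
      have : C b * C (p.eval a) ∈ n := n.mul_mem_left _ hC
      rwa [← C_mul, hb, C_1] at this
    have hdvd : c.π ∣ p.eval a := by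
      have hmem : p.eval a ∈ IsLocalRing.maximalIdeal c.R := hnu
      rw [(IsDiscreteValuationRing.irreducible_iff_uniformizer _).mp hirr] at hmem
      exact Ideal.mem_span_singleton.mp hmem
    obtain ⟨r, hr⟩ := hdvd
    rw [hdiv, hr, C_mul, Ideal.mem_span_pair]
    exact ⟨C r, p /ₘ (X - C a), by ring⟩
  · rw [Ideal.span_le]
    rintro z (rfl | rfl)
    · exact hπn
    · exact ha

theorem Good.exists_param (hc : c.Good) (n : Ideal (Polynomial c.R)) [hn : n.IsMaximal]
    (hπn : C c.π ∈ n) : ∃ f₀ : Polynomial c.R, c.IsParam n f₀ := by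
  haveI := hc.dvr
  by_cases hX : (X : Polynomial c.R) ∈ n
  · refine ⟨X, ?_, Polynomial.prime_X, fun _ => rfl, ?_⟩
    · have := as18_eq_span_of_linear hc.irr n hπn 0 (by simpa using hX)
      simpa using this
    · intro hbr
      exfalso
      apply hn.ne_top
      rw [Ideal.eq_top_iff_one]
      have hC : C c.cbr ∈ n := by
        have := n.sub_mem hX hbr
        simpa using this
      obtain ⟨b, hb⟩ := hc.cbrU.exists_left_inv
      have : C b * C c.cbr ∈ n := n.mul_mem_left _ hC
      rwa [← C_mul, hb, C_1] at this
  · by_cases hbr : (X - C c.cbr : Polynomial c.R) ∈ n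
    · exact ⟨X - C c.cbr, as18_eq_span_of_linear hc.irr n hπn c.cbr hbr,
        Polynomial.prime_X_sub_C _, fun h => absurd h hX, fun _ => rfl⟩
    · obtain ⟨f, hfm, hfirr, hfn⟩ := as18_exists_gen c.π hc.irr n hπn
      refine ⟨f, hfn, ?_, fun h => absurd h hX, fun h => absurd h hbr⟩
      haveI hmaxπ : (Ideal.span {c.π} : Ideal c.R).IsMaximal :=
        PrincipalIdealRing.isMaximal_of_irreducible hc.irr
      have hirrf : Irreducible f :=
        Polynomial.Monic.irreducible_of_irreducible_map (Ideal.Quotient.mk (Ideal.span {c.π})) f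
          hfm hfirr
      exact hirrf.prime

end As18Chart

end Fermat.Agent.S18Lib
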