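import Fermat.Agent.Lib.S18.AsIface

/-!
# S18 assembly: the separable special fibre (`as18_sep_stmt`)

`L` := residue field of `c.V`, `ψ` := residue on `c.B n`, `k₀` := the subfield of `L` generated by
the residues of `c.S n`.
-/

set_option autoImplicit false

open Polynomial

namespace Fermat.Agent.S18Lib

/-- an element which is a simple root of a polynomial is separable -/
theorem as18_sp_isSeparable_of_simple_root {K L : Type*} [Field K] [Field L] [Algebra K L] {a : L}
    {P : Polynomial K} (hP : Polynomial.aeval a P = 0)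
    (hP' : Polynomial.aeval a (derivative P) ≠ 0) : IsSeparable K a := by
  have hP0 : P ≠ 0 := by
    rintro rfl
    simp at hP'
  have hint : IsIntegral K a := isAlgebraic_iff_isIntegral.mp ⟨P, hP0, hP⟩
  obtain ⟨Q, hQ⟩ := minpoly.dvd K a hP
  have hirr := minpoly.irreducible hint
  show (minpoly K a).Separable
  rw [separable_iff_derivative_ne_zero hirr]
  intro h0
  apply hP'
  rw [hQ, derivative_mul, h0, zero_mul, zero_add, map_mul, minpoly.aeval, zero_mul]

namespace As18Chart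

variable {E F : Type} [Field E] [Field F] [Algebra E F] {c : As18Chart E F}

theorem Good.sp_cst_pi_ne_zero (hc : c.Good) : c.cst c.π ≠ 0 := by
  intro h0
  apply hc.unif1
  rw [h0, inv_zero]
  exact zero_mem _

theorem Good.sp_val_pi_lt_one (hc : c.Good) : c.V.valuation (c.cst c.π) < 1 := by
  rcases lt_or_eq_of_le ((c.V.valuation_le_one_iff _).mpr (hc.cV c.π)) with h | h
  · exact h
  · exfalso
    apply hc.unif1
    rw [← c.V.valuation_le_one_iff, map_inv₀, h, inv_one]

/-- `residue z = 0 ↔ z ∈ π V`. -/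
theorem Good.sp_residue_eq_zero_iff (hc : c.Good) {z : F} (hz : z ∈ c.V) :
    IsLocalRing.residue c.V ⟨z, hz⟩ = 0 ↔ ∃ y ∈ c.V, z = c.cst c.π * y := by
  rw [IsLocalRing.residue_eq_zero_iff, ValuationSubring.valuation_lt_one_iff]
  show c.V.valuation z < 1 ↔ _
  constructor
  · intro h
    by_cases hz0 : z = 0
    · exact ⟨0, zero_mem _, by rw [hz0, mul_zero]⟩
    apply hc.unif2 z hz
    intro hinv
    have h1 : c.V.valuation z⁻¹ ≤ 1 := (c.V.valuation_le_one_iff _).mpr hinv
    rw [map_inv₀] at h1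
    have hv0 : c.V.valuation z ≠ 0 := (Valuation.ne_zero_iff _).mpr hz0
    have h2 : 1 < (c.V.valuation z)⁻¹ := (one_lt_inv₀ (zero_lt_iff.mpr hv0)).mpr h
    exact absurd h1 (not_le.mpr h2)
  · rintro ⟨y, hy, rfl⟩
    rw [map_mul]
    exact lt_of_le_of_lt (mul_le_of_le_one_right' ((c.V.valuation_le_one_iff _).mpr hy))
      hc.sp_val_pi_lt_one

theorem sp_residue_ne_zero (c : As18Chart E F) {d : F} (hd : d ∈ c.V) (hinv : d⁻¹ ∈ c.V)
    (hd0 : d ≠ 0) : IsLocalRing.residue c.V ⟨d, hd⟩ ≠ 0 := by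
  intro h0
  have h1 : (⟨d, hd⟩ : c.V) * ⟨d⁻¹, hinv⟩ = 1 := Subtype.ext (mul_inv_cancel₀ hd0)
  have h2 := congrArg (IsLocalRing.residue c.V) h1
  rw [map_mul, h0, zero_mul, map_one] at h2
  exact zero_ne_one h2

theorem Good.sp_sat_pow (hc : c.Good) (k : ℕ) {z : F} (hz : z ∈ c.V)
    (h : c.cst c.π ^ k * z ∈ c.O) : z ∈ c.O := by
  induction k with
  | zero => rwa [pow_zero, one_mul] at h
  | succ k ih =>
    apply ih
    apply hc.sat _ (c.V.mul_mem _ _ (c.V.pow_mem (hc.cV c.π) k) hz)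
    have h1 : c.cst c.π * (c.cst c.π ^ k * z) = c.cst c.π ^ (k + 1) * z := by ring
    rw [h1]
    exact h

/-- every element of `F` is algebraic over `R[X]` (acting through `ev`): some nonzero
`ev q` multiple is in the chart ring. -/
theorem Good.sp_exists_ne_zero_mul_mem_O (hc : c.Good) (v : F) :
    ∃ q : Polynomial c.R, q ≠ 0 ∧ c.ev q * v ∈ c.O := by
  let _ : Algebra (Polynomial c.R) F := c.ev.toAlgebra
  have hev : ∀ p : Polynomial c.R, algebraMap (Polynomial c.R) F p = c.ev p := fun _ => rfl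
  -- the algebraic elements form a subfield containing `E` and `x`
  have hE : ∀ e : E, IsAlgebraic (Polynomial c.R) (algebraMap E F e) := by
    intro e
    rcases c.R.mem_or_inv_mem e with h | h
    · have h1 : algebraMap E F e = algebraMap (Polynomial c.R) F (C ⟨e, h⟩) := by
        rw [hev, c.ev_C]
        rfl
      rw [h1]
      exact isAlgebraic_algebraMap _
    · have h1 : algebraMap E F e = (algebraMap (Polynomial c.R) F (C ⟨e⁻¹, h⟩))⁻¹ := by
        rw [hev, c.ev_C, c.cst_apply, ← map_inv₀]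
        simp
      rw [h1]
      exact (isAlgebraic_algebraMap _).inv
  have hx : IsAlgebraic (Polynomial c.R) c.x := by
    have h1 : c.x = algebraMap (Polynomial c.R) F X := by rw [hev, c.ev_X]
    rw [h1]
    exact isAlgebraic_algebraMap _
  let AlgF : Subfield F :=
    { (Subalgebra.algebraicClosure (Polynomial c.R) F).toSubring with
      inv_mem' := fun a ha => IsAlgebraic.inv ha }
  have hK : ∀ κ : F, κ ∈ IntermediateField.adjoin E {c.x} →
      κ ∈ Subalgebra.algebraicClosure (Polynomial c.R) F := by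
    intro κ hκ
    have hle : Subfield.closure (Set.range (algebraMap E F) ∪ {c.x}) ≤ AlgF := by
      rw [Subfield.closure_le]
      rintro a (⟨e, rfl⟩ | ha)
      · exact hE e
      · rw [Set.mem_singleton_iff] at ha
        rw [ha]
        exact hx
    exact hle hκ
  -- `v` is integral over `E(x)`
  have := hc.fin
  obtain ⟨P, hP, hPv⟩ := IsIntegral.of_finite (IntermediateField.adjoin E {c.x}) v
  let ι : (IntermediateField.adjoin E {c.x}) →+* Subalgebra.algebraicClosure (Polynomial c.R) F :=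
    (algebraMap (IntermediateField.adjoin E {c.x}) F).codRestrict _ (fun κ => hK κ κ.2)
  have hv : IsAlgebraic (Subalgebra.algebraicClosure (Polynomial c.R) F) v := by
    refine ⟨P.map ι, (hP.map ι).ne_zero, ?_⟩
    rw [aeval_def, eval₂_map]
    exact hPv
  have hv' : IsAlgebraic (Polynomial c.R) v := IsAlgebraic.restrictScalars (Polynomial c.R) hv
  obtain ⟨q, hq0, hint⟩ := hv'.exists_integral_multiple
  refine ⟨q, hq0, ?_⟩
  obtain ⟨Q, hQ, hQz⟩ := hint
  rw [c.mem_O_iff]
  refine ⟨Q.map c.ev.rangeRestrict, hQ.map _, ?_⟩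
  rw [Polynomial.eval₂_map]
  exact hQz

/-- every element of `V` is a quotient of an element of the chart ring by a `V`-unit `ev q`. -/
theorem Good.sp_exists_unit_mul_mem_O (hc : c.Good) {v : F} (hv : v ∈ c.V) :
    ∃ q : Polynomial c.R, ¬ C c.π ∣ q ∧ c.ev q * v ∈ c.O := by
  have := hc.dvr
  obtain ⟨q, hq0, hq⟩ := hc.sp_exists_ne_zero_mul_mem_O v
  have hnu : ¬ IsUnit (C c.π : Polynomial c.R) := by
    rw [Polynomial.isUnit_C]
    exact hc.irr.not_isUnit
  obtain ⟨q', hqq, hnd⟩ := (FiniteMultiplicity.of_not_isUnit hnu hq0).exists_eq_pow_mul_and_not_dvd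
  refine ⟨q', hnd, ?_⟩
  apply hc.sp_sat_pow (multiplicity (C c.π) q) (c.V.mul_mem _ _ (hc.ev_mem_V q') hv)
  have h1 : c.cst c.π ^ multiplicity (C c.π) q * (c.ev q' * v) = c.ev q * v := by
    conv_rhs => rw [hqq]
    rw [map_mul, map_pow, c.ev_C]
    ring
  rw [h1]
  exact hq

section AtN

variable (n : Ideal (Polynomial c.R)) [hn : n.IsMaximal]

/-- the residue map on `c.S n` -/
noncomputable def Good.sp_resS (hc : c.Good) (hπn : C c.π ∈ n) :
    c.S n →+* IsLocalRing.ResidueField c.V :=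
  (IsLocalRing.residue c.V).comp
    ((c.S n).subtype.codRestrict c.V (fun s => hc.S_le_V n hπn s.2))

/-- the residue map on `c.B n` -/
noncomputable def Good.sp_resB (hc : c.Good) (hπn : C c.π ∈ n) :
    c.B n →+* IsLocalRing.ResidueField c.V :=
  (IsLocalRing.residue c.V).comp
    ((c.B n).val.toRingHom.codRestrict c.V (fun z => hc.B_le_V n hπn z.2))

theorem Good.sp_resS_apply (hc : c.Good) (hπn : C c.π ∈ n) (s : c.S n) :
    hc.sp_resS n hπn s = IsLocalRing.residue c.V ⟨(s : F), hc.S_le_V n hπn s.2⟩ := rfl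

theorem Good.sp_resB_apply (hc : c.Good) (hπn : C c.π ∈ n) (z : c.B n) :
    hc.sp_resB n hπn z = IsLocalRing.residue c.V ⟨(z : F), hc.B_le_V n hπn z.2⟩ := rfl

/-- divisibility by `π` in `c.S n` is membership in `π V`. -/
theorem Good.sp_piS_dvd_iff (hc : c.Good) (hπn : C c.π ∈ n) (s : c.S n) :
    c.πS n ∣ s ↔ ∃ y ∈ c.V, (s : F) = c.cst c.π * y := by
  constructor
  · rintro ⟨s', rfl⟩
    refine ⟨(s' : F), hc.S_le_V n hπn s'.2, ?_⟩
    show c.ev (C c.π) * (s' : F) = _
    rw [c.ev_C]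
  · rintro ⟨y, hy, hsy⟩
    obtain ⟨p, q, hq, h⟩ := s.2
    have hπ0 := hc.sp_cst_pi_ne_zero
    have hdvd : C c.π ∣ p := by
      by_contra hnd
      have hu := hc.ev_unit hnd
      have hp0 : c.ev p ≠ 0 := hc.ev_ne_zero (fun h0 => hnd (by rw [h0]; exact dvd_zero _))
      apply hc.unif1
      have h1 : (c.cst c.π)⁻¹ = (y * c.ev q) * (c.ev p)⁻¹ := by
        rw [eq_mul_inv_iff_mul_eq₀ hp0, ← h, hsy, mul_assoc, inv_mul_cancel_left₀ hπ0]
      rw [h1]
      exact c.V.mul_mem _ _ (c.V.mul_mem _ _ hy (hc.ev_mem_V q)) hu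
    obtain ⟨p', rfl⟩ := hdvd
    have hy' : y * c.ev q = c.ev p' := by
      have h2 : c.cst c.π * (y * c.ev q) = c.cst c.π * c.ev p' := by
        rw [← mul_assoc, ← hsy, h, map_mul, c.ev_C]
      exact mul_left_cancel₀ hπ0 h2
    refine ⟨⟨y, p', q, hq, hy'⟩, ?_⟩
    apply Subtype.ext
    show (s : F) = c.ev (C c.π) * y
    rw [c.ev_C, hsy]

end AtN

end As18Chart

open As18Chart in
/-- the separable special fibre of `c.B n` over `c.S n`. -/
theorem as18_sep : as18_sep_stmt := by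
  intro E F _ _ _ c hc n hn hπn
  classical
  let K₀ : Subfield (IsLocalRing.ResidueField c.V) := Subfield.closure (Set.range (hc.sp_resS n hπn))
  let φ : c.S n →+* K₀ :=
    (hc.sp_resS n hπn).codRestrict K₀ (fun s => Subfield.subset_closure ⟨s, rfl⟩)
  have hφ : ∀ s : c.S n, ((φ s : K₀) : IsLocalRing.ResidueField c.V) = hc.sp_resS n hπn s :=
    fun _ => rfl
  -- elements of `K₀` are fractions
  have hfrac : ∀ a : IsLocalRing.ResidueField c.V, a ∈ K₀ →
      ∃ s s' : c.S n, hc.sp_resS n hπn s' ≠ 0 ∧ a * hc.sp_resS n hπn s' = hc.sp_resS n hπn s := by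
    intro a ha
    obtain ⟨y, hy, z, hz, rfl⟩ := Subfield.mem_closure_iff.mp ha
    rw [← RingHom.coe_range, Subring.closure_eq] at hy hz
    obtain ⟨s, rfl⟩ := hy
    obtain ⟨s', rfl⟩ := hz
    by_cases h0 : hc.sp_resS n hπn s' = 0
    · refine ⟨0, 1, ?_, ?_⟩
      · rw [map_one]
        exact one_ne_zero
      · rw [h0, div_zero, zero_mul, map_zero]
    · exact ⟨s, s', h0, div_mul_cancel₀ _ h0⟩
  -- separability
  have hsep : Algebra.IsSeparable K₀ (IsLocalRing.ResidueField c.V) := by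
    rw [Algebra.isSeparable_def]
    intro y
    obtain ⟨⟨z, hz⟩, rfl⟩ := IsLocalRing.residue_surjective y
    obtain ⟨P, hPm, hPc, ⟨y0, hy0, hPy⟩, hinv, hne⟩ := hc.sep z hz
    have hcoefV : ∀ i, P.coeff i ∈ c.V := by
      intro i
      obtain ⟨p, q, hqinv, hq0, h⟩ := hPc i
      have h1 : P.coeff i = c.ev p * (c.ev q)⁻¹ := by
        rw [← h, mul_assoc, mul_inv_cancel₀ hq0, mul_one]
      rw [h1]
      exact c.V.mul_mem _ _ (hc.ev_mem_V p) hqinv
    obtain ⟨PV, hPV⟩ := (Polynomial.mem_lifts P).mp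
      ((Polynomial.lifts_iff_coeff_lifts (f := c.V.subtype) P).mpr
        fun i => ⟨⟨P.coeff i, hcoefV i⟩, rfl⟩)
    have hPVc : ∀ i, ((PV.coeff i : c.V) : F) = P.coeff i := by
      intro i
      rw [← hPV, Polynomial.coeff_map]
      rfl
    -- the reduction of `P` has coefficients in `K₀`
    have hlift : PV.map (IsLocalRing.residue c.V) ∈
        Polynomial.lifts (algebraMap K₀ (IsLocalRing.ResidueField c.V)) := by
      rw [Polynomial.lifts_iff_coeff_lifts]
      intro i
      rw [Polynomial.coeff_map]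
      obtain ⟨p, q, hqinv, hq0, h⟩ := hPc i
      have hmul : IsLocalRing.residue c.V (PV.coeff i) *
          hc.sp_resS n hπn ⟨c.ev q, c.ev_mem_S n q⟩ = hc.sp_resS n hπn ⟨c.ev p, c.ev_mem_S n p⟩ := by
        rw [hc.sp_resS_apply n hπn, hc.sp_resS_apply n hπn, ← map_mul]
        congr 1
        apply Subtype.ext
        show ((PV.coeff i : c.V) : F) * c.ev q = c.ev p
        rw [hPVc, h]
      have hne' : hc.sp_resS n hπn ⟨c.ev q, c.ev_mem_S n q⟩ ≠ 0 := by
        rw [hc.sp_resS_apply n hπn]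
        exact c.sp_residue_ne_zero _ hqinv hq0
      have hmem : IsLocalRing.residue c.V (PV.coeff i) ∈ K₀ := by
        have h2 : IsLocalRing.residue c.V (PV.coeff i)
            = hc.sp_resS n hπn ⟨c.ev p, c.ev_mem_S n p⟩ / hc.sp_resS n hπn ⟨c.ev q, c.ev_mem_S n q⟩ := by
          rw [eq_div_iff hne', hmul]
        rw [h2]
        exact div_mem (Subfield.subset_closure ⟨_, rfl⟩) (Subfield.subset_closure ⟨_, rfl⟩)
      exact ⟨⟨_, hmem⟩, rfl⟩
    obtain ⟨P0, hP0⟩ := (Polynomial.mem_lifts _).mp hlift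
    have hevalV : ∀ Q : Polynomial c.V,
        ((Q.eval ⟨z, hz⟩ : c.V) : F) = (Q.map c.V.subtype).eval z := by
      intro Q
      have h1 := Polynomial.hom_eval₂ Q (RingHom.id _) c.V.subtype ⟨z, hz⟩
      rw [Polynomial.eval₂_id, RingHom.comp_id] at h1
      rw [Polynomial.eval_map]
      exact h1
    have hevalR : ∀ Q : Polynomial c.V, (Q.map (IsLocalRing.residue c.V)).eval
        (IsLocalRing.residue c.V ⟨z, hz⟩) = IsLocalRing.residue c.V (Q.eval ⟨z, hz⟩) := by
      intro Q
      rw [Polynomial.eval_map, Polynomial.eval₂_at_apply]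
    apply as18_sp_isSeparable_of_simple_root (P := P0)
    · rw [Polynomial.aeval_def, ← Polynomial.eval_map, hP0]
      show (PV.map (IsLocalRing.residue c.V)).eval (IsLocalRing.residue c.V ⟨z, hz⟩) = 0
      rw [hevalR]
      have hval : ((PV.eval ⟨z, hz⟩ : c.V) : F) = c.cst c.π * y0 := by
        rw [hevalV, hPV, ← hPy, Polynomial.coe_aeval_eq_eval]
      exact (hc.sp_residue_eq_zero_iff (PV.eval ⟨z, hz⟩).2).mpr ⟨y0, hy0, hval⟩
    · rw [Polynomial.aeval_def, ← Polynomial.eval_map, ← Polynomial.derivative_map, hP0,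
        Polynomial.derivative_map]
      show (PV.derivative.map (IsLocalRing.residue c.V)).eval
        (IsLocalRing.residue c.V ⟨z, hz⟩) ≠ 0
      rw [hevalR]
      have hval : ((PV.derivative.eval ⟨z, hz⟩ : c.V) : F)
          = Polynomial.aeval z (Polynomial.derivative P) := by
        rw [hevalV, ← Polynomial.derivative_map, hPV, Polynomial.coe_aeval_eq_eval]
      have hinv' : (((PV.derivative.eval ⟨z, hz⟩ : c.V) : F))⁻¹ ∈ c.V := by
        rw [hval]
        exact hinv
      have hne'' : ((PV.derivative.eval ⟨z, hz⟩ : c.V) : F) ≠ 0 := by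
        rw [hval]
        exact hne
      exact c.sp_residue_ne_zero (PV.derivative.eval ⟨z, hz⟩).2 hinv' hne''
  refine ⟨K₀, IsLocalRing.ResidueField c.V, inferInstance, inferInstance, inferInstance, hsep, φ,
    hc.sp_resB n hπn, ?_, ?_, ?_, ?_, ?_⟩
  · intro s
    rfl
  · intro s
    have h1 : φ s = 0 ↔ hc.sp_resS n hπn s = 0 := by
      rw [← hφ]
      exact Subtype.ext_iff
    rw [h1, hc.sp_resS_apply n hπn, hc.sp_residue_eq_zero_iff, hc.sp_piS_dvd_iff n hπn]
  · intro z
    rw [hc.sp_resB_apply n hπn, hc.sp_residue_eq_zero_iff]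
    constructor
    · rintro ⟨y, hy, hzy⟩
      have hyB : y ∈ c.B n := hc.sat_B n hπn hy (by rw [← hzy]; exact z.2)
      refine ⟨⟨y, hyB⟩, ?_⟩
      apply Subtype.ext
      show (z : F) = c.ev (C c.π) * y
      rw [c.ev_C, hzy]
    · rintro ⟨z', rfl⟩
      refine ⟨(z' : F), hc.B_le_V n hπn z'.2, ?_⟩
      show c.ev (C c.π) * (z' : F) = _
      rw [c.ev_C]
  · intro a
    obtain ⟨s, s', hs', h⟩ := hfrac a a.2
    refine ⟨s, s', ?_, ?_⟩
    · intro h0
      apply hs'
      rw [← hφ, h0]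
      rfl
    · apply Subtype.ext
      exact h
  · intro y
    obtain ⟨⟨v, hv⟩, rfl⟩ := IsLocalRing.residue_surjective y
    obtain ⟨q, hq, hqv⟩ := hc.sp_exists_unit_mul_mem_O hv
    have hq0 : c.ev q ≠ 0 := hc.ev_ne_zero (fun h0 => hq (by rw [h0]; exact dvd_zero _))
    refine ⟨⟨c.ev q * v, O_le_B n hqv⟩,
      algebraMap (c.S n) (c.B n) ⟨c.ev q, c.ev_mem_S n q⟩, ?_, ?_⟩
    · rw [hc.sp_resB_apply n hπn]
      exact c.sp_residue_ne_zero _ (hc.ev_unit hq) hq0
    · rw [hc.sp_resB_apply n hπn, hc.sp_resB_apply n hπn]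
      show IsLocalRing.residue c.V ⟨v, hv⟩ * _ = _
      rw [← map_mul]
      congr 1
      apply Subtype.ext
      exact mul_comm _ _

end Fermat.Agent.S18Lib
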