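import Fermat.Prelude.Def_ModularCurve_ModularUnit

/-!
# S18 sprint, chunk H2: interface

Level-2 Hauptmodul `h2_ser = Δ(q)/Δ(q²) = q⁻¹ ∏ (1+qⁿ)⁻²⁴` (the Prelude's
`ModularCurve.modularUnitSeries 2`).  `h2_stmt` is the statement proved in `H2Main.lean`
(`h2_main : h2_stmt`).  The purely algebraic consequences (integrality, factorisations) are
proved unconditionally in `H2Alg.lean`.
-/

set_option autoImplicit false

namespace Fermat.Agent.S18Lib

open ModularCurve

/-- The level-2 Hauptmodul `Δ(q)/Δ(q²)` as a rational Laurent series. -/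
noncomputable def h2_ser : LaurentSeries ℚ := modularUnitSeries 2

/-- The interface statement of chunk H2. -/
def h2_stmt : Prop :=
  -- (a) membership in the level-`M` function field for every even `M`
  (∀ (M : ℕ) [NeZero M], 2 ∣ M → h2_ser ∈ modularFunctionFieldFull M) ∧
  -- (b) `h2 = q⁻¹ · P`, `P ∈ ℤ⟦q⟧`, `P(0) = 1`
  (∃ P : PowerSeries ℤ, PowerSeries.constantCoeff P = 1 ∧
      h2_ser = HahnSeries.single (-1 : ℤ) (1 : ℚ) *
        HahnSeries.ofPowerSeries ℤ ℚ (P.map (Int.castRingHom ℚ))) ∧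
  -- (b') `h2⁻¹ = q · Q`, `Q ∈ ℤ⟦q⟧`, `Q(0) = 1`
  (∃ Q : PowerSeries ℤ, PowerSeries.constantCoeff Q = 1 ∧
      h2_ser⁻¹ = HahnSeries.single (1 : ℤ) (1 : ℚ) *
        HahnSeries.ofPowerSeries ℤ ℚ (Q.map (Int.castRingHom ℚ))) ∧
  -- (c) the modular equation
  jq * h2_ser ^ 2 = (h2_ser + 256) ^ 3

end Fermat.Agent.S18Lib
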