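/-
S18 sprint (route Q), STAR glue (helper2): interface.

* `as18_chart A E₀ M hval π x cbr` : the concrete chart over `R = A ∩ E₀` at level `M`
  (`F = F_M^{E₀}`, `V` = Gauss ring, coordinate `x`, branch value `cbr`).
* `as18_concrete2_stmt` : for `ℓ` odd and `2 ∣ M`, the chart with `x = h2` (`cbr = -64`) and its
  inverse chart (`cbr' = -1/64`) are good.
* `as18_concrete3_stmt` : for `ℓ = 2` and `3 ∣ M`, the chart with `x = h3` (`cbr = -27`) and its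
  inverse chart (`cbr' = -1/27`) are good.
* `as18_concrete_stmt`  : both.
-/
import Fermat.Agent.Lib.S18.GrIface
import Fermat.Agent.Lib.S18.AsIface2
import Fermat.Agent.Lib.S18.H2Iface
import Fermat.Agent.Lib.S18.H3Iface

set_option autoImplicit false

noncomputable section

namespace Fermat.Agent.S18Lib

open ModularCurve

/-- The concrete chart at level `M` over `R = A ∩ E₀`. -/
def as18_chart (A : ValuationSubring (AlgebraicClosure ℚ))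
    (E₀ : IntermediateField ℚ (AlgebraicClosure ℚ)) (M : ℕ)
    (hval : ∀ x : gr18_F E₀ M, x ∈ gr18_VM (gr18_R A E₀) M ∨ x⁻¹ ∈ gr18_VM (gr18_R A E₀) M)
    (π : gr18_R A E₀) (x : gr18_F E₀ M) (cbr : gr18_R A E₀) :
    As18Chart E₀ (gr18_F E₀ M) where
  R := gr18_R A E₀
  π := π
  V := gr18_Vv (gr18_R A E₀) (gr18_F E₀ M) hval
  x := x
  cbr := cbr

/-- The two charts on the `h2`-line are good (`ℓ` odd, `2 ∣ M`, `ℓ ∤ M`). -/
def as18_concrete2_stmt : Prop :=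
  ∀ (ℓ : ℕ) [Fact ℓ.Prime] (A : ValuationSubring (AlgebraicClosure ℚ)), A.LiesOverPrime ℓ →
  ℓ ≠ 2 →
  ∀ (E₀ : IntermediateField ℚ (AlgebraicClosure ℚ)) [FiniteDimensional ℚ E₀]
    (M : ℕ) [NeZero M], ¬ ℓ ∣ M → 2 ∣ M →
  ∀ (hval : ∀ x : gr18_F E₀ M, x ∈ gr18_VM (gr18_R A E₀) M ∨ x⁻¹ ∈ gr18_VM (gr18_R A E₀) M)
    (π : gr18_R A E₀), Irreducible π →
  ∀ x : gr18_F E₀ M, (x : LaurentSeries E₀) = coeffEmb E₀ h2_ser →
  ∀ cbr cbr' : gr18_R A E₀, (cbr : E₀) = -64 → (cbr' : E₀) = -1 / 64 →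
    (as18_chart A E₀ M hval π x cbr).Good ∧ ((as18_chart A E₀ M hval π x cbr).inv cbr').Good

/-- The two charts on the `h3`-line are good (`ℓ = 2`, `3 ∣ M`, `ℓ ∤ M`). -/
def as18_concrete3_stmt : Prop :=
  ∀ (ℓ : ℕ) [Fact ℓ.Prime] (A : ValuationSubring (AlgebraicClosure ℚ)), A.LiesOverPrime ℓ →
  ℓ = 2 →
  ∀ (E₀ : IntermediateField ℚ (AlgebraicClosure ℚ)) [FiniteDimensional ℚ E₀]
    (M : ℕ) [NeZero M], ¬ ℓ ∣ M → 3 ∣ M →
  ∀ (hval : ∀ x : gr18_F E₀ M, x ∈ gr18_VM (gr18_R A E₀) M ∨ x⁻¹ ∈ gr18_VM (gr18_R A E₀) M)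
    (π : gr18_R A E₀), Irreducible π →
  ∀ x : gr18_F E₀ M, (x : LaurentSeries E₀) = coeffEmb E₀ h3_ser →
  ∀ cbr cbr' : gr18_R A E₀, (cbr : E₀) = -27 → (cbr' : E₀) = -1 / 27 →
    (as18_chart A E₀ M hval π x cbr).Good ∧ ((as18_chart A E₀ M hval π x cbr).inv cbr').Good

/-- The concrete charts are good. -/
def as18_concrete_stmt : Prop := as18_concrete2_stmt ∧ as18_concrete3_stmt

/-- Uniqueness of the Gauss extension from `E₀(j)` to `F_M^{E₀}` (second half of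
`gr18_int_stmt` for `B = A ∩ E₀`). -/
def as18_uniq_stmt : Prop :=
  ∀ (ℓ : ℕ) [Fact ℓ.Prime] (A : ValuationSubring (AlgebraicClosure ℚ)), A.LiesOverPrime ℓ →
  ∀ (E₀ : IntermediateField ℚ (AlgebraicClosure ℚ)) [FiniteDimensional ℚ E₀]
    (M : ℕ) [NeZero M], ¬ ℓ ∣ M →
  ∀ W : ValuationSubring (gr18_F E₀ M), (∀ x ∈ gr18_V0 (gr18_R A E₀) M, x ∈ W) → W ≠ ⊤ →
    ∀ x : gr18_F E₀ M, x ∈ W ↔ x ∈ gr18_VM (gr18_R A E₀) M

end Fermat.Agent.S18Lib
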