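/-
S18, chunk P1 (helper1): interface statements.

`p1_star_stmt`  : STAR at level `N` over `A` (to be supplied by the assembly).
`p1_gauss_stmt` : (D1) every nonzero function is a constant times a quotient of two Gauss-primitive
                  integral series (chunk Ds).
`p1_lift_stmt`  : (D2) every nonzero element of the reduced field is a quotient of reductions of
                  integral series lying in the function field (chunk Ds).
`p1_const_stmt` : a nonzero element of the reduced function field without zeros and poles is a
                  constant (chunk P1 itself).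
-/
import Fermat.Statements.S18

set_option autoImplicit false

namespace Fermat.Agent.S18Lib

open ModularCurve AlgebraicCurve

/-- **STAR** at level `N`: a function `w = a / b` (quotient of integral series with the same
nonzero reduction, i.e. `w ≡ 1` at the Gauss place) all of whose orders are divisible by a prime
`m ≠ ℓ` is a constant times an `m`-th power. -/
def p1_star_stmt (N : ℕ) [NeZero N] (ℓ : ℕ) (A : ValuationSubring (AlgebraicClosure ℚ)) : Prop :=
  ∀ m : ℕ, m.Prime → m ≠ ℓ →
    ∀ (w : ↥(modularFunctionFieldBar N)) (a b : LaurentSeries ↥A),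
      coeffMap A.subtype a ∈ modularFunctionFieldBar N →
      coeffMap A.subtype b ∈ modularFunctionFieldBar N →
      (w : LaurentSeries (AlgebraicClosure ℚ)) * coeffMap A.subtype b = coeffMap A.subtype a →
      coeffMap (IsLocalRing.residue ↥A) a = coeffMap (IsLocalRing.residue ↥A) b →
      coeffMap (IsLocalRing.residue ↥A) b ≠ 0 →
      coeffMap (IsLocalRing.residue ↥A) b ∈
        modularFunctionFieldFullC (IsLocalRing.ResidueField ↥A) N →
      (∀ P : Place (AlgebraicClosure ℚ) ↥(modularFunctionFieldBar N), (m : ℤ) ∣ P.ord w) →
      ∃ (c : AlgebraicClosure ℚ) (v : ↥(modularFunctionFieldBar N)),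
        w = algebraMap (AlgebraicClosure ℚ) ↥(modularFunctionFieldBar N) c * v ^ m

/-- **(D1)**: every nonzero `f` in the function field is `c * a / b` with `c ≠ 0` a constant and
`a`, `b` integral series in the function field whose reductions are nonzero elements of the
reduced function field. -/
def p1_gauss_stmt (N : ℕ) [NeZero N] (A : ValuationSubring (AlgebraicClosure ℚ)) : Prop :=
  ∀ f : ↥(modularFunctionFieldBar N), f ≠ 0 →
    ∃ (c : AlgebraicClosure ℚ) (a b : LaurentSeries ↥A), c ≠ 0 ∧
      coeffMap A.subtype a ∈ modularFunctionFieldBar N ∧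
      coeffMap A.subtype b ∈ modularFunctionFieldBar N ∧
      coeffMap (IsLocalRing.residue ↥A) a ∈
        modularFunctionFieldFullC (IsLocalRing.ResidueField ↥A) N ∧
      coeffMap (IsLocalRing.residue ↥A) a ≠ 0 ∧
      coeffMap (IsLocalRing.residue ↥A) b ∈
        modularFunctionFieldFullC (IsLocalRing.ResidueField ↥A) N ∧
      coeffMap (IsLocalRing.residue ↥A) b ≠ 0 ∧
      (f : LaurentSeries (AlgebraicClosure ℚ)) * coeffMap A.subtype b =
        algebraMap (AlgebraicClosure ℚ) (LaurentSeries (AlgebraicClosure ℚ)) c *
          coeffMap A.subtype a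

/-- **(D2)**: every nonzero element of the reduced function field is a quotient of reductions of
integral series lying in the function field. -/
def p1_lift_stmt (N : ℕ) [NeZero N] (A : ValuationSubring (AlgebraicClosure ℚ)) : Prop :=
  ∀ g : LaurentSeries (IsLocalRing.ResidueField ↥A),
    g ∈ modularFunctionFieldFullC (IsLocalRing.ResidueField ↥A) N → g ≠ 0 →
    ∃ a b : LaurentSeries ↥A,
      coeffMap A.subtype a ∈ modularFunctionFieldBar N ∧
      coeffMap A.subtype b ∈ modularFunctionFieldBar N ∧
      coeffMap (IsLocalRing.residue ↥A) a ∈
        modularFunctionFieldFullC (IsLocalRing.ResidueField ↥A) N ∧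
      coeffMap (IsLocalRing.residue ↥A) b ∈
        modularFunctionFieldFullC (IsLocalRing.ResidueField ↥A) N ∧
      coeffMap (IsLocalRing.residue ↥A) b ≠ 0 ∧
      g * coeffMap (IsLocalRing.residue ↥A) b = coeffMap (IsLocalRing.residue ↥A) a

/-- **constancy**: a nonzero element of the reduced function field `k(J(q^d) : d ∣ N)` all of
whose orders vanish is a constant. -/
def p1_const_stmt (k : Type*) [Field k] (N : ℕ) [NeZero N] : Prop :=
  ∀ x : ↥(modularFunctionFieldFullC k N), x ≠ 0 →
    (∀ Q : Place k ↥(modularFunctionFieldFullC k N), Q.ord x = 0) →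
    ∃ c : k, x = algebraMap k ↥(modularFunctionFieldFullC k N) c

end Fermat.Agent.S18Lib
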