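/-
S18, chunk Ds (helper2, prefix `ds18_`): interface statements.

* `ds18_gauss_stmt`   : (D1) of `P1Iface` (`p1_gauss_stmt`), from the reduction inputs `h`
                        (principal divisors are generated by integral ones) and the constancy of
                        functions without zeros and poles on `F_N^K`.
* `ds18_lift_stmt`    : (D2) of `P1Iface` (`p1_lift_stmt`), unconditional.
* `ds18_descent_stmt` : DESCENT `M → N`, abstract form: if `V'` is the only valuation ring of `F'`
                        (other than `F'` itself) containing `V' ∩ F`, `m` is a prime which is a unit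
                        of `V'`, `a ∈ F` is `≡ 1` modulo the maximal ideal of `V'` and `a` is an
                        `m`-th power in `F'`, then `a` is an `m`-th power in `F`.
(The "choice of `E`" is `gr18_union_stmt` of `GrIface`.)
-/
import Fermat.Agent.Lib.S18.P1Iface

set_option autoImplicit false

namespace Fermat.Agent.S18Lib

open ModularCurve AlgebraicCurve

/-- **(D1)** from the reduction inputs. -/
def ds18_gauss_stmt : Prop :=
  ∀ (N : ℕ) [NeZero N] (A : ValuationSubring (AlgebraicClosure ℚ)),
    ReductionInputsModL A N → p1_gauss_stmt N A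

/-- **(D2)**. -/
def ds18_lift_stmt : Prop :=
  ∀ (N : ℕ) [NeZero N] (A : ValuationSubring (AlgebraicClosure ℚ)), p1_lift_stmt N A

/-- **DESCENT**, abstract form. -/
def ds18_descent_stmt : Prop :=
  ∀ (F' : Type) [Field F'] (F : Subfield F') (V' : ValuationSubring F') (m : ℕ), m.Prime →
    (∃ μ ∈ V', (m : F') * μ = 1) →
    (∀ W : ValuationSubring F', (∀ x ∈ F, x ∈ V' → x ∈ W) → W ≠ ⊤ → W = V') →
    ∀ a ∈ F, a ∈ V' → V'.valuation (a - 1) < 1 → (∃ θ : F', θ ^ m = a) →
      ∃ v ∈ F, v ^ m = a

end Fermat.Agent.S18Lib
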