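/-
S18, chunk Ds (helper2): the abstract DESCENT lemma `ds18_descent : ds18_descent_stmt`.

If `V'` is the only valuation ring (other than the whole field) of `F'` containing `V' ∩ F`,
`m` is a prime which is a unit of `V'`, and `a ∈ F ∩ V'` with `a ≡ 1` modulo the maximal ideal is
an `m`-th power in `F'`, then `a` is an `m`-th power in `F`.

Proof: otherwise `X ^ m - a` is irreducible over `F`, so the ring `V[θ]` (`V = V' ∩ F`) is
`V[X]/(X ^ m - a)`, and for every `m`-th root of unity `ζ` of the (algebraically closed) residue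
field there is a ring homomorphism `V[θ] → κ̄`, `θ ↦ ζ`.  Its kernel is contained in the maximal
ideal of a valuation ring `W_ζ ⊇ V[θ]`, which must be `V'`.  For `ζ = 1` this gives `θ - 1 ∈ 𝔪`,
for a primitive `ζ` it gives `1 + θ + ⋯ + θ ^ (m-1) ∈ 𝔪`; together `m ∈ 𝔪`, a contradiction.
-/
import Fermat.Agent.Lib.S18.DsIface

set_option autoImplicit false

namespace Fermat.Agent.S18Lib

open Polynomial

section Descent

variable {F' : Type} [Field F'] (F : Subfield F') (V' : ValuationSubring F')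

/-- `V = V' ∩ F` as a subring of `F'`. -/
def ds18_V0 : Subring F' := V'.toSubring ⊓ F.toSubring

/-- The inclusion `V' ∩ F → V'`. -/
def ds18_toV : ↥(ds18_V0 F V') →+* ↥V' :=
  (ds18_V0 F V').subtype.codRestrict V' (fun x => x.2.1)

/-- The inclusion `V' ∩ F → F`. -/
def ds18_toF : ↥(ds18_V0 F V') →+* ↥F :=
  (ds18_V0 F V').subtype.codRestrict F (fun x => x.2.2)

/-- The residue map `V' ∩ F → κ̄`. -/
noncomputable def ds18_res :
    ↥(ds18_V0 F V') →+* AlgebraicClosure (IsLocalRing.ResidueField ↥V') :=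
  (algebraMap (IsLocalRing.ResidueField ↥V') (AlgebraicClosure (IsLocalRing.ResidueField ↥V'))).comp
    ((IsLocalRing.residue ↥V').comp (ds18_toV F V'))

theorem ds18_res_eq_zero_iff (x : ↥(ds18_V0 F V')) :
    ds18_res F V' x = 0 ↔ V'.valuation (x : F') < 1 := by
  rw [ds18_res, RingHom.comp_apply, RingHom.comp_apply, map_eq_zero,
    IsLocalRing.residue_eq_zero_iff, ValuationSubring.valuation_lt_one_iff]
  rfl

variable {F V'}

/-- The kernel statement: a polynomial over `V' ∩ F` vanishing at `θ` is killed by `X ↦ ζ`. -/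
theorem ds18_ker {m : ℕ} (hm : m.Prime) {a : F'} (haF : a ∈ F) (haV : a ∈ V')
    (ha1 : V'.valuation (a - 1) < 1) (hno : ∀ v ∈ F, v ^ m ≠ a) {θ : F'} (hθ : θ ^ m = a)
    {ζ : AlgebraicClosure (IsLocalRing.ResidueField ↥V')} (hζ : ζ ^ m = 1)
    (P : Polynomial ↥(ds18_V0 F V')) (hP : P.eval₂ (ds18_V0 F V').subtype θ = 0) :
    P.eval₂ (ds18_res F V') ζ = 0 := by
  set a₀ : ↥(ds18_V0 F V') := ⟨a, haV, haF⟩ with ha₀
  set f : Polynomial ↥(ds18_V0 F V') := X ^ m - C a₀ with hf
  have hm0 : m ≠ 0 := hm.ne_zero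
  have hfm : f.Monic := monic_X_pow_sub_C a₀ hm0
  have hfθ : f.eval₂ (ds18_V0 F V').subtype θ = 0 := by
    rw [hf, eval₂_sub, eval₂_pow, eval₂_X, eval₂_C, hθ]
    exact sub_self a
  have hdiv := modByMonic_add_div P f
  set R := P %ₘ f with hR
  set Q := P /ₘ f with hQ
  have hRθ : R.eval₂ (ds18_V0 F V').subtype θ = 0 := by
    have h := congrArg (eval₂ (ds18_V0 F V').subtype θ) hdiv
    rw [eval₂_add, eval₂_mul, hfθ, zero_mul, add_zero, hP] at h
    exact h
  -- `R = 0` by the minimal polynomial over `F`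
  have hirr : Irreducible (X ^ m - C (⟨a, haF⟩ : ↥F) : Polynomial ↥F) := by
    refine X_pow_sub_C_irreducible_of_prime hm fun b hb => ?_
    apply hno (b : F') b.2
    have := congrArg (fun x : ↥F => (x : F')) hb
    simpa using this
  have hmin : (X ^ m - C (⟨a, haF⟩ : ↥F) : Polynomial ↥F) = minpoly ↥F θ := by
    refine minpoly.eq_of_irreducible_of_monic hirr ?_ (monic_X_pow_sub_C _ hm0)
    rw [map_sub, map_pow, aeval_X, aeval_C, hθ]
    exact sub_self a
  have hRF : aeval θ (R.map (ds18_toF F V')) = 0 := by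
    rw [aeval_def, eval₂_map]
    exact hRθ
  have hR0 : R.map (ds18_toF F V') = 0 := by
    have hdvd := minpoly.dvd ↥F θ hRF
    rw [← hmin] at hdvd
    refine eq_zero_of_dvd_of_degree_lt hdvd ?_
    have h1 : (R.map (ds18_toF F V')).degree ≤ R.degree := degree_map_le
    have h2 : R.degree < f.degree := degree_modByMonic_lt P hfm
    have h3 : f.degree = (X ^ m - C (⟨a, haF⟩ : ↥F) : Polynomial ↥F).degree := by
      rw [hf, degree_X_pow_sub_C (Nat.pos_of_ne_zero hm0), degree_X_pow_sub_C (Nat.pos_of_ne_zero hm0)]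
    exact lt_of_le_of_lt h1 (h3 ▸ h2)
  have hinj : Function.Injective (ds18_toF F V') := by
    intro x y hxy
    apply Subtype.ext
    exact congrArg (fun z : ↥F => (z : F')) hxy
  have hRz : R = 0 := by
    apply map_injective _ hinj
    rw [hR0, Polynomial.map_zero]
  rw [hRz, zero_add] at hdiv
  rw [← hdiv, eval₂_mul, hf, eval₂_sub, eval₂_pow, eval₂_X, eval₂_C, hζ]
  have h1 : ds18_res F V' a₀ = 1 := by
    have h0 : ds18_res F V' (a₀ - 1) = 0 := by
      rw [ds18_res_eq_zero_iff]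
      exact ha1
    rw [map_sub, map_one, sub_eq_zero] at h0
    exact h0
  rw [h1, sub_self, zero_mul]

/-- For every `m`-th root of unity `ζ` of `κ̄` there is a valuation ring `W ⊇ V[θ]` whose nonunits
contain every `P(θ)` with `P(ζ) = 0`. -/
theorem ds18_exists_W {m : ℕ} (hm : m.Prime) {a : F'} (haF : a ∈ F) (haV : a ∈ V')
    (ha1 : V'.valuation (a - 1) < 1) (hno : ∀ v ∈ F, v ^ m ≠ a) {θ : F'} (hθ : θ ^ m = a)
    {ζ : AlgebraicClosure (IsLocalRing.ResidueField ↥V')} (hζ : ζ ^ m = 1) :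
    ∃ W : ValuationSubring F', (∀ x ∈ F, x ∈ V' → x ∈ W) ∧ θ ∈ W ∧
      ∀ P : Polynomial ↥(ds18_V0 F V'), P.eval₂ (ds18_res F V') ζ = 0 →
        P.eval₂ (ds18_V0 F V').subtype θ ∈ W.nonunits := by
  set ev : Polynomial ↥(ds18_V0 F V') →+* F' := eval₂RingHom (ds18_V0 F V').subtype θ with hev
  set A₁ : Subring F' := ev.range with hA₁
  set φ : Polynomial ↥(ds18_V0 F V') →+* AlgebraicClosure (IsLocalRing.ResidueField ↥V') :=
    eval₂RingHom (ds18_res F V') ζ with hφ
  have hker : RingHom.ker ev.rangeRestrict ≤ RingHom.ker φ := by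
    intro P hP
    rw [RingHom.mem_ker] at hP ⊢
    have hP' : ev P = 0 := congrArg Subtype.val hP
    exact ds18_ker hm haF haV ha1 hno hθ hζ P hP'
  set ψ : ↥A₁ →+* AlgebraicClosure (IsLocalRing.ResidueField ↥V') :=
    RingHom.liftOfSurjective ev.rangeRestrict ev.rangeRestrict_surjective ⟨φ, hker⟩ with hψ
  have hψev : ∀ P, ψ (ev.rangeRestrict P) = φ P := fun P =>
    RingHom.liftOfRightInverse_comp_apply _ _ _ ⟨φ, hker⟩ P
  obtain ⟨W, hAW, hIW⟩ :=
    Ideal.image_subset_nonunits_valuationSubring (RingHom.ker ψ) (RingHom.ker_ne_top ψ)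
  refine ⟨W, ?_, ?_, ?_⟩
  · intro x hxF hxV
    apply hAW
    refine ⟨C (⟨x, hxV, hxF⟩ : ↥(ds18_V0 F V')), ?_⟩
    rw [hev, coe_eval₂RingHom, eval₂_C]
    rfl
  · apply hAW
    exact ⟨X, by rw [hev, coe_eval₂RingHom, eval₂_X]⟩
  · intro P hP
    apply hIW
    refine ⟨ev.rangeRestrict P, ?_, rfl⟩
    rw [SetLike.mem_coe, RingHom.mem_ker, hψev]
    exact hP

end Descent

/-- **DESCENT**, abstract form. -/
theorem ds18_descent : ds18_descent_stmt := by
  intro F' _ F V' m hm hmu huniq a haF haV ha1 hθ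
  obtain ⟨θ, hθ⟩ := hθ
  by_contra hno
  push Not at hno
  have ha_ne : a ≠ 1 := by
    rintro rfl
    exact hno 1 F.one_mem (one_pow m)
  have hm2 : 1 < m := hm.one_lt
  -- `m` is a unit of `V'`
  obtain ⟨μ, hμV, hμ⟩ := hmu
  have hmV : (m : F') ∈ V' := natCast_mem V' m
  have hvm : V'.valuation (m : F') = 1 := by
    have h1 : V'.valuation (m : F') * V'.valuation μ = 1 := by
      rw [← map_mul, hμ, map_one]
    have h2 : V'.valuation (m : F') ≤ 1 := (V'.valuation_le_one_iff _).mpr hmV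
    have h3 : V'.valuation μ ≤ 1 := (V'.valuation_le_one_iff _).mpr hμV
    refine le_antisymm h2 ?_
    by_contra hlt
    push Not at hlt
    have : V'.valuation (m : F') * V'.valuation μ < 1 := by
      calc V'.valuation (m : F') * V'.valuation μ ≤ V'.valuation (m : F') * 1 :=
            mul_le_mul_right h3 _
        _ = V'.valuation (m : F') := mul_one _
        _ < 1 := hlt
    exact absurd h1 (ne_of_lt this)
  -- the residue characteristic does not divide `m`
  have hmK : NeZero ((m : ℕ) : IsLocalRing.ResidueField ↥V') := by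
    refine ⟨fun h0 => ?_⟩
    have h1 : IsLocalRing.residue ↥V' ((m : ℕ) : ↥V') = 0 := by
      rw [map_natCast]; exact h0
    rw [IsLocalRing.residue_eq_zero_iff, ValuationSubring.valuation_lt_one_iff] at h1
    have h2 : V'.valuation (((m : ℕ) : ↥V') : F') = 1 := by
      rw [show (((m : ℕ) : ↥V') : F') = (m : F') from rfl]
      exact hvm
    rw [h2] at h1
    exact lt_irrefl _ h1
  obtain ⟨ζ, hζ⟩ := HasEnoughRootsOfUnity.exists_primitiveRoot
    (AlgebraicClosure (IsLocalRing.ResidueField ↥V')) m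
  -- the two valuation rings
  obtain ⟨W₁, hW₁F, hθW₁, hW₁⟩ :=
    ds18_exists_W hm haF haV ha1 hno hθ
      (ζ := (1 : AlgebraicClosure (IsLocalRing.ResidueField ↥V'))) (one_pow m)
  obtain ⟨W₂, hW₂F, hθW₂, hW₂⟩ := ds18_exists_W hm haF haV ha1 hno hθ hζ.pow_eq_one
  have hθ1 : θ - 1 ∈ W₁.nonunits := by
    have h := hW₁ (X - C 1) (by rw [eval₂_sub, eval₂_X, eval₂_C, map_one, sub_self])
    rw [eval₂_sub, eval₂_X, eval₂_C, map_one] at h
    exact h
  have hgθ : (∑ i ∈ Finset.range m, θ ^ i) ∈ W₂.nonunits := by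
    have h := hW₂ (∑ i ∈ Finset.range m, X ^ i) (by
      rw [eval₂_finsetSum]
      simp only [eval₂_pow, eval₂_X]
      exact hζ.geom_sum_eq_zero hm2)
    rw [eval₂_finsetSum] at h
    simp only [eval₂_pow, eval₂_X] at h
    exact h
  have hθ1_ne : θ - 1 ≠ 0 := by
    intro h
    apply ha_ne
    rw [← hθ, sub_eq_zero.mp h, one_pow]
  have hgθ_ne : (∑ i ∈ Finset.range m, θ ^ i) ≠ 0 := by
    intro h
    apply ha_ne
    have h2 := geom_sum_mul θ m
    rw [h, zero_mul, hθ] at h2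
    exact (sub_eq_zero.mp h2.symm)
  have hne_top : ∀ (W : ValuationSubring F') (x : F'), x ∈ W.nonunits → x ≠ 0 → W ≠ ⊤ := by
    rintro W x hx hx0 rfl
    rcases (ValuationSubring.mem_nonunits_iff_or _).mp hx with h | h
    · exact hx0 h
    · exact h trivial
  have hW₁eq : W₁ = V' := huniq W₁ hW₁F (hne_top W₁ _ hθ1 hθ1_ne)
  have hW₂eq : W₂ = V' := huniq W₂ hW₂F (hne_top W₂ _ hgθ hgθ_ne)
  rw [hW₁eq] at hθ1 hθW₁
  rw [hW₂eq] at hgθ
  -- now `m ∈ 𝔪_{V'}`
  have hθv : V'.valuation θ ≤ 1 := (V'.valuation_le_one_iff _).mpr hθW₁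
  have hθ1v : V'.valuation (θ - 1) < 1 := hθ1
  have hgv : V'.valuation (∑ i ∈ Finset.range m, θ ^ i) < 1 := hgθ
  have hterm : ∀ i ∈ Finset.range m, V'.valuation (θ ^ i - 1) < 1 := by
    intro i _
    have h2 := geom_sum_mul θ i
    rw [← h2, map_mul]
    have h3 : V'.valuation (∑ j ∈ Finset.range i, θ ^ j) ≤ 1 := by
      rw [ValuationSubring.valuation_le_one_iff]
      exact sum_mem fun j _ => pow_mem hθW₁ j
    calc V'.valuation (∑ j ∈ Finset.range i, θ ^ j) * V'.valuation (θ - 1)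
        ≤ 1 * V'.valuation (θ - 1) := mul_le_mul_left h3 _
      _ = V'.valuation (θ - 1) := one_mul _
      _ < 1 := hθ1v
  have hsum : V'.valuation (∑ i ∈ Finset.range m, (θ ^ i - 1)) < 1 :=
    V'.valuation.map_sum_lt one_ne_zero hterm
  have hmeq : (m : F') = (∑ i ∈ Finset.range m, θ ^ i) - ∑ i ∈ Finset.range m, (θ ^ i - 1) := by
    rw [Finset.sum_sub_distrib, Finset.sum_const, Finset.card_range, nsmul_eq_mul, mul_one]
    ring
  have hmlt : V'.valuation (m : F') < 1 := by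
    rw [hmeq]
    exact lt_of_le_of_lt (V'.valuation.map_sub _ _) (max_lt hgv hsum)
  rw [hvm] at hmlt
  exact lt_irrefl _ hmlt

end Fermat.Agent.S18Lib
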