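/-
S18 sprint (route Q), STAR glue (helper2): `p1_star_stmt N ℓ A` from the MACHINE at finite level.

Given `w ∈ F_N^K` (`K = ℚbar`) with `w ≡ 1` at the Gauss place and all orders divisible by a prime
`m ≠ ℓ`:
* choose `E₀` finite over `ℚ` with `w ∈ F_N^{E₀}` and uniformisers in `F_M^{E₀}` for the
  (finitely many) places of `F_M^K` in the support of `w` (`cg18_union`);
* `R = A ∩ E₀` is a discrete valuation ring (`gr18_dvr`), `w ≡ 1 mod π V` at finite level;
* the MACHINE (`as18_machine_stmt`) on the two concrete charts gives `x₀ ≡ 1 mod π V` with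
  `x₀ ^ m * w = e₀ ∈ E₀`;
* the descent (`ds18_descent`) gives `w = e₀ * v ^ m` with `v ∈ F_N^{E₀}`;
* apply the coefficientwise embedding `F_N^{E₀} → F_N^K`.
-/
import Fermat.Agent.Lib.S18.AsStarIface
import Fermat.Agent.Lib.S18.P1Iface
import Fermat.Agent.Lib.S18.GrField
import Fermat.Agent.Lib.S18.GrDvr
import Fermat.Agent.Lib.S18.CgUnion
import Fermat.Agent.Lib.S18.CgAlgClosed
import Fermat.Agent.Lib.S18.BrUnram
import Fermat.Agent.Lib.S18.DsDescent
import Fermat.Agent.Lib.S18.AsStarDesc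
import Fermat.Agent.Lib.S24.SumOrd
import Fermat.Agent.Lib.S24.DegJF

set_option autoImplicit false

namespace Fermat.Agent.S18Lib

open ModularCurve AlgebraicCurve IntermediateField
open Fermat.Agent.S24Lib

noncomputable section

/-! ### Generalities -/

theorem as18_lbc_mono (L : Type*) [Field L] [Algebra ℚ L]
    {F₀ F₁ : IntermediateField ℚ (LaurentSeries ℚ)} (h : F₀ ≤ F₁) :
    laurentBaseChange L F₀ ≤ laurentBaseChange L F₁ :=
  IntermediateField.adjoin.mono L _ _ (Set.image_mono h)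

/-- The coefficientwise embedding of `F_M^{E₀}` into `F_M^K`. -/
def as18_iota (E₀ : IntermediateField ℚ (AlgebraicClosure ℚ)) (M : ℕ) : gr18_F E₀ M →+* FN M where
  toFun x := ⟨coeffMap (algebraMap E₀ (AlgebraicClosure ℚ)) (x : LaurentSeries E₀),
    cg18_mono_gen _ _ x.2⟩
  map_one' := Subtype.ext (map_one _)
  map_mul' _ _ := Subtype.ext (map_mul _ _ _)
  map_zero' := Subtype.ext (map_zero _)
  map_add' _ _ := Subtype.ext (map_add _ _ _)

theorem as18_iota_coe (E₀ : IntermediateField ℚ (AlgebraicClosure ℚ)) (M : ℕ)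
    (x : gr18_F E₀ M) :
    (as18_iota E₀ M x : LaurentSeries (AlgebraicClosure ℚ)) =
      coeffMap (algebraMap E₀ (AlgebraicClosure ℚ)) (x : LaurentSeries E₀) := rfl

/-- Finitely many places in the support, and uniformisers for them over a finite `E₁`. -/
theorem as18_exists_unif (M : ℕ) [NeZero M] (f : FN M) (hf : f ≠ 0) :
    ∃ E₁ : IntermediateField ℚ (AlgebraicClosure ℚ), FiniteDimensional ℚ E₁ ∧
      ∀ E₀ : IntermediateField ℚ (AlgebraicClosure ℚ), E₁ ≤ E₀ →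
        ∀ P : Place Kb (FN M), P.ord f ≠ 0 →
          ∃ t : gr18_F E₀ M, P.ord (as18_iota E₀ M t) = 1 := by
  classical
  haveI := finite_JF M
  have hfin : (Function.support fun v : Place Kb (FN M) => v.ord f).Finite :=
    (sum_ord_eq_zero (JF M) (transcendental_JF M) f hf).1
  let u : Place Kb (FN M) → LaurentSeries (AlgebraicClosure ℚ) := fun P =>
    (((exists_ord_eq_one P).choose : FN M) : LaurentSeries (AlgebraicClosure ℚ))
  obtain ⟨E₁, hE₁, -, hs⟩ := cg18_union M (hfin.toFinset.image u) ∅ (by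
    intro x hx
    obtain ⟨P, -, rfl⟩ := Finset.mem_image.mp hx
    exact ((exists_ord_eq_one P).choose : FN M).2)
  refine ⟨E₁, hE₁, fun E₀ hle P hP => ?_⟩
  have hmem : u P ∈ hfin.toFinset.image u :=
    Finset.mem_image.mpr ⟨P, by rw [Set.Finite.mem_toFinset]; exact hP, rfl⟩
  have hd : cg18_DefOver M (u P) E₁ := hs (u P) hmem
  obtain ⟨y, hy, hyu⟩ := cg18_defOver_mono hle hd
  refine ⟨⟨y, hy⟩, ?_⟩
  have hι : as18_iota E₀ M ⟨y, hy⟩ = (exists_ord_eq_one P).choose := Subtype.ext hyu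
  rw [hι]
  exact (exists_ord_eq_one P).choose_spec

/-! ### The trace of the Gauss ring of `A` on `E₀` -/

/-- The inclusion `A ∩ E₀ → A`. -/
def as18_RA (A : ValuationSubring (AlgebraicClosure ℚ))
    (E₀ : IntermediateField ℚ (AlgebraicClosure ℚ)) : gr18_R A E₀ →+* A :=
  ((algebraMap E₀ (AlgebraicClosure ℚ)).comp (gr18_R A E₀).subtype).codRestrict A.toSubring
    (fun r => r.2)

theorem as18_RA_coe (A : ValuationSubring (AlgebraicClosure ℚ))
    (E₀ : IntermediateField ℚ (AlgebraicClosure ℚ)) (r : gr18_R A E₀) :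
    ((as18_RA A E₀ r : A) : AlgebraicClosure ℚ) = algebraMap E₀ (AlgebraicClosure ℚ) (r : E₀) :=
  rfl

instance as18_RA_local (A : ValuationSubring (AlgebraicClosure ℚ))
    (E₀ : IntermediateField ℚ (AlgebraicClosure ℚ)) : IsLocalHom (as18_RA A E₀) := by
  refine ⟨fun r hr => ?_⟩
  obtain ⟨s, hs⟩ := hr.exists_right_inv
  have h1 : algebraMap E₀ (AlgebraicClosure ℚ) (r : E₀) * (s : AlgebraicClosure ℚ) = 1 :=
    congrArg (Subtype.val) hs
  have hr0 : (r : E₀) ≠ 0 := by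
    intro h0
    rw [h0, map_zero, zero_mul] at h1
    exact zero_ne_one h1
  have h2 : algebraMap E₀ (AlgebraicClosure ℚ) ((r : E₀)⁻¹) = (s : AlgebraicClosure ℚ) := by
    rw [map_inv₀]
    exact inv_eq_of_mul_eq_one_right h1
  have hmem : (r : E₀)⁻¹ ∈ gr18_R A E₀ := by
    show algebraMap E₀ (AlgebraicClosure ℚ) ((r : E₀)⁻¹) ∈ A
    rw [h2]
    exact s.2
  exact IsUnit.of_mul_eq_one (⟨(r : E₀)⁻¹, hmem⟩ : gr18_R A E₀)
    (Subtype.ext (mul_inv_cancel₀ hr0))

/-- A series over `E₀` whose image over `K` has coefficients in `A` has coefficients in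
`A ∩ E₀`. -/
theorem as18_lift_series (A : ValuationSubring (AlgebraicClosure ℚ))
    (E₀ : IntermediateField ℚ (AlgebraicClosure ℚ)) (y : LaurentSeries E₀) (a : LaurentSeries A)
    (h : coeffMap (algebraMap E₀ (AlgebraicClosure ℚ)) y = coeffMap A.subtype a) :
    ∃ a' : LaurentSeries (gr18_R A E₀), coeffMap (gr18_R A E₀).subtype a' = y ∧
      coeffMap (as18_RA A E₀) a' = a := by
  have hc : ∀ n, algebraMap E₀ (AlgebraicClosure ℚ) (y.coeff n) = (a.coeff n : AlgebraicClosure ℚ) := by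
    intro n
    have := congrArg (fun s => s.coeff n) h
    simpa using this
  have hmem : ∀ n, y.coeff n ∈ gr18_R A E₀ := by
    intro n
    show algebraMap E₀ (AlgebraicClosure ℚ) (y.coeff n) ∈ A
    rw [hc n]
    exact (a.coeff n).2
  have hsupp : Function.support (fun n => (⟨y.coeff n, hmem n⟩ : gr18_R A E₀)) = y.support := by
    ext n
    rw [Function.mem_support, HahnSeries.mem_support]
    exact ⟨fun h h0 => h (Subtype.ext h0), fun h h0 => h (congrArg Subtype.val h0)⟩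
  refine ⟨⟨fun n => ⟨y.coeff n, hmem n⟩, by rw [hsupp]; exact y.isPWO_support⟩, ?_, ?_⟩
  · ext n
    rfl
  · ext n
    exact (hc n)

/-- Integers prime to the residue characteristic are units. -/
theorem as18_unit_of_not_dvd {E : Type*} [Field E] (B : ValuationSubring E) (ℓ : ℕ)
    [CharP (IsLocalRing.ResidueField B) ℓ] (n : ℕ) (hn : ¬ ℓ ∣ n) :
    ∃ μ : B, (n : E) * (μ : E) = 1 := by
  have hu : IsUnit ((n : ℕ) : B) := by
    by_contra hnu
    have h1 : IsLocalRing.residue B ((n : ℕ) : B) = 0 :=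
      (IsLocalRing.residue_eq_zero_iff _).mpr hnu
    rw [map_natCast] at h1
    exact hn ((CharP.cast_eq_zero_iff (IsLocalRing.ResidueField B) ℓ n).mp h1)
  obtain ⟨μ, hμ⟩ := hu.exists_right_inv
  refine ⟨μ, ?_⟩
  have := congrArg (Subtype.val) hμ
  simpa using this

/-! ### The group `1 + 𝔪` of a valuation ring -/

section OneUnits

variable {F : Type*} [Field F] (V : ValuationSubring F)

theorem as18_one_val {x : F} (hx : V.valuation (x - 1) < 1) : V.valuation x = 1 := by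
  have h := Valuation.map_one_add_of_lt (v := V.valuation) hx
  rwa [add_sub_cancel] at h

theorem as18_one_mul {x y : F} (hx : V.valuation (x - 1) < 1) (hy : V.valuation (y - 1) < 1) :
    V.valuation (x * y - 1) < 1 := by
  have h : x * y - 1 = (x - 1) * y + (y - 1) := by ring
  rw [h]
  refine Valuation.map_add_lt _ ?_ hy
  rw [map_mul, as18_one_val V hy, mul_one]
  exact hx

theorem as18_one_pow {x : F} (hx : V.valuation (x - 1) < 1) (n : ℕ) :
    V.valuation (x ^ n - 1) < 1 := by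
  induction n with
  | zero => simp
  | succ n ih =>
    rw [pow_succ]
    exact as18_one_mul V ih hx

theorem as18_one_inv {x : F} (hx : V.valuation (x - 1) < 1) : V.valuation (x⁻¹ - 1) < 1 := by
  have hx1 := as18_one_val V hx
  have hx0 : x ≠ 0 := by
    intro h0
    rw [h0, map_zero] at hx1
    exact zero_ne_one hx1
  have h : x⁻¹ - 1 = -(x - 1) * x⁻¹ := by
    field_simp
    ring
  rw [h, map_mul, map_inv₀, hx1, inv_one, mul_one, Valuation.map_neg]
  exact hx

end OneUnits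

/-! ### `w ≡ 1 mod π V` at finite level -/

theorem as18_w1 (A : ValuationSubring (AlgebraicClosure ℚ))
    (E₀ : IntermediateField ℚ (AlgebraicClosure ℚ)) [IsDiscreteValuationRing (gr18_R A E₀)]
    (M : ℕ) [NeZero M] (π : gr18_R A E₀) (hπ : Irreducible π) (w : gr18_F E₀ M)
    (ya yb : LaurentSeries E₀) (a b : LaurentSeries A)
    (ha : coeffMap (algebraMap E₀ (AlgebraicClosure ℚ)) ya = coeffMap A.subtype a)
    (hb : coeffMap (algebraMap E₀ (AlgebraicClosure ℚ)) yb = coeffMap A.subtype b)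
    (hw : (w : LaurentSeries E₀) * yb = ya)
    (hred : coeffMap (IsLocalRing.residue A) a = coeffMap (IsLocalRing.residue A) b)
    (hb0 : coeffMap (IsLocalRing.residue A) b ≠ 0) :
    ∃ v : gr18_F E₀ M, v ∈ gr18_VM (gr18_R A E₀) M ∧ w = 1 + gr18_c E₀ M (π : E₀) * v := by
  obtain ⟨a', ha'E, ha'A⟩ := as18_lift_series A E₀ ya a ha
  obtain ⟨b', hb'E, hb'A⟩ := as18_lift_series A E₀ yb b hb
  have hcomp : ∀ s : LaurentSeries (gr18_R A E₀),
      coeffMap (IsLocalRing.ResidueField.map (as18_RA A E₀)) (gr18_rd (gr18_R A E₀) s) =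
        coeffMap (IsLocalRing.residue A) (coeffMap (as18_RA A E₀) s) := by
    intro s
    rw [coeffMap_coeffMap, coeffMap_coeffMap]
    exact coeffMap_congr (RingHom.ext fun r => IsLocalRing.ResidueField.map_residue _ r) s
  have hginj : Function.Injective
      (coeffMap (IsLocalRing.ResidueField.map (as18_RA A E₀))) := by
    intro s t h
    ext n
    have := congrArg (fun z => z.coeff n) h
    simp only [coeffMap_coeff] at this
    exact (IsLocalRing.ResidueField.map (as18_RA A E₀)).injective this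
  have hb'0 : gr18_rd (gr18_R A E₀) b' ≠ 0 := by
    intro h0
    apply hb0
    rw [← hb'A, ← hcomp, h0, map_zero]
  have hab' : gr18_rd (gr18_R A E₀) a' = gr18_rd (gr18_R A E₀) b' := by
    apply hginj
    rw [hcomp, hcomp, ha'A, hb'A, hred]
  have hx : ((w - 1 : gr18_F E₀ M) : LaurentSeries E₀) * gr18_io (gr18_R A E₀) b' =
      gr18_io (gr18_R A E₀) (a' - b') := by
    have h1 : ((w - 1 : gr18_F E₀ M) : LaurentSeries E₀) = (w : LaurentSeries E₀) - 1 := rfl
    rw [h1, map_sub, ha'E, hb'E, sub_mul, one_mul, hw]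
  have hmemL : ((w - 1 : gr18_F E₀ M) : LaurentSeries E₀) ∈ gr18_VL (gr18_R A E₀) :=
    (gr18_mem_VL_iff (gr18_R A E₀)).mpr ⟨a' - b', b', hb'0, hx⟩
  have hmem : w - 1 ∈ gr18_VM (gr18_R A E₀) M := (gr18_mem_V_iff (gr18_R A E₀)).mpr hmemL
  have hred1 : gr18_red (gr18_R A E₀) ⟨((w - 1 : gr18_F E₀ M) : LaurentSeries E₀), hmemL⟩ = 0 := by
    rw [gr18_red_eq (gr18_R A E₀) ⟨((w - 1 : gr18_F E₀ M) : LaurentSeries E₀), hmemL⟩ hb'0 hx,
      map_sub, hab', sub_self, zero_div]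
  have hred0 : gr18_redM (gr18_R A E₀) M ⟨w - 1, hmem⟩ = 0 := hred1
  obtain ⟨v, hv, hwv⟩ := (gr18_redM_eq_zero_iff (gr18_R A E₀) M hπ ⟨w - 1, hmem⟩).mp hred0
  refine ⟨v, hv, ?_⟩
  have h2 : w - 1 = gr18_c E₀ M (π : E₀) * v := hwv
  rw [← h2]
  ring

/-! ### STAR -/

set_option synthInstance.maxHeartbeats 400000 in
/-- The finite-level part of STAR: `E₀` is given. -/
theorem as18_star_tail (hmach : as18_machine_stmt) (hnorm : as18_normal_stmt)
    (hconc : as18_concrete_stmt) (huniq : as18_uniq_stmt) (hh2 : h2_stmt) (hh3 : h3_stmt)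
    (N : ℕ) [NeZero N] (ℓ : ℕ) [Fact ℓ.Prime]
    (A : ValuationSubring (AlgebraicClosure ℚ)) (hA : A.LiesOverPrime ℓ)
    (M : ℕ) [NeZero M] (hNM : N ∣ M) (hℓM : ¬ ℓ ∣ M)
    (hbM : (ℓ ≠ 2 ∧ 2 ∣ M) ∨ (ℓ = 2 ∧ 3 ∣ M))
    (m : ℕ) (hm : m.Prime) (hmℓ : m ≠ ℓ)
    (w : ↥(modularFunctionFieldBar N)) (hw0 : w ≠ 0) (a b : LaurentSeries ↥A)
    (hred : coeffMap (IsLocalRing.residue ↥A) a = coeffMap (IsLocalRing.residue ↥A) b)
    (hb0 : coeffMap (IsLocalRing.residue ↥A) b ≠ 0)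
    (hord : ∀ P : Place (AlgebraicClosure ℚ) ↥(modularFunctionFieldBar N), (m : ℤ) ∣ P.ord w)
    (hleK : modularFunctionFieldBar N ≤ modularFunctionFieldBar M)
    (E₀ : IntermediateField ℚ (AlgebraicClosure ℚ)) [FiniteDimensional ℚ E₀]
    (yw ya yb : LaurentSeries E₀) (hyw : yw ∈ gr18_F E₀ N)
    (hyw' : coeffMap (algebraMap E₀ (AlgebraicClosure ℚ)) yw =
      (w : LaurentSeries (AlgebraicClosure ℚ)))
    (hya' : coeffMap (algebraMap E₀ (AlgebraicClosure ℚ)) ya = coeffMap A.subtype a)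
    (hyb' : coeffMap (algebraMap E₀ (AlgebraicClosure ℚ)) yb = coeffMap A.subtype b)
    (hywab : yw * yb = ya)
    (hunif : ∀ P : Place Kb (FN M), P.ord (IntermediateField.inclusion hleK w) ≠ 0 →
      ∃ t : gr18_F E₀ M, P.ord (as18_iota E₀ M t) = 1) :
    ∃ (c : AlgebraicClosure ℚ) (v : ↥(modularFunctionFieldBar N)),
      w = algebraMap (AlgebraicClosure ℚ) ↥(modularFunctionFieldBar N) c * v ^ m := by
  have hp : ℓ.Prime := Fact.out
  have hle : modularFunctionFieldFull N ≤ modularFunctionFieldFull M := full_degeneracy_le hNM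
  -- the ring `R = A ∩ E₀`
  obtain ⟨hdvr, -, hchar⟩ := gr18_dvr ℓ A hA E₀
  obtain ⟨π, hπ⟩ := IsDiscreteValuationRing.exists_irreducible (gr18_R A E₀)
  have hval := gr18_val E₀ (gr18_R A E₀) M
  -- `w` at level `M`
  obtain ⟨wM, hwM⟩ : ∃ wM : gr18_F E₀ M, (wM : LaurentSeries E₀) = yw :=
    ⟨⟨yw, as18_lbc_mono _ hle hyw⟩, rfl⟩
  have hι : as18_iota E₀ M wM = IntermediateField.inclusion hleK w := by
    apply Subtype.ext
    rw [as18_iota_coe, hwM, hyw', IntermediateField.coe_inclusion]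
  have hwM0 : wM ≠ 0 := by
    intro h0
    have h1 : as18_iota E₀ M wM = 0 := by rw [h0, map_zero]
    rw [hι] at h1
    exact hw0 ((map_eq_zero _).mp h1)
  obtain ⟨v₁, hv₁, hwv₁⟩ := as18_w1 A E₀ M π hπ wM ya yb a b hya' hyb'
    (by rw [hwM]; exact hywab) hred hb0
  -- the charts
  obtain ⟨x, cbr, cbr', hG, hG'⟩ : ∃ (x : gr18_F E₀ M) (cbr cbr' : gr18_R A E₀),
      (as18_chart A E₀ M hval π x cbr).Good ∧
        ((as18_chart A E₀ M hval π x cbr).inv cbr').Good := by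
    rcases hbM with ⟨hℓ2, hbM⟩ | ⟨hℓ2, hbM⟩
    · have h64 : ¬ ℓ ∣ 64 := by
        intro h
        have h' : ℓ ∣ 2 ^ 6 := h
        exact hℓ2 ((Nat.prime_dvd_prime_iff_eq hp Nat.prime_two).mp (hp.dvd_of_dvd_pow h'))
      obtain ⟨μ, hμ⟩ := as18_unit_of_not_dvd (gr18_R A E₀) ℓ 64 h64
      have h2 : (64 : E₀) * (μ : E₀) = 1 := by exact_mod_cast hμ
      have h1 : (μ : E₀) = 1 / 64 := eq_one_div_of_mul_eq_one_right h2
      have h3 : ((-μ : gr18_R A E₀) : E₀) = -1 / 64 := by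
        show -(μ : E₀) = -1 / 64
        rw [h1]
        ring
      exact ⟨⟨coeffEmb E₀ h2_ser, coeffEmb_mem_laurentBaseChange E₀ (hh2.1 M hbM)⟩,
        ⟨-64, neg_mem (ofNat_mem _ 64)⟩, -μ,
        hconc.1 ℓ A hA hℓ2 E₀ M hℓM hbM hval π hπ
          ⟨coeffEmb E₀ h2_ser, coeffEmb_mem_laurentBaseChange E₀ (hh2.1 M hbM)⟩ rfl
          ⟨-64, neg_mem (ofNat_mem _ 64)⟩ (-μ) rfl h3⟩
    · have h27 : ¬ ℓ ∣ 27 := by
        rw [hℓ2]
        norm_num
      obtain ⟨μ, hμ⟩ := as18_unit_of_not_dvd (gr18_R A E₀) ℓ 27 h27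
      have h2 : (27 : E₀) * (μ : E₀) = 1 := by exact_mod_cast hμ
      have h1 : (μ : E₀) = 1 / 27 := eq_one_div_of_mul_eq_one_right h2
      have h3 : ((-μ : gr18_R A E₀) : E₀) = -1 / 27 := by
        show -(μ : E₀) = -1 / 27
        rw [h1]
        ring
      exact ⟨⟨coeffEmb E₀ h3_ser, coeffEmb_mem_laurentBaseChange E₀ (hh3.1 M hbM)⟩,
        ⟨-27, neg_mem (ofNat_mem _ 27)⟩, -μ,
        hconc.2 ℓ A hA hℓ2 E₀ M hℓM hbM hval π hπ
          ⟨coeffEmb E₀ h3_ser, coeffEmb_mem_laurentBaseChange E₀ (hh3.1 M hbM)⟩ rfl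
          ⟨-27, neg_mem (ofNat_mem _ 27)⟩ (-μ) rfl h3⟩
  -- the data on `w`
  have hWD : (as18_chart A E₀ M hval π x cbr).WData m wM := by
    refine ⟨hm.pos, ⟨v₁, hv₁, hwv₁⟩, ?_⟩
    intro W hW hE
    refine br18_unit_pow M (gr18_F E₀ M) (as18_iota E₀ M) W hW ?_ wM m hwM0 ?_ ?_
    · intro n hn
      have h1 := hE ((n : E₀)⁻¹)
      rwa [map_inv₀, map_natCast] at h1
    · intro P
      rw [hι]
      exact br18_lift N M hleK w m hord P
    · intro P hP
      rw [hι] at hP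
      exact hunif P hP
  have hμm : ∃ μ : gr18_R A E₀, (m : E₀) * (μ : E₀) = 1 :=
    as18_unit_of_not_dvd (gr18_R A E₀) ℓ m
      (fun h => hmℓ ((Nat.prime_dvd_prime_iff_eq hp hm).mp h).symm)
  -- the MACHINE
  obtain ⟨x₀, e₀, ⟨v₀, hv₀, hx₀⟩, hx₀w⟩ := hmach (↥E₀) (↥(gr18_F E₀ M))
    (as18_chart A E₀ M hval π x cbr) cbr' hG hG'
    (fun z hz => cg18_algClosed E₀ M z hz) m wM hWD hμm
    (fun n _ hn => hnorm _ _ _ hG n hn) (fun n _ hn => hnorm _ _ _ hG' n hn)
  -- descent and back-transfer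
  obtain ⟨c0, v0, hcv⟩ := asd_descent huniq ℓ A hA E₀ N M hℓM π hπ m hm hmℓ ⟨yw, hyw⟩ wM hwM
    x₀ e₀ ⟨v₀, hv₀, hx₀⟩ hx₀w
  exact asb_back E₀ N m ⟨yw, hyw⟩ v0 c0 hcv w hyw'.symm

/-- The choice of `E₀`: `w`, `a`, `b` and uniformisers at the support of `w` are defined over a
finite extension of `ℚ`. -/
theorem as18_exists_E (N M : ℕ) [NeZero N] [NeZero M]
    (A : ValuationSubring (AlgebraicClosure ℚ))
    (hleK : modularFunctionFieldBar N ≤ modularFunctionFieldBar M)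
    (w : ↥(modularFunctionFieldBar N)) (hw0 : w ≠ 0) (a b : LaurentSeries ↥A)
    (ha : coeffMap A.subtype a ∈ modularFunctionFieldBar N)
    (hb : coeffMap A.subtype b ∈ modularFunctionFieldBar N)
    (hwab : (w : LaurentSeries (AlgebraicClosure ℚ)) * coeffMap A.subtype b =
      coeffMap A.subtype a) :
    ∃ (E₀ : IntermediateField ℚ (AlgebraicClosure ℚ)) (_ : FiniteDimensional ℚ E₀)
      (yw ya yb : LaurentSeries E₀), yw ∈ gr18_F E₀ N ∧
      coeffMap (algebraMap E₀ (AlgebraicClosure ℚ)) yw =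
        (w : LaurentSeries (AlgebraicClosure ℚ)) ∧
      coeffMap (algebraMap E₀ (AlgebraicClosure ℚ)) ya = coeffMap A.subtype a ∧
      coeffMap (algebraMap E₀ (AlgebraicClosure ℚ)) yb = coeffMap A.subtype b ∧
      yw * yb = ya ∧
      ∀ P : Place Kb (FN M), P.ord (IntermediateField.inclusion hleK w) ≠ 0 →
        ∃ t : gr18_F E₀ M, P.ord (as18_iota E₀ M t) = 1 := by
  classical
  obtain ⟨E₁, hE₁, hunifE⟩ := as18_exists_unif M (IntermediateField.inclusion hleK w)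
    ((map_ne_zero _).mpr hw0)
  obtain ⟨E₂, hE₂, -, hdef⟩ := cg18_union N
    {(w : LaurentSeries (AlgebraicClosure ℚ)), coeffMap A.subtype a, coeffMap A.subtype b} ∅ (by
      intro x hx
      simp only [Finset.mem_insert, Finset.mem_singleton] at hx
      rcases hx with rfl | rfl | rfl
      · exact w.2
      · exact ha
      · exact hb)
  have hdw : cg18_DefOver N (w : LaurentSeries (AlgebraicClosure ℚ)) (E₁ ⊔ E₂) :=
    cg18_defOver_mono le_sup_right (hdef _ (by simp))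
  have hda : cg18_DefOver N (coeffMap A.subtype a) (E₁ ⊔ E₂) :=
    cg18_defOver_mono le_sup_right (hdef _ (by simp))
  have hdb : cg18_DefOver N (coeffMap A.subtype b) (E₁ ⊔ E₂) :=
    cg18_defOver_mono le_sup_right (hdef _ (by simp))
  obtain ⟨yw, hyw, hyw'⟩ := hdw
  obtain ⟨ya, -, hya'⟩ := hda
  obtain ⟨yb, -, hyb'⟩ := hdb
  refine ⟨E₁ ⊔ E₂, IntermediateField.finiteDimensional_sup E₁ E₂, yw, ya, yb, hyw, hyw', hya',
    hyb', ?_, hunifE (E₁ ⊔ E₂) le_sup_left⟩
  have hinjφ : Function.Injective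
      (coeffMap (algebraMap ↥(E₁ ⊔ E₂) (AlgebraicClosure ℚ))) := by
    intro s t h
    apply HahnSeries.ext
    funext n
    have h1 := congrArg (fun z => z.coeff n) h
    exact (algebraMap ↥(E₁ ⊔ E₂) (AlgebraicClosure ℚ)).injective h1
  apply hinjφ
  rw [map_mul, hyw', hyb', hya', hwab]

/-- **STAR** at level `N` over `A`, from the MACHINE on the concrete charts. -/
theorem as18_star (hmach : as18_machine_stmt) (hnorm : as18_normal_stmt)
    (hconc : as18_concrete_stmt) (huniq : as18_uniq_stmt) (hh2 : h2_stmt) (hh3 : h3_stmt)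
    (N : ℕ) [NeZero N] (ℓ : ℕ) [Fact ℓ.Prime] (hℓN : ¬ ℓ ∣ N)
    (A : ValuationSubring (AlgebraicClosure ℚ)) (hA : A.LiesOverPrime ℓ) :
    p1_star_stmt N ℓ A := by
  intro m hm hmℓ w a b ha hb hwab hred hb0 _ hord
  have hp : ℓ.Prime := Fact.out
  -- the level
  obtain ⟨M, hM0, hNM, hℓM, hbM⟩ : ∃ M : ℕ, M ≠ 0 ∧ N ∣ M ∧ ¬ ℓ ∣ M ∧
      ((ℓ ≠ 2 ∧ 2 ∣ M) ∨ (ℓ = 2 ∧ 3 ∣ M)) := by
    by_cases h2 : ℓ = 2
    · refine ⟨3 * N, mul_ne_zero (by norm_num) (NeZero.ne N), dvd_mul_left N 3, ?_,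
        Or.inr ⟨h2, dvd_mul_right 3 N⟩⟩
      intro h
      rcases (Nat.Prime.dvd_mul hp).mp h with h3 | h3
      · rw [h2] at h3
        norm_num at h3
      · exact hℓN h3
    · refine ⟨2 * N, mul_ne_zero (by norm_num) (NeZero.ne N), dvd_mul_left N 2, ?_,
        Or.inl ⟨h2, dvd_mul_right 2 N⟩⟩
      intro h
      rcases (Nat.Prime.dvd_mul hp).mp h with h3 | h3
      · exact h2 ((Nat.prime_dvd_prime_iff_eq hp Nat.prime_two).mp h3)
      · exact hℓN h3
  haveI : NeZero M := ⟨hM0⟩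
  have hle : modularFunctionFieldFull N ≤ modularFunctionFieldFull M := full_degeneracy_le hNM
  have hleK : modularFunctionFieldBar N ≤ modularFunctionFieldBar M := as18_lbc_mono _ hle
  -- `w ≠ 0`
  have hw0 : w ≠ 0 := by
    intro h0
    have h1 : coeffMap A.subtype a = 0 := by
      rw [← hwab, h0]
      exact zero_mul _
    have h2 : a = 0 := (gr18_io_eq_zero_iff A).mp h1
    apply hb0
    rw [← hred, h2, map_zero]
  -- the choice of `E₀`
  obtain ⟨E₀, hfin, yw, ya, yb, hyw, hyw', hya', hyb', hywab, hunif⟩ :=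
    as18_exists_E N M A hleK w hw0 a b ha hb hwab
  exact as18_star_tail hmach hnorm hconc huniq hh2 hh3 N ℓ A hA M hNM hℓM hbM m hm hmℓ w hw0
    a b hred hb0 hord hleK E₀ yw ya yb hyw hyw' hya' hyb' hywab hunif

end

end Fermat.Agent.S18Lib
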