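import Fermat.Agent.Lib.S18.AsConcBasic
import Fermat.Agent.Lib.S18.CgUnion

/-!
# S18 assembly, STAR glue: back-transfer and small inputs (helper8, prefix `asb_`)

* `asb_back`        : step (7): `w₀ = c₀ v₀ ^ m` in `F_N^{E₀}` gives `w = c v ^ m` in
                      `F_N^{ℚbar}` for the image `w` of `w₀`;
* `asb_F_le`        : `F_N^E ≤ F_M^E` for `N ∣ M`;
* `asb_exists_inv`  : a natural number prime to `ℓ` has an inverse in `R = A ∩ E₀`;
* `asb_exists_cbr2` : for `ℓ ≠ 2` the branch values `-64`, `-1/64` lie in `R`;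
* `asb_exists_cbr3` : for `ℓ = 2` the branch values `-27`, `-1/27` lie in `R`;
* `asb_exists_irreducible` : `R` has a uniformiser.
-/

set_option autoImplicit false

noncomputable section

namespace Fermat.Agent.S18Lib

open ModularCurve

/-- **Step (7) of the STAR glue**: transfer of `w₀ = c₀ v₀ ^ m` from `F_N^{E₀}` to
`F_N^{ℚbar}`. -/
theorem asb_back (E₀ : IntermediateField ℚ (AlgebraicClosure ℚ)) (N : ℕ) (m : ℕ)
    (w₀ v₀ : gr18_F E₀ N) (c₀ : E₀) (h : w₀ = gr18_c E₀ N c₀ * v₀ ^ m)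
    (w : ↥(modularFunctionFieldBar N))
    (hw : (w : LaurentSeries (AlgebraicClosure ℚ)) =
      coeffMap (algebraMap E₀ (AlgebraicClosure ℚ)) (w₀ : LaurentSeries E₀)) :
    ∃ (c : AlgebraicClosure ℚ) (v : ↥(modularFunctionFieldBar N)),
      w = algebraMap (AlgebraicClosure ℚ) ↥(modularFunctionFieldBar N) c * v ^ m := by
  refine ⟨algebraMap E₀ (AlgebraicClosure ℚ) c₀,
    ⟨coeffMap (algebraMap E₀ (AlgebraicClosure ℚ)) (v₀ : LaurentSeries E₀),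
      cg18_mono_gen _ _ v₀.2⟩, Subtype.ext ?_⟩
  rw [hw, h]
  show coeffMap (algebraMap E₀ (AlgebraicClosure ℚ))
      (algebraMap E₀ (LaurentSeries E₀) c₀ * (v₀ : LaurentSeries E₀) ^ m) = _
  rw [map_mul, map_pow, cg18_coeffMap_algebraMap]
  rfl

/-- `F_N^E ≤ F_M^E` for `N ∣ M`. -/
theorem asb_F_le (E : Type*) [Field E] [Algebra ℚ E] {N M : ℕ} [NeZero N] [NeZero M]
    (h : N ∣ M) : gr18_F E N ≤ gr18_F E M := by
  rw [gr18_F, laurentBaseChange, IntermediateField.adjoin_le_iff]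
  rintro _ ⟨y, hy, rfl⟩
  exact coeffEmb_mem_laurentBaseChange E (full_degeneracy_le h hy)

section Units

variable (ℓ : ℕ) [Fact ℓ.Prime] (A : ValuationSubring (AlgebraicClosure ℚ))
  (hA : A.LiesOverPrime ℓ) (E₀ : IntermediateField ℚ (AlgebraicClosure ℚ))
  [FiniteDimensional ℚ E₀]

include hA in
/-- a natural number prime to `ℓ` has an inverse in `R = A ∩ E₀`. -/
theorem asb_exists_inv (n : ℕ) (hn : ¬ ℓ ∣ n) :
    ∃ μ : gr18_R A E₀, (n : E₀) * (μ : E₀) = 1 := by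
  obtain ⟨u, hu⟩ := acb_natCast_isUnit ℓ A hA E₀ n hn
  refine ⟨((u⁻¹ : (gr18_R A E₀)ˣ) : gr18_R A E₀), ?_⟩
  have h1 : ((n : ℕ) : gr18_R A E₀) * ((u⁻¹ : (gr18_R A E₀)ˣ) : gr18_R A E₀) = 1 := by
    rw [← hu]
    exact u.mul_inv
  have h2 := congrArg (gr18_R A E₀).subtype h1
  rw [map_mul, map_natCast, map_one] at h2
  exact h2

include hA in
/-- a prime `m ≠ ℓ` has an inverse in `R = A ∩ E₀`. -/
theorem asb_exists_inv_prime (m : ℕ) (hm : m.Prime) (hmℓ : m ≠ ℓ) :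
    ∃ μ : gr18_R A E₀, (m : E₀) * (μ : E₀) = 1 :=
  asb_exists_inv ℓ A hA E₀ m fun hdvd =>
    hmℓ ((Nat.prime_dvd_prime_iff_eq (Fact.out : ℓ.Prime) hm).mp hdvd).symm

include hA in
/-- for `ℓ ≠ 2` the branch values `-64`, `-1/64` lie in `R`. -/
theorem asb_exists_cbr2 (hℓ2 : ℓ ≠ 2) :
    ∃ cbr cbr' : gr18_R A E₀, (cbr : E₀) = -64 ∧ (cbr' : E₀) = -1 / 64 := by
  have h64 : ¬ ℓ ∣ 64 := by
    intro hdvd
    have h2 : ℓ ∣ 2 := (Fact.out : ℓ.Prime).dvd_of_dvd_pow (show ℓ ∣ 2 ^ 6 from hdvd)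
    exact hℓ2 ((Nat.prime_dvd_prime_iff_eq (Fact.out : ℓ.Prime) Nat.prime_two).mp h2)
  obtain ⟨μ, hμ⟩ := asb_exists_inv ℓ A hA E₀ 64 h64
  refine ⟨-((64 : ℕ) : gr18_R A E₀), -μ, ?_, ?_⟩
  · have h1 : (((64 : ℕ) : gr18_R A E₀) : E₀) = 64 :=
      (map_natCast (gr18_R A E₀).subtype 64).trans (by norm_num)
    show -(((64 : ℕ) : gr18_R A E₀) : E₀) = -64
    rw [h1]
  · show -(μ : E₀) = -1 / 64
    have h2 : (64 : E₀) * (μ : E₀) = 1 := by
      rw [← hμ]; norm_num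
    rw [neg_div, neg_inj, eq_div_iff (by norm_num : (64 : E₀) ≠ 0), mul_comm]
    exact h2

include hA in
/-- for `ℓ = 2` the branch values `-27`, `-1/27` lie in `R`. -/
theorem asb_exists_cbr3 (hℓ2 : ℓ = 2) :
    ∃ cbr cbr' : gr18_R A E₀, (cbr : E₀) = -27 ∧ (cbr' : E₀) = -1 / 27 := by
  have h27 : ¬ ℓ ∣ 27 := by
    rw [hℓ2]; norm_num
  obtain ⟨μ, hμ⟩ := asb_exists_inv ℓ A hA E₀ 27 h27
  refine ⟨-((27 : ℕ) : gr18_R A E₀), -μ, ?_, ?_⟩
  · have h1 : (((27 : ℕ) : gr18_R A E₀) : E₀) = 27 :=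
      (map_natCast (gr18_R A E₀).subtype 27).trans (by norm_num)
    show -(((27 : ℕ) : gr18_R A E₀) : E₀) = -27
    rw [h1]
  · show -(μ : E₀) = -1 / 27
    have h2 : (27 : E₀) * (μ : E₀) = 1 := by
      rw [← hμ]; norm_num
    rw [neg_div, neg_inj, eq_div_iff (by norm_num : (27 : E₀) ≠ 0), mul_comm]
    exact h2

include hA in
/-- `R = A ∩ E₀` has a uniformiser. -/
theorem asb_exists_irreducible : ∃ π : gr18_R A E₀, Irreducible π := by
  have hdvr : IsDiscreteValuationRing (gr18_R A E₀) := (gr18_dvr ℓ A hA E₀).1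
  exact IsDiscreteValuationRing.exists_irreducible _

end Units

end Fermat.Agent.S18Lib
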