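import Fermat.Agent.Lib.S18.GrField
import Fermat.Agent.Lib.S18.GrDvr

/-!
# S18 assembly, STAR glue, step (3): the congruence `w ≡ 1 mod π V` at finite level
(helper8, prefix `asc_`)

* `asc_res φ B`      : the restriction `B ∩ E → B` of a field embedding `φ : E →+* L`
                       (`B ∩ E := B.comap φ`);
* `asc_map_VL`       : `coeffMap φ` maps the Gauss ring of `B ∩ E` into the Gauss ring of `B`;
* `asc_not_inv_mem`  : if `w b = a` with `red a = red b ≠ 0` and `w ≠ 1`, then `(w - 1)⁻¹` is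
                       not in the Gauss ring of `B`;
* `asc_cong`         : for `w₀ ∈ F_M^{E₀}` whose image over `ℚbar` is `a / b` with
                       `a, b ∈ A((q))`, `red a = red b ≠ 0`:  `w₀ = 1 + π v`, `v ∈ V`
                       (`V` the Gauss ring of `R = A ∩ E₀` at level `M`, `π` a uniformiser).
-/

set_option autoImplicit false

noncomputable section

namespace Fermat.Agent.S18Lib

open ModularCurve

section Generic

variable {E L : Type*} [Field E] [Field L] (φ : E →+* L) (B : ValuationSubring L)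

/-- The restriction `B ∩ E → B` of `φ`. -/
def asc_res : ↥(B.comap φ) →+* ↥B :=
  RingHom.codRestrict (φ.comp (B.comap φ).subtype) B (fun r => r.2)

theorem asc_res_coe (r : ↥(B.comap φ)) : ((asc_res φ B r : ↥B) : L) = φ (r : E) := rfl

theorem asc_io_res (a : LaurentSeries ↥(B.comap φ)) :
    gr18_io B (coeffMap (asc_res φ B) a) = coeffMap φ (gr18_io (B.comap φ) a) := by
  rw [gr18_io, gr18_io, coeffMap_coeffMap, coeffMap_coeffMap]
  exact coeffMap_congr (RingHom.ext fun _ => rfl) a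

theorem asc_rd_res_ne (b : LaurentSeries ↥(B.comap φ)) (hb : gr18_rd (B.comap φ) b ≠ 0) :
    gr18_rd B (coeffMap (asc_res φ B) b) ≠ 0 := by
  intro h0
  apply hb
  ext k
  have hk := congrArg (fun x => x.coeff k) h0
  simp only [coeffMap_coeff, HahnSeries.coeff_zero] at hk ⊢
  by_contra hne
  have hu : IsUnit (b.coeff k) := (IsLocalRing.residue_ne_zero_iff_isUnit _).mp hne
  exact (IsLocalRing.residue_ne_zero_iff_isUnit _).mpr (hu.map (asc_res φ B)) hk

/-- `coeffMap φ` maps the Gauss ring of `B ∩ E` into the Gauss ring of `B`. -/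
theorem asc_map_VL {x : LaurentSeries E} (hx : x ∈ gr18_VL (B.comap φ)) :
    coeffMap φ x ∈ gr18_VL B := by
  obtain ⟨a, b, hb, h⟩ := hx
  refine ⟨coeffMap (asc_res φ B) a, coeffMap (asc_res φ B) b, asc_rd_res_ne φ B b hb, ?_⟩
  show coeffMap φ x * gr18_io B _ = gr18_io B _
  rw [asc_io_res, asc_io_res, ← map_mul]
  exact congrArg _ h

/-- If `w b = a` with `red a = red b ≠ 0` and `w ≠ 1`, then `(w - 1)⁻¹` is not in the Gauss
ring. -/
theorem asc_not_inv_mem {w : LaurentSeries L} {a b : LaurentSeries ↥B}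
    (hw : w * gr18_io B b = gr18_io B a) (hab : gr18_rd B a = gr18_rd B b)
    (hb : gr18_rd B b ≠ 0) (hw1 : w ≠ 1) : (w - 1)⁻¹ ∉ gr18_VL B := by
  intro hinv
  obtain ⟨a', b', hb', h'⟩ := hinv
  have hne : w - 1 ≠ 0 := sub_ne_zero.mpr hw1
  have h1 : (w - 1) * gr18_io B b = gr18_io B (a - b) := by rw [map_sub, ← hw]; ring
  have h2 : gr18_io B (b * b') = gr18_io B ((a - b) * a') := by
    rw [map_mul, map_mul, ← h1, ← h']
    field_simp
  have h3 := congrArg (gr18_rd B) (gr18_io_injective B h2)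
  rw [map_mul, map_mul, map_sub, hab, sub_self, zero_mul] at h3
  exact mul_ne_zero hb hb' h3

end Generic

/-- **Step (3) of the STAR glue**: the congruence `w₀ ≡ 1 mod π V` at finite level. -/
theorem asc_cong (ℓ : ℕ) [Fact ℓ.Prime] (A : ValuationSubring (AlgebraicClosure ℚ))
    (hA : A.LiesOverPrime ℓ) (E₀ : IntermediateField ℚ (AlgebraicClosure ℚ))
    [FiniteDimensional ℚ E₀] (M : ℕ) [NeZero M] (π : gr18_R A E₀) (hπ : Irreducible π)
    (w₀ : gr18_F E₀ M) (a b : LaurentSeries ↥A)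
    (hw : coeffMap (algebraMap E₀ (AlgebraicClosure ℚ)) (w₀ : LaurentSeries E₀) *
      coeffMap A.subtype b = coeffMap A.subtype a)
    (hab : coeffMap (IsLocalRing.residue ↥A) a = coeffMap (IsLocalRing.residue ↥A) b)
    (hb : coeffMap (IsLocalRing.residue ↥A) b ≠ 0) :
    ∃ v ∈ gr18_VM (gr18_R A E₀) M, w₀ = 1 + gr18_c E₀ M (π : E₀) * v := by
  have hdvr : IsDiscreteValuationRing (gr18_R A E₀) := (gr18_dvr ℓ A hA E₀).1
  by_cases hw1 : w₀ = 1
  · exact ⟨0, zero_mem _, by rw [hw1, mul_zero, add_zero]⟩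
  have hinj : Function.Injective (coeffMap (algebraMap E₀ (AlgebraicClosure ℚ))) :=
    (coeffMap (algebraMap E₀ (AlgebraicClosure ℚ))).injective
  have hw1' : coeffMap (algebraMap E₀ (AlgebraicClosure ℚ)) (w₀ : LaurentSeries E₀) ≠ 1 := by
    intro h
    apply hw1
    apply Subtype.ext
    apply hinj
    rw [h]
    exact (map_one (coeffMap (algebraMap E₀ (AlgebraicClosure ℚ)))).symm
  have hninv : (w₀ - 1)⁻¹ ∉ gr18_VM (gr18_R A E₀) M := by
    intro hmem
    have h1 : (((w₀ - 1)⁻¹ : gr18_F E₀ M) : LaurentSeries E₀) ∈ gr18_VL (gr18_R A E₀) := hmem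
    have h2 := asc_map_VL (algebraMap E₀ (AlgebraicClosure ℚ)) A h1
    have h3 : coeffMap (algebraMap E₀ (AlgebraicClosure ℚ))
        (((w₀ - 1)⁻¹ : gr18_F E₀ M) : LaurentSeries E₀)
        = (coeffMap (algebraMap E₀ (AlgebraicClosure ℚ)) (w₀ : LaurentSeries E₀) - 1)⁻¹ := by
      rw [← map_one (coeffMap (algebraMap E₀ (AlgebraicClosure ℚ))), ← map_sub, ← map_inv₀]
      rfl
    rw [h3] at h2
    exact asc_not_inv_mem A hw hab hb hw1' h2
  have hmem : w₀ - 1 ∈ gr18_VM (gr18_R A E₀) M := by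
    rcases gr18_val E₀ (gr18_R A E₀) M (w₀ - 1) with h | h
    · exact h
    · exact absurd h hninv
  obtain ⟨y, hy, hzy⟩ := ((gr18_unif E₀ (gr18_R A E₀) M).2 π hπ).2 (w₀ - 1) hmem hninv
  exact ⟨y, hy, by rw [← hzy]; ring⟩

end Fermat.Agent.S18Lib
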