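import Fermat.Agent.Lib.S18.AsStarBack
import Fermat.Agent.Lib.S18.AsStarIface
import Fermat.Agent.Lib.S18.DsDescent

/-!
# S18 assembly, STAR glue, step (6): the concrete descent `M → N` (helper8, prefix `asd_`)

* `asd_sub E N M`  : the intermediate field of `F_M^E` of the elements lying in `F_N^E`;
* `asd_descent`    : if `w ∈ F_N^{E₀}`, `x₀ ∈ F_M^{E₀}`, `x₀ ≡ 1 mod π V` and `x₀ ^ m w = e₀` is
                     a constant (`m` a prime `≠ ℓ`), then `w = c₀ v₀ ^ m` with `v₀ ∈ F_N^{E₀}`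
                     (from `ds18_descent` and the uniqueness `as18_uniq_stmt` of the Gauss
                     extension).
-/

set_option autoImplicit false
set_option synthInstance.maxHeartbeats 400000
set_option maxHeartbeats 1600000

noncomputable section

namespace Fermat.Agent.S18Lib

open ModularCurve

/-- The intermediate field of `F_M^E` of the elements lying in `F_N^E`. -/
def asd_sub (E : Type) [Field E] [Algebra ℚ E] (N M : ℕ) :
    IntermediateField E ↥(gr18_F E M) :=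
  (gr18_F E N).comap (gr18_F E M).val

theorem asd_mem_sub {E : Type} [Field E] [Algebra ℚ E] {N M : ℕ} {x : gr18_F E M} :
    x ∈ asd_sub E N M ↔ (x : LaurentSeries E) ∈ gr18_F E N := Iff.rfl

theorem asd_adjoin_le (E : Type) [Field E] [Algebra ℚ E] (N M : ℕ) [NeZero N] [NeZero M] :
    IntermediateField.adjoin E {gr18_j E M} ≤ asd_sub E N M := by
  rw [IntermediateField.adjoin_le_iff]
  rintro x hx
  rw [Set.mem_singleton_iff] at hx
  rw [hx]
  exact (gr18_j E N).2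

/-- **Step (6) of the STAR glue**: descent from level `M` to level `N`. -/
theorem asd_descent (huniq : as18_uniq_stmt) (ℓ : ℕ) [Fact ℓ.Prime]
    (A : ValuationSubring (AlgebraicClosure ℚ)) (hA : A.LiesOverPrime ℓ)
    (E₀ : IntermediateField ℚ (AlgebraicClosure ℚ)) [FiniteDimensional ℚ E₀]
    (N M : ℕ) [NeZero N] [NeZero M] (hℓM : ¬ ℓ ∣ M)
    (π : gr18_R A E₀) (hπ : Irreducible π) (m : ℕ) (hm : m.Prime) (hmℓ : m ≠ ℓ)
    (w₀ : gr18_F E₀ N) (w : gr18_F E₀ M)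
    (hww : (w : LaurentSeries E₀) = (w₀ : LaurentSeries E₀))
    (x₀ : gr18_F E₀ M) (e₀ : E₀)
    (hx₀ : ∃ v ∈ gr18_VM (gr18_R A E₀) M, x₀ = 1 + gr18_c E₀ M (π : E₀) * v)
    (h : x₀ ^ m * w = algebraMap E₀ (gr18_F E₀ M) e₀) :
    ∃ (c₀ : E₀) (v₀ : gr18_F E₀ N), w₀ = gr18_c E₀ N c₀ * v₀ ^ m := by
  have hdvr : IsDiscreteValuationRing (gr18_R A E₀) := (gr18_dvr ℓ A hA E₀).1
  obtain ⟨hcV, hu⟩ := gr18_unif E₀ (gr18_R A E₀) M
  obtain ⟨hu1, hu2⟩ := hu π hπ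
  obtain ⟨v, hv, hxv⟩ := hx₀
  set V' : ValuationSubring ↥(gr18_F E₀ M) :=
    gr18_Vv (gr18_R A E₀) (gr18_F E₀ M) (gr18_val E₀ (gr18_R A E₀) M) with hV'
  have hπV : gr18_c E₀ M (π : E₀) ∈ V' := hcV π
  have hvV : v ∈ V' := hv
  have hu1' : (gr18_c E₀ M (π : E₀))⁻¹ ∉ V' := hu1
  have hx₀V : x₀ ∈ V' := by
    rw [hxv]
    exact add_mem (one_mem _) (mul_mem hπV hvV)
  have hx₀inv : x₀⁻¹ ∈ V' := by
    by_contra hninv
    obtain ⟨y, hy, hxy⟩ := hu2 x₀ hx₀V hninv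
    have hyV : y ∈ V' := hy
    apply hu1'
    have h1 : gr18_c E₀ M (π : E₀) * (y - v) = 1 := by
      linear_combination hxv - hxy
    rw [inv_eq_of_mul_eq_one_right h1]
    exact sub_mem hyV hvV
  have hx₀0 : x₀ ≠ 0 := by
    intro h0
    apply hu1'
    have h1 : gr18_c E₀ M (π : E₀) * (-v) = 1 := by
      rw [h0] at hxv
      linear_combination hxv
    rw [inv_eq_of_mul_eq_one_right h1]
    exact neg_mem hvV
  by_cases he₀ : e₀ = 0
  · refine ⟨0, 0, ?_⟩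
    rw [he₀, map_zero] at h
    have hw0 : w = 0 := by
      rcases mul_eq_zero.mp h with h1 | h1
      · exact absurd (pow_eq_zero_iff (hm.ne_zero) |>.mp h1) hx₀0
      · exact h1
    have hw₀0 : w₀ = 0 := by
      apply Subtype.ext
      rw [← hww, hw0]
      rfl
    rw [hw₀0, gr18_c, map_zero, zero_mul]
  -- the main case
  set θ : ↥(gr18_F E₀ M) := x₀⁻¹ with hθ
  have hc0 : gr18_c E₀ M e₀ ≠ 0 := by
    intro h0
    exact he₀ ((map_eq_zero (algebraMap E₀ ↥(gr18_F E₀ M))).mp h0)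
  have hxθ : x₀ * θ = 1 := mul_inv_cancel₀ hx₀0
  have hwθ : w = gr18_c E₀ M e₀ * θ ^ m := by
    have h1 : x₀ ^ m * θ ^ m = 1 := by rw [← mul_pow, hxθ, one_pow]
    have h' : x₀ ^ m * w = gr18_c E₀ M e₀ := h
    linear_combination θ ^ m * h' - w * h1
  have haw : θ ^ m = w * (gr18_c E₀ M e₀)⁻¹ := by
    rw [hwθ]
    field_simp
  -- membership in the subfield
  have hwF : w ∈ asd_sub E₀ N M := by
    rw [asd_mem_sub, hww]
    exact w₀.2
  have haF : θ ^ m ∈ (asd_sub E₀ N M).toSubfield := by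
    rw [haw]
    exact mul_mem hwF (inv_mem ((asd_sub E₀ N M).algebraMap_mem e₀))
  have hθV : θ ∈ V' := hx₀inv
  have haV : θ ^ m ∈ V' := pow_mem hθV m
  -- `θ ^ m ≡ 1 mod π`
  have hθ1 : θ - 1 = gr18_c E₀ M (π : E₀) * (-(v * θ)) := by
    linear_combination hxθ - θ * hxv
  have hay : θ ^ m - 1 = gr18_c E₀ M (π : E₀) *
      ((∑ i ∈ Finset.range m, θ ^ i) * (-(v * θ))) := by
    rw [← geom_sum_mul, hθ1]
    ring
  have hyV : (∑ i ∈ Finset.range m, θ ^ i) * (-(v * θ)) ∈ V' :=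
    mul_mem (sum_mem fun i _ => pow_mem hθV i) (neg_mem (mul_mem hvV hθV))
  have hval : V'.valuation (θ ^ m - 1) < 1 := by
    rw [hay, map_mul]
    have h1 : V'.valuation (gr18_c E₀ M (π : E₀)) < 1 := by
      have hle : V'.valuation (gr18_c E₀ M (π : E₀)) ≤ 1 := (V'.valuation_le_one_iff _).mpr hπV
      rcases hle.lt_or_eq with hlt | heq
      · exact hlt
      · exfalso
        apply hu1'
        rw [← V'.valuation_le_one_iff, map_inv₀, heq, inv_one]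
    have h2 : V'.valuation ((∑ i ∈ Finset.range m, θ ^ i) * (-(v * θ))) ≤ 1 :=
      (V'.valuation_le_one_iff _).mpr hyV
    calc V'.valuation (gr18_c E₀ M (π : E₀)) *
          V'.valuation ((∑ i ∈ Finset.range m, θ ^ i) * (-(v * θ)))
        ≤ V'.valuation (gr18_c E₀ M (π : E₀)) * 1 := mul_le_mul_right h2 _
      _ = V'.valuation (gr18_c E₀ M (π : E₀)) := mul_one _
      _ < 1 := h1
  -- `1 / m ∈ V'`
  obtain ⟨μ₀, hμ₀⟩ := asb_exists_inv_prime ℓ A hA E₀ m hm hmℓ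
  have hμ : ∃ μ ∈ V', ((m : ℕ) : ↥(gr18_F E₀ M)) * μ = 1 := by
    refine ⟨gr18_c E₀ M (μ₀ : E₀), hcV μ₀, ?_⟩
    have h1 := congrArg (algebraMap E₀ ↥(gr18_F E₀ M)) hμ₀
    rw [map_mul, map_natCast, map_one] at h1
    exact h1
  -- uniqueness of the Gauss extension
  have huniq' : ∀ W : ValuationSubring ↥(gr18_F E₀ M),
      (∀ x ∈ (asd_sub E₀ N M).toSubfield, x ∈ V' → x ∈ W) → W ≠ ⊤ → W = V' := by
    intro W hW hWtop
    have key := huniq ℓ A hA E₀ M hℓM W (fun x hx => hW x (asd_adjoin_le E₀ N M hx.2) hx.1) hWtop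
    ext x
    exact key x
  obtain ⟨v₁, hv₁F, hv₁⟩ := ds18_descent ↥(gr18_F E₀ M) (asd_sub E₀ N M).toSubfield V' m hm hμ
    huniq' (θ ^ m) haF haV hval ⟨θ, rfl⟩
  have hv₁N : (v₁ : LaurentSeries E₀) ∈ gr18_F E₀ N := hv₁F
  refine ⟨e₀, ⟨(v₁ : LaurentSeries E₀), hv₁N⟩, Subtype.ext ?_⟩
  rw [← hww, hwθ, ← hv₁]
  rfl

end Fermat.Agent.S18Lib
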