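import Fermat.Agent.Lib.S18.BrUnram
import Fermat.Agent.Lib.S24.SumOrd

/-!
# S18 library, chunk Br: inputs of the STAR glue

* `br18_unif_finset` : finitely many elements of `FN M` contain a uniformiser at every zero and
  pole of a given `w ≠ 0`;
* `br18_wpow_of_level` : the `wpow` datum at level `M` for a function coming from level `N`
  all of whose orders (at level `N`) are divisible by `m`.
-/

set_option autoImplicit false

namespace Fermat.Agent.S18Lib

open AlgebraicCurve ModularCurve IntermediateField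
open Fermat.Agent.S24Lib

/-- finitely many functions contain a uniformiser at each zero and pole of `w`. -/
theorem br18_unif_finset (M : ℕ) [NeZero M] (w : FN M) (hw : w ≠ 0) :
    ∃ s : Finset (FN M), ∀ P : Place Kb (FN M), P.ord w ≠ 0 → ∃ t ∈ s, P.ord t = 1 := by
  classical
  have := finite_JF M
  obtain ⟨hfin, -⟩ := sum_ord_eq_zero (JF M) (transcendental_JF M) w hw
  choose t ht using fun P : Place Kb (FN M) => exists_ord_eq_one P
  exact ⟨hfin.toFinset.image t, fun P hP =>
    ⟨t P, Finset.mem_image.mpr ⟨P, (Set.Finite.mem_toFinset hfin).mpr hP, rfl⟩, ht P⟩⟩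

/-- the support of the divisor of `w` is finite. -/
theorem br18_support_finite (M : ℕ) [NeZero M] (w : FN M) (hw : w ≠ 0) :
    (Function.support fun P : Place Kb (FN M) => P.ord w).Finite := by
  have := finite_JF M
  exact (sum_ord_eq_zero (JF M) (transcendental_JF M) w hw).1

/-- **`wpow` at level `M` from divisibility at level `N`.** -/
theorem br18_wpow_of_level (N M : ℕ) [NeZero N] [NeZero M]
    (hle : modularFunctionFieldBar N ≤ modularFunctionFieldBar M)
    (FE : Type) [Field FE] (ι : FE →+* FN M) (m : ℕ) (w : FN N) (hw : w ≠ 0)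
    (hdiv : ∀ P : Place Kb (FN N), (m : ℤ) ∣ P.ord w)
    (w₀ : FE) (hw₀ : ι w₀ = IntermediateField.inclusion hle w)
    (hunif : ∀ P : Place Kb (FN M), P.ord (IntermediateField.inclusion hle w) ≠ 0 →
      ∃ t : FE, P.ord (ι t) = 1) :
    ∀ W : ValuationSubring FE, W ≠ ⊤ → (∀ n : ℕ, n ≠ 0 → ((n : FE))⁻¹ ∈ W) →
      ∃ c u : FE, u ∈ W ∧ u⁻¹ ∈ W ∧ w₀ = u * c ^ m := by
  intro W hW hQ
  have hw₀0 : w₀ ≠ 0 := by
    intro h0
    rw [h0, map_zero] at hw₀
    exact hw ((map_eq_zero (IntermediateField.inclusion hle)).mp hw₀.symm)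
  refine br18_unit_pow M FE ι W hW hQ w₀ m hw₀0 ?_ ?_
  · intro P
    rw [hw₀]
    exact br18_lift N M hle w m hdiv P
  · intro P hP
    rw [hw₀] at hP
    exact hunif P hP

end Fermat.Agent.S18Lib
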