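import Fermat.Agent.Lib.S18.AsStarTail
import Fermat.Agent.Lib.S18.BrStar
import Fermat.Agent.Lib.S18.AsConcUnr3

/-!
# S18 assembly, STAR glue: steps (2)-(7) (helper8, prefix `ast_`)

`ast_of_unif` : the conclusion of `p1_star_stmt` for `w`, given `E₀`, a model `w₀ ∈ F_N^{E₀}` of
`w` and uniformisers in `F_M^{E₀}` at all zeros and poles of `w` at level `M` (the output of
step (1)).
-/

set_option autoImplicit false
set_option synthInstance.maxHeartbeats 400000
set_option maxHeartbeats 400000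

noncomputable section

namespace Fermat.Agent.S18Lib

open ModularCurve Polynomial AlgebraicCurve
open Fermat.Agent.S24Lib

/-- **Steps (2)-(7) of the STAR glue**: from a model `w₀` of `w` over `E₀` and uniformisers in
`F_M^{E₀}` at the zeros and poles of `w` at level `M` to the conclusion of `p1_star_stmt`. -/
theorem ast_of_unif (hmach : as18_machine_stmt) (hnorm : as18_normal_stmt)
    (hconc : as18_concrete_stmt) (huniq : as18_uniq_stmt) (hh2 : h2_stmt) (hh3 : h3_stmt)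
    (ℓ : ℕ) [Fact ℓ.Prime] (A : ValuationSubring (AlgebraicClosure ℚ)) (hA : A.LiesOverPrime ℓ)
    (E₀ : IntermediateField ℚ (AlgebraicClosure ℚ)) [FiniteDimensional ℚ E₀]
    (N M : ℕ) [NeZero N] [NeZero M] (hNM : N ∣ M) (hℓM : ¬ ℓ ∣ M)
    (hbM : (ℓ ≠ 2 ∧ 2 ∣ M) ∨ (ℓ = 2 ∧ 3 ∣ M))
    (m : ℕ) (hm : m.Prime) (hmℓ : m ≠ ℓ)
    (w : ↥(modularFunctionFieldBar N)) (a b : LaurentSeries ↥A)
    (hwab : (w : LaurentSeries (AlgebraicClosure ℚ)) * coeffMap A.subtype b =
      coeffMap A.subtype a)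
    (hab : coeffMap (IsLocalRing.residue ↥A) a = coeffMap (IsLocalRing.residue ↥A) b)
    (hb0 : coeffMap (IsLocalRing.residue ↥A) b ≠ 0)
    (hdiv : ∀ P : Place (AlgebraicClosure ℚ) ↥(modularFunctionFieldBar N), (m : ℤ) ∣ P.ord w)
    (hle : modularFunctionFieldBar N ≤ modularFunctionFieldBar M)
    (w₀ : gr18_F E₀ N)
    (hw₀ : coeffMap (algebraMap E₀ (AlgebraicClosure ℚ)) (w₀ : LaurentSeries E₀) =
      (w : LaurentSeries (AlgebraicClosure ℚ)))
    (hunif : ∀ P : Place Kb (FN M), P.ord (IntermediateField.inclusion hle w) ≠ 0 →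
      ∃ t : gr18_F E₀ M, P.ord (acu3_iota (algebraMap E₀ Kb) M t) = 1) :
    ∃ (c : AlgebraicClosure ℚ) (v : ↥(modularFunctionFieldBar N)),
      w = algebraMap (AlgebraicClosure ℚ) ↥(modularFunctionFieldBar N) c * v ^ m := by
  -- `w ≠ 0`
  have hw0 : w ≠ 0 := by
    rintro rfl
    apply hb0
    have h1 : coeffMap A.subtype a = 0 := by
      rw [← hwab]
      exact zero_mul _
    have h2 : a = 0 := (gr18_io_eq_zero_iff A).mp h1
    rw [← hab, h2, map_zero]
  -- the model at level `M`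
  set wM : gr18_F E₀ M := ⟨(w₀ : LaurentSeries E₀), asb_F_le E₀ hNM w₀.2⟩ with hwM
  have hι : acu3_iota (algebraMap E₀ Kb) M wM = IntermediateField.inclusion hle w := by
    apply Subtype.ext
    rw [acu3_iota_coe, IntermediateField.coe_inclusion]
    exact hw₀
  have hwpow : ∀ W : ValuationSubring (gr18_F E₀ M), W ≠ ⊤ →
      (∀ e : E₀, algebraMap E₀ (gr18_F E₀ M) e ∈ W) →
      ∃ c' u : gr18_F E₀ M, u ∈ W ∧ u⁻¹ ∈ W ∧ wM = u * c' ^ m := by
    intro W hW hE
    refine br18_wpow_of_level N M hle (gr18_F E₀ M) (acu3_iota (algebraMap E₀ Kb) M) m w hw0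
      hdiv wM hι hunif W hW ?_
    intro n _
    have h1 : ((n : ↥(gr18_F E₀ M)))⁻¹ = algebraMap E₀ (gr18_F E₀ M) ((n : E₀)⁻¹) := by
      rw [map_inv₀, map_natCast]
    rw [h1]
    exact hE _
  obtain ⟨c₀, v₀, h⟩ := ast_tail hmach hnorm hconc huniq hh2 hh3 ℓ A hA E₀ N M hℓM hbM m hm hmℓ
    w₀ wM rfl a b (by rw [hw₀]; exact hwab) hab hb0 hwpow
  exact asb_back E₀ N m w₀ v₀ c₀ h w hw₀.symm

end Fermat.Agent.S18Lib
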