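import Fermat.Agent.Lib.S18.AsStarDesc
import Fermat.Agent.Lib.S18.AsStarCong
import Fermat.Agent.Lib.S18.AsIface
import Fermat.Agent.Lib.S18.CgAlgClosed

/-!
# S18 assembly, STAR glue: the tail (helper8, prefix `ast_`)

`ast_tail` : steps (3)-(6) of the STAR glue at finite level.  Given `E₀` finite over `ℚ`,
`w₀ ∈ F_N^{E₀}` whose image over `ℚbar` is `a / b` (`a, b ∈ A((q))`, `red a = red b ≠ 0`) and
which is locally a unit times an `m`-th power at level `M` (`N ∣ M`, `ℓ ∤ M`, `2 ∣ M` for `ℓ` odd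
resp. `3 ∣ M` for `ℓ = 2`), we get `w₀ = c₀ v₀ ^ m` with `v₀ ∈ F_N^{E₀}`.
-/

set_option autoImplicit false
set_option synthInstance.maxHeartbeats 400000
set_option maxHeartbeats 1600000

noncomputable section

namespace Fermat.Agent.S18Lib

open ModularCurve Polynomial

/-- the tail for one pair of good charts. -/
theorem ast_tail_chart (hmach : as18_machine_stmt) (hnorm : as18_normal_stmt)
    (huniq : as18_uniq_stmt)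
    (ℓ : ℕ) [Fact ℓ.Prime] (A : ValuationSubring (AlgebraicClosure ℚ)) (hA : A.LiesOverPrime ℓ)
    (E₀ : IntermediateField ℚ (AlgebraicClosure ℚ)) [FiniteDimensional ℚ E₀]
    (N M : ℕ) [NeZero N] [NeZero M] (hℓM : ¬ ℓ ∣ M)
    (hval : ∀ x : gr18_F E₀ M, x ∈ gr18_VM (gr18_R A E₀) M ∨ x⁻¹ ∈ gr18_VM (gr18_R A E₀) M)
    (π : gr18_R A E₀) (hπ : Irreducible π) (x : gr18_F E₀ M) (cbr cbr' : gr18_R A E₀)
    (hG : (as18_chart A E₀ M hval π x cbr).Good)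
    (hG' : ((as18_chart A E₀ M hval π x cbr).inv cbr').Good)
    (m : ℕ) (hm : m.Prime) (hmℓ : m ≠ ℓ)
    (w₀ : gr18_F E₀ N) (wM : gr18_F E₀ M)
    (hww : (wM : LaurentSeries E₀) = (w₀ : LaurentSeries E₀))
    (hw1 : ∃ v ∈ gr18_VM (gr18_R A E₀) M, wM = 1 + gr18_c E₀ M (π : E₀) * v)
    (hwpow : ∀ W : ValuationSubring (gr18_F E₀ M), W ≠ ⊤ →
      (∀ e : E₀, algebraMap E₀ (gr18_F E₀ M) e ∈ W) →
      ∃ c' u : gr18_F E₀ M, u ∈ W ∧ u⁻¹ ∈ W ∧ wM = u * c' ^ m) :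
    ∃ (c₀ : E₀) (v₀ : gr18_F E₀ N), w₀ = gr18_c E₀ N c₀ * v₀ ^ m := by
  obtain ⟨μ, hμ⟩ := asb_exists_inv_prime ℓ A hA E₀ m hm hmℓ
  have halg : ∀ z : gr18_F E₀ M, IsAlgebraic E₀ z →
      ∃ e : E₀, z = algebraMap E₀ (gr18_F E₀ M) e :=
    fun z hz => cg18_algClosed E₀ M z hz
  have hWD : (as18_chart A E₀ M hval π x cbr).WData m wM := ⟨hm.pos, hw1, hwpow⟩
  obtain ⟨x₀, e₀, hx₀, hxe⟩ := hmach E₀ (gr18_F E₀ M) (as18_chart A E₀ M hval π x cbr) cbr'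
    hG hG' halg m wM hWD ⟨μ, hμ⟩
    (fun n _ hn => hnorm E₀ (gr18_F E₀ M) _ hG n hn)
    (fun n _ hn => hnorm E₀ (gr18_F E₀ M) _ hG' n hn)
  exact asd_descent huniq ℓ A hA E₀ N M hℓM π hπ m hm hmℓ w₀ wM hww x₀ e₀ hx₀ hxe

/-- **Steps (3)-(6) of the STAR glue.** -/
theorem ast_tail (hmach : as18_machine_stmt) (hnorm : as18_normal_stmt)
    (hconc : as18_concrete_stmt) (huniq : as18_uniq_stmt) (hh2 : h2_stmt) (hh3 : h3_stmt)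
    (ℓ : ℕ) [Fact ℓ.Prime] (A : ValuationSubring (AlgebraicClosure ℚ)) (hA : A.LiesOverPrime ℓ)
    (E₀ : IntermediateField ℚ (AlgebraicClosure ℚ)) [FiniteDimensional ℚ E₀]
    (N M : ℕ) [NeZero N] [NeZero M] (hℓM : ¬ ℓ ∣ M)
    (hbM : (ℓ ≠ 2 ∧ 2 ∣ M) ∨ (ℓ = 2 ∧ 3 ∣ M))
    (m : ℕ) (hm : m.Prime) (hmℓ : m ≠ ℓ)
    (w₀ : gr18_F E₀ N) (wM : gr18_F E₀ M)
    (hww : (wM : LaurentSeries E₀) = (w₀ : LaurentSeries E₀))
    (a b : LaurentSeries ↥A)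
    (hwab : coeffMap (algebraMap E₀ (AlgebraicClosure ℚ)) (w₀ : LaurentSeries E₀) *
      coeffMap A.subtype b = coeffMap A.subtype a)
    (hab : coeffMap (IsLocalRing.residue ↥A) a = coeffMap (IsLocalRing.residue ↥A) b)
    (hb0 : coeffMap (IsLocalRing.residue ↥A) b ≠ 0)
    (hwpow : ∀ W : ValuationSubring (gr18_F E₀ M), W ≠ ⊤ →
      (∀ e : E₀, algebraMap E₀ (gr18_F E₀ M) e ∈ W) →
      ∃ c' u : gr18_F E₀ M, u ∈ W ∧ u⁻¹ ∈ W ∧ wM = u * c' ^ m) :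
    ∃ (c₀ : E₀) (v₀ : gr18_F E₀ N), w₀ = gr18_c E₀ N c₀ * v₀ ^ m := by
  have hdvr : IsDiscreteValuationRing (gr18_R A E₀) := (gr18_dvr ℓ A hA E₀).1
  obtain ⟨π, hπ⟩ := asb_exists_irreducible ℓ A hA E₀
  have hval := gr18_val E₀ (gr18_R A E₀) M
  have hw1 := asc_cong ℓ A hA E₀ M π hπ wM a b (by rw [hww]; exact hwab) hab hb0
  rcases hbM with ⟨hℓ2, h2M⟩ | ⟨hℓ2, h3M⟩
  · obtain ⟨cbr, cbr', hcbr, hcbr'⟩ := asb_exists_cbr2 ℓ A hA E₀ hℓ2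
    obtain ⟨hG, hG'⟩ := hconc.1 ℓ A hA hℓ2 E₀ M hℓM h2M hval π hπ
      ⟨coeffEmb E₀ h2_ser, coeffEmb_mem_laurentBaseChange E₀ (hh2.1 M h2M)⟩ rfl
      cbr cbr' hcbr hcbr'
    exact ast_tail_chart hmach hnorm huniq ℓ A hA E₀ N M hℓM hval π hπ _ cbr cbr' hG hG'
      m hm hmℓ w₀ wM hww hw1 hwpow
  · obtain ⟨cbr, cbr', hcbr, hcbr'⟩ := asb_exists_cbr3 ℓ A hA E₀ hℓ2
    obtain ⟨hG, hG'⟩ := hconc.2 ℓ A hA hℓ2 E₀ M hℓM h3M hval π hπ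
      ⟨coeffEmb E₀ h3_ser, coeffEmb_mem_laurentBaseChange E₀ (hh3.1 M h3M)⟩ rfl
      cbr cbr' hcbr hcbr'
    exact ast_tail_chart hmach hnorm huniq ℓ A hA E₀ N M hℓM hval π hπ _ cbr cbr' hG hG'
      m hm hmℓ w₀ wM hww hw1 hwpow

end Fermat.Agent.S18Lib
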