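import Fermat.Agent.Lib.S18.BrStarE
import Fermat.Agent.Lib.S18.AsStarTail
import Fermat.Agent.Lib.S18.P1Iface

/-!
# S18 assembly, STAR glue: second backup of the top level (helper9, prefix `as18k_`)

`as18k_star` : `p1_star_stmt N ℓ A` from the machine, normality, the concrete charts, uniqueness
of the Gauss extension and the `h2` / `h3` membership statements; assembled from
`br18_star_choice` (field of definition, series over `E₀`, local `m`-th power datum at level `M`),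
`ast_tail` (machine + descent at finite level) and `asb_back` (back-transfer).
-/

set_option autoImplicit false
set_option synthInstance.maxHeartbeats 400000

noncomputable section

namespace Fermat.Agent.S18Lib

open ModularCurve

/-- the auxiliary level: `M = 2 N` for `ℓ` odd, `M = 3 N` for `ℓ = 2`. -/
theorem as18k_level (N : ℕ) [NeZero N] (ℓ : ℕ) (hℓ : ℓ.Prime) (hℓN : ¬ ℓ ∣ N) :
    ∃ M : ℕ, M ≠ 0 ∧ N ∣ M ∧ ¬ ℓ ∣ M ∧ ((ℓ ≠ 2 ∧ 2 ∣ M) ∨ (ℓ = 2 ∧ 3 ∣ M)) := by
  have hN : N ≠ 0 := NeZero.ne N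
  by_cases h2 : ℓ = 2
  · refine ⟨3 * N, Nat.mul_ne_zero (by norm_num) hN, Dvd.intro_left 3 rfl, ?_,
      Or.inr ⟨h2, Dvd.intro N rfl⟩⟩
    intro hdvd
    rcases (Nat.Prime.dvd_mul hℓ).mp hdvd with h | h
    · rw [h2] at h
      exact absurd h (by norm_num)
    · exact hℓN h
  · refine ⟨2 * N, Nat.mul_ne_zero (by norm_num) hN, Dvd.intro_left 2 rfl, ?_,
      Or.inl ⟨h2, Dvd.intro N rfl⟩⟩
    intro hdvd
    rcases (Nat.Prime.dvd_mul hℓ).mp hdvd with h | h
    · exact h2 ((Nat.prime_dvd_prime_iff_eq hℓ Nat.prime_two).mp h)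
    · exact hℓN h

/-- `w ≠ 0` in the situation of STAR. -/
theorem as18k_ne_zero (A : ValuationSubring (AlgebraicClosure ℚ)) (w : LaurentSeries (AlgebraicClosure ℚ))
    (a b : LaurentSeries ↥A)
    (hwab : w * coeffMap A.subtype b = coeffMap A.subtype a)
    (hab : coeffMap (IsLocalRing.residue ↥A) a = coeffMap (IsLocalRing.residue ↥A) b)
    (hb0 : coeffMap (IsLocalRing.residue ↥A) b ≠ 0) : w ≠ 0 := by
  rintro rfl
  rw [zero_mul] at hwab
  have ha : a = 0 := by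
    ext k
    have h1 := congrArg (fun s : LaurentSeries (AlgebraicClosure ℚ) => s.coeff k) hwab
    simp only [coeffMap_coeff] at h1
    have h2 : ((a.coeff k : ↥A) : AlgebraicClosure ℚ) = ((0 : ↥A) : AlgebraicClosure ℚ) := h1.symm
    exact h2
  apply hb0
  rw [← hab, ha, map_zero]

/-- **STAR** (second backup of the top-level assembly). -/
theorem as18k_star (hmach : as18_machine_stmt) (hnorm : as18_normal_stmt)
    (hconc : as18_concrete_stmt) (huniq : as18_uniq_stmt) (hh2 : h2_stmt) (hh3 : h3_stmt)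
    (N : ℕ) [NeZero N] (ℓ : ℕ) [Fact ℓ.Prime] (hℓN : ¬ ℓ ∣ N)
    (A : ValuationSubring (AlgebraicClosure ℚ)) (hA : A.LiesOverPrime ℓ) :
    p1_star_stmt N ℓ A := by
  intro m hm hmℓ w a b _ _ hwab hab hb0 _ hdiv
  have hw : w ≠ 0 := by
    intro h0
    exact as18k_ne_zero A (w : LaurentSeries (AlgebraicClosure ℚ)) a b hwab hab hb0
      (by rw [h0]; rfl)
  obtain ⟨M, hM0, hNM, hℓM, hbM⟩ := as18k_level N ℓ (Fact.out : ℓ.Prime) hℓN
  have : NeZero M := ⟨hM0⟩
  obtain ⟨E₀, hfin, -, w₀, w₁, hw₀, hw₁, hwpow⟩ := br18_star_choice N M hNM m w hw hdiv ∅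
  have := hfin
  obtain ⟨c₀, v₀, h⟩ := ast_tail hmach hnorm hconc huniq hh2 hh3 ℓ A hA E₀ N M hℓM hbM m hm hmℓ
    w₀ w₁ hw₁ a b (by rw [hw₀]; exact hwab) hab hb0 hwpow
  exact asb_back E₀ N m w₀ v₀ c₀ h w hw₀.symm

end Fermat.Agent.S18Lib
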