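import Fermat.Agent.Lib.S18.BrStar
import Fermat.Agent.Lib.S18.CgUnion
import Fermat.Agent.Lib.S18.AsStarBack

/-!
# S18 library, chunk Br: step (1) of the STAR glue (choice of `E₀`, uniformisers, `wpow`)

`br18_star_choice` : for `N ∣ M` and `w ≠ 0` at level `N` over `ℚbar` with all orders divisible
by `m`, there is a number field `E₀` (containing any prescribed finite set of constants) over
which `w` is defined at level `N`, and such that its image `w₁` at level `M` satisfies the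
`wpow` condition of a chart: in every valuation subring `W ≠ ⊤` of `F_M^{E₀}` containing `E₀`,
`w₁ = unit * m-th power`.
-/

set_option autoImplicit false
set_option synthInstance.maxHeartbeats 400000

namespace Fermat.Agent.S18Lib

open ModularCurve

/-- the coefficient embedding `F_M^{E₀} → F_M^{ℚbar}`. -/
noncomputable def br18_iotaE (E₀ : IntermediateField ℚ (AlgebraicClosure ℚ)) (M : ℕ) :
    gr18_F E₀ M →+* ↥(modularFunctionFieldBar M) :=
  ((coeffMap (algebraMap E₀ (AlgebraicClosure ℚ))).comp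
    (algebraMap (gr18_F E₀ M) (LaurentSeries E₀))).codRestrict (modularFunctionFieldBar M)
    (fun y => cg18_mono_gen _ _ y.2)

theorem br18_iotaE_coe (E₀ : IntermediateField ℚ (AlgebraicClosure ℚ)) (M : ℕ)
    (y : gr18_F E₀ M) :
    ((br18_iotaE E₀ M y : ↥(modularFunctionFieldBar M)) : LaurentSeries (AlgebraicClosure ℚ))
      = coeffMap (algebraMap E₀ (AlgebraicClosure ℚ)) (y : LaurentSeries E₀) := rfl

/-- a valuation subring containing the constants contains the inverses of the integers. -/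
theorem br18_natCast_inv_mem {E FE : Type*} [Field E] [Field FE] [Algebra E FE]
    (W : ValuationSubring FE) (hE : ∀ e : E, algebraMap E FE e ∈ W) (n : ℕ) :
    ((n : FE))⁻¹ ∈ W := by
  have h1 : ((n : FE))⁻¹ = algebraMap E FE ((n : E)⁻¹) := by
    rw [map_inv₀, map_natCast]
  rw [h1]
  exact hE _

/-- `F_N^{ℚbar} ≤ F_M^{ℚbar}` for `N ∣ M`. -/
theorem br18_le_of_dvd {N M : ℕ} [NeZero N] [NeZero M] (hNM : N ∣ M) :
    modularFunctionFieldBar N ≤ modularFunctionFieldBar M :=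
  asb_F_le (AlgebraicClosure ℚ) hNM

theorem br18_iotaE_eq_incl {N M : ℕ}
    (hle : modularFunctionFieldBar N ≤ modularFunctionFieldBar M)
    (w : ↥(modularFunctionFieldBar N))
    (E₀ : IntermediateField ℚ (AlgebraicClosure ℚ)) (w₁ : gr18_F E₀ M)
    (hw₁ : coeffMap (algebraMap E₀ (AlgebraicClosure ℚ)) (w₁ : LaurentSeries E₀)
      = (w : LaurentSeries (AlgebraicClosure ℚ))) :
    br18_iotaE E₀ M w₁ = IntermediateField.inclusion hle w := by
  apply Subtype.ext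
  rw [IntermediateField.coe_inclusion, br18_iotaE_coe, hw₁]

/-- `wpow` at level `M` over a field of definition `E₀` of `w` and of uniformisers. -/
theorem br18_wpow_E (N M : ℕ) [NeZero N] [NeZero M]
    (hle : modularFunctionFieldBar N ≤ modularFunctionFieldBar M) (m : ℕ)
    (w : ↥(modularFunctionFieldBar N)) (hw : w ≠ 0)
    (hdiv : ∀ P : AlgebraicCurve.Place (AlgebraicClosure ℚ) ↥(modularFunctionFieldBar N),
      (m : ℤ) ∣ P.ord w)
    (E₀ : IntermediateField ℚ (AlgebraicClosure ℚ)) (w₁ : gr18_F E₀ M)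
    (hw₁ : coeffMap (algebraMap E₀ (AlgebraicClosure ℚ)) (w₁ : LaurentSeries E₀)
      = (w : LaurentSeries (AlgebraicClosure ℚ)))
    (hunif : ∀ P : AlgebraicCurve.Place (AlgebraicClosure ℚ) ↥(modularFunctionFieldBar M),
      P.ord (IntermediateField.inclusion hle w) ≠ 0 →
      ∃ t : gr18_F E₀ M, P.ord (br18_iotaE E₀ M t) = 1) :
    ∀ W : ValuationSubring (gr18_F E₀ M), W ≠ ⊤ →
      (∀ e : E₀, algebraMap E₀ (gr18_F E₀ M) e ∈ W) →
      ∃ c u : gr18_F E₀ M, u ∈ W ∧ u⁻¹ ∈ W ∧ w₁ = u * c ^ m := by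
  intro W hW hE
  exact br18_wpow_of_level N M hle (gr18_F E₀ M) (br18_iotaE E₀ M) m w hw hdiv
    w₁ (br18_iotaE_eq_incl hle w E₀ w₁ hw₁) hunif W hW
    (fun n _ => br18_natCast_inv_mem W hE n)

/-- **Step (1) of the STAR glue.** -/
theorem br18_star_choice (N M : ℕ) [NeZero N] [NeZero M] (hNM : N ∣ M) (m : ℕ)
    (w : ↥(modularFunctionFieldBar N)) (hw : w ≠ 0)
    (hdiv : ∀ P : AlgebraicCurve.Place (AlgebraicClosure ℚ) ↥(modularFunctionFieldBar N),
      (m : ℤ) ∣ P.ord w)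
    (t : Finset (AlgebraicClosure ℚ)) :
    ∃ E₀ : IntermediateField ℚ (AlgebraicClosure ℚ), FiniteDimensional ℚ E₀ ∧
      (∀ c ∈ t, c ∈ E₀) ∧
      ∃ (w₀ : gr18_F E₀ N) (w₁ : gr18_F E₀ M),
        coeffMap (algebraMap E₀ (AlgebraicClosure ℚ)) (w₀ : LaurentSeries E₀)
          = (w : LaurentSeries (AlgebraicClosure ℚ)) ∧
        (w₁ : LaurentSeries E₀) = (w₀ : LaurentSeries E₀) ∧
        ∀ W : ValuationSubring (gr18_F E₀ M), W ≠ ⊤ →
          (∀ e : E₀, algebraMap E₀ (gr18_F E₀ M) e ∈ W) →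
          ∃ c u : gr18_F E₀ M, u ∈ W ∧ u⁻¹ ∈ W ∧ w₁ = u * c ^ m := by
  classical
  have hle : modularFunctionFieldBar N ≤ modularFunctionFieldBar M := br18_le_of_dvd hNM
  have hw' : IntermediateField.inclusion hle w ≠ 0 :=
    (map_ne_zero (IntermediateField.inclusion hle)).mpr hw
  obtain ⟨s, hs⟩ := br18_unif_finset M (IntermediateField.inclusion hle w) hw'
  -- a field of definition at level `M` for the uniformisers, at level `N` for `w`
  obtain ⟨E₁, hE₁, htE₁, hsE₁⟩ := cg18_union M (s.image Subtype.val) t (by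
    intro x hx
    obtain ⟨y, -, rfl⟩ := Finset.mem_image.mp hx
    exact y.2)
  obtain ⟨E₂, hE₂, hwE₂⟩ := cg18_exists_defOver N w.2
  have hfin : FiniteDimensional ℚ (E₁ ⊔ E₂ : IntermediateField ℚ (AlgebraicClosure ℚ)) :=
    IntermediateField.finiteDimensional_sup E₁ E₂
  refine ⟨E₁ ⊔ E₂, hfin, fun c hc => (le_sup_left : E₁ ≤ E₁ ⊔ E₂) (htE₁ c hc), ?_⟩
  obtain ⟨y₀, hy₀, hy₀w⟩ := cg18_defOver_mono (le_sup_right : E₂ ≤ E₁ ⊔ E₂) hwE₂
  refine ⟨⟨y₀, hy₀⟩, ⟨y₀, asb_F_le _ hNM hy₀⟩, hy₀w, rfl, ?_⟩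
  refine br18_wpow_E N M hle m w hw hdiv _ _ hy₀w ?_
  intro P hP
  obtain ⟨u, hus, hu⟩ := hs P hP
  obtain ⟨y, hy, hyu⟩ := cg18_defOver_mono (le_sup_left : E₁ ≤ E₁ ⊔ E₂)
    (hsE₁ (u : LaurentSeries (AlgebraicClosure ℚ)) (Finset.mem_image.mpr ⟨u, hus, rfl⟩))
  refine ⟨⟨y, hy⟩, ?_⟩
  have : br18_iotaE _ M ⟨y, hy⟩ = u := Subtype.ext (by rw [br18_iotaE_coe]; exact hyu)
  rw [this]
  exact hu

end Fermat.Agent.S18Lib
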