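import Fermat.Agent.Lib.S18.AsStarTail
import Fermat.Agent.Lib.S18.BrStarE
import Fermat.Agent.Lib.S18.P1Iface

/-!
# S18 assembly: STAR from the finite-level pieces (lead)

`as18_starL : p1_star_stmt N ℓ A` from helper9's `br18_star_choice` (choice of `E₀`, `w₀`, local
`m`-th power structure at level `M`), helper8's `ast_tail` (machine + descent) and `asb_back`.
-/

set_option autoImplicit false
set_option linter.style.haveILetI false

namespace Fermat.Agent.S18Lib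

open ModularCurve

/-- level bookkeeping: `M = 2 N` (`ℓ` odd) resp. `M = 3 N` (`ℓ = 2`). -/
theorem as18l_level (ℓ N : ℕ) [Fact ℓ.Prime] [NeZero N] (hℓN : ¬ ℓ ∣ N) :
    ∃ M : ℕ, M ≠ 0 ∧ N ∣ M ∧ ¬ ℓ ∣ M ∧ ((ℓ ≠ 2 ∧ 2 ∣ M) ∨ (ℓ = 2 ∧ 3 ∣ M)) := by
  have hℓ : ℓ.Prime := Fact.out
  have hN : N ≠ 0 := NeZero.ne N
  by_cases h2 : ℓ = 2
  · refine ⟨3 * N, by omega, Dvd.intro_left 3 rfl, ?_, Or.inr ⟨h2, Dvd.intro N rfl⟩⟩
    intro hd
    rcases (Nat.Prime.dvd_mul hℓ).mp hd with h | h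
    · rw [h2] at h; omega
    · exact hℓN h
  · refine ⟨2 * N, by omega, Dvd.intro_left 2 rfl, ?_, Or.inl ⟨h2, Dvd.intro N rfl⟩⟩
    intro hd
    rcases (Nat.Prime.dvd_mul hℓ).mp hd with h | h
    · exact h2 ((Nat.prime_dvd_prime_iff_eq hℓ Nat.prime_two).mp h)
    · exact hℓN h

/-- **STAR** at level `N`. -/
theorem as18_starL (hmach : as18_machine_stmt) (hnorm : as18_normal_stmt)
    (hconc : as18_concrete_stmt) (huniq : as18_uniq_stmt) (hh2 : h2_stmt) (hh3 : h3_stmt)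
    (N : ℕ) [NeZero N] (ℓ : ℕ) [Fact ℓ.Prime] (hℓN : ¬ ℓ ∣ N)
    (A : ValuationSubring (AlgebraicClosure ℚ)) (hA : A.LiesOverPrime ℓ) :
    p1_star_stmt N ℓ A := by
  intro m hm hmℓ w a b _ _ hwab hab hb0 _ hdiv
  have hw : w ≠ 0 := by
    rintro rfl
    apply hb0
    rw [← hab]
    have h0 : coeffMap A.subtype a = 0 := by
      rw [← hwab]; simp
    have ha0 : a = 0 := by
      ext k
      have := congrArg (fun s : LaurentSeries (AlgebraicClosure ℚ) => s.coeff k) h0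
      simp only [coeffMap_coeff] at this
      simpa using this
    rw [ha0, map_zero]
  obtain ⟨M, hM0, hNM, hℓM, hbM⟩ := as18l_level ℓ N hℓN
  haveI : NeZero M := ⟨hM0⟩
  obtain ⟨E₀, hfin, -, w₀, w₁, hw₀, hw₁, hwpow⟩ := br18_star_choice N M hNM m w hw hdiv ∅
  haveI := hfin
  obtain ⟨c₀, v₀, h0⟩ := ast_tail hmach hnorm hconc huniq hh2 hh3 ℓ A hA E₀ N M hℓM hbM m hm hmℓ
    w₀ w₁ hw₁ a b (by rw [hw₀]; exact hwab) hab hb0 hwpow
  exact asb_back E₀ N m w₀ v₀ c₀ h0 w hw₀.symm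

end Fermat.Agent.S18Lib
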