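import Fermat.Agent.Lib.S18.BrStar
import Fermat.Agent.Lib.S18.AsConcUnr2

/-!
# S18 assembly, STAR glue: the auxiliary level and the `wpow` hypothesis (helper6)

* `asl18_level` : an auxiliary level `M` (`N ∣ M`, `ℓ ∤ M`, `2 ∣ M` resp. `3 ∣ M`);
* `asl18_wpow`  : the `wpow` hypothesis of the chart at level `M` over `E₀` from divisibility of
  the orders at level `N` (`br18_wpow_of_level` with `ι := acu2_iota E₀ M`).
-/

set_option autoImplicit false
set_option synthInstance.maxHeartbeats 400000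
set_option maxHeartbeats 1600000

namespace Fermat.Agent.S18Lib

open AlgebraicCurve ModularCurve IntermediateField
open Fermat.Agent.S24Lib

theorem asl18_level (ℓ N : ℕ) [Fact ℓ.Prime] [NeZero N] (hℓN : ¬ ℓ ∣ N) :
    ∃ M : ℕ, M ≠ 0 ∧ N ∣ M ∧ ¬ ℓ ∣ M ∧ ((ℓ ≠ 2 ∧ 2 ∣ M) ∨ (ℓ = 2 ∧ 3 ∣ M)) := by
  have hℓ := (Fact.out : ℓ.Prime)
  by_cases h2 : ℓ = 2
  · refine ⟨3 * N, mul_ne_zero (by norm_num) (NeZero.ne N), dvd_mul_left _ _, ?_,
      Or.inr ⟨h2, dvd_mul_right _ _⟩⟩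
    intro hd
    rcases (Nat.Prime.dvd_mul hℓ).mp hd with h | h
    · rw [h2] at h
      norm_num at h
    · exact hℓN h
  · refine ⟨2 * N, mul_ne_zero two_ne_zero (NeZero.ne N), dvd_mul_left _ _, ?_,
      Or.inl ⟨h2, dvd_mul_right _ _⟩⟩
    intro hd
    rcases (Nat.Prime.dvd_mul hℓ).mp hd with h | h
    · exact h2 ((Nat.prime_dvd_prime_iff_eq hℓ Nat.prime_two).mp h)
    · exact hℓN h

theorem asl18_wpow (N M : ℕ) [NeZero N] [NeZero M]
    (hle : modularFunctionFieldBar N ≤ modularFunctionFieldBar M)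
    (E₀ : IntermediateField ℚ (AlgebraicClosure ℚ)) (m : ℕ) (w : FN N) (hw : w ≠ 0)
    (hdiv : ∀ P : Place Kb (FN N), (m : ℤ) ∣ P.ord w)
    (wM : gr18_F E₀ M) (hwM : acu2_iota E₀ M wM = IntermediateField.inclusion hle w)
    (hunif : ∀ P : Place Kb (FN M), P.ord (IntermediateField.inclusion hle w) ≠ 0 →
      ∃ t : gr18_F E₀ M, P.ord (acu2_iota E₀ M t) = 1) :
    ∀ W : ValuationSubring (gr18_F E₀ M), W ≠ ⊤ →
      (∀ e : E₀, algebraMap E₀ (gr18_F E₀ M) e ∈ W) →
      ∃ c' u : gr18_F E₀ M, u ∈ W ∧ u⁻¹ ∈ W ∧ wM = u * c' ^ m := by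
  intro W hW hE
  refine br18_wpow_of_level N M hle (gr18_F E₀ M) (acu2_iota E₀ M) m w hw hdiv wM hwM hunif
    W hW ?_
  intro n _
  have h1 : ((n : gr18_F E₀ M))⁻¹ = algebraMap E₀ (gr18_F E₀ M) ((n : E₀)⁻¹) := by
    rw [map_inv₀, map_natCast]
  rw [h1]
  exact hE _

/-- `F_N^K ≤ F_M^K` for `N ∣ M`. -/
theorem asl18_le {N M : ℕ} [NeZero N] [NeZero M] (h : N ∣ M) :
    modularFunctionFieldBar N ≤ modularFunctionFieldBar M := by
  show laurentBaseChange (AlgebraicClosure ℚ) (modularFunctionFieldFull N) ≤ _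
  rw [laurentBaseChange, IntermediateField.adjoin_le_iff]
  rintro _ ⟨y, hy, rfl⟩
  exact coeffEmb_mem_laurentBaseChange _ (full_degeneracy_le h hy)

/-- compatibility of the base change `acu2_iota` with the level inclusion.
(`IntermediateField.coe_inclusion` is used as a lemma: asking the kernel to check it by `rfl`
at the concrete fields is extremely slow.) -/
theorem asl18_compat (N M : ℕ) [NeZero N] [NeZero M]
    (hle : modularFunctionFieldBar N ≤ modularFunctionFieldBar M)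
    (E₀ : IntermediateField ℚ (AlgebraicClosure ℚ)) (w : FN N) (w₀ : gr18_F E₀ N)
    (hw₀ : coeffMap (algebraMap E₀ (AlgebraicClosure ℚ)) (w₀ : LaurentSeries E₀)
      = (w : LaurentSeries Kb))
    (wM : gr18_F E₀ M) (hwM : (wM : LaurentSeries E₀) = (w₀ : LaurentSeries E₀)) :
    acu2_iota E₀ M wM = IntermediateField.inclusion hle w := by
  have h1 : ((acu2_iota E₀ M wM : FN M) : LaurentSeries Kb) = (w : LaurentSeries Kb) := by
    rw [acu2_iota_coe, hwM, hw₀]
  have h2 : ((IntermediateField.inclusion hle w : FN M) : LaurentSeries Kb)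
      = (w : LaurentSeries Kb) := IntermediateField.coe_inclusion hle w
  exact Subtype.ext (h1.trans h2.symm)

/-- the `wpow` hypothesis at level `M`, in terms of a model `w₀` of `w` over `E₀`. -/
theorem asl18_wpow' (N M : ℕ) [NeZero N] [NeZero M]
    (hle : modularFunctionFieldBar N ≤ modularFunctionFieldBar M)
    (E₀ : IntermediateField ℚ (AlgebraicClosure ℚ)) (m : ℕ) (w : FN N) (hw : w ≠ 0)
    (hdiv : ∀ P : Place Kb (FN N), (m : ℤ) ∣ P.ord w) (w₀ : gr18_F E₀ N)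
    (hw₀ : coeffMap (algebraMap E₀ (AlgebraicClosure ℚ)) (w₀ : LaurentSeries E₀)
      = (w : LaurentSeries Kb))
    (wM : gr18_F E₀ M) (hwM : (wM : LaurentSeries E₀) = (w₀ : LaurentSeries E₀))
    (hunif : ∀ P : Place Kb (FN M), P.ord (IntermediateField.inclusion hle w) ≠ 0 →
      ∃ t : gr18_F E₀ M, P.ord (acu2_iota E₀ M t) = 1) :
    ∀ W : ValuationSubring (gr18_F E₀ M), W ≠ ⊤ →
      (∀ e : E₀, algebraMap E₀ (gr18_F E₀ M) e ∈ W) →
      ∃ c' u : gr18_F E₀ M, u ∈ W ∧ u⁻¹ ∈ W ∧ wM = u * c' ^ m :=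
  asl18_wpow N M hle E₀ m w hw hdiv wM (asl18_compat N M hle E₀ w w₀ hw₀ wM hwM) hunif

/-- `w ≠ 0` from the quotient presentation with nonzero reduction. -/
theorem asl18_ne_zero {N : ℕ} (A : ValuationSubring (AlgebraicClosure ℚ)) (w : FN N)
    (a b : LaurentSeries ↥A)
    (hw : (w : LaurentSeries Kb) * coeffMap A.subtype b = coeffMap A.subtype a)
    (hab : coeffMap (IsLocalRing.residue ↥A) a = coeffMap (IsLocalRing.residue ↥A) b)
    (hb : coeffMap (IsLocalRing.residue ↥A) b ≠ 0) : w ≠ 0 := by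
  rintro rfl
  apply hb
  rw [← hab]
  have h0 : coeffMap A.subtype a = 0 := by
    rw [← hw]
    simp
  have ha : a = 0 := by
    ext n
    have h1 := congrArg (fun s : LaurentSeries (AlgebraicClosure ℚ) => s.coeff n) h0
    simp only [coeffMap_coeff, HahnSeries.coeff_zero] at h1
    rw [HahnSeries.coeff_zero]
    exact h1
  rw [ha, map_zero]

end Fermat.Agent.S18Lib
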