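import Fermat.Agent.Lib.S18.BrStar
import Fermat.Agent.Lib.S18.AsConcUnr3
import Fermat.Agent.Lib.S18.GrIface

/-!
# S18 STAR glue: the `wpow` datum at level `M` over `E₀` (prefix `asq_`)
-/

set_option autoImplicit false
set_option synthInstance.maxHeartbeats 400000
set_option maxHeartbeats 1600000

namespace Fermat.Agent.S18Lib

open AlgebraicCurve ModularCurve
open Fermat.Agent.S24Lib

/-- generic form of the `wpow` datum (any field of constants `E` with `φ : E →+* ℚbar`). -/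
theorem asq_wpow_gen {E : Type} [Field E] [Algebra ℚ E] (φ : E →+* Kb)
    (N M : ℕ) [NeZero N] [NeZero M]
    (hle : modularFunctionFieldBar N ≤ modularFunctionFieldBar M)
    (m : ℕ) (w : FN N) (hw : w ≠ 0)
    (hdiv : ∀ P : Place Kb (FN N), (m : ℤ) ∣ P.ord w)
    (wM : gr18_F E M)
    (hwM : coeffMap φ (wM : LaurentSeries E) = (w : LaurentSeries Kb))
    (hunif : ∀ P : Place Kb (FN M), P.ord (IntermediateField.inclusion hle w) ≠ 0 →
      ∃ t : gr18_F E M, P.ord (acu3_iota φ M t) = 1)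
    (W : ValuationSubring (gr18_F E M)) (hW : W ≠ ⊤)
    (hE : ∀ e : E, algebraMap E (gr18_F E M) e ∈ W) :
    ∃ c' u : gr18_F E M, u ∈ W ∧ u⁻¹ ∈ W ∧ wM = u * c' ^ m := by
  have hι : acu3_iota φ M wM = IntermediateField.inclusion hle w := by
    apply Subtype.ext
    rw [acu3_iota_coe, IntermediateField.coe_inclusion]
    exact hwM
  refine br18_wpow_of_level N M hle (gr18_F E M) (acu3_iota φ M) m w hw hdiv wM hι hunif W hW ?_
  intro n _
  have h1 : ((n : gr18_F E M))⁻¹ = algebraMap E (gr18_F E M) ((n : E)⁻¹) := by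
    rw [map_inv₀, map_natCast]
  rw [h1]
  exact hE _

/-- the `wpow` datum of the concrete chart at level `M` over `E₀` (the hypothesis `hwpow` of
`ast_tail`, verbatim). -/
theorem asq_wpow (E₀ : IntermediateField ℚ (AlgebraicClosure ℚ)) (N M : ℕ) [NeZero N] [NeZero M]
    (hle : modularFunctionFieldBar N ≤ modularFunctionFieldBar M)
    (m : ℕ) (w : FN N) (hw : w ≠ 0)
    (hdiv : ∀ P : Place Kb (FN N), (m : ℤ) ∣ P.ord w)
    (wM : gr18_F E₀ M)
    (hwM : coeffMap (algebraMap E₀ Kb) (wM : LaurentSeries E₀) = (w : LaurentSeries Kb))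
    (hunif : ∀ P : Place Kb (FN M), P.ord (IntermediateField.inclusion hle w) ≠ 0 →
      ∃ t : gr18_F E₀ M, P.ord (acu3_iota (algebraMap E₀ Kb) M t) = 1) :
    ∀ W : ValuationSubring (gr18_F E₀ M), W ≠ ⊤ →
      (∀ e : E₀, algebraMap E₀ (gr18_F E₀ M) e ∈ W) →
      ∃ c' u : gr18_F E₀ M, u ∈ W ∧ u⁻¹ ∈ W ∧ wM = u * c' ^ m :=
  fun W hW hE => asq_wpow_gen (algebraMap E₀ Kb) N M hle m w hw hdiv wM hwM hunif W hW hE

end Fermat.Agent.S18Lib
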