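import Fermat.Agent.Lib.S18.AsIface

/-!
# S18 assembly: the unramifiedness hypothesis of `na_stmt` on a good chart (helper6)

`as18_unr : as18_unr_stmt`.
-/

set_option autoImplicit false
set_option linter.style.haveILetI false

open Polynomial

namespace Fermat.Agent.S18Lib

variable {E F : Type} [Field E] [Field F] [Algebra E F] {c : As18Chart E F}

/-- `ev` with values in `c.S n` (prime `n`). -/
noncomputable def as18u_e (c : As18Chart E F) (n : Ideal (Polynomial c.R)) [n.IsPrime] :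
    Polynomial c.R →+* c.S n :=
  c.ev.codRestrict (c.S n) (c.ev_mem_S n)

theorem as18u_e_coe (n : Ideal (Polynomial c.R)) [n.IsPrime] (p : Polynomial c.R) :
    ((as18u_e c n p : c.S n) : F) = c.ev p := rfl

theorem as18u_isUnit_e (hc : c.Good) (n : Ideal (Polynomial c.R)) [n.IsPrime]
    {q : Polynomial c.R} (hq : q ∉ n) : IsUnit (as18u_e c n q) := by
  have hq0 : c.ev q ≠ 0 := hc.ev_ne_zero (fun h0 => hq (by rw [h0]; exact n.zero_mem))
  have hinv : (c.ev q)⁻¹ ∈ c.S n := ⟨1, q, hq, by rw [inv_mul_cancel₀ hq0, map_one]⟩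
  refine isUnit_iff_exists_inv.mpr ⟨⟨_, hinv⟩, ?_⟩
  apply Subtype.ext
  show c.ev q * (c.ev q)⁻¹ = 1
  exact mul_inv_cancel₀ hq0

theorem as18u_inv_mem_S (hc : c.Good) (n : Ideal (Polynomial c.R)) [n.IsPrime]
    {q : Polynomial c.R} (hq : q ∉ n) : (c.ev q)⁻¹ ∈ c.S n := by
  have hq0 : c.ev q ≠ 0 := hc.ev_ne_zero (fun h0 => hq (by rw [h0]; exact n.zero_mem))
  exact ⟨1, q, hq, by rw [inv_mul_cancel₀ hq0, map_one]⟩

/-- `c.S n` is the localisation of `R[X]` at the prime `n`. -/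
theorem as18u_isLocalization (hc : c.Good) (n : Ideal (Polynomial c.R)) [n.IsPrime] :
    @IsLocalization.AtPrime _ _ (c.S n) _ (as18u_e c n).toAlgebra n _ := by
  letI := (as18u_e c n).toAlgebra
  refine ⟨?_, ?_, ?_⟩
  · rintro ⟨q, hq⟩
    exact as18u_isUnit_e hc n hq
  · rintro ⟨z, p, q, hq, h⟩
    refine ⟨(p, ⟨q, hq⟩), ?_⟩
    apply Subtype.ext
    exact h
  · intro p p' h
    have h' : c.ev p = c.ev p' := congrArg Subtype.val h
    exact ⟨1, by rw [hc.inj h']⟩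

/-- clearing denominators at a prime `n`. -/
theorem as18u_exists_mul_mem_O (hc : c.Good) (n : Ideal (Polynomial c.R)) [n.IsPrime] {z : F}
    (hz : z ∈ c.B n) : ∃ q : Polynomial c.R, q ∉ n ∧ c.ev q * z ∈ c.O := by
  letI := (as18u_e c n).toAlgebra
  haveI := as18u_isLocalization hc n
  letI : Algebra (Polynomial c.R) F := c.ev.toAlgebra
  haveI : IsScalarTower (Polynomial c.R) (c.S n) F := IsScalarTower.of_algebraMap_eq (fun _ => rfl)
  obtain ⟨⟨q, hq⟩, hint⟩ := IsIntegral.exists_multiple_integral_of_isLocalization n.primeCompl z hz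
  refine ⟨q, hq, ?_⟩
  obtain ⟨P, hP, hPz⟩ := hint
  rw [c.mem_O_iff]
  refine ⟨P.map c.ev.rangeRestrict, hP.map _, ?_⟩
  rw [Polynomial.eval₂_map]
  exact hPz

/-- a prime of `c.S n` is associated to the image of a prime polynomial. -/
theorem as18u_exists_prime (hc : c.Good) (n : Ideal (Polynomial c.R)) [n.IsPrime]
    (ρ : c.S n) (hρ : Prime ρ) :
    ∃ q₀ : Polynomial c.R, Prime q₀ ∧ Associated ρ (as18u_e c n q₀) := by
  haveI := hc.dvr
  have key : ∀ p : Polynomial c.R, p ≠ 0 → ρ ∣ as18u_e c n p →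
      ∃ q₀ : Polynomial c.R, Prime q₀ ∧ q₀ ∣ p ∧ ρ ∣ as18u_e c n q₀ := by
    intro p
    induction p using UniqueFactorizationMonoid.induction_on_prime with
    | h₁ => intro h; exact absurd rfl h
    | h₂ x hx =>
      intro _ hdvd
      exact absurd (isUnit_of_dvd_unit hdvd (hx.map (as18u_e c n))) hρ.not_isUnit
    | h₃ a q ha hq ih =>
      intro _ hdvd
      rw [map_mul] at hdvd
      rcases hρ.dvd_or_dvd hdvd with h1 | h1
      · exact ⟨q, hq, dvd_mul_right _ _, h1⟩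
      · obtain ⟨q₀, hq₀, hd, hρd⟩ := ih ha h1
        exact ⟨q₀, hq₀, hd.mul_left _, hρd⟩
  obtain ⟨p, r, hr, h⟩ := ρ.2
  have hr0 : c.ev r ≠ 0 := hc.ev_ne_zero (fun h0 => hr (by rw [h0]; exact n.zero_mem))
  have hρ0 : (ρ : F) ≠ 0 := fun h0 => hρ.ne_zero (Subtype.ext h0)
  have hp0 : p ≠ 0 := by
    rintro rfl
    rw [map_zero] at h
    exact mul_ne_zero hρ0 hr0 h
  have hpe : as18u_e c n p = ρ * as18u_e c n r := Subtype.ext h.symm
  obtain ⟨q₀, hq₀, hd, hρd⟩ := key p hp0 ⟨_, hpe⟩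
  refine ⟨q₀, hq₀, associated_of_dvd_dvd hρd ?_⟩
  have h1 : as18u_e c n q₀ ∣ ρ * as18u_e c n r := hpe ▸ map_dvd (as18u_e c n) hd
  exact ((as18u_isUnit_e hc n hr).dvd_mul_right).mp h1

/-- the core: at the height-one prime `(q₀)` (with `q₀` of positive degree, not vanishing at `0`
and at the branch value) the integral closure is unramified. -/
theorem as18u_core (hc : c.Good) (q₀ : Polynomial c.R) (hq₀ : Prime q₀)
    (hdeg : q₀.natDegree ≠ 0) (h0 : q₀.eval 0 ≠ 0) (hcbr : q₀.eval c.cbr ≠ 0)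
    [hq : (Ideal.span {q₀} : Ideal (Polynomial c.R)).IsPrime]
    (z b : F) (hz : z ∈ c.B (Ideal.span {q₀})) (hb : b ∈ c.B (Ideal.span {q₀}))
    (hzb : z ^ 2 = c.ev q₀ * b) :
    z / c.ev q₀ ∈ c.B (Ideal.span {q₀}) := by
  haveI := hc.dvr
  by_contra hy
  have hy' : z / c.ev q₀ ∉ (integralClosure (c.S (Ideal.span {q₀})) F).toSubring := hy
  obtain ⟨W, hBW, hyW⟩ := Subring.exists_le_valuationSubring_of_isIntegrallyClosedIn hy'
  have hSW : c.S (Ideal.span {q₀}) ≤ W.toSubring := fun w hw =>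
    hBW ((integralClosure (c.S (Ideal.span {q₀})) F).algebraMap_mem ⟨w, hw⟩)
  have hq₀0 : c.ev q₀ ≠ 0 := hc.ev_ne_zero hq₀.ne_zero
  -- constants
  have hE : ∀ e : E, algebraMap E F e ∈ W := by
    intro e
    rcases c.R.mem_or_inv_mem e with he | he
    · have h1 := c.ev_mem_S (Ideal.span {q₀}) (C (⟨e, he⟩ : c.R))
      rw [c.ev_C] at h1
      exact hSW h1
    · by_cases he0 : e = 0
      · rw [he0, map_zero]; exact W.zero_mem
      · have hr0 : (⟨e⁻¹, he⟩ : c.R) ≠ 0 := fun h => inv_ne_zero he0 (congrArg Subtype.val h)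
        have hCr : C (⟨e⁻¹, he⟩ : c.R) ∉ (Ideal.span {q₀} : Ideal (Polynomial c.R)) := by
          rw [Ideal.mem_span_singleton]
          intro hd
          have h1 := Polynomial.natDegree_le_of_dvd hd (C_ne_zero.mpr hr0)
          rw [natDegree_C] at h1
          omega
        have h2 := as18u_inv_mem_S hc (Ideal.span {q₀}) hCr
        rw [c.ev_C, c.cst_apply, ← map_inv₀] at h2
        have h3 : ((⟨e⁻¹, he⟩ : c.R) : E)⁻¹ = e := inv_inv e
        rw [h3] at h2
        exact hSW h2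
  have hx : c.x ∈ W := by
    have h1 := c.ev_mem_S (Ideal.span {q₀}) X
    rw [c.ev_X] at h1
    exact hSW h1
  have hW : W ≠ ⊤ := by
    rintro rfl
    exact hyW (ValuationSubring.mem_top _)
  -- the polynomial over `E`
  have hprim : q₀.IsPrimitive := hq₀.irreducible.isPrimitive hdeg
  have hfirr : Irreducible (q₀.map (algebraMap c.R E)) :=
    (hprim.irreducible_iff_irreducible_map_fraction_map (K := E)).mp hq₀.irreducible
  have hfev : Polynomial.aeval c.x (q₀.map (algebraMap c.R E)) = c.ev q₀ :=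
    (c.ev_eq_aeval q₀).symm
  have hf0 : (q₀.map (algebraMap c.R E)).eval 0 ≠ 0 := by
    rw [Polynomial.eval_zero_map]
    exact fun h => h0 (Subtype.ext h)
  have hfc : (q₀.map (algebraMap c.R E)).eval (c.cbr : E) ≠ 0 := by
    have h1 : (q₀.map (algebraMap c.R E)).eval (c.cbr : E)
        = algebraMap c.R E (q₀.eval c.cbr) := by
      rw [Polynomial.eval_map]
      exact Polynomial.eval₂_at_apply (algebraMap c.R E) c.cbr
    rw [h1]
    exact fun h => hcbr (Subtype.ext h)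
  have hzW : z ∈ W := hBW hz
  have hbW : b ∈ W := hBW hb
  have hq₀W : c.ev q₀ ∈ W := hSW (c.ev_mem_S _ _)
  by_cases hinv : (c.ev q₀)⁻¹ ∈ W
  · exact hyW (by rw [div_eq_mul_inv]; exact W.mul_mem _ _ hzW hinv)
  · by_cases hz0 : z = 0
    · apply hyW
      rw [hz0, zero_div]
      exact W.zero_mem
    have hzinv : z⁻¹ ∉ W := by
      intro hzi
      apply hinv
      have hb0 : b ≠ 0 := by
        rintro rfl
        rw [mul_zero] at hzb
        exact hz0 (pow_eq_zero_iff two_ne_zero |>.mp hzb)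
      have h1 : (c.ev q₀)⁻¹ = b * z⁻¹ ^ 2 := by
        rw [inv_pow, hzb]
        field_simp
      rw [h1]
      exact W.mul_mem _ _ hbW (W.pow_mem hzi 2)
    obtain ⟨a, haW, hza⟩ := hc.unr W hW hE hx _ hfirr hf0 hfc (by rw [hfev]; exact hq₀W)
      (by rw [hfev]; exact hinv) z hzW hzinv
    apply hyW
    rw [hza, hfev, mul_div_assoc, mul_comm, div_mul_cancel₀ _ hq₀0]
    exact haW

theorem as18_unr : as18_unr_stmt := by
  intro E F _ _ _ c hc n hn f₀ hf ρ hρ hρπ hρt z hz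
  haveI := hc.dvr
  obtain ⟨hnspan, hf₀prime, hfX, hfc⟩ := hf
  have hπn : C c.π ∈ n := by rw [hnspan]; exact Ideal.subset_span (Set.mem_insert _ _)
  obtain ⟨q₀, hq₀, hass⟩ := as18u_exists_prime hc n ρ hρ
  have hq₀n : q₀ ∈ n := by
    by_contra hq
    exact hρ.not_isUnit (hass.symm.isUnit (as18u_isUnit_e hc n hq))
  -- a non-unit divisor `a` of `q₀` is associated to `q₀`
  have hassoc : ∀ a : Polynomial c.R, ¬ IsUnit a → a ∣ q₀ → Associated q₀ a := fun a ha hd =>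
    (hq₀.irreducible.dvd_iff.mp hd).resolve_left ha
  have hπunit : ¬ IsUnit (C c.π) := fun h => hc.irr.not_isUnit (Polynomial.isUnit_C.mp h)
  have hq₀π : ¬ C c.π ∣ q₀ := by
    intro hd
    exact hρπ (hass.trans ((hassoc _ hπunit hd).map (as18u_e c n)))
  have hq₀f : ¬ f₀ ∣ q₀ := by
    intro hd
    exact hρt (hass.trans ((hassoc _ hf₀prime.not_isUnit hd).map (as18u_e c n)))
  have hdeg : q₀.natDegree ≠ 0 := by
    intro h0
    obtain ⟨a, rfl⟩ := Polynomial.natDegree_eq_zero.mp h0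
    have ha : ¬ IsUnit a := fun hu => hq₀.not_isUnit (Polynomial.isUnit_C.mpr hu)
    have hmem : a ∈ IsLocalRing.maximalIdeal c.R := ha
    rw [hc.irr.maximalIdeal_eq, Ideal.mem_span_singleton] at hmem
    exact hq₀π (map_dvd C hmem)
  have h0 : q₀.eval 0 ≠ 0 := by
    intro h
    have hX : X ∣ q₀ := by
      rw [Polynomial.X_dvd_iff, Polynomial.coeff_zero_eq_eval_zero]; exact h
    have hXn : X ∈ n := by
      obtain ⟨u, hu⟩ := hassoc X Polynomial.not_isUnit_X hX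
      rw [← hu]; exact n.mul_mem_right _ hq₀n
    exact hq₀f (by rw [hfX hXn]; exact hX)
  have hcbr : q₀.eval c.cbr ≠ 0 := by
    intro h
    have hX : X - C c.cbr ∣ q₀ := Polynomial.dvd_iff_isRoot.mpr h
    have hXn : X - C c.cbr ∈ n := by
      obtain ⟨u, hu⟩ := hassoc _ (Polynomial.not_isUnit_X_sub_C _) hX
      rw [← hu]; exact n.mul_mem_right _ hq₀n
    exact hq₀f (by rw [hfc hXn]; exact hX)
  haveI h𝔮 : (Ideal.span {q₀} : Ideal (Polynomial c.R)).IsPrime :=
    (Ideal.span_singleton_prime hq₀.ne_zero).mpr hq₀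
  have hle : (Ideal.span {q₀} : Ideal (Polynomial c.R)) ≤ n :=
    (Ideal.span_singleton_le_iff_mem n).mpr hq₀n
  have hSS : c.S n ≤ c.S (Ideal.span {q₀}) := by
    rintro w ⟨p, r, hr, h⟩
    exact ⟨p, r, fun h' => hr (hle h'), h⟩
  have hBB : ∀ w : F, w ∈ c.B n → w ∈ c.B (Ideal.span {q₀}) := by
    intro w hw
    obtain ⟨P, hP, hPw⟩ := hw
    refine ⟨P.map (Subring.inclusion hSS), hP.map _, ?_⟩
    rw [Polynomial.eval₂_map]
    exact hPw
  obtain ⟨u, hu⟩ := hass
  obtain ⟨b, hb⟩ := hz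
  have hρ0 : (ρ : F) ≠ 0 := fun h0 => hρ.ne_zero (Subtype.ext h0)
  have hq₀0 : c.ev q₀ ≠ 0 := hc.ev_ne_zero hq₀.ne_zero
  have huF : (ρ : F) * ((u : c.S n) : F) = c.ev q₀ := congrArg Subtype.val hu
  have huinvF : c.ev q₀ * (((u⁻¹ : (c.S n)ˣ) : c.S n) : F) = (ρ : F) := by
    rw [← huF, mul_assoc]
    have h1 : ((u : c.S n) : F) * (((u⁻¹ : (c.S n)ˣ) : c.S n) : F) = 1 :=
      congrArg Subtype.val u.mul_inv
    rw [h1, mul_one]
  have hbF : (z : F) ^ 2 = (ρ : F) * (b : F) := congrArg Subtype.val hb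
  have hcore := as18u_core hc q₀ hq₀ hdeg h0 hcbr (z : F)
    ((((u⁻¹ : (c.S n)ˣ) : c.S n) : F) * (b : F)) (hBB _ z.2)
    (hBB _ ((c.B n).mul_mem ((c.B n).algebraMap_mem ((u⁻¹ : (c.S n)ˣ) : c.S n)) b.2))
    (by rw [hbF, ← huinvF, mul_assoc])
  obtain ⟨q, hq, hqO⟩ := as18u_exists_mul_mem_O hc (Ideal.span {q₀}) hcore
  have hqB : c.ev q * ((z : F) / c.ev q₀) ∈ c.B n := As18Chart.O_le_B n hqO
  refine ⟨as18u_e c n q, ?_, ?_⟩
  · intro hd
    have hd' : as18u_e c n q₀ ∣ as18u_e c n q := by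
      rw [← hu]
      exact (u.isUnit.mul_right_dvd).mpr hd
    obtain ⟨t, ht⟩ := hd'
    obtain ⟨p', r', hr', htF⟩ := t.2
    have htF' : c.ev q = c.ev q₀ * (t : F) := congrArg Subtype.val ht
    have heq : q * r' = q₀ * p' := by
      apply hc.inj
      rw [map_mul, map_mul, htF', mul_assoc, htF]
    have hdvd : q₀ ∣ q * r' := ⟨p', heq⟩
    rcases hq₀.dvd_or_dvd hdvd with h1 | h1
    · exact hq (Ideal.mem_span_singleton.mpr h1)
    · exact hr' (hle (Ideal.mem_span_singleton.mpr h1))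
  · refine ⟨⟨((u : c.S n) : F) * (c.ev q * ((z : F) / c.ev q₀)),
      (c.B n).mul_mem ((c.B n).algebraMap_mem (u : c.S n)) hqB⟩, ?_⟩
    apply Subtype.ext
    show c.ev q * (z : F) = (ρ : F) * (((u : c.S n) : F) * (c.ev q * ((z : F) / c.ev q₀)))
    rw [← mul_assoc, huF]
    field_simp

end Fermat.Agent.S18Lib
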