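import Fermat.Agent.Lib.S18.BrIface

/-!
# S18 library, chunk Br (i): valuation subrings of the finite-level field extend to places

`br18_extend : br18_extend_stmt`.  A valuation subring `W ≠ ⊤` of a field `FE` mapping to
`FN M`, in which the nonzero integers are invertible, is dominated by a valuation subring `A` of
`FN M`; `A` contains `Kb` (integral over `ℚ`) and `j` or `1/j`, hence it is the valuation ring of
a prime of the Dedekind domain `intRing Kb j` (resp. `intRing Kb j⁻¹`), i.e. of a place.
-/

set_option autoImplicit false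

namespace Fermat.Agent.S18Lib

open AlgebraicCurve ModularCurve Polynomial IntermediateField IsDedekindDomain
open Fermat.Agent.S24Lib

section Abstract

variable {K F : Type*} [Field K] [Field F] [Algebra K F]

/-- elements integral over `K[y]` lie in every valuation subring containing `K` and `y`. -/
theorem br18_mem_of_isIntegral_adjoin (A : ValuationSubring F)
    (hK : ∀ c : K, algebraMap K F c ∈ A) {y : F} (hy : y ∈ A) {b : F}
    (hb : IsIntegral (Algebra.adjoin K {y}) b) : b ∈ A := by
  have hA : ∀ a : Algebra.adjoin K {y}, algebraMap (Algebra.adjoin K {y}) F a ∈ A := by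
    intro a
    let S : Subalgebra K F := { A.toSubring with algebraMap_mem' := hK }
    have hS : Algebra.adjoin K {y} ≤ S := Algebra.adjoin_le (by
      intro z hz
      rw [Set.mem_singleton_iff] at hz
      rw [hz]
      exact hy)
    exact hS a.2
  let ι : Algebra.adjoin K {y} →+* A :=
    (algebraMap (Algebra.adjoin K {y}) F).codRestrict A hA
  obtain ⟨p, hp, hpb⟩ := hb
  have hint : IsIntegral A b := by
    refine ⟨p.map ι, hp.map ι, ?_⟩
    rw [Polynomial.eval₂_map]
    exact hpb
  obtain ⟨z, hz⟩ := IsIntegrallyClosed.isIntegral_iff.mp hint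
  rw [← hz]
  exact z.2

/-- a valuation subring `A ≠ ⊤` containing the Dedekind domain `R` (with fraction field `F`)
is the valuation ring of a prime of `R`. -/
theorem br18_exists_prime {R : Type*} [CommRing R] [IsDedekindDomain R] [Algebra R F]
    [IsFractionRing R F] [Algebra K R] [IsScalarTower K R F] (A : ValuationSubring F)
    (hAtop : A ≠ ⊤) (hR : ∀ r : R, algebraMap R F r ∈ A) :
    ∃ w : HeightOneSpectrum R,
      (Place.ofHeightOneSpectrum (K := K) (F := F) w).toValuationSubring = A := by
  let ι : R →+* A := (algebraMap R F).codRestrict A hR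
  have hι : ∀ r : R, ((ι r : A) : F) = algebraMap R F r := fun r => rfl
  let 𝔭 : Ideal R := (IsLocalRing.maximalIdeal A).comap ι
  have h𝔭prime : 𝔭.IsPrime := Ideal.IsPrime.comap ι
  have hunit : ∀ r : R, r ∉ 𝔭 → (algebraMap R F r)⁻¹ ∈ A := by
    intro r hr
    have h1 : IsUnit (ι r) := by
      by_contra h
      exact hr (by
        show ι r ∈ IsLocalRing.maximalIdeal A
        rwa [IsLocalRing.mem_maximalIdeal, mem_nonunits_iff])
    obtain ⟨u, hu⟩ := h1
    have h2 : (((u⁻¹ : Aˣ) : A) : F) = (algebraMap R F r)⁻¹ := by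
      rw [← hι r, ← hu]
      have h3 : ((u : A) : F) * (((u⁻¹ : Aˣ) : A) : F) = 1 :=
        congrArg (Subtype.val) (u.mul_inv)
      exact eq_inv_of_mul_eq_one_right h3
    rw [← h2]
    exact ((u⁻¹ : Aˣ) : A).2
  have h𝔭ne : 𝔭 ≠ ⊥ := by
    intro hbot
    apply hAtop
    refine SetLike.ext fun x => ⟨fun _ => ValuationSubring.mem_top x, fun _ => ?_⟩
    obtain ⟨a, s, hs, rfl⟩ := IsFractionRing.div_surjective (A := R) x
    have hs0 : s ≠ 0 := nonZeroDivisors.ne_zero hs
    have hsn : s ∉ 𝔭 := by rw [hbot]; simpa using hs0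
    rw [div_eq_mul_inv]
    exact mul_mem (hR a) (hunit s hsn)
  let w : HeightOneSpectrum R := ⟨𝔭, h𝔭prime, h𝔭ne⟩
  have hle : HeightOneSpectrum.valuationSubringAtPrime F w ≤ A := by
    rintro x ⟨a, s, hs, rfl⟩
    exact mul_mem (hR a) (hunit s hs)
  have heq := ValuationSubring.eq_of_le_of_ne_top _ hle hAtop
  refine ⟨w, ?_⟩
  rw [← heq]
  exact (HeightOneSpectrum.valuationSubringAtPrime_eq_valuationSubring (K := F) w).symm

/-- a valuation subring `A ≠ ⊤` of a function field containing the constants and `y` is the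
valuation ring of a place. -/
theorem br18_place_of_valuationSubring [IsAlgClosed K] [CharZero K] (y : F)
    (hy : Transcendental K y) [Module.Finite K⟮y⟯ F] (A : ValuationSubring F) (hAtop : A ≠ ⊤)
    (hK : ∀ c : K, algebraMap K F c ∈ A) (hyA : y ∈ A) :
    ∃ P : Place K F, P.toValuationSubring = A := by
  have := intRing_isDedekindDomain y hy
  have := intRing_isFractionRing y hy
  obtain ⟨w, hw⟩ := br18_exists_prime (K := K) (R := intRing K y) A hAtop
    (fun b => br18_mem_of_isIntegral_adjoin A hK hyA (b := (b : F)) b.2)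
  exact ⟨_, hw⟩

end Abstract

/-- valuation subrings of `FN M` containing the constants are the valuation rings of places. -/
theorem br18_place_FN (M : ℕ) [NeZero M] (A : ValuationSubring (FN M)) (hAtop : A ≠ ⊤)
    (hK : ∀ c : Kb, algebraMap Kb (FN M) c ∈ A) :
    ∃ P : Place Kb (FN M), P.toValuationSubring = A := by
  have := finite_JF M
  rcases A.mem_or_inv_mem (JF M) with h | h
  · exact br18_place_of_valuationSubring (JF M) (transcendental_JF M) A hAtop hK h
  · have : Module.Finite Kb⟮(JF M)⁻¹⟯ (FN M) := finite_of_adjoin_eq (adjoin_inv (JF M))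
    exact br18_place_of_valuationSubring (JF M)⁻¹ (transcendental_inv (transcendental_JF M)) A
      hAtop hK h

/-- a valuation subring of `FN M` in which the nonzero integers are invertible contains `Kb`. -/
theorem br18_algebraMap_mem (M : ℕ) [NeZero M] (A : ValuationSubring (FN M))
    (hQ : ∀ n : ℕ, n ≠ 0 → ((n : FN M))⁻¹ ∈ A) (c : Kb) : algebraMap Kb (FN M) c ∈ A := by
  let σ : ℚ →+* Kb := Rat.castHom Kb
  have hrat : ∀ r : ℚ, ((algebraMap Kb (FN M)).comp σ) r ∈ A := by
    intro r
    have h1 : ((algebraMap Kb (FN M)).comp σ) r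
        = ((r.num : ℤ) : FN M) * ((r.den : ℕ) : FN M)⁻¹ := by
      rw [eq_ratCast, Rat.cast_def, div_eq_mul_inv]
    rw [h1]
    exact mul_mem (intCast_mem A r.num) (hQ r.den r.den_ne_zero)
  let ρ : ℚ →+* A := ((algebraMap Kb (FN M)).comp σ).codRestrict A hrat
  obtain ⟨p, hp, hpc⟩ := ((AlgebraicClosure.isAlgebraic ℚ).isAlgebraic c).isIntegral
  have hpc' : p.eval₂ σ c = 0 :=
    (congrArg (fun τ : ℚ →+* Kb => p.eval₂ τ c) (Subsingleton.elim σ _)).trans hpc
  have hint : IsIntegral A (algebraMap Kb (FN M) c) := by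
    refine ⟨p.map ρ, hp.map ρ, ?_⟩
    rw [Polynomial.eval₂_map]
    have h2 : (algebraMap A (FN M)).comp ρ = (algebraMap Kb (FN M)).comp σ := rfl
    rw [h2, ← Polynomial.hom_eval₂, hpc', map_zero]
  obtain ⟨z, hz⟩ := IsIntegrallyClosed.isIntegral_iff.mp hint
  rw [← hz]
  exact z.2

/-- **(i)** extension of valuation subrings of the finite-level field to places over `Kb`. -/
theorem br18_extend : br18_extend_stmt := by
  intro M _ FE _ ι W hW hQ
  obtain ⟨A, h, hloc⟩ :=
    IsLocalRing.exists_factor_valuationRing ((ι.comp W.subtype) : ↥W →+* FN M)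
  have hiff : ∀ f : FE, f ∈ W ↔ ι f ∈ A := by
    intro f
    constructor
    · intro hf
      exact h ⟨f, hf⟩
    · intro hf
      by_contra hfW
      have hf0 : f ≠ 0 := fun h0 => hfW (h0 ▸ W.zero_mem)
      have hinv : f⁻¹ ∈ W := (W.mem_or_inv_mem f).resolve_left hfW
      have hu : IsUnit ((ι.comp W.subtype).codRestrict A.toSubring h ⟨f⁻¹, hinv⟩) := by
        rw [isUnit_iff_exists_inv]
        refine ⟨⟨ι f, hf⟩, Subtype.ext ?_⟩
        show ι f⁻¹ * ι f = 1
        rw [← map_mul, inv_mul_cancel₀ hf0, map_one]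
      have hu' := hloc.map_nonunit _ hu
      obtain ⟨⟨g, hg⟩, hgf⟩ := isUnit_iff_exists_inv.mp hu'
      have h1 : f⁻¹ * g = 1 := congrArg Subtype.val hgf
      have hgf' : g = f := by
        have h2 := congrArg (fun t => f * t) h1
        simp only [mul_one] at h2
        rw [← h2, ← mul_assoc, mul_inv_cancel₀ hf0, one_mul]
      exact hfW (hgf' ▸ hg)
  have hAtop : A ≠ ⊤ := by
    intro htop
    apply hW
    refine SetLike.ext fun x => ⟨fun _ => ValuationSubring.mem_top x, fun _ => ?_⟩
    rw [hiff, htop]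
    exact ValuationSubring.mem_top _
  have hQ' : ∀ n : ℕ, n ≠ 0 → ((n : FN M))⁻¹ ∈ A := by
    intro n hn
    have h1 := (hiff _).mp (hQ n hn)
    rwa [map_inv₀, map_natCast] at h1
  obtain ⟨P, hP⟩ := br18_place_FN M A hAtop (br18_algebraMap_mem M A hQ')
  exact ⟨P, fun f => by rw [hP]; exact hiff f⟩

end Fermat.Agent.S18Lib
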