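import Fermat.Agent.Lib.S24.FibreFinite

/-!
# S18 library, chunk Br (interface): the characteristic-zero dictionary at level `M`

`FN M` is the function field of `X₀(M)` over `Kb = ℚbar`, `JF M` is `j`.  The finite-level field
`F_M^E` enters only through an abstract field `FE` with a ring hom `ι : FE →+* FN M` (and, where
constants are needed, a field `E` with `Algebra E FE` and `φ : E →+* Kb` compatible with `ι`).

* `br18_extend_stmt`  : a valuation subring `W ≠ ⊤` of `FE` in which the nonzero integers are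
  units is the contraction of a place of `FN M`;
* `br18_tower_generic_stmt`, `br18_tower_zero_stmt`, `br18_tower_1728_stmt` : unramifiedness of
  `x` over `j = a(x)/b(x)` off the branch values;
* `br18_inv_j_stmt`   : the same for `x = 1/j`;
* `br18_unram_stmt`   : the maximal ideal of `W` is generated by `f(x)`, `f` irreducible over `E`
  without branch roots;
* `br18_unit_pow_stmt`: `m ∣ ord_P(w)` for all places `P` (+ uniformisers in `FE`) gives
  `w = u * c ^ m` with `u` a unit of `W`;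
* `br18_lift_stmt`    : divisibility of all orders passes from level `N` to level `M`.
-/

set_option autoImplicit false

namespace Fermat.Agent.S18Lib

open AlgebraicCurve ModularCurve Polynomial
open Fermat.Agent.S24Lib

/-- (i) extension of valuation subrings of the finite-level field to places over `Kb`. -/
def br18_extend_stmt : Prop :=
  ∀ (M : ℕ) [NeZero M] (FE : Type) [Field FE] (ι : FE →+* FN M) (W : ValuationSubring FE),
    W ≠ ⊤ → (∀ n : ℕ, n ≠ 0 → ((n : FE))⁻¹ ∈ W) →
    ∃ P : Place Kb (FN M), ∀ f : FE, f ∈ W ↔ ι f ∈ P.toValuationSubring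

/-- (ii, over `Kb`, generic value) if `j * b(x) = a(x)`, `b(c) ≠ 0` and `j₀ = a(c)/b(c)` is not
`0` or `1728`, then `x - c` has order `1` at each of its zeros. -/
def br18_tower_generic_stmt : Prop :=
  ∀ (M : ℕ) [NeZero M] (P : Place Kb (FN M)) (x : FN M) (a b : Polynomial Kb) (c : Kb),
    JF M * aeval x b = aeval x a → b.eval c ≠ 0 → a.eval c ≠ 0 →
    a.eval c ≠ 1728 * b.eval c →
    0 < P.ord (x - algebraMap Kb (FN M) c) → P.ord (x - algebraMap Kb (FN M) c) = 1

/-- (ii, over `Kb`, over `j = 0`) if `j * b(x) = a(x)`, `b(c) ≠ 0` and `a = (X - c)^3 g`, then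
`x - c` has order `1` at each of its zeros. -/
def br18_tower_zero_stmt : Prop :=
  ∀ (M : ℕ) [NeZero M] (P : Place Kb (FN M)) (x : FN M) (a b g : Polynomial Kb) (c : Kb),
    JF M * aeval x b = aeval x a → b.eval c ≠ 0 → a = (X - C c) ^ 3 * g →
    0 < P.ord (x - algebraMap Kb (FN M) c) → P.ord (x - algebraMap Kb (FN M) c) = 1

/-- (ii, over `Kb`, over `j = 1728`) if `j * b(x) = a(x)`, `b(c) ≠ 0` and
`a - 1728 b = (X - c)^2 g`, then `x - c` has order `1` at each of its zeros. -/
def br18_tower_1728_stmt : Prop :=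
  ∀ (M : ℕ) [NeZero M] (P : Place Kb (FN M)) (x : FN M) (a b g : Polynomial Kb) (c : Kb),
    JF M * aeval x b = aeval x a → b.eval c ≠ 0 → a - C 1728 * b = (X - C c) ^ 2 * g →
    0 < P.ord (x - algebraMap Kb (FN M) c) → P.ord (x - algebraMap Kb (FN M) c) = 1

/-- (ii, over `Kb`, for `u = 1/j`) `u - c` has order `1` at its zeros for `c ∉ {0, 1/1728}`. -/
def br18_inv_j_stmt : Prop :=
  ∀ (M : ℕ) [NeZero M] (P : Place Kb (FN M)) (c : Kb), c ≠ 0 → c * 1728 ≠ 1 →
    0 < P.ord ((JF M)⁻¹ - algebraMap Kb (FN M) c) →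
    P.ord ((JF M)⁻¹ - algebraMap Kb (FN M) c) = 1

/-- (ii) unramifiedness at finite level: if `f` is irreducible over `E`, `f(x)` is a non-unit of
`W` and `x - c` has order `1` at its zeros for every root `c` of `f`, then `f(x)` generates the
maximal ideal of `W`. -/
def br18_unram_stmt : Prop :=
  ∀ (M : ℕ) [NeZero M] (E FE : Type) [Field E] [Field FE] [Algebra E FE] (φ : E →+* Kb)
    (ι : FE →+* FN M),
    (∀ e : E, ι (algebraMap E FE e) = algebraMap Kb (FN M) (φ e)) →
    ∀ (W : ValuationSubring FE), W ≠ ⊤ → (∀ e : E, algebraMap E FE e ∈ W) →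
    ∀ (x : FE) (f : Polynomial E), Irreducible f → x ∈ W →
    (∀ (P : Place Kb (FN M)) (c : Kb), (f.map φ).IsRoot c →
      0 < P.ord (ι x - algebraMap Kb (FN M) c) → P.ord (ι x - algebraMap Kb (FN M) c) = 1) →
    aeval x f ∈ W → (aeval x f)⁻¹ ∉ W →
    ∀ g : FE, g ∈ W → g⁻¹ ∉ W → ∃ a : FE, a ∈ W ∧ g = aeval x f * a

/-- (iii) `m`-divisibility of the divisor of `w` over `Kb` (with uniformisers in `FE`) makes `w`
a unit times an `m`-th power in every valuation subring `W ≠ ⊤` of `FE` containing `ℚ`. -/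
def br18_unit_pow_stmt : Prop :=
  ∀ (M : ℕ) [NeZero M] (FE : Type) [Field FE] (ι : FE →+* FN M) (W : ValuationSubring FE),
    W ≠ ⊤ → (∀ n : ℕ, n ≠ 0 → ((n : FE))⁻¹ ∈ W) →
    ∀ (w : FE) (m : ℕ), w ≠ 0 →
    (∀ P : Place Kb (FN M), (m : ℤ) ∣ P.ord (ι w)) →
    (∀ P : Place Kb (FN M), P.ord (ι w) ≠ 0 → ∃ t : FE, P.ord (ι t) = 1) →
    ∃ c u : FE, u ∈ W ∧ u⁻¹ ∈ W ∧ w = u * c ^ m

/-- (iv) divisibility of all orders lifts from level `N` to level `M`. -/
def br18_lift_stmt : Prop :=
  ∀ (N M : ℕ) [NeZero N] [NeZero M]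
    (hle : modularFunctionFieldBar N ≤ modularFunctionFieldBar M) (w : FN N) (m : ℕ),
    (∀ P : Place Kb (FN N), (m : ℤ) ∣ P.ord w) →
    ∀ P : Place Kb (FN M), (m : ℤ) ∣ P.ord (IntermediateField.inclusion hle w)

end Fermat.Agent.S18Lib
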