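/-
S18, chunk Ds (helper2): `ds18_lift : ds18_lift_stmt`  (= (D2) of `P1Iface`).

Every element of the reduced function field `k(J(q^d) : d ∣ N)` (`k` the residue field of `A`) is a
quotient of reductions of integral series lying in the function field: induction over the field
closure, lifting constants through the residue map and the generators `J(q^d)` to `j(q^d)`.
-/
import Fermat.Agent.Lib.S18.DsIface

set_option autoImplicit false
set_option synthInstance.maxHeartbeats 400000

namespace Fermat.Agent.S18Lib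

open ModularCurve AlgebraicCurve IntermediateField HahnSeries

noncomputable section

/-- The integral series lying in the function field of level `N` whose reduction lies in the
reduced function field. -/
def ds18_Good (N : ℕ) [NeZero N] (A : ValuationSubring (AlgebraicClosure ℚ)) :
    Subring (LaurentSeries ↥A) where
  carrier := {y | coeffMap A.subtype y ∈ modularFunctionFieldBar N ∧
    coeffMap (IsLocalRing.residue ↥A) y ∈
      modularFunctionFieldFullC (IsLocalRing.ResidueField ↥A) N}
  mul_mem' := by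
    rintro x y ⟨hx1, hx2⟩ ⟨hy1, hy2⟩
    refine ⟨?_, ?_⟩
    · rw [map_mul]; exact mul_mem hx1 hy1
    · rw [map_mul]; exact mul_mem hx2 hy2
  one_mem' := by
    refine ⟨?_, ?_⟩
    · rw [map_one]; exact one_mem _
    · rw [map_one]; exact one_mem _
  add_mem' := by
    rintro x y ⟨hx1, hx2⟩ ⟨hy1, hy2⟩
    refine ⟨?_, ?_⟩
    · rw [map_add]; exact add_mem hx1 hy1
    · rw [map_add]; exact add_mem hx2 hy2
  zero_mem' := by
    refine ⟨?_, ?_⟩
    · rw [map_zero]; exact zero_mem _
    · rw [map_zero]; exact zero_mem _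
  neg_mem' := by
    rintro x ⟨hx1, hx2⟩
    refine ⟨?_, ?_⟩
    · rw [map_neg]; exact neg_mem hx1
    · rw [map_neg]; exact neg_mem hx2

theorem ds18_mem_Good_iff {N : ℕ} [NeZero N] {A : ValuationSubring (AlgebraicClosure ℚ)}
    {y : LaurentSeries ↥A} :
    y ∈ ds18_Good N A ↔ coeffMap A.subtype y ∈ modularFunctionFieldBar N ∧
      coeffMap (IsLocalRing.residue ↥A) y ∈
        modularFunctionFieldFullC (IsLocalRing.ResidueField ↥A) N :=
  Iff.rfl

/-- constants are good -/
theorem ds18_single_mem_Good (N : ℕ) [NeZero N] (A : ValuationSubring (AlgebraicClosure ℚ))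
    (c : ↥A) : (HahnSeries.single (0 : ℤ) c : LaurentSeries ↥A) ∈ ds18_Good N A := by
  refine ⟨?_, ?_⟩
  · rw [coeffMap_single, ← algebraMap_laurentSeries_eq_single]
    exact IntermediateField.algebraMap_mem _ _
  · rw [coeffMap_single, ← algebraMap_laurentSeries_eq_single]
    exact IntermediateField.algebraMap_mem _ _

/-- the generators `j(q^d)`, `d ∣ N`, are good -/
theorem ds18_gen_mem_Good (N : ℕ) [NeZero N] (A : ValuationSubring (AlgebraicClosure ℚ))
    {d : ℕ} [NeZero d] (hd : d ∣ N) : qExpand ↥A d (jqModC ↥A) ∈ ds18_Good N A := by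
  refine ⟨?_, ?_⟩
  · rw [coeffMap_qExpand, coeffMap_jqModC]
    have h := coeffEmb_mem_laurentBaseChange (AlgebraicClosure ℚ) (jqd_mem_full N hd)
    rw [coeffEmb, coeffMap_qExpand, ← jqModC_rat, coeffMap_jqModC] at h
    exact h
  · rw [coeffMap_qExpand, coeffMap_jqModC]
    exact jqModCd_mem_full _ N hd

/-- The quotient form of lifting, for all elements of the reduced function field. -/
theorem ds18_lift_aux (N : ℕ) [NeZero N] (A : ValuationSubring (AlgebraicClosure ℚ))
    (g : LaurentSeries (IsLocalRing.ResidueField ↥A))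
    (hg : g ∈ modularFunctionFieldFullC (IsLocalRing.ResidueField ↥A) N) :
    ∃ a b : LaurentSeries ↥A, a ∈ ds18_Good N A ∧ b ∈ ds18_Good N A ∧
      coeffMap (IsLocalRing.residue ↥A) b ≠ 0 ∧
      g * coeffMap (IsLocalRing.residue ↥A) b = coeffMap (IsLocalRing.residue ↥A) a := by
  rw [modularFunctionFieldFullC] at hg
  induction hg using IntermediateField.adjoin_induction with
  | mem x hx =>
    obtain ⟨d, hd0, hd, rfl⟩ := hx
    refine ⟨qExpand ↥A d (jqModC ↥A), 1, ds18_gen_mem_Good N A hd, one_mem _, ?_, ?_⟩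
    · rw [map_one]; exact one_ne_zero
    · rw [map_one, mul_one, coeffMap_qExpand, coeffMap_jqModC]
  | algebraMap c =>
    obtain ⟨c', rfl⟩ := IsLocalRing.residue_surjective c
    refine ⟨HahnSeries.single (0 : ℤ) c', 1, ds18_single_mem_Good N A c', one_mem _, ?_, ?_⟩
    · rw [map_one]; exact one_ne_zero
    · rw [map_one, mul_one, coeffMap_single, algebraMap_laurentSeries_eq_single]
  | add x y _ _ hx hy =>
    obtain ⟨a, b, ha, hb, hb0, hab⟩ := hx
    obtain ⟨a', b', ha', hb', hb0', hab'⟩ := hy
    refine ⟨a * b' + a' * b, b * b', add_mem (mul_mem ha hb') (mul_mem ha' hb), mul_mem hb hb',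
      ?_, ?_⟩
    · rw [map_mul]; exact mul_ne_zero hb0 hb0'
    · rw [map_mul, map_add, map_mul, map_mul, ← hab, ← hab']
      ring
  | inv x _ hx =>
    obtain ⟨a, b, ha, hb, hb0, hab⟩ := hx
    by_cases ha0 : coeffMap (IsLocalRing.residue ↥A) a = 0
    · have hx0 : x = 0 := by
        rw [ha0] at hab
        rcases mul_eq_zero.mp hab with h | h
        · exact h
        · exact absurd h hb0
      refine ⟨0, 1, zero_mem _, one_mem _, ?_, ?_⟩
      · rw [map_one]; exact one_ne_zero
      · rw [hx0, inv_zero, zero_mul, map_zero]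
    · have hx0 : x ≠ 0 := by
        rintro rfl
        rw [zero_mul] at hab
        exact ha0 hab.symm
      refine ⟨b, a, hb, ha, ha0, ?_⟩
      rw [← hab, ← mul_assoc, inv_mul_cancel₀ hx0, one_mul]
  | mul x y _ _ hx hy =>
    obtain ⟨a, b, ha, hb, hb0, hab⟩ := hx
    obtain ⟨a', b', ha', hb', hb0', hab'⟩ := hy
    refine ⟨a * a', b * b', mul_mem ha ha', mul_mem hb hb', ?_, ?_⟩
    · rw [map_mul]; exact mul_ne_zero hb0 hb0'
    · rw [map_mul, map_mul, ← hab, ← hab']
      ring

/-- **(D2)**. -/
theorem ds18_lift : ds18_lift_stmt := by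
  intro N _ A g hg _
  obtain ⟨a, b, ha, hb, hb0, hab⟩ := ds18_lift_aux N A g hg
  exact ⟨a, b, ha.1, hb.1, ha.2, hb.2, hb0, hab⟩

end

end Fermat.Agent.S18Lib
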