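/-
S18, chunk P1 (helper1): the frame.  `p1_frame` = the frozen S18 statement from
STAR (`p1_star_stmt`), the two Gauss facts (`p1_gauss_stmt`, `p1_lift_stmt`) and constancy on the
reduced function field (`p1_const_stmt`).
-/
import Fermat.Agent.Lib.S18.P1Iface
import Fermat.Agent.Lib.S24.SumOrd
import Fermat.Agent.Lib.S24.DegJF

set_option autoImplicit false
set_option synthInstance.maxHeartbeats 400000

namespace Fermat.Agent.S18Lib

open ModularCurve AlgebraicCurve IntermediateField HahnSeries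

noncomputable section

/-- orders of natural powers -/
theorem pf18_ord_pow {K F : Type*} [Field K] [Field F] [Algebra K F] (v : Place K F) (x : F)
    (n : ℕ) : v.ord (x ^ n) = n * v.ord x := by
  have h := v.ord_zpow x (n : ℤ)
  rwa [zpow_natCast] at h

/-- divisors of nonzero functions exist at level `N` over `ℚ̄` (from the S24 library) -/
theorem pf18_exists_div (N : ℕ) [NeZero N] (f : ↥(modularFunctionFieldBar N)) (hf : f ≠ 0) :
    ∃ D : Divisor (AlgebraicClosure ℚ) ↥(modularFunctionFieldBar N), ∀ P, D P = P.ord f := by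
  have := Fermat.Agent.S24Lib.finite_JF N
  have h := (Fermat.Agent.S24Lib.sum_ord_eq_zero (Fermat.Agent.S24Lib.JF N)
    (Fermat.Agent.S24Lib.transcendental_JF N) f hf).1
  exact ⟨Finsupp.ofSupportFinite _ h, fun P => rfl⟩

theorem pf18_coeffMap_injective {R S : Type*} [CommRing R] [CommRing S] (f : R →+* S)
    (hf : Function.Injective f) : Function.Injective (coeffMap f) := by
  intro x y hxy
  ext n
  have h := congrArg (fun z => z.coeff n) hxy
  simp only [coeffMap_coeff] at h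
  exact hf h

theorem pf18_iota_ne_zero (A : ValuationSubring (AlgebraicClosure ℚ)) {y : LaurentSeries ↥A}
    (h : coeffMap (IsLocalRing.residue ↥A) y ≠ 0) : coeffMap A.subtype y ≠ 0 := by
  intro h0
  apply h
  have hy : y = 0 := pf18_coeffMap_injective A.subtype Subtype.val_injective (by rw [h0, map_zero])
  rw [hy, map_zero]

/-- constants times single -/
theorem pf18_algebraMap_eq_single {L : Type*} [Field L] (c : L) :
    algebraMap L (LaurentSeries L) c = HahnSeries.single 0 c :=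
  algebraMap_laurentSeries_eq_single L c

set_option maxHeartbeats 1600000 in
/-- **the core**: a divisor `D0` with `m • D0` principal (`m ≠ ℓ` prime) whose reduction is
principal is itself principal. -/
theorem pf18_core (N : ℕ) [NeZero N] {ℓ : ℕ} (A : ValuationSubring (AlgebraicClosure ℚ))
    (hSTAR : p1_star_stmt N ℓ A) (hD1 : p1_gauss_stmt N A) (hD2 : p1_lift_stmt N A)
    (hC : p1_const_stmt (IsLocalRing.ResidueField ↥A) N)
    (r : Place (AlgebraicClosure ℚ) ↥(modularFunctionFieldBar N) →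
      Place (IsLocalRing.ResidueField ↥A)
        ↥(modularFunctionFieldFullC (IsLocalRing.ResidueField ↥A) N))
    (hr : IsPlaceReductionAlong A (IsLocalRing.residue ↥A) N r)
    (m : ℕ) (hm : m.Prime) (hmℓ : m ≠ ℓ)
    (D0 : Divisor (AlgebraicClosure ℚ) ↥(modularFunctionFieldBar N))
    (h1 : m • D0 ∈ Divisor.principal (K := AlgebraicClosure ℚ)
      (F := ↥(modularFunctionFieldBar N)))
    (h2 : Finsupp.mapDomain r D0 ∈ Divisor.principal (K := IsLocalRing.ResidueField ↥A)
      (F := ↥(modularFunctionFieldFullC (IsLocalRing.ResidueField ↥A) N))) :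
    D0 ∈ Divisor.principal (K := AlgebraicClosure ℚ) (F := ↥(modularFunctionFieldBar N)) := by
  classical
  have hm0 : (m : ℤ) ≠ 0 := by exact_mod_cast hm.ne_zero
  -- step 1: the reduced divisor is `div gt`
  obtain ⟨gt, hgt0, hgt⟩ := h2
  have hgt0' : (gt : LaurentSeries (IsLocalRing.ResidueField ↥A)) ≠ 0 := fun h =>
    hgt0 (Subtype.ext h)
  -- step 2: lift `gt` as a quotient
  obtain ⟨ag, bg, hag, hbg, hagk, hbgk, hbg0, hgeq⟩ := hD2 _ gt.2 hgt0'
  have hag0 : coeffMap (IsLocalRing.residue ↥A) ag ≠ 0 := by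
    rw [← hgeq]; exact mul_ne_zero hgt0' hbg0
  have hα0 : (⟨coeffMap A.subtype ag, hag⟩ : ↥(modularFunctionFieldBar N)) ≠ 0 := fun h =>
    pf18_iota_ne_zero A hag0 (congrArg Subtype.val h)
  have hβ0 : (⟨coeffMap A.subtype bg, hbg⟩ : ↥(modularFunctionFieldBar N)) ≠ 0 := fun h =>
    pf18_iota_ne_zero A hbg0 (congrArg Subtype.val h)
  obtain ⟨Dα, hDα⟩ := pf18_exists_div N _ hα0
  obtain ⟨Dβ, hDβ⟩ := pf18_exists_div N _ hβ0
  have rα := hr.2 ag hag hagk hag0 Dα hDα
  have rβ := hr.2 bg hbg hbgk hbg0 Dβ hDβ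
  -- the corrected divisor
  have hgmul : gt * (⟨coeffMap (IsLocalRing.residue ↥A) bg, hbgk⟩ :
      ↥(modularFunctionFieldFullC (IsLocalRing.ResidueField ↥A) N)) =
      ⟨coeffMap (IsLocalRing.residue ↥A) ag, hagk⟩ := Subtype.ext hgeq
  have hβk0 : (⟨coeffMap (IsLocalRing.residue ↥A) bg, hbgk⟩ :
      ↥(modularFunctionFieldFullC (IsLocalRing.ResidueField ↥A) N)) ≠ 0 := fun h =>
    hbg0 (congrArg Subtype.val h)
  have hred1 : Finsupp.mapDomain r (D0 + Dβ) = Finsupp.mapDomain r Dα := by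
    ext Q
    rw [Finsupp.mapDomain_add, Finsupp.add_apply, hgt Q, rβ Q, rα Q, ← hgmul,
      Q.ord_mul hgt0 hβk0]
  -- step 4: the function with divisor `m • (D0 - Dα + Dβ)`
  obtain ⟨f, hf0, hf⟩ := h1
  set α : ↥(modularFunctionFieldBar N) := ⟨coeffMap A.subtype ag, hag⟩ with hα
  set β : ↥(modularFunctionFieldBar N) := ⟨coeffMap A.subtype bg, hbg⟩ with hβ
  set w0 : ↥(modularFunctionFieldBar N) := f * (α⁻¹) ^ m * β ^ m with hw0
  have hw00 : w0 ≠ 0 :=
    mul_ne_zero (mul_ne_zero hf0 (pow_ne_zero _ (inv_ne_zero hα0))) (pow_ne_zero _ hβ0)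
  have hw0ord : ∀ P : Place (AlgebraicClosure ℚ) ↥(modularFunctionFieldBar N),
      P.ord w0 = (m : ℤ) * (D0 P - Dα P + Dβ P) := by
    intro P
    rw [hw0, P.ord_mul (mul_ne_zero hf0 (pow_ne_zero _ (inv_ne_zero hα0))) (pow_ne_zero _ hβ0),
      P.ord_mul hf0 (pow_ne_zero _ (inv_ne_zero hα0)), pf18_ord_pow, pf18_ord_pow, P.ord_inv,
      ← hf P, hDα P, hDβ P, Finsupp.smul_apply, nsmul_eq_mul]
    ring
  -- step 5: write `w0 = c * a / b`
  obtain ⟨c, a, b, hc0, ha, hb, hak, hak0, hbk, hbk0, hweq⟩ := hD1 w0 hw00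
  have ha0 : (⟨coeffMap A.subtype a, ha⟩ : ↥(modularFunctionFieldBar N)) ≠ 0 := fun h =>
    pf18_iota_ne_zero A hak0 (congrArg Subtype.val h)
  have hb0 : (⟨coeffMap A.subtype b, hb⟩ : ↥(modularFunctionFieldBar N)) ≠ 0 := fun h =>
    pf18_iota_ne_zero A hbk0 (congrArg Subtype.val h)
  obtain ⟨Da, hDa⟩ := pf18_exists_div N _ ha0
  obtain ⟨Db, hDb⟩ := pf18_exists_div N _ hb0
  have ra := hr.2 a ha hak hak0 Da hDa
  have rb := hr.2 b hb hbk hbk0 Db hDb
  have hweqF : w0 * (⟨coeffMap A.subtype b, hb⟩ : ↥(modularFunctionFieldBar N)) =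
      algebraMap (AlgebraicClosure ℚ) ↥(modularFunctionFieldBar N) c *
        ⟨coeffMap A.subtype a, ha⟩ := Subtype.ext hweq
  have hordab : ∀ P : Place (AlgebraicClosure ℚ) ↥(modularFunctionFieldBar N),
      P.ord w0 + Db P = Da P := by
    intro P
    have hcF : algebraMap (AlgebraicClosure ℚ) ↥(modularFunctionFieldBar N) c ≠ 0 := by
      rw [Ne, map_eq_zero]; exact hc0
    have h := congrArg P.ord hweqF
    rw [P.ord_mul hw00 hb0, P.ord_mul hcF ha0, Fermat.Agent.S24Lib.ord_algebraMap, zero_add] at h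
    rw [hDa P, hDb P]; exact h
  -- step 6: the reduction of `a / b` has trivial divisor
  have hsm : m • (D0 + Dβ) + Db = m • Dα + Da := by
    ext P
    have h := hordab P
    rw [hw0ord P] at h
    simp only [Finsupp.add_apply, Finsupp.smul_apply, nsmul_eq_mul]
    linarith
  have hredab : Finsupp.mapDomain r Db = Finsupp.mapDomain r Da := by
    have h := congrArg (Finsupp.mapDomain r) hsm
    rw [Finsupp.mapDomain_add, Finsupp.mapDomain_add, Finsupp.mapDomain_smul,
      Finsupp.mapDomain_smul, hred1] at h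
    exact add_left_cancel h
  set at' : ↥(modularFunctionFieldFullC (IsLocalRing.ResidueField ↥A) N) :=
    ⟨coeffMap (IsLocalRing.residue ↥A) a, hak⟩ with hat'
  set bt' : ↥(modularFunctionFieldFullC (IsLocalRing.ResidueField ↥A) N) :=
    ⟨coeffMap (IsLocalRing.residue ↥A) b, hbk⟩ with hbt'
  have hat0 : at' ≠ 0 := fun h => hak0 (congrArg Subtype.val h)
  have hbt0 : bt' ≠ 0 := fun h => hbk0 (congrArg Subtype.val h)
  have hxord : ∀ Q : Place (IsLocalRing.ResidueField ↥A)
      ↥(modularFunctionFieldFullC (IsLocalRing.ResidueField ↥A) N), Q.ord (at' * bt'⁻¹) = 0 := by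
    intro Q
    have h := DFunLike.congr_fun hredab Q
    rw [rb Q, ra Q] at h
    rw [Q.ord_mul hat0 (inv_ne_zero hbt0), Q.ord_inv]
    change Q.ord bt' = Q.ord at' at h
    omega
  -- step 7: constancy and rescaling
  obtain ⟨ct, hct⟩ := hC (at' * bt'⁻¹) (mul_ne_zero hat0 (inv_ne_zero hbt0)) hxord
  have hct0 : ct ≠ 0 := by
    rintro rfl
    rw [map_zero] at hct
    exact mul_ne_zero hat0 (inv_ne_zero hbt0) hct
  have hatbt : at' = algebraMap (IsLocalRing.ResidueField ↥A)
      ↥(modularFunctionFieldFullC (IsLocalRing.ResidueField ↥A) N) ct * bt' := by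
    rw [← hct, mul_assoc, inv_mul_cancel₀ hbt0, mul_one]
  have hatbt' : coeffMap (IsLocalRing.residue ↥A) a =
      HahnSeries.single 0 ct * coeffMap (IsLocalRing.residue ↥A) b := by
    have h := congrArg Subtype.val hatbt
    rw [← pf18_algebraMap_eq_single]
    exact h
  obtain ⟨u, hu⟩ := IsLocalRing.residue_surjective (R := ↥A) ct
  have huu : IsUnit u := by
    rw [← IsLocalRing.notMem_maximalIdeal, ← IsLocalRing.residue_eq_zero_iff, hu]
    exact hct0
  obtain ⟨uu, rfl⟩ := huu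
  have hures : IsLocalRing.residue ↥A ((uu⁻¹ : (↥A)ˣ) : ↥A) * ct = 1 := by
    rw [← hu, ← map_mul, Units.inv_mul, map_one]
  set a2 : LaurentSeries ↥A := HahnSeries.single 0 ((uu⁻¹ : (↥A)ˣ) : ↥A) * a with ha2
  have hreda2 : coeffMap (IsLocalRing.residue ↥A) a2 = coeffMap (IsLocalRing.residue ↥A) b := by
    rw [ha2, map_mul, coeffMap_single, hatbt', ← mul_assoc, HahnSeries.single_mul_single,
      add_zero, hures]
    exact one_mul _
  have hiota2 : coeffMap A.subtype a2 =
      algebraMap (AlgebraicClosure ℚ) (LaurentSeries (AlgebraicClosure ℚ))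
        (A.subtype ((uu⁻¹ : (↥A)ˣ) : ↥A)) * coeffMap A.subtype a := by
    rw [ha2, map_mul, coeffMap_single, pf18_algebraMap_eq_single]
  have ha2F : coeffMap A.subtype a2 ∈ modularFunctionFieldBar N := by
    rw [hiota2]
    exact mul_mem ((modularFunctionFieldBar N).algebraMap_mem _) ha
  have hu0 : A.subtype ((uu⁻¹ : (↥A)ˣ) : ↥A) ≠ 0 := by
    intro h
    have h' : ((uu⁻¹ : (↥A)ˣ) : ↥A) = 0 := Subtype.val_injective h
    exact (uu⁻¹).ne_zero h'
  set w : ↥(modularFunctionFieldBar N) :=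
    algebraMap (AlgebraicClosure ℚ) ↥(modularFunctionFieldBar N)
      (A.subtype ((uu⁻¹ : (↥A)ˣ) : ↥A) * c⁻¹) * w0 with hw
  have hwF0 : algebraMap (AlgebraicClosure ℚ) ↥(modularFunctionFieldBar N)
      (A.subtype ((uu⁻¹ : (↥A)ˣ) : ↥A) * c⁻¹) ≠ 0 := by
    rw [Ne, map_eq_zero]; exact mul_ne_zero hu0 (inv_ne_zero hc0)
  have hw_ne : w ≠ 0 := mul_ne_zero hwF0 hw00
  have hwab : (w : LaurentSeries (AlgebraicClosure ℚ)) * coeffMap A.subtype b =
      coeffMap A.subtype a2 := by
    rw [hiota2]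
    have h : w * (⟨coeffMap A.subtype b, hb⟩ : ↥(modularFunctionFieldBar N)) =
        algebraMap (AlgebraicClosure ℚ) ↥(modularFunctionFieldBar N)
          (A.subtype ((uu⁻¹ : (↥A)ˣ) : ↥A)) * ⟨coeffMap A.subtype a, ha⟩ := by
      rw [hw, mul_assoc, hweqF, ← mul_assoc, ← map_mul, mul_assoc, inv_mul_cancel₀ hc0, mul_one]
    exact congrArg Subtype.val h
  have hword : ∀ P : Place (AlgebraicClosure ℚ) ↥(modularFunctionFieldBar N),
      P.ord w = (m : ℤ) * (D0 P - Dα P + Dβ P) := by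
    intro P
    rw [hw, P.ord_mul hwF0 hw00, Fermat.Agent.S24Lib.ord_algebraMap, zero_add, hw0ord P]
  -- step 8: STAR
  obtain ⟨c', v, hwv⟩ := hSTAR m hm hmℓ w a2 b ha2F hb hwab hreda2 hbk0 hbk
    (fun P => ⟨_, hword P⟩)
  have hv0 : v ≠ 0 := by
    rintro rfl
    rw [zero_pow hm.ne_zero, mul_zero] at hwv
    exact hw_ne hwv
  have hc'0 : algebraMap (AlgebraicClosure ℚ) ↥(modularFunctionFieldBar N) c' ≠ 0 := by
    intro h
    rw [h, zero_mul] at hwv
    exact hw_ne hwv
  have hD1v : ∀ P : Place (AlgebraicClosure ℚ) ↥(modularFunctionFieldBar N),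
      (D0 - Dα + Dβ) P = P.ord v := by
    intro P
    have h := hword P
    rw [hwv, P.ord_mul hc'0 (pow_ne_zero _ hv0), Fermat.Agent.S24Lib.ord_algebraMap, zero_add,
      pf18_ord_pow] at h
    have h' := mul_left_cancel₀ hm0 h
    rw [Finsupp.add_apply, Finsupp.sub_apply]
    exact h'.symm
  have hprin1 : D0 - Dα + Dβ ∈ Divisor.principal (K := AlgebraicClosure ℚ)
      (F := ↥(modularFunctionFieldBar N)) := ⟨v, hv0, hD1v⟩
  have hprinα : Dα ∈ Divisor.principal (K := AlgebraicClosure ℚ)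
      (F := ↥(modularFunctionFieldBar N)) := ⟨_, hα0, hDα⟩
  have hprinβ : Dβ ∈ Divisor.principal (K := AlgebraicClosure ℚ)
      (F := ↥(modularFunctionFieldBar N)) := ⟨_, hβ0, hDβ⟩
  have hD0 : D0 = (D0 - Dα + Dβ) + Dα - Dβ := by abel
  rw [hD0]
  exact sub_mem (add_mem hprin1 hprinα) hprinβ

/-- the prime case of S18, from the four interface statements -/
theorem pf18_prime (N : ℕ) [NeZero N] {ℓ : ℕ} (A : ValuationSubring (AlgebraicClosure ℚ))
    (hSTAR : p1_star_stmt N ℓ A) (hD1 : p1_gauss_stmt N A) (hD2 : p1_lift_stmt N A)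
    (hC : p1_const_stmt (IsLocalRing.ResidueField ↥A) N)
    (h : ModularCurve.ReductionInputsModL A N) (m : ℕ) (hm : m.Prime) (hmℓ : m ≠ ℓ)
    (z : ModularCurve.JZero N) (hmz : m • z = 0) (hz : ModularCurve.reductionModL A N z = 0) :
    z = 0 := by
  obtain ⟨D, rfl⟩ := Pic0.mk_surjective z
  have hr := isPlaceReductionModL_placeReductionModL h
  have h1 : m • (D : Divisor (AlgebraicClosure ℚ) ↥(modularFunctionFieldBar N)) ∈
      Divisor.principal (K := AlgebraicClosure ℚ) (F := ↥(modularFunctionFieldBar N)) := by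
    have h0 : (QuotientAddGroup.mk (m • D) : Pic0 (AlgebraicClosure ℚ)
        ↥(modularFunctionFieldBar N)) = 0 := by
      rw [QuotientAddGroup.mk_nsmul]; exact hmz
    have h0' := (QuotientAddGroup.eq_zero_iff _).mp h0
    rw [AddSubgroup.mem_addSubgroupOf, AddSubgroupClass.coe_nsmul] at h0'
    exact h0'
  have h2 : Finsupp.mapDomain (placeReductionModL h)
      (D : Divisor (AlgebraicClosure ℚ) ↥(modularFunctionFieldBar N)) ∈
      Divisor.principal (K := IsLocalRing.ResidueField ↥A)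
        (F := ↥(modularFunctionFieldFullC (IsLocalRing.ResidueField ↥A) N)) := by
    rw [reductionModL_mk h D] at hz
    have h0' := (QuotientAddGroup.eq_zero_iff _).mp hz
    rw [AddSubgroup.mem_addSubgroupOf, coe_reductionDegZeroAlong] at h0'
    exact h0'
  have h3 := pf18_core N A hSTAR hD1 hD2 hC _ hr m hm hmℓ _ h1 h2
  exact (QuotientAddGroup.eq_zero_iff _).mpr (AddSubgroup.mem_addSubgroupOf.mpr h3)

/-- **P1 frame**: the frozen S18 statement from STAR, the Gauss facts (D1), (D2) and constancy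
on the reduced function field. -/
theorem p1_frame (N : ℕ) [NeZero N] {ℓ : ℕ} [Fact ℓ.Prime] (_hℓN : ¬ ℓ ∣ N)
    (A : ValuationSubring (AlgebraicClosure ℚ)) (_hA : A.LiesOverPrime ℓ)
    (hSTAR : p1_star_stmt N ℓ A) (hD1 : p1_gauss_stmt N A) (hD2 : p1_lift_stmt N A)
    (hC : p1_const_stmt (IsLocalRing.ResidueField ↥A) N)
    (h : ModularCurve.ReductionInputsModL A N) (m : ℕ) (hm : ¬ ℓ ∣ m)
    (z : ModularCurve.JZero N) (hmz : m • z = 0) (hz : ModularCurve.reductionModL A N z = 0) :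
    z = 0 := by
  induction m using Nat.strong_induction_on generalizing z with
  | _ m ih =>
    rcases Nat.eq_zero_or_pos m with rfl | hmpos
    · exact absurd (dvd_zero ℓ) hm
    rcases eq_or_ne m 1 with rfl | hm1
    · rwa [one_nsmul] at hmz
    have hp : (m.minFac).Prime := Nat.minFac_prime hm1
    obtain ⟨m', hm'⟩ := Nat.minFac_dvd m
    have hpℓ : m.minFac ≠ ℓ := by
      intro h0
      exact hm (h0 ▸ Nat.minFac_dvd m)
    have hm'pos : 0 < m' := by
      rcases Nat.eq_zero_or_pos m' with rfl | h0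
      · rw [mul_zero] at hm'; omega
      · exact h0
    have hm'lt : m' < m := by
      have h2 := hp.two_le
      nlinarith
    have hℓm' : ¬ ℓ ∣ m' := fun h0 => hm (hm' ▸ Dvd.dvd.mul_left h0 _)
    have hz' : m' • z = 0 := by
      apply pf18_prime N A hSTAR hD1 hD2 hC h m.minFac hp hpℓ (m' • z)
      · rw [← mul_nsmul', ← hm']; exact hmz
      · rw [map_nsmul, hz, smul_zero]
    exact ih m' hm'lt hℓm' z hz' hz

end

end Fermat.Agent.S18Lib
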