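/-
S18, chunk Ds (helper2): `ds18_gauss : ds18_gauss_stmt`  (= (D1) of `P1Iface`, from the reduction
inputs).

Every nonzero function `f` of level `N` over `ℚ̄` is `c * a / b` with `a`, `b` integral series in
the function field whose reductions are nonzero elements of the reduced function field:
the divisor of `f` is a `ℤ`-combination of divisors of such series (`PrincipalGeneratedByIntegral`),
and a function without zeros and poles is constant (`ds18_const`, from the fundamental identity
`∑_{v | y} ord_v y = [F : K(y)]` of the S24 library).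
-/
import Fermat.Agent.Lib.S18.DsLift
import Fermat.Agent.Lib.S18.P1Frame
import Fermat.Agent.Lib.S24.SumOrd
import Fermat.Agent.Lib.S24.DegJF

set_option autoImplicit false
set_option synthInstance.maxHeartbeats 400000

namespace Fermat.Agent.S18Lib

open ModularCurve AlgebraicCurve IntermediateField HahnSeries
open Fermat.Agent.S24Lib

noncomputable section

/-- A function of level `N` over `ℚ̄` without zeros and poles is constant. -/
theorem ds18_const (N : ℕ) [NeZero N] (g : ↥(modularFunctionFieldBar N))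
    (h0 : ∀ P : Place (AlgebraicClosure ℚ) ↥(modularFunctionFieldBar N), P.ord g = 0) :
    ∃ c : AlgebraicClosure ℚ, g = algebraMap (AlgebraicClosure ℚ) ↥(modularFunctionFieldBar N) c := by
  by_contra hK
  have hK' : g ∉ Set.range (algebraMap (AlgebraicClosure ℚ) ↥(modularFunctionFieldBar N)) := by
    rintro ⟨c, hc⟩
    exact hK ⟨c, hc.symm⟩
  have htr : Transcendental (AlgebraicClosure ℚ) g := fun ha => hK' (Res.mem_range_of_isAlgebraic ha)
  have hJ := finite_JF N
  have hfin : Module.Finite (AlgebraicClosure ℚ)⟮g⟯ ↥(modularFunctionFieldBar N) :=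
    Res.finite_adjoin_of_transcendental (JF N) htr
  have hsum := sum_ord_zeroPlaces_self g htr
  have hzero : ∑ᶠ v ∈ zeroPlaces (AlgebraicClosure ℚ) g, v.ord g = 0 := by
    apply finsum_mem_eq_zero_of_forall_eq_zero
    intro v _
    exact h0 v
  rw [hzero] at hsum
  have hpos : 0 < Module.finrank (AlgebraicClosure ℚ)⟮g⟯ ↥(modularFunctionFieldBar N) :=
    Module.finrank_pos
  have : (Module.finrank (AlgebraicClosure ℚ)⟮g⟯ ↥(modularFunctionFieldBar N) : ℤ) = 0 := hsum.symm
  omega

/-- every divisor in the group generated by the integral principal divisors is the divisor of a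
quotient of two good integral series with nonzero reductions -/
theorem ds18_closure (N : ℕ) [NeZero N] (A : ValuationSubring (AlgebraicClosure ℚ))
    (D : Divisor (AlgebraicClosure ℚ) ↥(modularFunctionFieldBar N))
    (hD : D ∈ AddSubgroup.closure (integralPrincipalDivisors A (IsLocalRing.residue ↥A) N)) :
    ∃ (a b : LaurentSeries ↥A) (ha : a ∈ ds18_Good N A) (hb : b ∈ ds18_Good N A),
      coeffMap (IsLocalRing.residue ↥A) a ≠ 0 ∧ coeffMap (IsLocalRing.residue ↥A) b ≠ 0 ∧
      ∀ P : Place (AlgebraicClosure ℚ) ↥(modularFunctionFieldBar N),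
        D P = P.ord (⟨coeffMap A.subtype a, ha.1⟩ : ↥(modularFunctionFieldBar N)) -
          P.ord (⟨coeffMap A.subtype b, hb.1⟩ : ↥(modularFunctionFieldBar N)) := by
  have hone : ∀ h1 : coeffMap A.subtype (1 : LaurentSeries ↥A) ∈ modularFunctionFieldBar N,
      (⟨coeffMap A.subtype 1, h1⟩ : ↥(modularFunctionFieldBar N)) = 1 := fun h1 =>
    Subtype.ext (map_one _)
  have hmul : ∀ (x y : LaurentSeries ↥A) (hx : coeffMap A.subtype x ∈ modularFunctionFieldBar N)
      (hy : coeffMap A.subtype y ∈ modularFunctionFieldBar N)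
      (hxy : coeffMap A.subtype (x * y) ∈ modularFunctionFieldBar N),
      (⟨coeffMap A.subtype (x * y), hxy⟩ : ↥(modularFunctionFieldBar N)) =
        ⟨coeffMap A.subtype x, hx⟩ * ⟨coeffMap A.subtype y, hy⟩ := fun x y hx hy hxy =>
    Subtype.ext (map_mul _ _ _)
  have hne : ∀ (x : LaurentSeries ↥A) (hx : coeffMap A.subtype x ∈ modularFunctionFieldBar N),
      coeffMap (IsLocalRing.residue ↥A) x ≠ 0 →
      (⟨coeffMap A.subtype x, hx⟩ : ↥(modularFunctionFieldBar N)) ≠ 0 := by
    intro x hx hx0 h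
    exact pf18_iota_ne_zero A hx0 (congrArg Subtype.val h)
  have h1ne : coeffMap (IsLocalRing.residue ↥A) (1 : LaurentSeries ↥A) ≠ 0 := by
    rw [map_one]; exact one_ne_zero
  induction hD using AddSubgroup.closure_induction with
  | mem E hE =>
    obtain ⟨y, hy, hyk, hy0, hE⟩ := hE
    refine ⟨y, 1, ⟨hy, hyk⟩, one_mem _, hy0, h1ne, fun P => ?_⟩
    rw [hone, Place.ord_one, sub_zero]
    exact hE P
  | zero =>
    refine ⟨1, 1, one_mem _, one_mem _, h1ne, h1ne, fun P => ?_⟩
    rw [sub_self]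
    rfl
  | add E E' _ _ hE hE' =>
    obtain ⟨a, b, ha, hb, ha0, hb0, hab⟩ := hE
    obtain ⟨a', b', ha', hb', ha0', hb0', hab'⟩ := hE'
    refine ⟨a * a', b * b', mul_mem ha ha', mul_mem hb hb', ?_, ?_, fun P => ?_⟩
    · rw [map_mul]; exact mul_ne_zero ha0 ha0'
    · rw [map_mul]; exact mul_ne_zero hb0 hb0'
    · rw [hmul a a' ha.1 ha'.1, hmul b b' hb.1 hb'.1,
        P.ord_mul (hne a ha.1 ha0) (hne a' ha'.1 ha0'),
        P.ord_mul (hne b hb.1 hb0) (hne b' hb'.1 hb0'), Finsupp.add_apply, hab P, hab' P]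
      ring
  | neg E _ hE =>
    obtain ⟨a, b, ha, hb, ha0, hb0, hab⟩ := hE
    refine ⟨b, a, hb, ha, hb0, ha0, fun P => ?_⟩
    rw [Finsupp.neg_apply, hab P]
    ring

/-- **(D1)** from the reduction inputs. -/
theorem ds18_gauss : ds18_gauss_stmt := by
  intro N _ A h f hf
  obtain ⟨r, -, hgen⟩ := h
  obtain ⟨D, hD⟩ := pf18_exists_div N f hf
  have hDp : D ∈ Divisor.principal (K := AlgebraicClosure ℚ)
      (F := ↥(modularFunctionFieldBar N)) := ⟨f, hf, hD⟩
  obtain ⟨a, b, ha, hb, ha0, hb0, hab⟩ := ds18_closure N A D (hgen hDp)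
  set xa : ↥(modularFunctionFieldBar N) := ⟨coeffMap A.subtype a, ha.1⟩ with hxa
  set xb : ↥(modularFunctionFieldBar N) := ⟨coeffMap A.subtype b, hb.1⟩ with hxb
  have hxa0 : xa ≠ 0 := fun h => pf18_iota_ne_zero A ha0 (congrArg Subtype.val h)
  have hxb0 : xb ≠ 0 := fun h => pf18_iota_ne_zero A hb0 (congrArg Subtype.val h)
  have hg0 : f * xb * xa⁻¹ ≠ 0 := mul_ne_zero (mul_ne_zero hf hxb0) (inv_ne_zero hxa0)
  obtain ⟨c, hc⟩ := ds18_const N (f * xb * xa⁻¹) (fun P => by
    rw [P.ord_mul (mul_ne_zero hf hxb0) (inv_ne_zero hxa0), P.ord_mul hf hxb0, P.ord_inv,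
      ← hD P, hab P]
    ring)
  have hc0 : c ≠ 0 := by
    rintro rfl
    rw [map_zero] at hc
    exact hg0 hc
  refine ⟨c, a, b, hc0, ha.1, hb.1, ha.2, ha0, hb.2, hb0, ?_⟩
  have h1 : f * xb = algebraMap (AlgebraicClosure ℚ) ↥(modularFunctionFieldBar N) c * xa := by
    rw [← hc, mul_assoc, inv_mul_cancel₀ hxa0, mul_one]
  have h2 := congrArg (fun z : ↥(modularFunctionFieldBar N) =>
    (z : LaurentSeries (AlgebraicClosure ℚ))) h1
  exact h2

end

end Fermat.Agent.S18Lib
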