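/-
S18 sprint (route Q), chunk Gr (helper4), part 7: the concrete instance `B = A ∩ E₀`
(`gr18_dvr`, `gr18_deg` plugged in): uniqueness of the Gauss extension (`as18_uniq_stmt`),
integrality over `V ∩ E₀(j)`, saturation of `gr18_O B M {t}`, Gauss lemma.
-/
import Fermat.Agent.Lib.S18.GrSat
import Fermat.Agent.Lib.S18.GrDvr
import Fermat.Agent.Lib.S18.GrDeg
import Fermat.Agent.Lib.S18.AsStarIface

set_option autoImplicit false

noncomputable section

namespace Fermat.Agent.S18Lib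

open ModularCurve Polynomial IntermediateField

set_option synthInstance.maxHeartbeats 400000 in
set_option maxHeartbeats 1600000 in
/-- Uniqueness of the Gauss extension from `E₀(j)` to `F_M^{E₀}`. -/
theorem gr18_uniq : as18_uniq_stmt := by
  intro ℓ hℓ A hA E₀ hfinE M hM hℓM W hW hWtop x
  obtain ⟨hdvr, hfinκ, hchar⟩ := gr18_dvr ℓ A hA E₀
  exact gr18_unique_ext ℓ (gr18_R A E₀) M hℓM (gr18_deg E₀ M).1 (gr18_deg E₀ M).2 W hW hWtop x

set_option synthInstance.maxHeartbeats 400000 in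
set_option maxHeartbeats 1600000 in
/-- Every element of the Gauss ring is integral over `V ∩ E₀(j)` (concrete instance). -/
theorem gr18_int_final (ℓ : ℕ) [Fact ℓ.Prime] (A : ValuationSubring (AlgebraicClosure ℚ))
    (hA : A.LiesOverPrime ℓ) (E₀ : IntermediateField ℚ (AlgebraicClosure ℚ))
    [FiniteDimensional ℚ E₀] (M : ℕ) [NeZero M] (hℓM : ¬ ℓ ∣ M)
    (x : gr18_F E₀ M) (hx : x ∈ gr18_VM (gr18_R A E₀) M) :
    IsIntegral (gr18_V0 (gr18_R A E₀) M) x := by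
  obtain ⟨hdvr, hfinκ, hchar⟩ := gr18_dvr ℓ A hA E₀
  exact gr18_isIntegral_V0 ℓ (gr18_R A E₀) M hℓM (gr18_deg E₀ M).1 (gr18_deg E₀ M).2 x hx

set_option synthInstance.maxHeartbeats 400000 in
set_option maxHeartbeats 1600000 in
/-- Saturation of `gr18_O B M {t}` in the Gauss ring (concrete instance): `t ∈ V` with
transcendental reduction and `j ∈ E₀(t)`. -/
theorem gr18_sat_final (ℓ : ℕ) [Fact ℓ.Prime] (A : ValuationSubring (AlgebraicClosure ℚ))
    (hA : A.LiesOverPrime ℓ) (E₀ : IntermediateField ℚ (AlgebraicClosure ℚ))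
    [FiniteDimensional ℚ E₀] (M : ℕ) [NeZero M] (hℓM : ¬ ℓ ∣ M)
    (t : gr18_F E₀ M) (htV : t ∈ gr18_VM (gr18_R A E₀) M)
    (htr : Transcendental (IsLocalRing.ResidueField (gr18_R A E₀))
      (gr18_redM (gr18_R A E₀) M ⟨t, htV⟩))
    (hj : gr18_j E₀ M ∈ IntermediateField.adjoin E₀ {t})
    (c : gr18_R A E₀) (hc : c ≠ 0) (z : gr18_F E₀ M) (hz : z ∈ gr18_VM (gr18_R A E₀) M)
    (hcz : gr18_c E₀ M (c : E₀) * z ∈ gr18_O (gr18_R A E₀) M {t}) :
    z ∈ gr18_O (gr18_R A E₀) M {t} := by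
  obtain ⟨hdvr, hfinκ, hchar⟩ := gr18_dvr ℓ A hA E₀
  exact gr18_sat_param ℓ (gr18_R A E₀) M hℓM (gr18_deg E₀ M).1 (gr18_deg E₀ M).2 ⟨t, htV⟩ htr hj
    c hc z hz hcz

end Fermat.Agent.S18Lib
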