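/-
S18, chunk P1 (helper1): the place at infinity of the reduced function field
`k(J(q^d) : d ∣ N) ⊆ k((q))` (the `q`-adic valuation), with `ord = q-order`.
-/
import Fermat.Agent.Lib.S18.P1Iface

set_option autoImplicit false

namespace Fermat.Agent.S18Lib

open ModularCurve AlgebraicCurve HahnSeries

noncomputable section

section order

variable {k : Type*} [Field k]

theorem pf18_order_mul {x y : LaurentSeries k} (hx : x ≠ 0) (hy : y ≠ 0) :
    (x * y).order = x.order + y.order :=
  HahnSeries.order_mul_of_ne_zero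
    (mul_ne_zero (HahnSeries.leadingCoeff_ne_zero.mpr hx) (HahnSeries.leadingCoeff_ne_zero.mpr hy))

theorem pf18_order_inv {x : LaurentSeries k} (hx : x ≠ 0) : (x⁻¹).order = -x.order := by
  have h := pf18_order_mul hx (inv_ne_zero hx)
  rw [mul_inv_cancel₀ hx, HahnSeries.order_one] at h
  omega

theorem pf18_order_add {x y : LaurentSeries k} (hx : 0 ≤ x.order) (hy : 0 ≤ y.order) :
    0 ≤ (x + y).order := by
  rcases eq_or_ne (x + y) 0 with h | h
  · rw [h, HahnSeries.order_zero]
  · exact le_trans (le_min hx hy) (HahnSeries.min_order_le_order_add h)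

theorem pf18_order_J : (jqModC k).order = -1 := by
  have h1 : (jqModC k).coeff (-1) ≠ 0 := by
    rw [coeff_jqModC_neg_one]; exact one_ne_zero
  have hne : jqModC k ≠ 0 := fun h => h1 (by rw [h]; rfl)
  refine le_antisymm (HahnSeries.order_le_of_coeff_ne_zero h1) ?_
  by_contra hlt
  rw [not_le] at hlt
  exact (HahnSeries.coeff_order_eq_zero.not.mpr hne) (coeff_jqModC_of_lt k hlt)

end order

variable (k : Type*) [Field k] (N : ℕ)

/-- the valuation subring of the reduced function field cut out by the `q`-adic order -/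
def pf18_infSubring : ValuationSubring ↥(modularFunctionFieldFullC k N) where
  carrier := {y | 0 ≤ (y : LaurentSeries k).order}
  mul_mem' := by
    intro a b ha hb
    simp only [Set.mem_ofPred_eq] at ha hb ⊢
    rcases eq_or_ne a 0 with rfl | ha0
    · simp
    rcases eq_or_ne b 0 with rfl | hb0
    · simp
    have ha0' : (a : LaurentSeries k) ≠ 0 := fun h => ha0 (Subtype.ext h)
    have hb0' : (b : LaurentSeries k) ≠ 0 := fun h => hb0 (Subtype.ext h)
    rw [MulMemClass.coe_mul, pf18_order_mul ha0' hb0']
    omega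
  one_mem' := by
    simp only [Set.mem_ofPred_eq, OneMemClass.coe_one, HahnSeries.order_one]
    exact le_rfl
  add_mem' := by
    intro a b ha hb
    simp only [Set.mem_ofPred_eq] at ha hb ⊢
    rw [AddMemClass.coe_add]
    exact pf18_order_add ha hb
  zero_mem' := by
    simp only [Set.mem_ofPred_eq, ZeroMemClass.coe_zero, HahnSeries.order_zero]
    exact le_rfl
  neg_mem' := by
    intro a ha
    simp only [Set.mem_ofPred_eq] at ha ⊢
    rw [NegMemClass.coe_neg, HahnSeries.order_neg]
    exact ha
  mem_or_inv_mem' := by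
    intro a
    simp only [Set.mem_ofPred_eq]
    rcases eq_or_ne a 0 with rfl | ha0
    · left; simp
    have ha0' : (a : LaurentSeries k) ≠ 0 := fun h => ha0 (Subtype.ext h)
    rcases le_total 0 (a : LaurentSeries k).order with h | h
    · left; exact h
    · right
      rw [IntermediateField.coe_inv, pf18_order_inv ha0']
      omega

theorem pf18_mem_infSubring (y : ↥(modularFunctionFieldFullC k N)) :
    y ∈ pf18_infSubring k N ↔ 0 ≤ (y : LaurentSeries k).order := Iff.rfl

/-- `J` as an element of the reduced function field -/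
def pf18_J : ↥(modularFunctionFieldFullC k N) := ⟨jqModC k, jqModC_mem_full k N⟩

theorem pf18_J_ne_zero : pf18_J k N ≠ 0 := by
  intro h
  have h1 : (jqModC k).order = -1 := pf18_order_J
  have h2 : jqModC k = 0 := congrArg Subtype.val h
  rw [h2, HahnSeries.order_zero] at h1
  omega

theorem pf18_order_coe_mul {a b : ↥(modularFunctionFieldFullC k N)} (ha : a ≠ 0) (hb : b ≠ 0) :
    ((a * b : ↥(modularFunctionFieldFullC k N)) : LaurentSeries k).order =
      (a : LaurentSeries k).order + (b : LaurentSeries k).order := by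
  rw [MulMemClass.coe_mul]
  exact pf18_order_mul (fun h => ha (Subtype.ext h)) (fun h => hb (Subtype.ext h))

theorem pf18_order_coe_inv {a : ↥(modularFunctionFieldFullC k N)} (ha : a ≠ 0) :
    ((a⁻¹ : ↥(modularFunctionFieldFullC k N)) : LaurentSeries k).order =
      -(a : LaurentSeries k).order := by
  rw [IntermediateField.coe_inv]
  exact pf18_order_inv (fun h => ha (Subtype.ext h))

theorem pf18_order_coe_pow (a : ↥(modularFunctionFieldFullC k N)) (n : ℕ) :
    ((a ^ n : ↥(modularFunctionFieldFullC k N)) : LaurentSeries k).order =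
      n * (a : LaurentSeries k).order := by
  rw [SubmonoidClass.coe_pow, HahnSeries.order_pow, nsmul_eq_mul]

theorem pf18_order_coe_J : ((pf18_J k N : ↥(modularFunctionFieldFullC k N)) :
    LaurentSeries k).order = -1 := pf18_order_J

/-- an element of order `0` is a unit of the valuation subring -/
theorem pf18_isUnit_of_order_eq_zero (a : ↥(pf18_infSubring k N))
    (ha0 : (a : ↥(modularFunctionFieldFullC k N)) ≠ 0)
    (ha : ((a : ↥(modularFunctionFieldFullC k N)) : LaurentSeries k).order = 0) : IsUnit a := by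
  have hinv : (a : ↥(modularFunctionFieldFullC k N))⁻¹ ∈ pf18_infSubring k N := by
    rw [pf18_mem_infSubring, pf18_order_coe_inv k N ha0, ha]
    exact le_rfl
  refine IsUnit.of_mul_eq_one ⟨_, hinv⟩ ?_
  apply Subtype.ext
  show (a : ↥(modularFunctionFieldFullC k N)) * (a : ↥(modularFunctionFieldFullC k N))⁻¹ = 1
  exact mul_inv_cancel₀ ha0

/-- the uniformiser `1 / J` -/
def pf18_unif : ↥(pf18_infSubring k N) :=
  ⟨(pf18_J k N)⁻¹, by
    rw [pf18_mem_infSubring, pf18_order_coe_inv k N (pf18_J_ne_zero k N), pf18_order_coe_J]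
    norm_num⟩

theorem pf18_order_unif : (((pf18_unif k N : ↥(pf18_infSubring k N)) :
    ↥(modularFunctionFieldFullC k N)) : LaurentSeries k).order = 1 := by
  show (((pf18_J k N)⁻¹ : ↥(modularFunctionFieldFullC k N)) : LaurentSeries k).order = 1
  rw [pf18_order_coe_inv k N (pf18_J_ne_zero k N), pf18_order_coe_J]
  norm_num

theorem pf18_unif_ne_zero : ((pf18_unif k N : ↥(pf18_infSubring k N)) :
    ↥(modularFunctionFieldFullC k N)) ≠ 0 := inv_ne_zero (pf18_J_ne_zero k N)

/-- order of a unit is zero -/
theorem pf18_order_eq_zero_of_isUnit {a : ↥(pf18_infSubring k N)} (ha : IsUnit a) :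
    ((a : ↥(modularFunctionFieldFullC k N)) : LaurentSeries k).order = 0 := by
  obtain ⟨b, hb⟩ := ha.exists_right_inv
  have hb' : (a : ↥(modularFunctionFieldFullC k N)) * (b : ↥(modularFunctionFieldFullC k N)) = 1 :=
    congrArg Subtype.val hb
  have ha0 : (a : ↥(modularFunctionFieldFullC k N)) ≠ 0 := left_ne_zero_of_mul_eq_one hb'
  have hb0 : (b : ↥(modularFunctionFieldFullC k N)) ≠ 0 := right_ne_zero_of_mul_eq_one hb'
  have h := pf18_order_coe_mul k N ha0 hb0
  rw [hb', OneMemClass.coe_one, HahnSeries.order_one] at h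
  have h1 : 0 ≤ ((a : ↥(modularFunctionFieldFullC k N)) : LaurentSeries k).order := a.2
  have h2 : 0 ≤ ((b : ↥(modularFunctionFieldFullC k N)) : LaurentSeries k).order := b.2
  omega

theorem pf18_irreducible_unif : Irreducible (pf18_unif k N) := by
  rw [irreducible_iff]
  constructor
  · intro hu
    have h := pf18_order_eq_zero_of_isUnit k N hu
    rw [pf18_order_unif] at h
    omega
  · intro a b hab
    have hab' : ((pf18_unif k N : ↥(pf18_infSubring k N)) : ↥(modularFunctionFieldFullC k N)) =
        (a : ↥(modularFunctionFieldFullC k N)) * (b : ↥(modularFunctionFieldFullC k N)) :=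
      congrArg Subtype.val hab
    have hne := pf18_unif_ne_zero k N
    rw [hab'] at hne
    have ha0 : (a : ↥(modularFunctionFieldFullC k N)) ≠ 0 := left_ne_zero_of_mul hne
    have hb0 : (b : ↥(modularFunctionFieldFullC k N)) ≠ 0 := right_ne_zero_of_mul hne
    have h := pf18_order_coe_mul k N ha0 hb0
    rw [← hab', pf18_order_unif] at h
    have h1 : 0 ≤ ((a : ↥(modularFunctionFieldFullC k N)) : LaurentSeries k).order := a.2
    have h2 : 0 ≤ ((b : ↥(modularFunctionFieldFullC k N)) : LaurentSeries k).order := b.2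
    rcases (by omega : ((a : ↥(modularFunctionFieldFullC k N)) : LaurentSeries k).order = 0 ∨
        ((b : ↥(modularFunctionFieldFullC k N)) : LaurentSeries k).order = 0) with h0 | h0
    · left; exact pf18_isUnit_of_order_eq_zero k N a ha0 h0
    · right; exact pf18_isUnit_of_order_eq_zero k N b hb0 h0

/-- every nonzero element of the valuation subring is a unit times a power of `1 / J` -/
theorem pf18_exists_unit_mul_pow (x : ↥(pf18_infSubring k N)) (hx : x ≠ 0) :
    ∃ (n : ℕ) (u : (↥(pf18_infSubring k N))ˣ),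
      (n : ℤ) = ((x : ↥(modularFunctionFieldFullC k N)) : LaurentSeries k).order ∧
      x = (u : ↥(pf18_infSubring k N)) * pf18_unif k N ^ n := by
  have hx0 : (x : ↥(modularFunctionFieldFullC k N)) ≠ 0 := fun h => hx (Subtype.ext h)
  have hxord : 0 ≤ ((x : ↥(modularFunctionFieldFullC k N)) : LaurentSeries k).order := x.2
  obtain ⟨n, hn⟩ := Int.eq_ofNat_of_zero_le hxord
  have hJn : (pf18_J k N) ^ n ≠ 0 := pow_ne_zero _ (pf18_J_ne_zero k N)
  have hy : (x : ↥(modularFunctionFieldFullC k N)) * (pf18_J k N) ^ n ∈ pf18_infSubring k N := by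
    rw [pf18_mem_infSubring, pf18_order_coe_mul k N hx0 hJn, pf18_order_coe_pow,
      pf18_order_coe_J, hn]
    simp
  have hyu : IsUnit (⟨_, hy⟩ : ↥(pf18_infSubring k N)) := by
    apply pf18_isUnit_of_order_eq_zero k N _ (mul_ne_zero hx0 hJn)
    show ((((x : ↥(modularFunctionFieldFullC k N)) * (pf18_J k N) ^ n :
      ↥(modularFunctionFieldFullC k N))) : LaurentSeries k).order = 0
    rw [pf18_order_coe_mul k N hx0 hJn, pf18_order_coe_pow, pf18_order_coe_J, hn]
    simp
  refine ⟨n, hyu.unit, hn.symm, ?_⟩
  apply Subtype.ext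
  show (x : ↥(modularFunctionFieldFullC k N)) =
    ((x : ↥(modularFunctionFieldFullC k N)) * (pf18_J k N) ^ n) * ((pf18_J k N)⁻¹) ^ n
  rw [mul_assoc, ← mul_pow, mul_inv_cancel₀ (pf18_J_ne_zero k N), one_pow, mul_one]

theorem pf18_isDVR : IsDiscreteValuationRing ↥(pf18_infSubring k N) := by
  apply IsDiscreteValuationRing.ofHasUnitMulPowIrreducibleFactorization
  refine ⟨pf18_unif k N, pf18_irreducible_unif k N, ?_⟩
  intro x hx
  obtain ⟨n, u, -, hxu⟩ := pf18_exists_unit_mul_pow k N x hx
  refine ⟨n, u, ?_⟩
  rw [hxu, mul_comm]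

/-- **the place at infinity** of the reduced function field -/
def pf18_inf : Place k ↥(modularFunctionFieldFullC k N) where
  toValuationSubring := pf18_infSubring k N
  algebraMap_mem' := by
    intro c
    rw [pf18_mem_infSubring]
    have h : ((algebraMap k ↥(modularFunctionFieldFullC k N) c :
        ↥(modularFunctionFieldFullC k N)) : LaurentSeries k) = HahnSeries.single 0 c :=
      algebraMap_laurentSeries_eq_single k c
    rw [h]
    rcases eq_or_ne c 0 with rfl | hc
    · simp
    · rw [HahnSeries.order_single hc]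
  ne_top' := by
    intro htop
    have h : pf18_J k N ∈ pf18_infSubring k N := by rw [htop]; trivial
    rw [pf18_mem_infSubring, pf18_order_coe_J] at h
    omega
  isPrincipalIdealRing' := by
    have := pf18_isDVR k N
    infer_instance

/-- the order at the place at infinity is the `q`-adic order -/
theorem pf18_inf_ord (y : ↥(modularFunctionFieldFullC k N)) (hy : y ≠ 0) :
    (pf18_inf k N).ord y = (y : LaurentSeries k).order := by
  have key : ∀ x : ↥(modularFunctionFieldFullC k N), x ≠ 0 → x ∈ pf18_infSubring k N →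
      (pf18_inf k N).ord x = (x : LaurentSeries k).order := by
    intro x hx hxmem
    obtain ⟨n, u, hn, hxu⟩ := pf18_exists_unit_mul_pow k N ⟨x, hxmem⟩
      (fun h => hx (congrArg Subtype.val h))
    have h : (pf18_inf k N).ord
        (((u : ↥(pf18_infSubring k N)) : ↥(modularFunctionFieldFullC k N)) *
          ((pf18_unif k N : ↥(pf18_infSubring k N)) : ↥(modularFunctionFieldFullC k N)) ^ (n : ℤ))
        = (n : ℤ) :=
      Place.ord_unit_smul_zpow (pf18_inf k N) u (pf18_irreducible_unif k N) (n : ℤ)
    have hx' : x = ((u : ↥(pf18_infSubring k N)) : ↥(modularFunctionFieldFullC k N)) *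
        ((pf18_unif k N : ↥(pf18_infSubring k N)) : ↥(modularFunctionFieldFullC k N)) ^ (n : ℤ) := by
      rw [zpow_natCast]
      exact congrArg Subtype.val hxu
    rw [hx', h, ← hx']
    exact hn
  rcases (pf18_infSubring k N).mem_or_inv_mem y with h | h
  · exact key y hy h
  · have h1 := key y⁻¹ (inv_ne_zero hy) h
    rw [(pf18_inf k N).ord_inv, pf18_order_coe_inv k N hy] at h1
    omega

end

end Fermat.Agent.S18Lib
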