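/-
S18 sprint (route Q), chunk Gr, separability core (helper1, prefix `gs18_`).

`gr18_sepcore` : for a finite field `κ` of characteristic `ℓ`, every element of `κ((q))`
algebraic over `κ(J)` (`J = jqModC κ = q⁻¹ + …`) is separable over `κ(J)`.

Route (no derivations): `κ(J) = ⊕_{r<ℓ} κ(J)^ℓ J^r` (`κ` perfect), and `1, J, …, J^{ℓ-1}` are
linearly independent over `κ((q))^ℓ` because the `q`-orders of `J^r y^ℓ` are `≡ -r mod ℓ`.
-/
import Mathlib
import Fermat.Agent.Lib.S18.P1Inf

set_option autoImplicit false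
set_option linter.style.haveILetI false

noncomputable section

namespace Fermat.Agent.S18Lib

open ModularCurve Polynomial

section

variable {κ : Type*} [Field κ]

/-- Terms of pairwise distinct orders cannot cancel. -/
theorem gs18_sum_eq_zero (s : Finset ℕ) (T : ℕ → LaurentSeries κ)
    (hT : ∀ r ∈ s, ∀ r' ∈ s, T r ≠ 0 → T r' ≠ 0 → (T r).order = (T r').order → r = r')
    (h0 : ∑ r ∈ s, T r = 0) : ∀ r ∈ s, T r = 0 := by
  classical
  by_contra hcon
  obtain ⟨r1, hcon⟩ := not_forall.mp hcon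
  obtain ⟨hr1, hr1ne⟩ := Classical.not_imp.mp hcon
  have hne : (s.filter (fun r => T r ≠ 0)).Nonempty := ⟨r1, Finset.mem_filter.mpr ⟨hr1, hr1ne⟩⟩
  obtain ⟨r0, hr0, hmin⟩ := Finset.exists_min_image _ (fun r => (T r).order) hne
  have hr0s : r0 ∈ s := (Finset.mem_filter.mp hr0).1
  have hr0ne : T r0 ≠ 0 := (Finset.mem_filter.mp hr0).2
  have hc : (∑ r ∈ s, T r).coeff (T r0).order = (T r0).coeff (T r0).order := by
    rw [HahnSeries.coeff_sum]
    apply Finset.sum_eq_single_of_mem r0 hr0s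
    intro r hr hrne
    by_cases hz : T r = 0
    · rw [hz]; rfl
    · have hle := hmin r (Finset.mem_filter.mpr ⟨hr, hz⟩)
      have hne' : (T r0).order ≠ (T r).order := fun h => hrne (hT r0 hr0s r hr hr0ne hz h).symm
      exact HahnSeries.coeff_eq_zero_of_lt_order (lt_of_le_of_ne hle hne')
  rw [h0] at hc
  exact (HahnSeries.coeff_order_eq_zero.not.mpr hr0ne) hc.symm

/-- `1, J, …, J^{ℓ-1}` are linearly independent over the `ℓ`-th powers of `κ((q))`. -/
theorem gs18_indep (ℓ : ℕ) (y : ℕ → LaurentSeries κ)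
    (h0 : ∑ r ∈ Finset.range ℓ, jqModC κ ^ r * (y r) ^ ℓ = 0) :
    ∀ r ∈ Finset.range ℓ, y r = 0 := by
  have hJ : jqModC κ ≠ 0 := jqModC_ne_zero_of_nontrivial κ
  have hord : ∀ r, y r ≠ 0 →
      (jqModC κ ^ r * (y r) ^ ℓ).order = -(r : ℤ) + ℓ * (y r).order := by
    intro r hy
    rw [pf18_order_mul (pow_ne_zero _ hJ) (pow_ne_zero _ hy), HahnSeries.order_pow,
      HahnSeries.order_pow, pf18_order_J]
    simp
  have h := gs18_sum_eq_zero (Finset.range ℓ) (fun r => jqModC κ ^ r * (y r) ^ ℓ) ?_ h0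
  · intro r hr
    have hr' := h r hr
    have hℓ : ℓ ≠ 0 := by
      rintro rfl
      simp at hr
    rcases mul_eq_zero.mp hr' with h1 | h1
    · exact absurd h1 (pow_ne_zero _ hJ)
    · exact pow_eq_zero_iff hℓ |>.mp h1
  · intro r hr r' hr' hne hne' heq
    have hy : y r ≠ 0 := by
      rintro h
      apply hne
      have hℓ : ℓ ≠ 0 := by
        rintro rfl
        simp at hr
      simp [h, hℓ]
    have hy' : y r' ≠ 0 := by
      rintro h
      apply hne'
      have hℓ : ℓ ≠ 0 := by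
        rintro rfl
        simp at hr
      simp [h, hℓ]
    have heq' : (jqModC κ ^ r * y r ^ ℓ).order = (jqModC κ ^ r' * y r' ^ ℓ).order := heq
    rw [hord r hy, hord r' hy'] at heq'
    have hr1 := Finset.mem_range.mp hr
    have hr2 := Finset.mem_range.mp hr'
    -- `r ≡ r' mod ℓ`
    have hdvd : (ℓ : ℤ) ∣ (r : ℤ) - (r' : ℤ) := by
      refine ⟨(y r).order - (y r').order, ?_⟩
      linarith [heq']
    have h1 : ((r : ℤ) - r') = 0 := by
      apply Int.eq_zero_of_abs_lt_dvd hdvd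
      rw [abs_lt]
      constructor <;> omega
    omega

/-- Over a perfect field of characteristic `ℓ`, every polynomial is
`∑_{r<ℓ} X^r (f r)^ℓ`. -/
theorem gs18_poly_decomp (ℓ : ℕ) [Fact ℓ.Prime] [CharP κ ℓ] (hperf : ∀ a : κ, ∃ b : κ, b ^ ℓ = a)
    (p : κ[X]) : ∃ f : ℕ → κ[X], p = ∑ r ∈ Finset.range ℓ, X ^ r * (f r) ^ ℓ := by
  classical
  have hℓ : ℓ ≠ 0 := (Fact.out : ℓ.Prime).ne_zero
  induction p using Polynomial.induction_on' with
  | add p q hp hq =>
    obtain ⟨f, hf⟩ := hp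
    obtain ⟨g, hg⟩ := hq
    refine ⟨fun r => f r + g r, ?_⟩
    rw [hf, hg, ← Finset.sum_add_distrib]
    refine Finset.sum_congr rfl fun r _ => ?_
    rw [add_pow_char, mul_add]
  | monomial n a =>
    obtain ⟨b, hb⟩ := hperf a
    refine ⟨fun r => if r = n % ℓ then C b * X ^ (n / ℓ) else 0, ?_⟩
    rw [Finset.sum_eq_single (n % ℓ)]
    · beta_reduce
      rw [if_pos rfl, mul_pow, ← C_pow, hb, ← pow_mul, mul_left_comm, ← pow_add,
        Nat.mod_add_div' n ℓ, C_mul_X_pow_eq_monomial]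
    · intro r _ hr
      beta_reduce
      rw [if_neg hr, zero_pow hℓ, mul_zero]
    · intro h
      exact absurd (Finset.mem_range.mpr (Nat.mod_lt n (Nat.pos_of_ne_zero hℓ))) h

/-- `κ(J) = ⊕_{r<ℓ} κ(J)^ℓ J^r`. -/
theorem gs18_field_decomp (ℓ : ℕ) [Fact ℓ.Prime] [CharP κ ℓ]
    (hperf : ∀ a : κ, ∃ b : κ, b ^ ℓ = a)
    (c : ↥(IntermediateField.adjoin κ {jqModC κ})) :
    ∃ a : ℕ → ↥(IntermediateField.adjoin κ {jqModC κ}),
      (c : LaurentSeries κ) =
        ∑ r ∈ Finset.range ℓ, jqModC κ ^ r * ((a r : LaurentSeries κ)) ^ ℓ := by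
  have hℓ : ℓ ≠ 0 := (Fact.out : ℓ.Prime).ne_zero
  obtain ⟨P, Q, hPQ⟩ := (IntermediateField.mem_adjoin_simple_iff κ (c : LaurentSeries κ)).mp c.2
  by_cases hQ : aeval (jqModC κ) Q = 0
  · refine ⟨fun _ => 0, ?_⟩
    rw [hPQ, hQ, div_zero]
    simp [hℓ]
  · obtain ⟨f, hf⟩ := gs18_poly_decomp ℓ hperf (P * Q ^ (ℓ - 1))
    have hmem : ∀ r, aeval (jqModC κ) (f r) / aeval (jqModC κ) Q ∈
        IntermediateField.adjoin κ {jqModC κ} :=
      fun r => (IntermediateField.mem_adjoin_simple_iff κ _).mpr ⟨f r, Q, rfl⟩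
    refine ⟨fun r => ⟨_, hmem r⟩, ?_⟩
    have h1 := congrArg (aeval (jqModC κ)) hf
    rw [map_mul, map_pow, map_sum] at h1
    have h2 : aeval (jqModC κ) P / aeval (jqModC κ) Q =
        (aeval (jqModC κ) P * aeval (jqModC κ) Q ^ (ℓ - 1)) / aeval (jqModC κ) Q ^ ℓ := by
      have hℓ' : ℓ = (ℓ - 1) + 1 := by omega
      conv_rhs => rw [hℓ', pow_succ]
      field_simp
      simp
    rw [hPQ, h2, h1, Finset.sum_div]
    refine Finset.sum_congr rfl fun r _ => ?_
    rw [map_mul, map_pow, map_pow, aeval_X, div_pow, mul_div_assoc]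

end

/-- The separability core: an element of `κ((q))` algebraic over `κ(J)` is separable,
`κ` a finite field of characteristic `ℓ`. -/
theorem gr18_sepcore (ℓ : ℕ) [Fact ℓ.Prime] (κ : Type) [Field κ] [Finite κ] [CharP κ ℓ]
    (z : LaurentSeries κ)
    (hz : IsIntegral ↥(IntermediateField.adjoin κ {ModularCurve.jqModC κ}) z) :
    (minpoly ↥(IntermediateField.adjoin κ {ModularCurve.jqModC κ}) z).Separable := by
  classical
  have hℓp : ℓ.Prime := Fact.out
  have hℓ : ℓ ≠ 0 := hℓp.ne_zero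
  have hperf : ∀ a : κ, ∃ b : κ, b ^ ℓ = a := by
    intro a
    obtain ⟨b, hb⟩ := (bijective_frobenius κ ℓ).2 a
    exact ⟨b, by rw [← frobenius_def]; exact hb⟩
  set K := IntermediateField.adjoin κ {ModularCurve.jqModC κ} with hK
  haveI : CharP K ℓ := charP_of_injective_algebraMap (algebraMap κ K).injective ℓ
  haveI : CharP (LaurentSeries κ) ℓ :=
    charP_of_injective_algebraMap (algebraMap κ (LaurentSeries κ)).injective ℓ
  rcases separable_or ℓ (minpoly.irreducible hz) with h | ⟨-, g, hg, hexp⟩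
  · exact h
  exfalso
  choose A hA using gs18_field_decomp (κ := κ) ℓ hperf
  set n := g.natDegree with hn
  have hgpos : 0 < n := hg.natDegree_pos
  have hμdeg : (minpoly K z).natDegree = n * ℓ := by
    rw [← hexp, natDegree_expand]
  let G : ℕ → K[X] := fun r => ∑ i ∈ Finset.range (n + 1), C (A (g.coeff i) r) * X ^ i
  have hGdeg : ∀ r, (G r).natDegree ≤ n := by
    intro r
    refine natDegree_sum_le_of_forall_le _ _ fun i hi => ?_
    refine (natDegree_C_mul_X_pow_le _ _).trans ?_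
    exact Nat.lt_succ_iff.mp (Finset.mem_range.mp hi)
  have hGeval : ∀ r, aeval z (G r) =
      ∑ i ∈ Finset.range (n + 1), ((A (g.coeff i) r : K) : LaurentSeries κ) * z ^ i := by
    intro r
    simp only [G, map_sum, map_mul, aeval_C, map_pow, aeval_X]
    rfl
  -- the key identity
  have hkey : ∑ r ∈ Finset.range ℓ, jqModC κ ^ r * (aeval z (G r)) ^ ℓ = 0 := by
    have h0 : aeval z (minpoly K z) = 0 := minpoly.aeval K z
    rw [← hexp, expand_aeval, aeval_eq_sum_range] at h0
    rw [← h0]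
    simp_rw [hGeval, sum_pow_char, Finset.mul_sum]
    rw [Finset.sum_comm]
    refine Finset.sum_congr rfl fun i _ => ?_
    rw [Algebra.smul_def, show algebraMap K (LaurentSeries κ) (g.coeff i) =
      ((g.coeff i : K) : LaurentSeries κ) from rfl, hA (g.coeff i), Finset.sum_mul]
    refine Finset.sum_congr rfl fun r _ => ?_
    rw [mul_pow, ← pow_mul, ← pow_mul, mul_comm i ℓ, mul_assoc]
  have hzero : ∀ r ∈ Finset.range ℓ, aeval z (G r) = 0 := gs18_indep ℓ _ hkey
  have hG0 : ∀ r ∈ Finset.range ℓ, G r = 0 := by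
    intro r hr
    by_contra hne
    have hle := minpoly.degree_le_of_ne_zero K z hne (hzero r hr)
    have hle' := natDegree_le_natDegree hle
    rw [hμdeg] at hle'
    have := hGdeg r
    have h2 : n * 2 ≤ n * ℓ := Nat.mul_le_mul_left n hℓp.two_le
    omega
  have hcoef : ∀ i, g.coeff i = 0 := by
    intro i
    by_cases hi : i ≤ n
    · have h1 : ∀ r ∈ Finset.range ℓ, A (g.coeff i) r = 0 := by
        intro r hr
        have h2 := congrArg (fun p : K[X] => p.coeff i) (hG0 r hr)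
        simp only [G, finsetSum_coeff, coeff_C_mul_X_pow, coeff_zero] at h2
        rw [Finset.sum_eq_single i] at h2
        · simpa using h2
        · intro j _ hj
          rw [if_neg (Ne.symm hj)]
        · intro h
          exact absurd (Finset.mem_range.mpr (Nat.lt_succ_of_le hi)) h
      have h3 := hA (g.coeff i)
      rw [Finset.sum_eq_zero] at h3
      · exact Subtype.ext h3
      · intro r hr
        rw [h1 r hr]
        simp [hℓ]
    · exact coeff_eq_zero_of_natDegree_lt (not_le.mp hi)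
  exact hg.ne_zero (Polynomial.ext fun i => by rw [hcoef i, coeff_zero])

end Fermat.Agent.S18Lib
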