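/-
S18 sprint (route Q), chunk Gr, item (c) (helper3, prefix `gsp18_`):
`gr18_sep : gr18_sep_stmt`, the residue field of the Gauss ring `V` of `F_M^E` is separable
over the residue field of `V ∩ E(j)`.

Route (no theta-basis, no integrality of `V` over `V ∩ E(j)`):
* `z ∈ V` is algebraic over `E(j)` (`gr18_deg`), hence satisfies `∑ a_i(j) z^i = 0` with
  `a_i ∈ E[T]` not all zero; scale by a constant so that all `a_i ∈ B[T]` and one coefficient is
  `1`; reduce: `∑ ā_i(J) z̄^i = 0`, a nontrivial relation because `J` is transcendental over `κ`;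
* so `z̄` is algebraic over `κ(J)`, hence separable (`gr18_sepcore`);
* lift the minimal polynomial coefficientwise (`a(J)/b(J) ↦ ã(j)/b̃(j)`, and `b̃(j)` is a unit of
  `V` because its reduction is nonzero).
-/
import Fermat.Agent.Lib.S18.GrField
import Fermat.Agent.Lib.S18.GrDeg
import Fermat.Agent.Lib.S18.GrSepCore

set_option autoImplicit false
set_option maxHeartbeats 1600000
set_option synthInstance.maxHeartbeats 400000

noncomputable section

namespace Fermat.Agent.S18Lib

open ModularCurve Fermat.Agent.S28Lib Polynomial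

section

variable {E : Type} [Field E] [Algebra ℚ E] (B : ValuationSubring E) (M : ℕ) [NeZero M]

theorem gsp18_coe_j :
    ((gr18_j E M : gr18_F E M) : LaurentSeries E) = coeffMap (Int.castRingHom E) (jqModC ℤ) := by
  rw [gr18_coe_j, coeffMap_jqModC]
  show coeffMap (algebraMap ℚ E) (jqModC ℚ) = jqModC E
  rw [coeffMap_jqModC]

/-- `j ∈ V`. -/
theorem gsp18_j_mem : gr18_j E M ∈ gr18_VM B M := by
  show ((gr18_j E M : gr18_F E M) : LaurentSeries E) ∈ gr18_VL B
  rw [gsp18_coe_j]
  exact gr18_int_mem_VL B _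

/-- The reduction of `j` is `J`. -/
theorem gsp18_red_j :
    gr18_redM B M ⟨gr18_j E M, gsp18_j_mem B M⟩ = jqModC (IsLocalRing.ResidueField B) := by
  have hm : coeffMap (Int.castRingHom E) (jqModC ℤ) ∈ gr18_F E M := by
    rw [← gsp18_coe_j M]
    exact (gr18_j E M).2
  have h2 := gr18_redM_int B M (jqModC ℤ) hm
  have h3 : coeffMap (Int.castRingHom (IsLocalRing.ResidueField B)) (jqModC ℤ) =
      jqModC (IsLocalRing.ResidueField B) := coeffMap_jqModC _
  refine Eq.trans ?_ (h2.trans h3)
  congr 1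
  exact Subtype.ext (Subtype.ext (gsp18_coe_j M))

/-- Constants `B → V`. -/
def gsp18_cV : B →+* gr18_VM B M where
  toFun r := ⟨gr18_c E M (r : E), gr18_c_mem_VM B M r⟩
  map_one' := Subtype.ext (map_one (algebraMap E (gr18_F E M)))
  map_mul' x y := Subtype.ext (map_mul (algebraMap E (gr18_F E M)) (x : E) (y : E))
  map_zero' := Subtype.ext (map_zero (algebraMap E (gr18_F E M)))
  map_add' x y := Subtype.ext (map_add (algebraMap E (gr18_F E M)) (x : E) (y : E))

omit [NeZero M] in
theorem gsp18_coe_cV (r : B) :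
    ((gsp18_cV B M r : gr18_VM B M) : gr18_F E M) = algebraMap E (gr18_F E M) (r : E) := rfl

omit [NeZero M] in
theorem gsp18_red_cV (r : B) :
    gr18_redM B M (gsp18_cV B M r) = HahnSeries.C (IsLocalRing.residue B r) := by
  rw [gr18_redM_apply]
  have h := gr18_red_io B (HahnSeries.C r)
  rw [gr18_rd_C] at h
  rw [← h]
  congr 1
  apply Subtype.ext
  show ((gr18_c E M (r : E) : gr18_F E M) : LaurentSeries E) = gr18_io B (HahnSeries.C r)
  rw [gr18_coe_c, algebraMap_eq_C, gr18_io_C]

/-- Evaluation of `B`-polynomials at `j`, with values in `V`. -/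
def gsp18_ev : Polynomial B →+* gr18_VM B M :=
  Polynomial.eval₂RingHom (gsp18_cV B M) ⟨gr18_j E M, gsp18_j_mem B M⟩

theorem gsp18_red_ev (a : Polynomial B) :
    gr18_redM B M (gsp18_ev B M a) =
      Polynomial.aeval (jqModC (IsLocalRing.ResidueField B)) (a.map (IsLocalRing.residue B)) := by
  have h : (gr18_redM B M).comp (gsp18_ev B M) =
      ((Polynomial.aeval (jqModC (IsLocalRing.ResidueField B))).toRingHom).comp
        (Polynomial.mapRingHom (IsLocalRing.residue B)) := by
    apply Polynomial.ringHom_ext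
    · intro r
      simp only [RingHom.comp_apply, gsp18_ev, Polynomial.coe_eval₂RingHom, Polynomial.eval₂_C,
        Polynomial.coe_mapRingHom, Polynomial.map_C, AlgHom.toRingHom_eq_coe, RingHom.coe_coe,
        Polynomial.aeval_C]
      rw [gsp18_red_cV, algebraMap_eq_C]
    · simp only [RingHom.comp_apply, gsp18_ev, Polynomial.coe_eval₂RingHom, Polynomial.eval₂_X,
        Polynomial.coe_mapRingHom, Polynomial.map_X, AlgHom.toRingHom_eq_coe, RingHom.coe_coe,
        Polynomial.aeval_X]
      exact gsp18_red_j B M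
  exact RingHom.congr_fun h a

theorem gsp18_coe_ev (a : Polynomial B) :
    ((gsp18_ev B M a : gr18_VM B M) : gr18_F E M) =
      Polynomial.aeval (gr18_j E M) (a.map B.subtype) := by
  have h : (gr18_VM B M).subtype.comp (gsp18_ev B M) =
      ((Polynomial.aeval (gr18_j E M)).toRingHom).comp (Polynomial.mapRingHom B.subtype) := by
    apply Polynomial.ringHom_ext
    · intro r
      simp only [RingHom.comp_apply, gsp18_ev, Polynomial.coe_eval₂RingHom, Polynomial.eval₂_C,
        Polynomial.coe_mapRingHom, Polynomial.map_C, AlgHom.toRingHom_eq_coe, RingHom.coe_coe,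
        Polynomial.aeval_C]
      rfl
    · simp only [RingHom.comp_apply, gsp18_ev, Polynomial.coe_eval₂RingHom, Polynomial.eval₂_X,
        Polynomial.coe_mapRingHom, Polynomial.map_X, AlgHom.toRingHom_eq_coe, RingHom.coe_coe,
        Polynomial.aeval_X]
      rfl
  exact RingHom.congr_fun h a

theorem gsp18_aeval_mem (p : Polynomial E) :
    Polynomial.aeval (gr18_j E M) p ∈ IntermediateField.adjoin E {gr18_j E M} :=
  IntermediateField.algebra_adjoin_le_adjoin E _ (Polynomial.aeval_mem_adjoin_singleton E _)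

/-- Elements of `κ(J)` lift to elements of `V ∩ E(j)`. -/
theorem gsp18_lift (k : LaurentSeries (IsLocalRing.ResidueField B))
    (hk : k ∈ IntermediateField.adjoin (IsLocalRing.ResidueField B)
      {jqModC (IsLocalRing.ResidueField B)}) :
    ∃ d : gr18_VM B M, (d : gr18_F E M) ∈ IntermediateField.adjoin E {gr18_j E M} ∧
      gr18_redM B M d = k := by
  obtain ⟨r, s, hrs⟩ := (IntermediateField.mem_adjoin_simple_iff _ _).mp hk
  by_cases hs : Polynomial.aeval (jqModC (IsLocalRing.ResidueField B)) s = 0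
  · refine ⟨0, zero_mem _, ?_⟩
    rw [map_zero, hrs, hs, div_zero]
  · obtain ⟨r', hr'⟩ := Polynomial.map_surjective _ IsLocalRing.residue_surjective r
    obtain ⟨s', hs'⟩ := Polynomial.map_surjective _ IsLocalRing.residue_surjective s
    have hu : gr18_redM B M (gsp18_ev B M s') ≠ 0 := by
      rw [gsp18_red_ev, hs']
      exact hs
    have hinv := gr18_inv_mem_VM B M (gsp18_ev B M s') hu
    refine ⟨gsp18_ev B M r' * ⟨_, hinv⟩, ?_, ?_⟩
    · show ((gsp18_ev B M r' : gr18_VM B M) : gr18_F E M) *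
        ((gsp18_ev B M s' : gr18_VM B M) : gr18_F E M)⁻¹ ∈ _
      rw [gsp18_coe_ev, gsp18_coe_ev]
      exact mul_mem (gsp18_aeval_mem M _) (inv_mem (gsp18_aeval_mem M _))
    · have h1 : gr18_redM B M (gsp18_ev B M s') * gr18_redM B M ⟨_, hinv⟩ = 1 := by
        rw [← map_mul, ← map_one (gr18_redM B M)]
        congr 1
        apply Subtype.ext
        show ((gsp18_ev B M s' : gr18_VM B M) : gr18_F E M) *
          ((gsp18_ev B M s' : gr18_VM B M) : gr18_F E M)⁻¹ = 1
        refine mul_inv_cancel₀ ?_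
        intro h0
        apply hu
        have h00 : gsp18_ev B M s' = 0 := Subtype.ext h0
        rw [h00, map_zero]
      rw [map_mul, gsp18_red_ev, hr', hrs, div_eq_mul_inv]
      congr 1
      rw [gsp18_red_ev, hs'] at h1
      exact eq_inv_of_mul_eq_one_right h1

omit [Algebra ℚ E] in
/-- Simultaneous scaling of finitely many polynomials over `E`, not all zero, to polynomials
over `B` not all of zero reduction. -/
theorem gsp18_scale (N : ℕ) (a : ℕ → Polynomial E) (i₀ : ℕ) (hi₀ : i₀ ≤ N) (ha : a i₀ ≠ 0) :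
    ∃ (e : E) (a' : ℕ → Polynomial B),
      (∀ i ≤ N, (a' i).map B.subtype = Polynomial.C e * a i) ∧
      ∃ i ≤ N, (a' i).map (IsLocalRing.residue B) ≠ 0 := by
  classical
  let T : Finset (Σ _ : ℕ, ℕ) := (Finset.range (N + 1)).sigma (fun i => (a i).support)
  have hT : T.Nonempty := by
    obtain ⟨k, hk⟩ := Polynomial.nonempty_support_iff.mpr ha
    exact ⟨⟨i₀, k⟩, Finset.mem_sigma.mpr ⟨Finset.mem_range.mpr (Nat.lt_succ_of_le hi₀), hk⟩⟩
  obtain ⟨⟨i₁, k₁⟩, h₁, hmax⟩ :=
    Finset.exists_max_image T (fun p => B.valuation ((a p.1).coeff p.2)) hT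
  obtain ⟨hi₁, hk₁⟩ := Finset.mem_sigma.mp h₁
  have hi₁' : i₁ ≤ N := Nat.lt_succ_iff.mp (Finset.mem_range.mp hi₁)
  have hc₀ : (a i₁).coeff k₁ ≠ 0 := Polynomial.mem_support_iff.mp hk₁
  have hv₀ : B.valuation ((a i₁).coeff k₁) ≠ 0 := (Valuation.ne_zero_iff _).mpr hc₀
  have hmem : ∀ i ≤ N, ∀ k, ((a i₁).coeff k₁)⁻¹ * (a i).coeff k ∈ B := by
    intro i hi k
    by_cases hk : (a i).coeff k = 0
    · rw [hk, mul_zero]
      exact zero_mem _
    · have hle := hmax ⟨i, k⟩ (Finset.mem_sigma.mpr
        ⟨Finset.mem_range.mpr (Nat.lt_succ_of_le hi), Polynomial.mem_support_iff.mpr hk⟩)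
      rw [← B.valuation_le_one_iff, map_mul, map_inv₀]
      calc (B.valuation ((a i₁).coeff k₁))⁻¹ * B.valuation ((a i).coeff k)
          ≤ (B.valuation ((a i₁).coeff k₁))⁻¹ * B.valuation ((a i₁).coeff k₁) := by
            gcongr
        _ = 1 := inv_mul_cancel₀ hv₀
  have hex : ∀ i, ∃ q : Polynomial B, i ≤ N →
      q.map B.subtype = Polynomial.C ((a i₁).coeff k₁)⁻¹ * a i := by
    intro i
    by_cases hi : i ≤ N
    · have hl : Polynomial.C ((a i₁).coeff k₁)⁻¹ * a i ∈ Polynomial.lifts B.subtype := by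
        rw [Polynomial.lifts_iff_coeff_lifts]
        intro k
        rw [Polynomial.coeff_C_mul]
        exact ⟨⟨_, hmem i hi k⟩, rfl⟩
      obtain ⟨q, hq⟩ := (Polynomial.mem_lifts _).mp hl
      exact ⟨q, fun _ => hq⟩
    · exact ⟨0, fun h => absurd h hi⟩
  choose a' ha' using hex
  refine ⟨((a i₁).coeff k₁)⁻¹, a', fun i hi => ha' i hi, i₁, hi₁', ?_⟩
  intro h0
  have h1 : ((a' i₁).map B.subtype).coeff k₁ = 1 := by
    rw [ha' i₁ hi₁', Polynomial.coeff_C_mul, inv_mul_cancel₀ hc₀]
  rw [Polynomial.coeff_map] at h1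
  have h2 : (a' i₁).coeff k₁ = 1 := Subtype.ext h1
  have h3 := congrArg (fun p => p.coeff k₁) h0
  simp only [Polynomial.coeff_map, Polynomial.coeff_zero] at h3
  rw [h2, map_one] at h3
  exact one_ne_zero h3

open scoped IntermediateField.algebraAdjoinAdjoin in
/-- Every element of `F` satisfies a nontrivial polynomial relation over `E[j]`. -/
theorem gsp18_rel (z : gr18_F E M) :
    ∃ (N : ℕ) (a : ℕ → Polynomial E), a N ≠ 0 ∧
      ∑ i ∈ Finset.range (N + 1), Polynomial.aeval (gr18_j E M) (a i) * z ^ i = 0 := by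
  have : Module.Finite ↥(IntermediateField.adjoin E {gr18_j E M}) ↥(gr18_F E M) :=
    (gr18_deg E M).1
  have h1 : IsAlgebraic ↥(IntermediateField.adjoin E {gr18_j E M}) z :=
    Algebra.IsAlgebraic.isAlgebraic z
  have h2 : IsAlgebraic ↥(Algebra.adjoin E {gr18_j E M}) z :=
    (IsFractionRing.isAlgebraic_iff ↥(Algebra.adjoin E {gr18_j E M})
      ↥(IntermediateField.adjoin E {gr18_j E M}) ↥(gr18_F E M)).mpr h1
  obtain ⟨p, hp0, hp⟩ := h2
  have hex : ∀ i, ∃ q : Polynomial E,
      Polynomial.aeval (gr18_j E M) q = ((p.coeff i : ↥(Algebra.adjoin E {gr18_j E M})) :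
        gr18_F E M) := by
    intro i
    have hmem : ((p.coeff i : ↥(Algebra.adjoin E {gr18_j E M})) : gr18_F E M) ∈
        (Polynomial.aeval (R := E) (gr18_j E M)).range := by
      rw [← Algebra.adjoin_singleton_eq_range_aeval E (gr18_j E M)]
      exact (p.coeff i).2
    exact hmem
  choose a ha using hex
  refine ⟨p.natDegree, a, ?_, ?_⟩
  · intro h0
    have h3 := ha p.natDegree
    rw [h0, map_zero] at h3
    have h4 : p.coeff p.natDegree = 0 := Subtype.ext h3.symm
    exact hp0 (Polynomial.leadingCoeff_eq_zero.mp h4)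
  · rw [Polynomial.aeval_eq_sum_range] at hp
    rw [← hp]
    refine Finset.sum_congr rfl fun i _ => ?_
    rw [ha i, Algebra.smul_def]
    rfl

end

/-- (c) separability of the residue field of `V` over that of `V ∩ E(j)`. -/
theorem gr18_sep : gr18_sep_stmt := by
  intro ℓ _ E _ _ B _ _ _ M _ _ z hz
  classical
  -- `z̄` is integral over `κ(J)`
  have hint : IsIntegral ↥(IntermediateField.adjoin (IsLocalRing.ResidueField B)
      {jqModC (IsLocalRing.ResidueField B)}) (gr18_redM B M ⟨z, hz⟩) := by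
    obtain ⟨N, a, haN, hrel⟩ := gsp18_rel M z
    obtain ⟨e, a', hmap, i₁, hi₁, hne⟩ := gsp18_scale B N a N le_rfl haN
    have hV : ∑ i ∈ Finset.range (N + 1),
        gsp18_ev B M (a' i) * (⟨z, hz⟩ : gr18_VM B M) ^ i = 0 := by
      apply Subtype.ext
      have hterm : ∀ i ∈ Finset.range (N + 1),
          ((gsp18_ev B M (a' i) : gr18_VM B M) : gr18_F E M) * z ^ i =
            algebraMap E (gr18_F E M) e * (Polynomial.aeval (gr18_j E M) (a i) * z ^ i) := by
        intro i hi
        rw [gsp18_coe_ev, hmap i (Nat.lt_succ_iff.mp (Finset.mem_range.mp hi)), map_mul,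
          Polynomial.aeval_C, mul_assoc]
      push_cast
      rw [Finset.sum_congr rfl hterm, ← Finset.mul_sum, hrel, mul_zero]
    have hred := congrArg (gr18_redM B M) hV
    rw [map_sum, map_zero] at hred
    simp only [map_mul, map_pow, gsp18_red_ev] at hred
    have hmemK : ∀ i, Polynomial.aeval (jqModC (IsLocalRing.ResidueField B))
        ((a' i).map (IsLocalRing.residue B)) ∈
        IntermediateField.adjoin (IsLocalRing.ResidueField B)
          {jqModC (IsLocalRing.ResidueField B)} := fun i =>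
      IntermediateField.algebra_adjoin_le_adjoin _ _ (Polynomial.aeval_mem_adjoin_singleton _ _)
    refine isAlgebraic_iff_isIntegral.mp
      ⟨∑ i ∈ Finset.range (N + 1), Polynomial.C (⟨_, hmemK i⟩ :
        ↥(IntermediateField.adjoin (IsLocalRing.ResidueField B)
          {jqModC (IsLocalRing.ResidueField B)})) * Polynomial.X ^ i, ?_, ?_⟩
    · intro h0
      have h1 := congrArg (fun p => p.coeff i₁) h0
      simp only [Polynomial.finsetSum_coeff, Polynomial.coeff_C_mul_X_pow,
        Polynomial.coeff_zero] at h1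
      rw [Finset.sum_eq_single i₁] at h1
      · rw [if_pos rfl] at h1
        have h2 : Polynomial.aeval (jqModC (IsLocalRing.ResidueField B))
            ((a' i₁).map (IsLocalRing.residue B)) = 0 := congrArg Subtype.val h1
        exact hne ((transcendental_iff.mp
          (ca_transcendental_jqModC (IsLocalRing.ResidueField B))) _ h2)
      · intro j _ hj
        rw [if_neg (Ne.symm hj)]
      · intro h
        exact absurd (Finset.mem_range.mpr (Nat.lt_succ_of_le hi₁)) h
    · simp only [map_sum, map_mul, Polynomial.aeval_C, map_pow, Polynomial.aeval_X]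
      exact hred
  have hsep := gr18_sepcore ℓ (IsLocalRing.ResidueField B) (gr18_redM B M ⟨z, hz⟩) hint
  -- lift the minimal polynomial
  let V0' : Subring (gr18_VM B M) :=
    (IntermediateField.adjoin E {gr18_j E M}).toSubring.comap (gr18_VM B M).subtype
  let f : V0' →+* LaurentSeries (IsLocalRing.ResidueField B) :=
    (gr18_redM B M).comp V0'.subtype
  have hμlift : (minpoly ↥(IntermediateField.adjoin (IsLocalRing.ResidueField B)
      {jqModC (IsLocalRing.ResidueField B)}) (gr18_redM B M ⟨z, hz⟩)).map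
        (algebraMap _ (LaurentSeries (IsLocalRing.ResidueField B))) ∈ Polynomial.lifts f := by
    rw [Polynomial.lifts_iff_coeff_lifts]
    intro i
    rw [Polynomial.coeff_map]
    obtain ⟨d, hd, hdk⟩ := gsp18_lift B M _ ((minpoly ↥(IntermediateField.adjoin
      (IsLocalRing.ResidueField B) {jqModC (IsLocalRing.ResidueField B)})
        (gr18_redM B M ⟨z, hz⟩)).coeff i).2
    exact ⟨⟨d, hd⟩, hdk⟩
  obtain ⟨q, hq, -, hqm⟩ :=
    Polynomial.lifts_and_natDegree_eq_and_monic hμlift ((minpoly.monic hint).map _)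
  -- the polynomial over `V`
  have hqV : (q.map V0'.subtype).map (gr18_redM B M) =
      (minpoly ↥(IntermediateField.adjoin (IsLocalRing.ResidueField B)
        {jqModC (IsLocalRing.ResidueField B)}) (gr18_redM B M ⟨z, hz⟩)).map
        (algebraMap _ (LaurentSeries (IsLocalRing.ResidueField B))) := by
    rw [Polynomial.map_map]
    exact hq
  have hev0 : gr18_redM B M ((q.map V0'.subtype).eval ⟨z, hz⟩) = 0 := by
    rw [← Polynomial.eval_map_apply, hqV, Polynomial.eval_map_algebraMap, minpoly.aeval]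
  have hev1 : gr18_redM B M ((q.map V0'.subtype).derivative.eval ⟨z, hz⟩) ≠ 0 := by
    rw [← Polynomial.eval_map_apply, ← Polynomial.derivative_map, hqV, Polynomial.derivative_map,
      Polynomial.eval_map_algebraMap]
    exact hsep.aeval_derivative_ne_zero (minpoly.aeval _ _)
  have hP : (q.map V0'.subtype).map (gr18_VM B M).subtype =
      q.map ((gr18_VM B M).subtype.comp V0'.subtype) := Polynomial.map_map _ _ _
  have hPev : (q.map ((gr18_VM B M).subtype.comp V0'.subtype)).eval z =
      (((q.map V0'.subtype).eval ⟨z, hz⟩ : gr18_VM B M) : gr18_F E M) := by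
    rw [← hP]
    exact Polynomial.eval_map_apply (f := (gr18_VM B M).subtype) (p := q.map V0'.subtype) ⟨z, hz⟩
  have hPder : (q.map ((gr18_VM B M).subtype.comp V0'.subtype)).derivative.eval z =
      (((q.map V0'.subtype).derivative.eval ⟨z, hz⟩ : gr18_VM B M) : gr18_F E M) := by
    rw [← hP, Polynomial.derivative_map]
    exact Polynomial.eval_map_apply (f := (gr18_VM B M).subtype)
      (p := (q.map V0'.subtype).derivative) ⟨z, hz⟩
  refine ⟨q.map ((gr18_VM B M).subtype.comp V0'.subtype), hqm.map _, ?_, ?_, ?_, ?_⟩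
  · intro i
    rw [Polynomial.coeff_map]
    exact ⟨(q.coeff i).1.2, (q.coeff i).2⟩
  · rw [hPev]
    by_contra hcon
    rw [not_or, not_not] at hcon
    obtain ⟨hne, hinv⟩ := hcon
    have h1 : (q.map V0'.subtype).eval ⟨z, hz⟩ * ⟨_, hinv⟩ = 1 :=
      Subtype.ext (mul_inv_cancel₀ hne)
    have h2 := congrArg (gr18_redM B M) h1
    rw [map_mul, hev0, zero_mul, map_one] at h2
    exact zero_ne_one h2
  · rw [hPder]
    exact gr18_inv_mem_VM B M _ hev1
  · rw [hPder]
    intro h0
    apply hev1
    have h00 : (q.map V0'.subtype).derivative.eval ⟨z, hz⟩ = 0 := Subtype.ext h0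
    rw [h00, map_zero]

end Fermat.Agent.S18Lib
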