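import Fermat.Agent.Lib.S18.H2Trunc
import Fermat.Agent.Lib.S20.Basic
import Fermat.Agent.Lib.S20.Simple
import Fermat.Agent.Lib.S20.Cusp
import Fermat.Agent.Lib.S20.ProjLineCoset
import Fermat.Prelude.Thm_ModularForm_sturm_bound_Gamma0

/-!
# S18 sprint, chunk H2: the level-2 modular equation as a power-series identity

`h2_ps_identity`: `E₄³ · η · V₂η = (η + 256 X V₂η)³` in `ℤ⟦X⟧`
(i.e. `E₄³ Δ(z) Δ(2z) = (Δ(z) + 256 Δ(2z))³`), by the Sturm bound for `Γ₀(2)` in weight 36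
and the seven coefficients of `H2Trunc`.
-/

set_option autoImplicit false

namespace Fermat.Agent.S18Lib

open UpperHalfPlane ModularForm CongruenceSubgroup MatrixGroups
open Fermat.Agent.LibS23 Fermat.Agent.S20Lib Fermat.Agent.S24Lib Fermat.Agent.S16Lib ModularCurve

/-- `[SL₂(ℤ) : Γ₀(2)] = 3`. -/
theorem h2_index : (Gamma0 2).index = 3 := by
  have hsurj : ∀ q : Q 2, ∃ γ : SL(2, ℤ), ((toSL γ : ↥(𝒮ℒ)) : Q 2) = q := by
    intro q
    obtain ⟨h, rfl⟩ := QuotientGroup.mk_surjective q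
    obtain ⟨γ, rfl⟩ := cusp_toSL_surj h
    exact ⟨γ, rfl⟩
  let φ : (SL(2, ℤ) ⧸ Gamma0 2) → Q 2 :=
    Quotient.lift (fun γ : SL(2, ℤ) => ((toSL γ : ↥(𝒮ℒ)) : Q 2)) (by
      intro a b hab
      rw [cusp_mk_eq_mk_iff]
      exact QuotientGroup.leftRel_apply.mp hab)
  have hφ : Function.Bijective φ := by
    constructor
    · rintro ⟨a⟩ ⟨b⟩ h
      exact Quotient.sound (QuotientGroup.leftRel_apply.mpr ((cusp_mk_eq_mk_iff a b).mp h))
    · intro q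
      obtain ⟨γ, rfl⟩ := hsurj q
      exact ⟨Quotient.mk _ γ, rfl⟩
  have hpsi : dedekindPsi 2 = 3 := by
    have := dedekindPsi_prime_pow (p := 2) (n := 0) Nat.prime_two
    simpa using this
  rw [Subgroup.index, Nat.card_congr (Equiv.ofBijective φ hφ), Nat.card_eq_fintype_card, card_Q,
    hpsi]

/-- the two sides, as integer power series -/
noncomputable def h2_A : PowerSeries ℤ :=
  eisenstein4 ^ 3 * dedekindEtaUnit * rq16_V 2 dedekindEtaUnit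

noncomputable def h2_B : PowerSeries ℤ :=
  (dedekindEtaUnit + PowerSeries.C 256 * PowerSeries.X * rq16_V 2 dedekindEtaUnit) ^ 3

theorem h2_low (n : ℕ) (hn : n ≤ 9) :
    PowerSeries.coeff n (PowerSeries.C ((2 : ℤ) ^ 33) * PowerSeries.X ^ 3 * (h2_A - h2_B)) = 0 := by
  rw [mul_assoc, PowerSeries.coeff_C_mul, PowerSeries.coeff_X_pow_mul']
  split_ifs with h3
  · rw [map_sub, h2_A, h2_B, h2_trunc (n - 3) (by omega), sub_self, mul_zero]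
  · rw [mul_zero]

/-- the weight-36 form `2²² E₄³ Δ t₂ - (2¹¹ Δ + 2⁸ t₂)³` on `Γ₀(2)` (`t₂ = 2¹¹ Δ(2z)`) and its
`q`-expansion -/
theorem h2_exists_form :
    ∃ G : ModularForm (Gamma0 2) 36,
      qx ⇑G = (PowerSeries.C ((2 : ℤ) ^ 33) * PowerSeries.X ^ 3 * (h2_A - h2_B)).map
        (Int.castRingHom ℂ) := by
  obtain ⟨D0, hD0⟩ := simple_isLO_discriminant
  set E : ModularForm (Gamma0 2) 4 := basicRestrict (N := 2) E₄ with hE
  set D : ModularForm (Gamma0 2) 12 := basicRestrict (N := 2) D0 with hD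
  set T : ModularForm (Gamma0 2) 12 := tForm 2 with hT
  have hEc : (⇑E : ℍ → ℂ) = ⇑E₄ := rfl
  have hDc : (⇑D : ℍ → ℂ) = ModularForm.discriminant := hD0
  have hTc : (⇑T : ℍ → ℂ) = tFun 2 := rfl
  set W : ModularForm (Gamma0 2) 12 := ((2 : ℂ) ^ 11) • D + ((2 : ℂ) ^ 8) • T with hW
  obtain ⟨Ga, hGa, -⟩ := exists_cast (N := 2)
    (show (4 : ℤ) + 4 + 4 + (12 + 12) = 36 by norm_num) (((E.mul E).mul E).mul (D.mul T))
  obtain ⟨Gb, hGb, -⟩ := exists_cast (N := 2)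
    (show (12 : ℤ) + 12 + 12 = 36 by norm_num) ((W.mul W).mul W)
  refine ⟨((2 : ℂ) ^ 22) • Ga - Gb, ?_⟩
  have qE : qx (⇑E : ℍ → ℂ) = eisenstein4.map (Int.castRingHom ℂ) := by rw [hEc, qx_E4_eq]
  have qD : qx (⇑D : ℍ → ℂ)
      = PowerSeries.X * dedekindEtaUnit.map (Int.castRingHom ℂ) := by
    rw [hDc, qx_discriminant_eq]
  have qT : qx (⇑T : ℍ → ℂ) = PowerSeries.C ((2 : ℂ) ^ 11)
      * (PowerSeries.X ^ 2 * (rq16_V 2 dedekindEtaUnit).map (Int.castRingHom ℂ)) := by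
    rw [hTc, rq16_qx_tFun 2]
    norm_num
  have qW : qx (⇑W : ℍ → ℂ) = PowerSeries.C ((2 : ℂ) ^ 11) * qx (⇑D : ℍ → ℂ)
      + PowerSeries.C ((2 : ℂ) ^ 8) * qx (⇑T : ℍ → ℂ) := by
    have e : (⇑W : ℍ → ℂ) = ((2 : ℂ) ^ 11) • (⇑D : ℍ → ℂ) + ((2 : ℂ) ^ 8) • (⇑T : ℍ → ℂ) := rfl
    rw [e, qx_add ((QExp.of_gamma0 D).smul _) ((QExp.of_gamma0 T).smul _),
      qx_smul _ (QExp.of_gamma0 D), qx_smul _ (QExp.of_gamma0 T), PowerSeries.smul_eq_C_mul,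
      PowerSeries.smul_eq_C_mul]
  have qa : qx (⇑Ga : ℍ → ℂ) = qx (⇑E : ℍ → ℂ) * qx (⇑E : ℍ → ℂ) * qx (⇑E : ℍ → ℂ)
      * (qx (⇑D : ℍ → ℂ) * qx (⇑T : ℍ → ℂ)) := by
    have e : (⇑Ga : ℍ → ℂ) = ⇑((E.mul E).mul E) * ⇑(D.mul T) := hGa
    have e1 : (⇑((E.mul E).mul E) : ℍ → ℂ) = ⇑(E.mul E) * ⇑E := rfl
    have e2 : (⇑(E.mul E) : ℍ → ℂ) = ⇑E * ⇑E := rfl
    have e3 : (⇑(D.mul T) : ℍ → ℂ) = ⇑D * ⇑T := rfl
    rw [e, qx_mul (QExp.of_gamma0 _) (QExp.of_gamma0 _), e1,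
      qx_mul (QExp.of_gamma0 _) (QExp.of_gamma0 _), e2,
      qx_mul (QExp.of_gamma0 _) (QExp.of_gamma0 _), e3,
      qx_mul (QExp.of_gamma0 _) (QExp.of_gamma0 _)]
  have qb : qx (⇑Gb : ℍ → ℂ) = qx (⇑W : ℍ → ℂ) * qx (⇑W : ℍ → ℂ) * qx (⇑W : ℍ → ℂ) := by
    have e : (⇑Gb : ℍ → ℂ) = ⇑(W.mul W) * ⇑W := hGb
    have e2 : (⇑(W.mul W) : ℍ → ℂ) = ⇑W * ⇑W := rfl
    rw [e, qx_mul (QExp.of_gamma0 _) (QExp.of_gamma0 _), e2,
      qx_mul (QExp.of_gamma0 _) (QExp.of_gamma0 _)]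
  have eG : (⇑(((2 : ℂ) ^ 22) • Ga - Gb) : ℍ → ℂ) = ((2 : ℂ) ^ 22) • (⇑Ga : ℍ → ℂ) - ⇑Gb := rfl
  rw [eG, qx_sub ((QExp.of_gamma0 Ga).smul _) (QExp.of_gamma0 Gb), qx_smul _ (QExp.of_gamma0 Ga),
    PowerSeries.smul_eq_C_mul, qa, qb, qW, qE, qD, qT, h2_A, h2_B]
  simp only [map_mul, map_pow, map_add, map_sub, PowerSeries.map_X, PowerSeries.map_C]
  simp only [eq_intCast, Int.cast_ofNat]
  have h256 : (PowerSeries.C (256 : ℂ)) = (PowerSeries.C (2 : ℂ)) ^ 8 := by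
    rw [← map_pow]; norm_num
  rw [h256]
  ring

/-- **The level-2 modular equation in `ℤ⟦X⟧`**: `E₄³ η V₂η = (η + 256 X V₂η)³`. -/
theorem h2_ps_identity :
    eisenstein4 ^ 3 * dedekindEtaUnit * rq16_V 2 dedekindEtaUnit
      = (dedekindEtaUnit + PowerSeries.C 256 * PowerSeries.X * rq16_V 2 dedekindEtaUnit) ^ 3 := by
  obtain ⟨G, hG⟩ := h2_exists_form
  have hG0 : G = 0 := by
    apply ModularForm.sturm_bound_Gamma0 2 G
    intro n hn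
    rw [h2_index] at hn
    have hn9 : n ≤ 9 := by
      have : ((36 : ℤ) * ((3 : ℕ) : ℤ)).toNat / 12 = 9 := by decide
      omega
    have h1 : (qExpansion 1 ⇑G) = qx ⇑G := rfl
    rw [h1, hG, PowerSeries.coeff_map, h2_low n hn9, map_zero]
  have h0 : qx (⇑G : ℍ → ℂ) = 0 := by
    rw [hG0]
    exact qx_zero
  rw [hG] at h0
  have h1 : PowerSeries.C ((2 : ℤ) ^ 33) * PowerSeries.X ^ 3 * (h2_A - h2_B) = 0 := by
    ext n
    have := congrArg (PowerSeries.coeff n) h0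
    rw [PowerSeries.coeff_map, map_zero, eq_intCast, Int.cast_eq_zero] at this
    rw [map_zero]
    exact this
  have h2 : h2_A - h2_B = 0 := by
    rcases mul_eq_zero.mp h1 with h | h
    · rcases mul_eq_zero.mp h with h | h
      · exfalso
        have := congrArg (PowerSeries.coeff 0) h
        rw [PowerSeries.coeff_C] at this
        norm_num at this
      · exact absurd h (pow_ne_zero 3 PowerSeries.X_ne_zero)
    · exact h
  exact sub_eq_zero.mp h2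

end Fermat.Agent.S18Lib
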