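import Fermat.Agent.Lib.S18.H2Ser
import Fermat.Agent.Lib.S16.BdMain
import Fermat.Agent.Lib.S24.DegJF

/-!
# S18 sprint, chunk H2: `h2_ser ∈ modularFunctionFieldFull M` for even `M`

`1/h2 = Δ(2z)/Δ(z)` is weakly holomorphic on `Γ₀(2)`, so `E = ℚ(j, j₂, 1/h2)` has degree
`≤ [SL₂(ℤ) : Γ₀(2)]` over `ℚ(j)` (`bd16_finrank_le`); the conjugate embeddings of S24 give
`[ℚ(j, j₂) : ℚ(j)] ≥ [SL₂(ℤ) : Γ₀(2)]`; hence `E = ℚ(j, j₂)`.
-/

set_option autoImplicit false

namespace Fermat.Agent.S18Lib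

open UpperHalfPlane ModularForm CongruenceSubgroup MatrixGroups IntermediateField
open Fermat.Agent.LibS23 Fermat.Agent.S20Lib Fermat.Agent.S24Lib Fermat.Agent.S28Lib
open Fermat.Agent.S16Lib ModularCurve

/-- `1/h2` is the rational `q`-expansion of a weakly holomorphic function on `Γ₀(2)`. -/
theorem h2_inv_mem_WH : h2_ser⁻¹ ∈ bd16_WH 2 := by
  have hq : qx ⇑(tForm 2)
      = (PowerSeries.C ((2 : ℤ) ^ 11) * (PowerSeries.X ^ 2 * h2_V)).map (Int.castRingHom ℂ) := by
    rw [coe_tForm, rq16_qx_tFun 2, h2_V]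
    simp only [map_mul, map_pow, PowerSeries.map_X, PowerSeries.map_C]
    norm_num
  have h1 := bd16_form_mem 2 (tForm 2) _ hq
  have h2 : ca_emb (HahnSeries.ofPowerSeries ℤ ℤ
      (PowerSeries.C ((2 : ℤ) ^ 11) * (PowerSeries.X ^ 2 * h2_V)) * bd16_DeltaInv)
      = algebraMap ℚ (LaurentSeries ℚ) ((2 : ℚ) ^ 11) * h2_ser⁻¹ := by
    have hofPS : ∀ p : PowerSeries ℤ, ca_emb (HahnSeries.ofPowerSeries ℤ ℤ p) = h2_emb p := by
      intro p
      rw [ca_emb, coeffMap_ofPowerSeries]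
      rfl
    have hsingle : ca_emb (HahnSeries.single (-1 : ℤ) (1 : ℤ))
        = HahnSeries.single (-1 : ℤ) (1 : ℚ) := by
      rw [ca_emb, coeffMap_single, map_one]
    have hX : h2_emb PowerSeries.X = HahnSeries.single (1 : ℤ) (1 : ℚ) := by
      rw [h2_emb_apply, PowerSeries.map_X, HahnSeries.ofPowerSeries_X]
    have hC : h2_emb (PowerSeries.C ((2 : ℤ) ^ 11))
        = algebraMap ℚ (LaurentSeries ℚ) ((2 : ℚ) ^ 11) := by
      rw [h2_emb_apply, PowerSeries.map_C, HahnSeries.ofPowerSeries_C]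
      simp
      norm_num
    have hs : HahnSeries.single (1 : ℤ) (1 : ℚ) ^ 2 * HahnSeries.single (-1 : ℤ) (1 : ℚ)
        = (HahnSeries.single (1 : ℤ) (1 : ℚ) : LaurentSeries ℚ) := by
      rw [pow_two, h2_single_mul, h2_single_mul]
      norm_num
    rw [bd16_DeltaInv, map_mul ca_emb, map_mul ca_emb, hofPS, hofPS, hsingle, map_mul h2_emb,
      map_mul h2_emb, map_pow h2_emb, hX, hC, h2_ser_inv_eq', h2_Q, map_mul h2_emb]
    generalize h2_emb h2_V = v at *
    generalize h2_emb dedekindEtaUnitInv = ai at *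
    generalize algebraMap ℚ (LaurentSeries ℚ) ((2 : ℚ) ^ 11) = c at *
    generalize HahnSeries.single (-1 : ℤ) (1 : ℚ) = sm at *
    generalize HahnSeries.single (1 : ℤ) (1 : ℚ) = s1 at *
    linear_combination (c * v * ai) * hs
  rw [h2] at h1
  have h3 : h2_ser⁻¹ = algebraMap ℚ (LaurentSeries ℚ) (((2 : ℚ) ^ 11)⁻¹)
      * (algebraMap ℚ (LaurentSeries ℚ) ((2 : ℚ) ^ 11) * h2_ser⁻¹) := by
    rw [← mul_assoc, ← map_mul, inv_mul_cancel₀ (by norm_num), map_one, one_mul]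
  rw [h3]
  exact mul_mem (Subalgebra.algebraMap_mem _ _) h1

/-- the base-change embedding `F₂ → FN 2` -/
noncomputable def h2_embF : ↥(modularFunctionFieldFull 2) →+* FN 2 where
  toFun y := ⟨coeffEmb Kb (y : LaurentSeries ℚ), coeffEmb_mem_laurentBaseChange Kb y.2⟩
  map_one' := Subtype.ext (map_one _)
  map_mul' x y := Subtype.ext (map_mul _ _ _)
  map_zero' := Subtype.ext (map_zero _)
  map_add' x y := Subtype.ext (map_add _ _ _)

/-- lower bound for the degree over `ℚ(j)`, from the conjugate embeddings of S24 -/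
theorem h2_lower (hj : jq ∈ modularFunctionFieldFull 2)
    [Module.Finite ℚ⟮(⟨jq, hj⟩ : modularFunctionFieldFull 2)⟯ (modularFunctionFieldFull 2)] :
    Fintype.card (Q 2) ≤ Module.finrank ℚ⟮(⟨jq, hj⟩ : modularFunctionFieldFull 2)⟯
      (modularFunctionFieldFull 2) := by
  refine degB_lower (K := ℚ) (⟨jq, hj⟩ : modularFunctionFieldFull 2)
    (fun q => (conjEv 2 q).comp h2_embF) ?_ ?_ ?_
  · intro q₁ q₂ h
    obtain ⟨g₁, rfl⟩ := conj_exists_rep 2 q₁
    obtain ⟨g₂, rfl⟩ := conj_exists_rep 2 q₂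
    rw [cusp_mk_eq_mk_iff]
    apply jLvl_separation 2 (g₁⁻¹ * g₂)
    intro z
    have h1 := congrArg (fun φ : ↥(modularFunctionFieldFull 2) →+* Mer =>
      φ ⟨qExpand ℚ 2 jq, jqd_mem_full 2 dvd_rfl⟩) h
    simp only [RingHom.comp_apply] at h1
    have e : h2_embF ⟨qExpand ℚ 2 jq, jqd_mem_full 2 dvd_rfl⟩
        = agenIncl 2 ⟨Jgen 2, Jgen_mem_Agen dvd_rfl⟩ := Subtype.ext rfl
    rw [e, conjEv_of_mem, conjEv_of_mem] at h1
    have h2 := Mer.algebraMap_injective h1
    have h3 := congrArg (fun f : ↥Hol => (f : ℍ → ℂ) (g₂ • z)) h2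
    simp only [holComp_apply] at h3
    rw [evA_Jgen 2 dvd_rfl, inv_smul_smul] at h3
    rw [mul_smul]
    exact h3
  · intro i j
    simp only [RingHom.comp_apply]
    have e : h2_embF ⟨jq, hj⟩ = JF 2 := Subtype.ext rfl
    rw [e, conjEv_JF, conjEv_JF]
  · intro i j c
    simp only [RingHom.comp_apply]
    have e : h2_embF (algebraMap ℚ _ c) = algebraMap Kb (FN 2) (algebraMap ℚ Kb c) := by
      simp only [eq_ratCast, map_ratCast]
    rw [e, conjEv_algebraMap, conjEv_algebraMap]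

/-- two nested subfields of `ℚ((q))` with the same finite degree over `ℚ(x)` coincide -/
theorem h2_transfer (F E : IntermediateField ℚ (LaurentSeries ℚ)) (hFE : F ≤ E)
    (x : LaurentSeries ℚ) (hxF : x ∈ F) (c : ℕ)
    (hF : c ≤ Module.finrank ℚ⟮(⟨x, hxF⟩ : F)⟯ F)
    (hEfin : Module.Finite ℚ⟮(⟨x, hFE hxF⟩ : E)⟯ E)
    (hE : Module.finrank ℚ⟮(⟨x, hFE hxF⟩ : E)⟯ E ≤ c) : E ≤ F := by
  classical
  set B := ℚ⟮(⟨x, hxF⟩ : F)⟯ with hB
  set A := ℚ⟮(⟨x, hFE hxF⟩ : E)⟯ with hA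
  let ι₀ : F →+* E :=
    { toFun := fun y => ⟨y, hFE y.2⟩
      map_one' := rfl
      map_mul' := fun _ _ => rfl
      map_zero' := rfl
      map_add' := fun _ _ => rfl }
  let ι : F →ₐ[ℚ] E := ι₀.toRatAlgHom
  have hmap : B.map ι = A := by
    rw [hB, IntermediateField.adjoin_map, Set.image_singleton]
    rfl
  have hBA : ∀ b : B, ι (b : F) ∈ A := fun b => by
    rw [← hmap]
    exact ⟨b, b.2, rfl⟩
  let i : B → A := fun b => ⟨ι (b : F), hBA b⟩
  have hi : Function.Surjective i := by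
    intro a
    have ha : (a : E) ∈ B.map ι := by rw [hmap]; exact a.2
    obtain ⟨b, hb, hba⟩ := ha
    exact ⟨⟨b, hb⟩, Subtype.ext hba⟩
  obtain ⟨v, hv⟩ := exists_linearIndependent_of_le_finrank hF
  have hv' : LinearIndependent A (⇑(ι : F →+ E) ∘ v) := by
    refine hv.map_of_surjective_injective i (ι : F →+ E) hi ?_ ?_
    · intro m hm
      exact (map_eq_zero ι).mp hm
    · intro r m
      exact map_mul ι _ _
  have hcard : Fintype.card (Fin c) = Module.finrank A E := by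
    have h1 := hv'.fintype_card_le_finrank
    rw [Fintype.card_fin] at h1 ⊢
    omega
  have hspan := hv'.span_eq_top_of_card_eq_finrank' hcard
  have hAF : ∀ a : A, (((a : E)) : LaurentSeries ℚ) ∈ F := by
    intro a
    obtain ⟨b, rfl⟩ := hi a
    change (((b : F)) : LaurentSeries ℚ) ∈ F
    exact (b : F).2
  have key : ∀ z ∈ Submodule.span A (Set.range (⇑(ι : F →+ E) ∘ v)),
      ((z : E) : LaurentSeries ℚ) ∈ F := by
    intro z hz
    induction hz using Submodule.span_induction with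
    | mem z hz =>
      obtain ⟨k, rfl⟩ := hz
      change ((v k : F) : LaurentSeries ℚ) ∈ F
      exact (v k).2
    | zero => exact zero_mem F
    | add z w _ _ hz hw => exact add_mem hz hw
    | smul a z _ hz => exact mul_mem (hAF a) hz
  intro y hy
  have hy' : (⟨y, hy⟩ : E) ∈ Submodule.span A (Set.range (⇑(ι : F →+ E) ∘ v)) := by
    rw [hspan]
    trivial
  exact key _ hy'

/-- **`h2 ∈ ℚ(j(q), j(q²))`.** -/
theorem h2_mem_two : h2_ser ∈ modularFunctionFieldFull 2 := by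
  set F := modularFunctionFieldFull 2 with hF
  set g := h2_ser⁻¹ with hg
  set E := IntermediateField.adjoin ℚ (divisorExpansions 2 ∪ {g}) with hE
  have hFE : F ≤ E := IntermediateField.adjoin.mono ℚ _ _ Set.subset_union_left
  have hjF : jq ∈ F := by
    have := jqd_mem_full 2 (one_dvd 2) (d := 1)
    rwa [qExpand_one_apply] at this
  have hSF : divisorExpansions 2 ⊆ bd16_WH 2 := by
    rintro _ ⟨d, hd, hd2, rfl⟩
    exact bd16_jqd_mem hd2
  have hSE : divisorExpansions 2 ∪ {g} ⊆ bd16_WH 2 :=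
    Set.union_subset hSF (Set.singleton_subset_iff.mpr h2_inv_mem_WH)
  obtain ⟨hFfin, -⟩ := bd16_finrank_le 2 F hjF (bd16_adjoin_div 2 _ hSF)
  obtain ⟨hEfin, hEle⟩ := bd16_finrank_le 2 E (hFE hjF) (bd16_adjoin_div 2 _ hSE)
  have hlow := h2_lower hjF
  have hEF : E ≤ F := h2_transfer F E hFE jq hjF (Fintype.card (Q 2)) hlow hEfin hEle
  have hgF : g ∈ F := hEF (IntermediateField.subset_adjoin ℚ _ (Set.mem_union_right _ rfl))
  have : h2_ser = g⁻¹ := by rw [hg, inv_inv]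
  rw [this]
  exact inv_mem hgF

/-- `h2 ∈ modularFunctionFieldFull M` for every even `M`. -/
theorem h2_mem (M : ℕ) [NeZero M] (hM : 2 ∣ M) : h2_ser ∈ modularFunctionFieldFull M := by
  have hle : modularFunctionFieldFull 2 ≤ modularFunctionFieldFull M := by
    apply IntermediateField.adjoin.mono
    rintro _ ⟨d, hd, hd2, rfl⟩
    exact ⟨d, hd, hd2.trans hM, rfl⟩
  exact hle h2_mem_two

end Fermat.Agent.S18Lib
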