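import Fermat.Agent.Lib.S18.H2Iface
import Fermat.Agent.Lib.S18.H2Ident

/-!
# S18 sprint, chunk H2: the Hauptmodul `h2_ser` as a Laurent series

* `h2_ser_eq`:  `h2 = q⁻¹ · P`, `P = η / V₂η ∈ ℤ⟦q⟧`;
* `h2_ser_inv_eq`: `h2⁻¹ = q · Q`, `Q = V₂η / η ∈ ℤ⟦q⟧`;
* `h2_modular_eq`: `jq * h2 ^ 2 = (h2 + 256) ^ 3`.
-/

set_option autoImplicit false

namespace Fermat.Agent.S18Lib

open ModularCurve Fermat.Agent.S16Lib

/-- `q ↦ q²` on integral power series, inside `ℚ((q))`. -/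
theorem h2_qExpand_ofPS (f : PowerSeries ℤ) :
    qExpand ℚ 2 (HahnSeries.ofPowerSeries ℤ ℚ (f.map (Int.castRingHom ℚ)))
      = HahnSeries.ofPowerSeries ℤ ℚ ((rq16_V 2 f).map (Int.castRingHom ℚ)) := by
  ext k
  rcases lt_or_ge k 0 with hk | hk
  · rw [ofPowerSeries_coeff_of_neg _ hk]
    by_cases h2 : ((2 : ℕ) : ℤ) ∣ k
    · obtain ⟨m, rfl⟩ := h2
      rw [qExpand_coeff_mul, ofPowerSeries_coeff_of_neg _ (by push_cast at hk; omega)]
    · exact qExpand_coeff_of_not_dvd 2 _ h2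
  · obtain ⟨n, rfl⟩ := Int.eq_ofNat_of_zero_le hk
    rw [HahnSeries.ofPowerSeries_apply_coeff, PowerSeries.coeff_map, rq16_V, PowerSeries.coeff_mk]
    by_cases h2 : 2 ∣ n
    · obtain ⟨m, rfl⟩ := h2
      rw [if_pos (dvd_mul_right 2 m), Nat.mul_div_cancel_left m (by norm_num : 0 < 2)]
      have e : ((2 * m : ℕ) : ℤ) = ((2 : ℕ) : ℤ) * (m : ℤ) := by push_cast; ring
      rw [e, qExpand_coeff_mul, HahnSeries.ofPowerSeries_apply_coeff, PowerSeries.coeff_map]
    · rw [if_neg h2, map_zero]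
      exact qExpand_coeff_of_not_dvd 2 _ (fun h => h2 (Int.natCast_dvd_natCast.mp h))

/-- `V₂ η` and its inverse -/
noncomputable def h2_V : PowerSeries ℤ := rq16_V 2 dedekindEtaUnit

noncomputable def h2_Vinv : PowerSeries ℤ := h2_V.invOfUnit 1

theorem h2_constantCoeff_V : PowerSeries.constantCoeff h2_V = 1 := by
  rw [h2_V, rq16_V_constantCoeff, constantCoeff_dedekindEtaUnit]

theorem h2_V_mul_inv : h2_V * h2_Vinv = 1 :=
  PowerSeries.mul_invOfUnit _ _ (by rw [h2_constantCoeff_V]; rfl)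

theorem h2_constantCoeff_Vinv : PowerSeries.constantCoeff h2_Vinv = 1 := by
  have h := congrArg (PowerSeries.constantCoeff (R := ℤ)) h2_V_mul_inv
  rwa [map_mul, h2_constantCoeff_V, one_mul, map_one] at h

/-- `P = η / V₂η`, `Q = V₂η / η` -/
noncomputable def h2_P : PowerSeries ℤ := dedekindEtaUnit * h2_Vinv

noncomputable def h2_Q : PowerSeries ℤ := h2_V * dedekindEtaUnitInv

theorem h2_constantCoeff_P : PowerSeries.constantCoeff h2_P = 1 := by
  rw [h2_P, map_mul, constantCoeff_dedekindEtaUnit, h2_constantCoeff_Vinv, one_mul]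

theorem h2_constantCoeff_Q : PowerSeries.constantCoeff h2_Q = 1 := by
  rw [h2_Q, map_mul, constantCoeff_dedekindEtaUnitInv, h2_constantCoeff_V, one_mul]

/-- the embedding `ℤ⟦q⟧ → ℚ((q))` -/
noncomputable def h2_emb : PowerSeries ℤ →+* LaurentSeries ℚ :=
  (HahnSeries.ofPowerSeries ℤ ℚ).comp (PowerSeries.map (Int.castRingHom ℚ))

theorem h2_emb_apply (f : PowerSeries ℤ) :
    h2_emb f = HahnSeries.ofPowerSeries ℤ ℚ (f.map (Int.castRingHom ℚ)) := rfl

theorem h2_single_mul (a b : ℤ) :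
    HahnSeries.single a (1 : ℚ) * HahnSeries.single b (1 : ℚ)
      = (HahnSeries.single (a + b) (1 : ℚ) : LaurentSeries ℚ) := by
  rw [HahnSeries.single_mul_single, mul_one]

theorem h2_single_zero : (HahnSeries.single (0 : ℤ) (1 : ℚ) : LaurentSeries ℚ) = 1 := rfl

theorem h2_deltaSeries_eq :
    deltaSeries = HahnSeries.single (1 : ℤ) (1 : ℚ) * h2_emb dedekindEtaUnit := rfl

theorem h2_deltaSeriesN_eq :
    deltaSeriesN 2 = HahnSeries.single (2 : ℤ) (1 : ℚ) * h2_emb h2_V := by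
  rw [deltaSeriesN, h2_deltaSeries_eq, map_mul, qExpand_single, h2_emb_apply, h2_qExpand_ofPS,
    h2_emb_apply, h2_V]
  norm_num

theorem h2_ser_eq' :
    h2_ser = HahnSeries.single (-1 : ℤ) (1 : ℚ) * h2_emb h2_P := by
  have h1 := modularUnitSeries_mul_deltaSeriesN 2
  have h2 : HahnSeries.single (-1 : ℤ) (1 : ℚ) * h2_emb h2_P * deltaSeriesN 2 = deltaSeries := by
    rw [h2_deltaSeriesN_eq, h2_deltaSeries_eq, h2_P, map_mul]
    have hv : h2_emb h2_Vinv * h2_emb h2_V = 1 := by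
      rw [← map_mul, mul_comm, h2_V_mul_inv, map_one]
    have hs : HahnSeries.single (-1 : ℤ) (1 : ℚ) * HahnSeries.single (2 : ℤ) (1 : ℚ)
        = (HahnSeries.single (1 : ℤ) (1 : ℚ) : LaurentSeries ℚ) := by
      rw [h2_single_mul, show (-1 : ℤ) + 2 = 1 by norm_num]
    generalize h2_emb h2_Vinv = vi at *
    generalize h2_emb h2_V = v at *
    generalize h2_emb dedekindEtaUnit = a at *
    generalize HahnSeries.single (-1 : ℤ) (1 : ℚ) = sm at *
    generalize HahnSeries.single (2 : ℤ) (1 : ℚ) = s2 at *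
    generalize HahnSeries.single (1 : ℤ) (1 : ℚ) = s1 at *
    linear_combination (a * vi * v) * hs + (s1 * a) * hv
  exact (mul_right_cancel₀ (deltaSeriesN_ne_zero 2) (h2.trans h1.symm)).symm

theorem h2_ser_inv_eq' :
    h2_ser⁻¹ = HahnSeries.single (1 : ℤ) (1 : ℚ) * h2_emb h2_Q := by
  symm
  apply eq_inv_of_mul_eq_one_right
  rw [h2_ser_eq', h2_P, h2_Q, map_mul, map_mul]
  have hv : h2_emb h2_Vinv * h2_emb h2_V = 1 := by
    rw [← map_mul, mul_comm, h2_V_mul_inv, map_one]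
  have ha : h2_emb dedekindEtaUnit * h2_emb dedekindEtaUnitInv = 1 := by
    rw [← map_mul, dedekindEtaUnit_mul_inv, map_one]
  have hs : HahnSeries.single (-1 : ℤ) (1 : ℚ) * HahnSeries.single (1 : ℤ) (1 : ℚ)
      = (1 : LaurentSeries ℚ) := by
    rw [h2_single_mul, show (-1 : ℤ) + 1 = 0 by norm_num, h2_single_zero]
  generalize h2_emb h2_Vinv = vi at *
  generalize h2_emb h2_V = v at *
  generalize h2_emb dedekindEtaUnit = a at *
  generalize h2_emb dedekindEtaUnitInv = ai at *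
  generalize HahnSeries.single (-1 : ℤ) (1 : ℚ) = sm at *
  generalize HahnSeries.single (1 : ℤ) (1 : ℚ) = s1 at *
  linear_combination (a * vi * v * ai) * hs + (a * ai) * hv + ha

theorem h2_ser_eq :
    h2_ser = HahnSeries.single (-1 : ℤ) (1 : ℚ) *
      HahnSeries.ofPowerSeries ℤ ℚ (h2_P.map (Int.castRingHom ℚ)) := h2_ser_eq'

theorem h2_ser_inv_eq :
    h2_ser⁻¹ = HahnSeries.single (1 : ℤ) (1 : ℚ) *
      HahnSeries.ofPowerSeries ℤ ℚ (h2_Q.map (Int.castRingHom ℚ)) := h2_ser_inv_eq'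

theorem h2_ser_ne_zero : h2_ser ≠ 0 := modularUnitSeries_ne_zero 2

/-- **The level-2 modular equation.** -/
theorem h2_modular_eq : jq * h2_ser ^ 2 = (h2_ser + 256) ^ 3 := by
  have hid := congrArg h2_emb h2_ps_identity
  simp only [map_mul, map_pow, map_add] at hid
  have hX : h2_emb PowerSeries.X = HahnSeries.single (1 : ℤ) (1 : ℚ) := by
    rw [h2_emb_apply, PowerSeries.map_X, HahnSeries.ofPowerSeries_X]
  have hC : h2_emb (PowerSeries.C 256) = 256 := by
    rw [h2_emb_apply, PowerSeries.map_C, HahnSeries.ofPowerSeries_C]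
    simp
  rw [hX, hC] at hid
  have hj : jq = HahnSeries.single (-1 : ℤ) (1 : ℚ)
      * (h2_emb eisenstein4 ^ 3 * h2_emb dedekindEtaUnitInv) := by
    rw [jq, jNumQ, jNum, ← h2_emb_apply, map_mul, map_pow]
  rw [hj, h2_ser_eq', h2_P, map_mul]
  have hv : h2_emb h2_V * h2_emb h2_Vinv = 1 := by
    rw [← map_mul, h2_V_mul_inv, map_one]
  have ha : h2_emb dedekindEtaUnit * h2_emb dedekindEtaUnitInv = 1 := by
    rw [← map_mul, dedekindEtaUnit_mul_inv, map_one]
  have hs : HahnSeries.single (-1 : ℤ) (1 : ℚ) * HahnSeries.single (1 : ℤ) (1 : ℚ)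
      = (1 : LaurentSeries ℚ) := by
    rw [h2_single_mul, show (-1 : ℤ) + 1 = 0 by norm_num, h2_single_zero]
  rw [← h2_V] at hid
  generalize h2_emb h2_Vinv = vi at *
  generalize h2_emb h2_V = v at *
  generalize h2_emb dedekindEtaUnit = a at *
  generalize h2_emb dedekindEtaUnitInv = ai at *
  generalize h2_emb eisenstein4 = e at *
  generalize HahnSeries.single (-1 : ℤ) (1 : ℚ) = sm at *
  generalize HahnSeries.single (1 : ℤ) (1 : ℚ) = s1 at *
  calc sm * (e ^ 3 * ai) * (sm * (a * vi)) ^ 2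
      = sm ^ 3 * e ^ 3 * a * vi ^ 2 * (a * ai) := by ring
    _ = sm ^ 3 * e ^ 3 * a * vi ^ 2 := by rw [ha, mul_one]
    _ = sm ^ 3 * vi ^ 3 * (e ^ 3 * a * v) + sm ^ 3 * e ^ 3 * a * vi ^ 2 * (1 - v * vi) := by ring
    _ = sm ^ 3 * vi ^ 3 * (a + 256 * s1 * v) ^ 3 := by rw [hv, hid]; ring
    _ = (sm * (a * vi) + 256 * (sm * s1) * (v * vi)) ^ 3 := by ring
    _ = (sm * (a * vi) + 256) ^ 3 := by rw [hs, hv]; ring

end Fermat.Agent.S18Lib
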