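import Fermat.Agent.Lib.S16.RootQ

/-!
# S18 sprint, chunk H2: truncated power-series arithmetic and the first seven coefficients

`h2_trunc`: the coefficients of `X^0, …, X^6` of `E₄³ · η · V₂η` and of
`(η + 256 X V₂η)³` agree (`η = ∏ (1-Xⁿ)²⁴`, `V₂ η = η(X²)`).
The computation is done on lists of integers by kernel evaluation.
-/

set_option autoImplicit false

namespace Fermat.Agent.S18Lib

open ModularCurve Fermat.Agent.S16Lib

/-- `l` lists the first `l.length` coefficients of `f`. -/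
def h2_Tr (f : PowerSeries ℤ) (l : List ℤ) : Prop :=
  ∀ n, n < l.length → PowerSeries.coeff n f = l.getD n 0

/-- truncated product of coefficient lists -/
def h2_lmul (a b : List ℤ) : List ℤ :=
  (List.range a.length).map fun n =>
    ((List.range (n + 1)).map fun i => a.getD i 0 * b.getD (n - i) 0).sum

/-- sum of coefficient lists -/
def h2_ladd (a b : List ℤ) : List ℤ :=
  (List.range a.length).map fun n => a.getD n 0 + b.getD n 0

/-- the substitution `X ↦ X²` on coefficient lists -/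
def h2_lV (a : List ℤ) : List ℤ :=
  (List.range a.length).map fun n => if n % 2 = 0 then a.getD (n / 2) 0 else 0

theorem h2_getD_map_range (k : ℕ) (φ : ℕ → ℤ) (n : ℕ) (hn : n < k) :
    ((List.range k).map φ).getD n 0 = φ n := by
  rw [List.getD_eq_getElem?_getD, List.getElem?_map, List.getElem?_range hn]
  rfl

theorem h2_sum_map_range (k : ℕ) (φ : ℕ → ℤ) :
    ((List.range k).map φ).sum = ∑ i ∈ Finset.range k, φ i := by
  induction k with
  | zero => simp
  | succ k ih =>
    rw [List.range_succ, List.map_append, List.sum_append, ih, Finset.sum_range_succ]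
    simp

theorem h2_Tr_mul {f g : PowerSeries ℤ} {a b : List ℤ} (hf : h2_Tr f a) (hg : h2_Tr g b)
    (hab : a.length ≤ b.length) : h2_Tr (f * g) (h2_lmul a b) := by
  intro n hn
  have hn' : n < a.length := by simpa [h2_lmul] using hn
  rw [h2_lmul, h2_getD_map_range _ _ _ hn', PowerSeries.coeff_mul,
    Finset.Nat.sum_antidiagonal_eq_sum_range_succ_mk, h2_sum_map_range]
  refine Finset.sum_congr rfl fun i hi => ?_
  rw [Finset.mem_range] at hi
  rw [hf i (by omega), hg (n - i) (by omega)]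

theorem h2_Tr_add {f g : PowerSeries ℤ} {a b : List ℤ} (hf : h2_Tr f a) (hg : h2_Tr g b)
    (hab : a.length ≤ b.length) : h2_Tr (f + g) (h2_ladd a b) := by
  intro n hn
  have hn' : n < a.length := by simpa [h2_ladd] using hn
  rw [h2_ladd, h2_getD_map_range _ _ _ hn', map_add, hf n hn', hg n (by omega)]

theorem h2_Tr_V {f : PowerSeries ℤ} {a : List ℤ} (hf : h2_Tr f a) :
    h2_Tr (rq16_V 2 f) (h2_lV a) := by
  intro n hn
  have hn' : n < a.length := by simpa [h2_lV] using hn
  rw [h2_lV, h2_getD_map_range _ _ _ hn', rq16_V, PowerSeries.coeff_mk]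
  by_cases h2 : 2 ∣ n
  · rw [if_pos h2, if_pos (Nat.mod_eq_zero_of_dvd h2), hf (n / 2) (by omega)]
  · rw [if_neg h2, if_neg (fun h => h2 (Nat.dvd_of_mod_eq_zero h))]

theorem h2_Tr_congr {f : PowerSeries ℤ} {a b : List ℤ} (hf : h2_Tr f a) (hab : a = b) :
    h2_Tr f b := hab ▸ hf

/-! ### base lists -/

theorem h2_Tr_E :
    h2_Tr eisenstein4 [1, 240, 2160, 6720, 17520, 30240, 60480] := by
  intro n hn
  have hn' : n < 7 := hn
  rw [eisenstein4, PowerSeries.coeff_mk]
  interval_cases n <;> decide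

theorem h2_Tr_X : h2_Tr (PowerSeries.X) [0, 1, 0, 0, 0, 0, 0] := by
  intro n hn
  have hn' : n < 7 := hn
  rw [PowerSeries.coeff_X]
  interval_cases n <;> rfl

theorem h2_Tr_C (c : ℤ) : h2_Tr (PowerSeries.C c) [c, 0, 0, 0, 0, 0, 0] := by
  intro n hn
  have hn' : n < 7 := hn
  rw [PowerSeries.coeff_C]
  interval_cases n <;> rfl

/-- the coefficient list of `1 - X^(k+1)` -/
def h2_lfac (k : ℕ) : List ℤ :=
  (List.range 7).map fun n => if n = 0 then 1 else if n = k + 1 then -1 else 0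

theorem h2_Tr_fac (k : ℕ) : h2_Tr (1 - PowerSeries.X ^ (k + 1)) (h2_lfac k) := by
  intro n hn
  have hn' : n < 7 := by simpa [h2_lfac] using hn
  rw [h2_lfac, h2_getD_map_range _ _ _ hn', map_sub, PowerSeries.coeff_one,
    PowerSeries.coeff_X_pow]
  by_cases h0 : n = 0
  · subst h0
    simp
  · rw [if_neg h0, if_neg h0]
    by_cases h1 : n = k + 1
    · rw [if_pos h1, if_pos h1]; norm_num
    · rw [if_neg h1, if_neg h1]; norm_num

/-! ### the Euler product -/

/-- tail products are `≡ 1 mod X^7` -/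
theorem h2_tail (t : Finset ℕ) (ht : ∀ n ∈ t, 6 ≤ n) :
    ∃ r : PowerSeries ℤ,
      ∏ n ∈ t, (1 - PowerSeries.X ^ (n + 1)) = 1 + PowerSeries.X ^ 7 * r := by
  classical
  induction t using Finset.induction_on with
  | empty => exact ⟨0, by simp⟩
  | insert a s ha ih =>
    obtain ⟨r, hr⟩ := ih (fun n hn => ht n (Finset.mem_insert_of_mem hn))
    have h6 : 6 ≤ a := ht a (Finset.mem_insert_self a s)
    obtain ⟨m, rfl⟩ : ∃ m, a = m + 6 := ⟨a - 6, by omega⟩
    refine ⟨r - PowerSeries.X ^ m - PowerSeries.X ^ (m + 7) * r, ?_⟩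
    rw [Finset.prod_insert ha, hr]
    ring

theorem h2_coeff_prod (s : Finset ℕ) (hs : Finset.range 6 ⊆ s) (m : ℕ) (hm : m < 7) :
    PowerSeries.coeff m (∏ n ∈ s, (1 - PowerSeries.X ^ (n + 1)) : PowerSeries ℤ)
      = PowerSeries.coeff m
          (∏ n ∈ Finset.range 6, (1 - PowerSeries.X ^ (n + 1)) : PowerSeries ℤ) := by
  classical
  obtain ⟨r, hr⟩ := h2_tail (s \ Finset.range 6) (fun n hn => by
    rw [Finset.mem_sdiff, Finset.mem_range] at hn; omega)
  rw [← Finset.prod_sdiff hs, hr, add_mul, one_mul, mul_assoc, map_add,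
    PowerSeries.coeff_X_pow_mul', if_neg (by omega), add_zero]

theorem h2_coeff_etaProd (m : ℕ) (hm : m < 7) :
    PowerSeries.coeff m etaProd
      = PowerSeries.coeff m
          (∏ n ∈ Finset.range 6, (1 - PowerSeries.X ^ (n + 1)) : PowerSeries ℤ) := by
  have h1 := Fermat.Agent.S24Lib.qb_tendsto_coeff_etaProd m
  have h2 : Filter.Tendsto (fun s : Finset ℕ =>
      ((PowerSeries.coeff m (∏ n ∈ s, (1 - PowerSeries.X ^ (n + 1)) : PowerSeries ℤ) : ℤ) : ℂ))
      Filter.atTop (nhds ((PowerSeries.coeff m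
          (∏ n ∈ Finset.range 6, (1 - PowerSeries.X ^ (n + 1)) : PowerSeries ℤ) : ℤ) : ℂ)) := by
    apply tendsto_const_nhds.congr'
    filter_upwards [Filter.eventually_ge_atTop (Finset.range 6)] with s hs
    rw [h2_coeff_prod s hs m hm]
  exact_mod_cast tendsto_nhds_unique h1 h2

theorem h2_Tr_prod6 :
    h2_Tr (∏ n ∈ Finset.range 6, (1 - PowerSeries.X ^ (n + 1)) : PowerSeries ℤ)
      [1, -1, -1, 0, 0, 1, 0] := by
  have e : (∏ n ∈ Finset.range 6, (1 - PowerSeries.X ^ (n + 1)) : PowerSeries ℤ)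
      = (1 - PowerSeries.X ^ (0 + 1)) * (1 - PowerSeries.X ^ (1 + 1))
        * (1 - PowerSeries.X ^ (2 + 1)) * (1 - PowerSeries.X ^ (3 + 1))
        * (1 - PowerSeries.X ^ (4 + 1)) * (1 - PowerSeries.X ^ (5 + 1)) := by
    simp only [Finset.prod_range_succ, Finset.prod_range_zero, one_mul]
  rw [e]
  exact h2_Tr_congr (h2_Tr_mul (h2_Tr_mul (h2_Tr_mul (h2_Tr_mul (h2_Tr_mul (h2_Tr_fac 0)
    (h2_Tr_fac 1) (by decide)) (h2_Tr_fac 2) (by decide)) (h2_Tr_fac 3) (by decide))
    (h2_Tr_fac 4) (by decide)) (h2_Tr_fac 5) (by decide)) (by decide)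

theorem h2_Tr_etaProd : h2_Tr etaProd [1, -1, -1, 0, 0, 1, 0] := by
  intro n hn
  have hn' : n < 7 := hn
  rw [h2_coeff_etaProd n hn']
  exact h2_Tr_prod6 n hn

theorem h2_Tr_eta :
    h2_Tr dedekindEtaUnit [1, -24, 252, -1472, 4830, -6048, -16744] := by
  have h1 := h2_Tr_etaProd
  have h3 := h2_Tr_congr (h2_Tr_mul (h2_Tr_mul h1 h1 (le_refl _)) h1 (by decide))
    (by decide : _ = [1, -3, 0, 5, 0, 0, -7])
  have h6 := h2_Tr_congr (h2_Tr_mul h3 h3 (le_refl _)) (by decide : _ = [1, -6, 9, 10, -30, 0, 11])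
  have h12 := h2_Tr_congr (h2_Tr_mul h6 h6 (le_refl _))
    (by decide : _ = [1, -12, 54, -88, -99, 540, -418])
  have h24 := h2_Tr_congr (h2_Tr_mul h12 h12 (le_refl _))
    (by decide : _ = [1, -24, 252, -1472, 4830, -6048, -16744])
  have e : dedekindEtaUnit = (etaProd * etaProd * etaProd * (etaProd * etaProd * etaProd)
      * (etaProd * etaProd * etaProd * (etaProd * etaProd * etaProd)))
      * (etaProd * etaProd * etaProd * (etaProd * etaProd * etaProd)
      * (etaProd * etaProd * etaProd * (etaProd * etaProd * etaProd))) := by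
    rw [dedekindEtaUnit]; ring
  rw [e]
  exact h24

/-- **The seven coefficients.** -/
theorem h2_trunc (n : ℕ) (hn : n < 7) :
    PowerSeries.coeff n (eisenstein4 ^ 3 * dedekindEtaUnit * rq16_V 2 dedekindEtaUnit)
      = PowerSeries.coeff n ((dedekindEtaUnit
          + PowerSeries.C 256 * PowerSeries.X * rq16_V 2 dedekindEtaUnit) ^ 3) := by
  have hE := h2_Tr_E
  have hη := h2_Tr_eta
  have hV := h2_Tr_congr (h2_Tr_V hη) (by decide : _ = [1, 0, -24, 0, 252, 0, -1472])
  have hW := h2_Tr_congr (h2_Tr_add hη (h2_Tr_mul (h2_Tr_mul (h2_Tr_C 256) h2_Tr_X (le_refl _))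
    hV (by decide)) (by decide)) (by decide : _ = [1, 232, 252, -7616, 4830, 58464, -16744])
  have hL := h2_Tr_congr (h2_Tr_mul (h2_Tr_mul (h2_Tr_mul (h2_Tr_mul hE hE (le_refl _)) hE
    (by decide)) hη (by decide)) hV (by decide))
    (by decide : _ = [1, 696, 162228, 12815104, 30294474, -1190188608, -1613013192])
  have hR := h2_Tr_congr (h2_Tr_mul (h2_Tr_mul hW hW (le_refl _)) hW (by decide))
    (by decide : _ = [1, 696, 162228, 12815104, 30294474, -1190188608, -1613013192])
  have eL : eisenstein4 ^ 3 * dedekindEtaUnit * rq16_V 2 dedekindEtaUnit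
      = eisenstein4 * eisenstein4 * eisenstein4 * dedekindEtaUnit * rq16_V 2 dedekindEtaUnit := by
    ring
  have eR : (dedekindEtaUnit + PowerSeries.C 256 * PowerSeries.X * rq16_V 2 dedekindEtaUnit) ^ 3
      = (dedekindEtaUnit + PowerSeries.C 256 * PowerSeries.X * rq16_V 2 dedekindEtaUnit)
        * (dedekindEtaUnit + PowerSeries.C 256 * PowerSeries.X * rq16_V 2 dedekindEtaUnit)
        * (dedekindEtaUnit + PowerSeries.C 256 * PowerSeries.X * rq16_V 2 dedekindEtaUnit) := by
    ring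
  rw [eL, eR, hL n hn, hR n hn]

end Fermat.Agent.S18Lib
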