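import Mathlib

/-!
# S18 sprint, chunk H3: the pure algebra of the level-3 modular equation

`j * h ^ 3 = (h + 27) * (h + 243) ^ 3`   (mirror of `H2Alg.lean`):
* `h3_alg_1728`: `(j - 1728) * h ^ 3 = (h ^ 2 - 486 * h - 19683) ^ 2`;
* `h3_alg_diff`, `h3_alg_cofactor`, `h3_alg_diff_j`: the tower factorisation of `φ(h) - φ(h₀)`,
  `φ(h) = (h + 27) (h + 243) ^ 3 / h ^ 3`;
* `h3_alg_j`: `j ∈ ℤ[h, 1/h]`;
* `h3_alg_isIntegral`, `h3_alg_isIntegral_inv`: `h` is integral over any ring containing `j`,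
  `1/h` over any ring containing `j` in which `3` is invertible;
* `h3_alg_int`, `h3_alg_int_inv`: the same for integrally closed subrings of `F`.
-/

set_option autoImplicit false

namespace Fermat.Agent.S18Lib

universe u v

theorem h3_alg_expand {F : Type u} [CommRing F] (h : F) :
    (h + 27) * (h + 243) ^ 3
      = h ^ 4 + 756 * h ^ 3 + 196830 * h ^ 2 + 19131876 * h + 387420489 := by
  ring

theorem h3_alg_1728 {F : Type u} [CommRing F] (j h : F)
    (e : j * h ^ 3 = (h + 27) * (h + 243) ^ 3) :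
    (j - 1728) * h ^ 3 = (h ^ 2 - 486 * h - 19683) ^ 2 := by
  linear_combination e

theorem h3_alg_diff {F : Type u} [CommRing F] (h h0 : F) :
    (h + 27) * (h + 243) ^ 3 * h0 ^ 3 - (h0 + 27) * (h0 + 243) ^ 3 * h ^ 3 =
      (h - h0) * (h ^ 3 * h0 ^ 3 - 196830 * h ^ 2 * h0 ^ 2 - 19131876 * h * h0 * (h + h0)
        - 387420489 * (h ^ 2 + h * h0 + h0 ^ 2)) := by
  ring

theorem h3_alg_cofactor {F : Type u} [CommRing F] (h0 : F) :
    h0 ^ 3 * h0 ^ 3 - 196830 * h0 ^ 2 * h0 ^ 2 - 19131876 * h0 * h0 * (h0 + h0)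
        - 387420489 * (h0 ^ 2 + h0 * h0 + h0 ^ 2) =
      h0 ^ 2 * (h0 + 243) ^ 2 * (h0 ^ 2 - 486 * h0 - 19683) := by
  ring

/-- Tower factorisation: if `j = φ(h)` and `j0 = φ(h0)` then
`(j - j0) h³ h0³ = (h - h0) G(h, h0)`. -/
theorem h3_alg_diff_j {F : Type u} [CommRing F] (j h j0 h0 : F)
    (e : j * h ^ 3 = (h + 27) * (h + 243) ^ 3) (e0 : j0 * h0 ^ 3 = (h0 + 27) * (h0 + 243) ^ 3) :
    (j - j0) * (h ^ 3 * h0 ^ 3) =
      (h - h0) * (h ^ 3 * h0 ^ 3 - 196830 * h ^ 2 * h0 ^ 2 - 19131876 * h * h0 * (h + h0)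
        - 387420489 * (h ^ 2 + h * h0 + h0 ^ 2)) := by
  linear_combination h0 ^ 3 * e - h ^ 3 * e0

theorem h3_alg_j {F : Type u} [Field F] (j h : F) (hh : h ≠ 0)
    (e : j * h ^ 3 = (h + 27) * (h + 243) ^ 3) :
    j = h + 756 + 196830 * h⁻¹ + 19131876 * h⁻¹ ^ 2 + 387420489 * h⁻¹ ^ 3 := by
  have h1 : j = (h + 27) * (h + 243) ^ 3 / h ^ 3 := by
    rw [eq_div_iff (pow_ne_zero 3 hh)]; exact e
  rw [h1]
  field_simp
  ring

/-- `h` is a root of the monic quartic
`X⁴ + (756 - j) X³ + 196830 X² + 19131876 X + 387420489`. -/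
theorem h3_alg_isIntegral {A : Type u} {F : Type v} [CommRing A] [CommRing F] [Algebra A F]
    (a : A) (h : F) (e : algebraMap A F a * h ^ 3 = (h + 27) * (h + 243) ^ 3) :
    IsIntegral A h := by
  refine ⟨Polynomial.X ^ 4 + (Polynomial.C (756 - a) * Polynomial.X ^ 3 +
    Polynomial.C 196830 * Polynomial.X ^ 2 + Polynomial.C 19131876 * Polynomial.X
    + Polynomial.C 387420489), ?_, ?_⟩
  · apply Polynomial.monic_X_pow_add
    compute_degree!
  · simp only [Polynomial.eval₂_add, Polynomial.eval₂_mul, Polynomial.eval₂_pow,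
      Polynomial.eval₂_X, Polynomial.eval₂_C]
    simp only [map_sub, map_ofNat]
    linear_combination -e

/-- `1/h` is a root of the monic quartic
`X⁴ + 3⁻¹⁸ (19131876 X³ + 196830 X² + (756 - j) X + 1)`. -/
theorem h3_alg_isIntegral_inv {A : Type u} {F : Type v} [CommRing A] [CommRing F] [Algebra A F]
    (a c : A) (hc : c * 3 = 1) (h g : F) (hg : h * g = 1)
    (e : algebraMap A F a * h ^ 3 = (h + 27) * (h + 243) ^ 3) : IsIntegral A g := by
  refine ⟨Polynomial.X ^ 4 + (Polynomial.C (c ^ 18 * 19131876) * Polynomial.X ^ 3 +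
    Polynomial.C (c ^ 18 * 196830) * Polynomial.X ^ 2 +
    Polynomial.C (c ^ 18 * (756 - a)) * Polynomial.X + Polynomial.C (c ^ 18)), ?_, ?_⟩
  · apply Polynomial.monic_X_pow_add
    compute_degree!
  · simp only [Polynomial.eval₂_add, Polynomial.eval₂_mul, Polynomial.eval₂_pow,
      Polynomial.eval₂_X, Polynomial.eval₂_C]
    simp only [map_sub, map_mul, map_pow, map_ofNat]
    have hc' : algebraMap A F c * 3 = 1 := by
      have := congrArg (algebraMap A F) hc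
      simpa only [map_mul, map_ofNat, map_one] using this
    generalize algebraMap A F c = C at hc' ⊢
    generalize algebraMap A F a = J at e ⊢
    -- `(1 + 27 g) (1 + 243 g)³ = J g`
    have e' : (1 + 27 * g) * (1 + 243 * g) ^ 3 = J * g := by
      have h4 : J * g = g ^ 4 * (J * h ^ 3) := by
        have : g ^ 4 * (J * h ^ 3) = (h * g) ^ 3 * (J * g) := by ring
        rw [this, hg]; ring
      have h5 : (1 + 27 * g) * (1 + 243 * g) ^ 3 = g ^ 4 * ((h + 27) * (h + 243) ^ 3) := by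
        have : g ^ 4 * ((h + 27) * (h + 243) ^ 3)
            = (h * g + 27 * g) * (h * g + 243 * g) ^ 3 := by ring
        rw [this, hg]
      rw [h5, h4, e]
    have hC18 : C ^ 18 * 387420489 = 1 := by
      have : C ^ 18 * 387420489 = (C * 3) ^ 18 := by ring
      rw [this, hc', one_pow]
    have key : g ^ 4 + (C ^ 18 * 19131876 * g ^ 3 + C ^ 18 * 196830 * g ^ 2
          + C ^ 18 * (756 - J) * g + C ^ 18)
        = C ^ 18 * ((1 + 27 * g) * (1 + 243 * g) ^ 3 - J * g)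
          + (1 - C ^ 18 * 387420489) * g ^ 4 := by
      ring
    rw [key, e', hC18]
    ring

/-- `h ∈ O` for every integrally closed subring `O ∋ j`. -/
theorem h3_alg_int {F : Type u} [CommRing F] (j h : F)
    (e : j * h ^ 3 = (h + 27) * (h + 243) ^ 3)
    (O : Subring F) (hO : ∀ x : F, IsIntegral O x → x ∈ O) (hj : j ∈ O) : h ∈ O :=
  hO h (h3_alg_isIntegral (A := O) ⟨j, hj⟩ h e)

/-- `h⁻¹ ∈ O` for every integrally closed subring `O ∋ j, 1/3` (`3 ≠ 0` in `F`). -/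
theorem h3_alg_int_inv {F : Type u} [Field F] (j h : F) (hh : h ≠ 0)
    (e : j * h ^ 3 = (h + 27) * (h + 243) ^ 3)
    (O : Subring F) (hO : ∀ x : F, IsIntegral O x → x ∈ O) (hj : j ∈ O)
    (h30 : (3 : F) ≠ 0) (h3 : (3 : F)⁻¹ ∈ O) : h⁻¹ ∈ O :=
  hO _ (h3_alg_isIntegral_inv (A := O) ⟨j, hj⟩ ⟨(3 : F)⁻¹, h3⟩
    (Subtype.ext (by
      show (3 : F)⁻¹ * ((3 : O) : F) = 1
      rw [show ((3 : O) : F) = 3 from rfl, inv_mul_cancel₀ h30])) h h⁻¹ (mul_inv_cancel₀ hh) e)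

end Fermat.Agent.S18Lib
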