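/-
S18, route Q, chunk H3 (helper8), part 4: membership in the function field and `h3_main`.

* `h3m_mem_full`: a weakly holomorphic modular function on `Γ₀(N)` with INTEGER `q`-expansion
  lies in `modularFunctionFieldFull N = ℚ(j(q^d), d ∣ N)`  (degree bound `bd16_finrank_le` +
  the `ψ(N)` elements of the function field with independent reductions mod `ℓ` from S28);
* `h3m_H_mem`: `Δ(q)/Δ(q³) ∈ modularFunctionFieldFull 3`;
* `h3m_ser_mem`: `h3_ser ∈ modularFunctionFieldFull 3`;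
* `h3_main : h3_stmt`.
-/
import Fermat.Agent.Lib.S18.H3Laurent

set_option autoImplicit false

namespace Fermat.Agent.S18Lib

open UpperHalfPlane ModularForm CongruenceSubgroup MatrixGroups
open IntermediateField
open Fermat.Agent.LibS23 Fermat.Agent.S20Lib Fermat.Agent.S24Lib Fermat.Agent.S28Lib
open Fermat.Agent.S16Lib ModularCurve

noncomputable section

/-- a weakly holomorphic modular function on `Γ₀(N)` with integer `q`-expansion lies in the
function field `ℚ(j(q^d), d ∣ N)` -/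
theorem h3m_mem_full (N : ℕ) [NeZero N] (ℓ : ℕ) [Fact ℓ.Prime] (hℓN : ¬ ℓ ∣ N)
    (a : LaurentSeries ℤ) (ha : ca_emb a ∈ bd16_WH N) :
    ca_emb a ∈ modularFunctionFieldFull N := by
  obtain ⟨k, _, _, m, hmF, hli⟩ := bd16_exists_indep N ℓ hℓN
  set S : Set (LaurentSeries ℚ) := divisorExpansions N ∪ {ca_emb a} with hS
  set E : IntermediateField ℚ (LaurentSeries ℚ) := IntermediateField.adjoin ℚ S with hE
  have hSW : S ⊆ bd16_WH N := by
    rintro x (⟨d, hd0, hdN, rfl⟩ | rfl)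
    · haveI := hd0
      exact bd16_jqd_mem hdN
    · exact ha
  have hFE : modularFunctionFieldFull N ≤ E :=
    IntermediateField.adjoin.mono ℚ _ _ Set.subset_union_left
  have hjF : jq ∈ modularFunctionFieldFull N := by
    have h := jqd_mem_full N (one_dvd N)
    rwa [qExpand_one_apply] at h
  have hj : jq ∈ E := hFE hjF
  have haE : ca_emb a ∈ E := IntermediateField.subset_adjoin ℚ _ (Set.mem_union_right _ rfl)
  have hEQZ : E ≤ ca_QZ := by
    rw [hE, IntermediateField.adjoin_le_iff]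
    rintro x (hx | rfl)
    · exact ca_full_le_QZ N (IntermediateField.subset_adjoin ℚ _ hx)
    · exact ca_emb_mem_QZ a
  obtain ⟨hfin, hn⟩ := bd16_finrank_le N E hj (bd16_adjoin_div N S hSW)
  rw [card_Q] at hn
  -- the parameter `t = j`
  set t : ca_V ℓ E hEQZ := ⟨⟨jq, hj⟩, ca_mem_V_of_emb ℓ E hEQZ (jqModC ℤ)
    (by rw [ca_emb_jqModC])⟩ with ht
  have hredt : ca_redV ℓ E hEQZ k t = jqModC k := by
    rw [ca_redV_of_emb ℓ E hEQZ k t (jqModC ℤ) (by rw [ca_emb_jqModC]), ca_red, coeffMap_jqModC]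
  have htr : Transcendental k (ca_redV ℓ E hEQZ k t) := by
    rw [hredt]
    exact ca_transcendental_jqModC k
  -- the independent family
  set θ : Fin (dedekindPsi N) → ca_V ℓ E hEQZ := fun i =>
    ⟨⟨coeffMap (Int.castRingHom ℚ) (m i), hFE (hmF i)⟩,
      ca_mem_V_of_emb ℓ E hEQZ (m i) rfl⟩ with hθ
  have hredθ : ∀ i, ca_redV ℓ E hEQZ k (θ i) = coeffMap (Int.castRingHom k) (m i) :=
    fun i => ca_redV_of_emb ℓ E hEQZ k (θ i) (m i) rfl
  have hli' : LinearIndependent ↥(IntermediateField.adjoin k {ca_redV ℓ E hEQZ k t})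
      (fun i => ca_redV ℓ E hEQZ k (θ i)) := by
    rw [hredt]
    simp only [hredθ]
    exact hli
  -- linear independence over `ℚ(j)` and spanning
  have hθ' : ∀ (c : Fin (dedekindPsi N) →
        ↥(IntermediateField.adjoin ℚ {((t : ca_V ℓ E hEQZ) : E)}))
      (hc : ∀ i, algebraMap ↥(IntermediateField.adjoin ℚ {((t : ca_V ℓ E hEQZ) : E)}) E (c i)
        ∈ ca_V ℓ E hEQZ),
      ∑ i, ca_redV ℓ E hEQZ k
          ⟨algebraMap ↥(IntermediateField.adjoin ℚ {((t : ca_V ℓ E hEQZ) : E)}) E (c i), hc i⟩ *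
        ca_redV ℓ E hEQZ k (θ i) = 0 →
      ∀ i, ca_redV ℓ E hEQZ k
        ⟨algebraMap ↥(IntermediateField.adjoin ℚ {((t : ca_V ℓ E hEQZ) : E)}) E (c i), hc i⟩
          = 0 := by
    intro c hc hsum i
    have hmem : ∀ i, ca_redV ℓ E hEQZ k
        ⟨algebraMap ↥(IntermediateField.adjoin ℚ {((t : ca_V ℓ E hEQZ) : E)}) E (c i), hc i⟩ ∈
        IntermediateField.adjoin k {ca_redV ℓ E hEQZ k t} :=
      fun i => ca_redV_mem_adjoin ℓ E hEQZ k t htr _ (c i).2
    have h1 := Fintype.linearIndependent_iff.mp hli' (fun i => ⟨_, hmem i⟩) hsum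
    exact congrArg Subtype.val (h1 i)
  have hLI := ca_core_linearIndependent (ca_V ℓ E hEQZ) (ca_redV ℓ E hEQZ k) θ hθ'
  have hfin' : Module.Finite ↥(IntermediateField.adjoin ℚ {((t : ca_V ℓ E hEQZ) : E)}) E := hfin
  have hn' : Module.finrank ↥(IntermediateField.adjoin ℚ {((t : ca_V ℓ E hEQZ) : E)}) E
      ≤ dedekindPsi N := hn
  have hcard : Fintype.card (Fin (dedekindPsi N)) =
      Module.finrank ↥(IntermediateField.adjoin ℚ {((t : ca_V ℓ E hEQZ) : E)}) E := by
    have := hLI.fintype_card_le_finrank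
    rw [Fintype.card_fin] at this ⊢
    omega
  have hspan : ⊤ ≤ Submodule.span ↥(IntermediateField.adjoin ℚ {((t : ca_V ℓ E hEQZ) : E)})
      (Set.range fun i => ((θ i : ca_V ℓ E hEQZ) : E)) :=
    (hLI.span_eq_top_of_card_eq_finrank' hcard).ge
  obtain ⟨g, hg⟩ := (Submodule.mem_span_range_iff_exists_fun _).mp
    (hspan (Submodule.mem_top : (⟨ca_emb a, haE⟩ : E) ∈ ⊤))
  -- the coefficients lie in `ℚ(j) ⊆ F_N`
  have hle : IntermediateField.adjoin ℚ {((t : ca_V ℓ E hEQZ) : E)}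
      ≤ (modularFunctionFieldFull N).comap
        (RingHom.toRatAlgHom (E.val : ↥E →+* LaurentSeries ℚ)) := by
    rw [IntermediateField.adjoin_le_iff]
    rintro x hx
    rw [Set.mem_singleton_iff] at hx
    subst hx
    exact hjF
  have hgF : ∀ i, (((g i : ↥(IntermediateField.adjoin ℚ {((t : ca_V ℓ E hEQZ) : E)})) : E) :
      LaurentSeries ℚ) ∈ modularFunctionFieldFull N := fun i => hle (g i).2
  have key : ca_emb a = ∑ i, (((g i : ↥(IntermediateField.adjoin ℚ {((t : ca_V ℓ E hEQZ) : E)}))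
      : E) : LaurentSeries ℚ) * coeffMap (Int.castRingHom ℚ) (m i) := by
    have h := congrArg (fun x : E => (x : LaurentSeries ℚ)) hg
    simp only at h
    rw [← h]
    push_cast
    refine Finset.sum_congr rfl fun i _ => ?_
    rw [Algebra.smul_def]
    rfl
  rw [key]
  exact sum_mem fun i _ => mul_mem (hgF i) (hmF i)

/-- `1728 Δ(q³)/Δ(q)` is in the function field of level 3 -/
theorem h3m_W_mem :
    ca_emb (HahnSeries.ofPowerSeries ℤ ℤ h3c_B * bd16_DeltaInv) ∈ modularFunctionFieldFull 3 := by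
  haveI : Fact (Nat.Prime 2) := ⟨Nat.prime_two⟩
  obtain ⟨G, hG⟩ := h3s_form_b
  refine h3m_mem_full 3 2 (by decide) _ (bd16_form_mem 3 G h3c_B ?_)
  rw [hG, h3s_qx_b]

theorem h3m_W_eq :
    ca_emb (HahnSeries.ofPowerSeries ℤ ℤ h3c_B * bd16_DeltaInv) * deltaSeries
      = 1728 * deltaSeriesN 3 := by
  have h1 := congrArg ca_emb bd16_Delta_mul_inv
  rw [map_mul, map_one] at h1
  have h2 : ca_emb (HahnSeries.ofPowerSeries ℤ ℤ (PowerSeries.X * dedekindEtaUnit))
      = deltaSeries := by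
    rw [h3l_delta, h3l_phi_apply, ca_emb, coeffMap_ofPowerSeries]
  have h3 : ca_emb (HahnSeries.ofPowerSeries ℤ ℤ h3c_B) = 1728 * deltaSeriesN 3 := by
    rw [← h3l_phi_B, h3l_phi_apply, ca_emb, coeffMap_ofPowerSeries]
  rw [h2] at h1
  rw [map_mul, h3]
  linear_combination (1728 * deltaSeriesN 3) * h1

/-- `Δ(q)/Δ(q³)` is in the function field of level 3 -/
theorem h3m_H_mem : modularUnitSeries 3 ∈ modularFunctionFieldFull 3 := by
  have hW := h3m_W_mem
  have hWe := h3m_W_eq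
  have hH := modularUnitSeries_mul_deltaSeriesN 3
  have hd : deltaSeries ≠ 0 := deltaSeries_ne_zero
  have hd3 : deltaSeriesN 3 ≠ 0 := deltaSeriesN_ne_zero 3
  set W := ca_emb (HahnSeries.ofPowerSeries ℤ ℤ h3c_B * bd16_DeltaInv) with hWdef
  have hW0 : W ≠ 0 := by
    intro h0
    rw [h0, zero_mul] at hWe
    exact mul_ne_zero h3l_ofNat_ne_zero hd3 hWe.symm
  -- `H = 1728 / W`
  have hHW : modularUnitSeries 3 = algebraMap ℚ (LaurentSeries ℚ) 1728 * W⁻¹ := by
    rw [eq_mul_inv_iff_mul_eq₀ hW0, map_ofNat]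
    have h5 : modularUnitSeries 3 * W * deltaSeries = 1728 * deltaSeries := by
      rw [mul_assoc, hWe, ← hH]
      ring
    exact mul_right_cancel₀ hd h5
  rw [hHW]
  exact mul_mem (IntermediateField.algebraMap_mem _ _) (inv_mem hW)

theorem h3m_jq_mem : jq ∈ modularFunctionFieldFull 3 := by
  have h := jqd_mem_full 3 (one_dvd 3)
  rwa [qExpand_one_apply] at h

theorem h3m_ofNat_mem (n : ℕ) [n.AtLeastTwo] :
    (OfNat.ofNat n : LaurentSeries ℚ) ∈ modularFunctionFieldFull 3 := by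
  rw [← map_ofNat (algebraMap ℚ (LaurentSeries ℚ)) n]
  exact IntermediateField.algebraMap_mem _ _

/-- the Hauptmodul is in the function field of level 3 -/
theorem h3m_ser_mem : h3_ser ∈ modularFunctionFieldFull 3 := by
  have hH := h3m_H_mem
  have hj := h3m_jq_mem
  have hlin := h3l_lin
  have hden := h3l_den_ne
  have e : h3_ser = (modularUnitSeries 3 ^ 2 + 196830 * modularUnitSeries 3 + 387420489)
      * (jq * modularUnitSeries 3 - 756 * modularUnitSeries 3 - 19131876)⁻¹ := by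
    rw [eq_mul_inv_iff_mul_eq₀ hden]
    exact hlin
  rw [e]
  refine mul_mem (add_mem (add_mem (pow_mem hH 2) (mul_mem (h3m_ofNat_mem _) hH))
    (h3m_ofNat_mem _)) (inv_mem ?_)
  exact sub_mem (sub_mem (mul_mem hj hH) (mul_mem (h3m_ofNat_mem _) hH)) (h3m_ofNat_mem _)

/-- **chunk H3.** -/
theorem h3_main : h3_stmt := by
  refine ⟨fun M _ hM => full_degeneracy_le hM h3m_ser_mem, h3l_shape, h3l_shape_inv,
    h3l_modular⟩

end

end Fermat.Agent.S18Lib
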