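import Mathlib

/-!
# S18, chunk Na (helper6): discriminants under reduction to a field

* `na_discr_map` : the discriminant of a basis maps to the discriminant of the image basis.
* `na_trace_nondeg`, `na_discr_ne_zero_of_reduced` : a finite reduced algebra over a field of
  characteristic zero has non-degenerate trace form.
* `na_not_dvd_discr_of_separable` : separable special fibre ⇒ `π ∤ disc`.
* `na_not_dvd_discr_of_unramified` : `B_(ρ)/ρ` reduced, residue characteristic zero ⇒ `ρ ∤ disc`.
-/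

set_option autoImplicit false
set_option linter.style.haveILetI false

namespace Fermat.Agent.S18Lib

open scoped TensorProduct

section map

variable {S B k C ι : Type*} [CommRing S] [CommRing B] [Algebra S B] [CommRing k] [CommRing C]
  [Algebra k C] [Fintype ι]

theorem na_map_eq_sum (b : Module.Basis ι S B) (φ : S →+* k) (ψ : B →+* C)
    (hφψ : ∀ s, ψ (algebraMap S B s) = algebraMap k C (φ s)) (y : B) :
    ψ y = ∑ l, φ (b.repr y l) • ψ (b l) := by
  conv_lhs => rw [← b.sum_repr y]
  rw [map_sum]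
  refine Finset.sum_congr rfl fun l _ => ?_
  rw [Algebra.smul_def, map_mul, hφψ, Algebra.smul_def]

theorem na_repr_map (b : Module.Basis ι S B) (c : Module.Basis ι k C) (φ : S →+* k) (ψ : B →+* C)
    (hφψ : ∀ s, ψ (algebraMap S B s) = algebraMap k C (φ s)) (hc : ∀ i, c i = ψ (b i))
    (y : B) (i : ι) : c.repr (ψ y) i = φ (b.repr y i) := by
  rw [na_map_eq_sum b φ ψ hφψ y]
  have h : (∑ l, φ (b.repr y l) • ψ (b l)) = ∑ l, (fun l => φ (b.repr y l)) l • c l := by
    refine Finset.sum_congr rfl fun l _ => ?_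
    rw [hc l]
  rw [h, Module.Basis.repr_sum_self]

theorem na_trace_map [DecidableEq ι] (b : Module.Basis ι S B) (c : Module.Basis ι k C)
    (φ : S →+* k) (ψ : B →+* C)
    (hφψ : ∀ s, ψ (algebraMap S B s) = algebraMap k C (φ s)) (hc : ∀ i, c i = ψ (b i))
    (x : B) : Algebra.trace k C (ψ x) = φ (Algebra.trace S B x) := by
  rw [Algebra.trace_eq_matrix_trace c, Algebra.trace_eq_matrix_trace b, Matrix.trace,
    Matrix.trace, map_sum]
  refine Finset.sum_congr rfl fun i _ => ?_
  rw [Matrix.diag_apply, Matrix.diag_apply, Algebra.leftMulMatrix_eq_repr_mul,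
    Algebra.leftMulMatrix_eq_repr_mul, hc i, ← map_mul, na_repr_map b c φ ψ hφψ hc]

theorem na_discr_map [DecidableEq ι] (b : Module.Basis ι S B) (c : Module.Basis ι k C)
    (φ : S →+* k) (ψ : B →+* C)
    (hφψ : ∀ s, ψ (algebraMap S B s) = algebraMap k C (φ s)) (hc : ∀ i, c i = ψ (b i)) :
    Algebra.discr k c = φ (Algebra.discr S b) := by
  rw [Algebra.discr_def, Algebra.discr_def, RingHom.map_det]
  congr 1
  ext i j
  rw [RingHom.mapMatrix_apply, Matrix.map_apply, Algebra.traceMatrix_apply,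
    Algebra.traceMatrix_apply, Algebra.traceForm_apply, Algebra.traceForm_apply, hc i, hc j,
    ← map_mul, na_trace_map b c φ ψ hφψ hc]

end map

/-- In a finite reduced commutative algebra over a field of characteristic zero the trace form
is non-degenerate. -/
theorem na_trace_nondeg {k C : Type*} [Field k] [CharZero k] [CommRing C] [Algebra k C]
    [Module.Finite k C] [IsReduced C] (z : C) (hz : ∀ y, Algebra.trace k C (z * y) = 0) :
    z = 0 := by
  by_contra hz0
  haveI : IsArtinianRing C := IsArtinianRing.of_finite k C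
  let f : ℕ →o (Submodule C C)ᵒᵈ :=
    ⟨fun n => OrderDual.toDual (Ideal.span {z ^ n} : Ideal C), by
      intro n m hnm
      show (Ideal.span {z ^ m} : Ideal C) ≤ Ideal.span {z ^ n}
      rw [Ideal.span_singleton_le_iff_mem, Ideal.mem_span_singleton]
      exact pow_dvd_pow z hnm⟩
  obtain ⟨n, hn⟩ := IsArtinian.monotone_stabilizes f
  have h1 : (Ideal.span {z ^ (n + 1)} : Ideal C) = Ideal.span {z ^ (2 * (n + 1))} := by
    have e1 := hn (n + 1) (by omega)
    have e2 := hn (2 * (n + 1)) (by omega)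
    have e3 : f (n + 1) = f (2 * (n + 1)) := e1.symm.trans e2
    exact OrderDual.toDual.injective e3
  have h2 : z ^ (n + 1) ∈ (Ideal.span {z ^ (2 * (n + 1))} : Ideal C) := by
    rw [← h1]; exact Ideal.subset_span rfl
  obtain ⟨a, ha⟩ := Ideal.mem_span_singleton'.mp h2
  set e : C := a * z ^ (n + 1) with he_def
  have he : e * e = e := by
    have : e * e = a * (a * z ^ (2 * (n + 1))) := by rw [he_def]; ring
    rw [this, ha]
  have he0 : e ≠ 0 := by
    intro h0
    have h3 : z ^ (n + 1) = e * z ^ (n + 1) := by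
      rw [he_def]
      have : a * z ^ (n + 1) * z ^ (n + 1) = a * z ^ (2 * (n + 1)) := by ring
      rw [this, ha]
    rw [h0, zero_mul] at h3
    exact hz0 (IsReduced.eq_zero z ⟨n + 1, h3⟩)
  have htr : Algebra.trace k C e = 0 := by
    have : e = z * (a * z ^ n) := by rw [he_def]; ring
    rw [this]; exact hz _
  have hid : IsIdempotentElem (Algebra.lmul k C e) := by
    show Algebra.lmul k C e * Algebra.lmul k C e = Algebra.lmul k C e
    rw [← map_mul, he]
  rw [Algebra.trace_apply] at htr
  have h4 := (LinearMap.IsIdempotentElem.trace_eq_zero_iff hid).mp htr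
  have h5 : e = 0 := by
    have h6 := congrArg (fun g : C →ₗ[k] C => g 1) h4
    simpa using h6
  exact he0 h5

theorem na_discr_ne_zero_of_reduced {k C ι : Type*} [Field k] [CharZero k] [CommRing C]
    [Algebra k C] [IsReduced C] [Fintype ι] [DecidableEq ι] (c : Module.Basis ι k C) :
    Algebra.discr k c ≠ 0 := by
  haveI : Module.Finite k C := Module.Finite.of_basis c
  intro hd
  rw [Algebra.discr_def] at hd
  obtain ⟨v, hv0, hv⟩ := Matrix.exists_mulVec_eq_zero_iff.mpr hd
  set z : C := c.equivFun.symm v with hz_def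
  have hz : c.equivFun z = v := by rw [hz_def, LinearEquiv.apply_symm_apply]
  have h1 := Algebra.traceMatrix_of_basis_mulVec c z
  rw [hz, hv] at h1
  have h2 : ∀ i, Algebra.trace k C (z * c i) = 0 := fun i => (congrFun h1 i).symm
  have h3 : ∀ y, Algebra.trace k C (z * y) = 0 := by
    intro y
    rw [← c.sum_repr y, Finset.mul_sum, map_sum]
    refine Finset.sum_eq_zero fun i _ => ?_
    rw [mul_smul_comm, map_smul, h2 i, smul_zero]
  have hz0 := na_trace_nondeg z h3
  apply hv0
  rw [← hz, hz0, map_zero]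

/-- common denominators -/
theorem na_common_den {S k ι : Type*} [CommRing S] [Field k] [Fintype ι] [DecidableEq ι]
    (φ : S →+* k) (hk : ∀ c : k, ∃ s s' : S, φ s' ≠ 0 ∧ c * φ s' = φ s) (g : ι → k) :
    ∃ d : S, φ d ≠ 0 ∧ ∃ r : ι → S, ∀ i, g i * φ d = φ (r i) := by
  choose s s' hs' hs using fun i => hk (g i)
  refine ⟨∏ i, s' i, ?_, fun i => s i * ∏ j ∈ Finset.univ.erase i, s' j, fun i => ?_⟩
  · rw [map_prod]; exact Finset.prod_ne_zero_iff.mpr fun i _ => hs' i
  · rw [← Finset.mul_prod_erase Finset.univ s' (Finset.mem_univ i), map_mul, ← mul_assoc, hs i,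
      map_mul]

/-- divisibility by `π` in a free module, coordinatewise -/
theorem na_dvd_iff_repr {S B ι : Type*} [CommRing S] [CommRing B] [Algebra S B] [Fintype ι]
    (b : Module.Basis ι S B) (π : S) (y : B) :
    algebraMap S B π ∣ y ↔ ∀ i, π ∣ b.repr y i := by
  constructor
  · rintro ⟨y', rfl⟩ i
    refine ⟨b.repr y' i, ?_⟩
    rw [← Algebra.smul_def, map_smul, Finsupp.smul_apply, smul_eq_mul]
  · intro h
    choose q hq using h
    refine ⟨∑ i, q i • b i, ?_⟩
    conv_lhs => rw [← b.sum_repr y]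
    rw [Finset.mul_sum]
    refine Finset.sum_congr rfl fun i _ => ?_
    rw [hq i, mul_smul, Algebra.smul_def]

/-- **Separable special fibre ⇒ `π ∤ disc`.** -/
theorem na_not_dvd_discr_of_separable {S B : Type*} [CommRing S] [CommRing B] [Algebra S B]
    (π : S) {k₀ L : Type*} [Field k₀] [Field L] [Algebra k₀ L] [Algebra.IsSeparable k₀ L]
    (φ : S →+* k₀) (ψ : B →+* L)
    (hφψ : ∀ s : S, ψ (algebraMap S B s) = algebraMap k₀ L (φ s))
    (hφ : ∀ s : S, φ s = 0 ↔ π ∣ s)
    (hψ : ∀ x : B, ψ x = 0 ↔ algebraMap S B π ∣ x)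
    (hk : ∀ c : k₀, ∃ s s' : S, φ s' ≠ 0 ∧ c * φ s' = φ s)
    (hL : ∀ y : L, ∃ x x' : B, ψ x' ≠ 0 ∧ y * ψ x' = ψ x)
    {ι : Type*} [Fintype ι] [DecidableEq ι] (b : Module.Basis ι S B) :
    ¬ π ∣ Algebra.discr S b := by
  classical
  set v : ι → L := fun i => ψ (b i) with hv
  -- linear independence
  have hli : LinearIndependent k₀ v := by
    rw [Fintype.linearIndependent_iff]
    intro g hg i
    obtain ⟨d, hd, r, hr⟩ := na_common_den φ hk g
    have h1 : ψ (∑ j, r j • b j) = 0 := by
      rw [map_sum]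
      have h2 : ∑ j, ψ (r j • b j) = φ d • ∑ j, g j • v j := by
        rw [Finset.smul_sum]
        refine Finset.sum_congr rfl fun j _ => ?_
        rw [Algebra.smul_def, map_mul, hφψ, ← hr j, smul_smul, mul_comm (φ d), Algebra.smul_def]
      rw [h2, hg, smul_zero]
    rw [hψ, na_dvd_iff_repr b] at h1
    have h3 := h1 i
    rw [Module.Basis.repr_sum_self] at h3
    have h4 : g i * φ d = 0 := by rw [hr i, hφ]; exact h3
    exact (mul_eq_zero.mp h4).resolve_right hd
  -- spanning
  set T : Submodule k₀ L := Submodule.span k₀ (Set.range v) with hT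
  have hmemT : ∀ x : B, ψ x ∈ T := by
    intro x
    rw [na_map_eq_sum b φ ψ hφψ x]
    exact Submodule.sum_mem _ fun l _ =>
      Submodule.smul_mem _ _ (Submodule.subset_span ⟨l, rfl⟩)
  have hmul : ∀ x : B, ∀ t ∈ T, ψ x * t ∈ T := by
    intro x t ht
    refine Submodule.span_induction (p := fun t _ => ψ x * t ∈ T) ?_ ?_ ?_ ?_ ht
    · rintro _ ⟨i, rfl⟩
      show ψ x * ψ (b i) ∈ T
      rw [← map_mul]; exact hmemT _
    · rw [mul_zero]; exact T.zero_mem
    · intro t₁ t₂ _ _ h₁ h₂
      rw [mul_add]; exact T.add_mem h₁ h₂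
    · intro c t₁ _ h₁
      rw [mul_smul_comm]; exact T.smul_mem c h₁
  have hspan : ⊤ ≤ Submodule.span k₀ (Set.range v) := by
    intro y _
    obtain ⟨x, x', hx', hxy⟩ := hL y
    haveI : FiniteDimensional k₀ T := FiniteDimensional.span_of_finite k₀ (Set.finite_range v)
    let m : T →ₗ[k₀] T := (LinearMap.mulLeft k₀ (ψ x')).restrict (fun t ht => hmul x' t ht)
    have hminj : Function.Injective m := by
      intro t₁ t₂ h12
      have h5 : ψ x' * (t₁ : L) = ψ x' * (t₂ : L) := congrArg Subtype.val h12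
      exact Subtype.ext (mul_left_cancel₀ hx' h5)
    obtain ⟨t, ht⟩ := LinearMap.surjective_of_injective hminj ⟨ψ x, hmemT x⟩
    have h6 : ψ x' * (t : L) = ψ x := congrArg Subtype.val ht
    have h7 : y = (t : L) := by
      apply mul_left_cancel₀ hx'
      rw [h6, mul_comm, hxy]
    rw [h7]; exact t.2
  let c : Module.Basis ι k₀ L := Module.Basis.mk hli hspan
  have hc : ∀ i, c i = ψ (b i) := fun i => by rw [Module.Basis.mk_apply]
  haveI : Module.Finite k₀ L := Module.Finite.of_basis c
  have hne : Algebra.discr k₀ c ≠ 0 := Algebra.discr_not_zero_of_basis k₀ c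
  rw [na_discr_map b c φ ψ hφψ hc] at hne
  intro hdvd
  exact hne ((hφ _).mpr hdvd)

/-- **`B_(ρ)/ρ` reduced and residue characteristic zero ⇒ `ρ ∤ disc`.** -/
theorem na_not_dvd_discr_of_unramified {S B : Type*} [CommRing S] [CommRing B] [Algebra S B]
    (ρ : S) (hρ : Prime ρ) (hchar : ∀ n : ℕ, n ≠ 0 → ¬ ρ ∣ (n : S))
    (hunr : ∀ x : B, algebraMap S B ρ ∣ x ^ 2 → ∃ s : S, ¬ ρ ∣ s ∧ algebraMap S B ρ ∣ s • x)
    {ι : Type*} [Fintype ι] [DecidableEq ι] (b : Module.Basis ι S B) :
    ¬ ρ ∣ Algebra.discr S b := by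
  classical
  set I : Ideal S := Ideal.span {ρ} with hI
  haveI hIprime : I.IsPrime := Ideal.isPrime_span_singleton_of_prime hρ
  let k := FractionRing (S ⧸ I)
  have hφ : ∀ s : S, algebraMap S k s = 0 ↔ ρ ∣ s := by
    intro s
    rw [IsScalarTower.algebraMap_apply S (S ⧸ I) k,
      map_eq_zero_iff _ (IsFractionRing.injective (S ⧸ I) k), Ideal.Quotient.algebraMap_eq,
      Ideal.Quotient.eq_zero_iff_mem, hI, Ideal.mem_span_singleton]
  haveI : CharZero k := charZero_of_inj_zero fun n hn => by
    by_contra hn0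
    apply hchar n hn0
    rw [← hφ, map_natCast]; exact hn
  have hk : ∀ c : k, ∃ s s' : S, algebraMap S k s' ≠ 0 ∧ c * algebraMap S k s' = algebraMap S k s := by
    intro c
    obtain ⟨a, d, hd, rfl⟩ := IsFractionRing.div_surjective (A := S ⧸ I) c
    obtain ⟨s, rfl⟩ := Ideal.Quotient.mk_surjective a
    obtain ⟨s', rfl⟩ := Ideal.Quotient.mk_surjective d
    have hd0 : algebraMap (S ⧸ I) k (Ideal.Quotient.mk I s') ≠ 0 :=
      IsFractionRing.to_map_ne_zero_of_mem_nonZeroDivisors hd
    refine ⟨s, s', ?_, ?_⟩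
    · rw [IsScalarTower.algebraMap_apply S (S ⧸ I) k]; exact hd0
    · rw [IsScalarTower.algebraMap_apply S (S ⧸ I) k, IsScalarTower.algebraMap_apply S (S ⧸ I) k,
        Ideal.Quotient.algebraMap_eq]
      exact div_mul_cancel₀ _ hd0
  let C := k ⊗[S] B
  let c : Module.Basis ι k C := Algebra.TensorProduct.basis k b
  let ψ : B →+* C := (Algebra.TensorProduct.includeRight : B →ₐ[S] k ⊗[S] B).toRingHom
  have hφψ : ∀ s : S, ψ (algebraMap S B s) = algebraMap k C (algebraMap S k s) := by
    intro s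
    show (Algebra.TensorProduct.includeRight : B →ₐ[S] k ⊗[S] B) (algebraMap S B s) = _
    rw [AlgHom.commutes, IsScalarTower.algebraMap_apply S k C]
  have hc : ∀ i, c i = ψ (b i) := fun i => by
    show Algebra.TensorProduct.basis k b i = _
    rw [Algebra.TensorProduct.basis_apply]
    rfl
  have hψ : ∀ y : B, ψ y = 0 ↔ algebraMap S B ρ ∣ y := by
    intro y
    rw [na_dvd_iff_repr b]
    constructor
    · intro h i
      rw [← hφ, ← na_repr_map b c (algebraMap S k) ψ hφψ hc, h, map_zero, Finsupp.zero_apply]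
    · intro h
      apply c.repr.injective
      ext i
      rw [na_repr_map b c (algebraMap S k) ψ hφψ hc, map_zero, Finsupp.zero_apply, hφ]
      exact h i
  haveI : IsReduced C := by
    rw [isReduced_iff_pow_one_lt 2 (by norm_num)]
    intro z hz
    obtain ⟨d, hd, r, hr⟩ := na_common_den (algebraMap S k) hk (fun i => c.repr z i)
    set x : B := ∑ i, r i • b i with hx
    have h1 : ψ x = algebraMap S k d • z := by
      apply c.repr.injective
      ext i
      rw [na_repr_map b c (algebraMap S k) ψ hφψ hc, hx, Module.Basis.repr_sum_self, map_smul,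
        Finsupp.smul_apply, smul_eq_mul, ← hr i, mul_comm]
    have h2 : ψ (x ^ 2) = 0 := by
      rw [map_pow, h1, smul_pow, hz, smul_zero]
    obtain ⟨s, hs, hsx⟩ := hunr x ((hψ _).mp h2)
    have h3 : ψ (s • x) = 0 := (hψ _).mpr hsx
    rw [Algebra.smul_def, map_mul, hφψ, ← Algebra.smul_def, h1, smul_smul] at h3
    have h4 : algebraMap S k s * algebraMap S k d ≠ 0 :=
      mul_ne_zero (fun h => hs ((hφ s).mp h)) hd
    have h5 : z = (algebraMap S k s * algebraMap S k d)⁻¹ •
        ((algebraMap S k s * algebraMap S k d) • z) := by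
      rw [smul_smul, inv_mul_cancel₀ h4, one_smul]
    rw [h5, h3, smul_zero]
  have hne : Algebra.discr k c ≠ 0 := na_discr_ne_zero_of_reduced c
  rw [na_discr_map b c (algebraMap S k) ψ hφψ hc] at hne
  intro hdvd
  exact hne ((hφ _).mpr hdvd)

end Fermat.Agent.S18Lib
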