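import Mathlib

/-!
# S18, chunk Na (helper6): freeness of `B` over `S`

`S` noetherian local domain, `π` prime in the maximal ideal, `S ⧸ π` principal; `B` a finite
`S`-algebra, a domain, `S → B` injective, `π B` prime and `π B ∩ S = π S`.  Then `B` is `S`-free.
-/

set_option autoImplicit false
set_option linter.style.haveILetI false

namespace Fermat.Agent.S18Lib

open IsLocalRing

/-- membership in `span {π} • ⊤` -/
theorem na_mem_smul_top {S B : Type*} [CommRing S] [CommRing B] [Algebra S B] (π : S) (x : B) :
    x ∈ (Ideal.span {π} : Ideal S) • (⊤ : Submodule S B) ↔ algebraMap S B π ∣ x := by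
  rw [Submodule.ideal_span_singleton_smul, Submodule.mem_smul_pointwise_iff_exists]
  constructor
  · rintro ⟨y, -, rfl⟩
    exact ⟨y, by rw [Algebra.smul_def]⟩
  · rintro ⟨y, rfl⟩
    exact ⟨y, Submodule.mem_top, by rw [Algebra.smul_def]⟩

theorem na_free {S B : Type*} [CommRing S] [IsDomain S] [IsLocalRing S] [IsNoetherianRing S]
    [CommRing B] [IsDomain B] [Algebra S B] [Module.Finite S B] (π : S)
    (hπm : π ∈ maximalIdeal S) (hπ : Prime π)
    (hpid : IsPrincipalIdealRing (S ⧸ Ideal.span {π}))
    (hinj : Function.Injective (algebraMap S B))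
    (hBπ : (Ideal.span {algebraMap S B π}).IsPrime)
    (hcap : ∀ s : S, algebraMap S B π ∣ algebraMap S B s → π ∣ s) :
    Module.Free S B := by
  classical
  set I : Ideal S := Ideal.span {π} with hI
  haveI hIprime : I.IsPrime := Ideal.isPrime_span_singleton_of_prime hπ
  have hπB0 : algebraMap S B π ≠ 0 := by
    intro h
    exact hπ.ne_zero (hinj (by rw [h, map_zero]))
  have hπB : Prime (algebraMap S B π) := (Ideal.span_singleton_prime hπB0).mp hBπ
  -- the quotient module
  let N : Submodule S B := I • (⊤ : Submodule S B)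
  have hmemN : ∀ x : B, x ∈ N ↔ algebraMap S B π ∣ x := fun x => na_mem_smul_top π x
  haveI : Module.IsTorsionFree (S ⧸ I) (B ⧸ N) := by
    refine Module.IsTorsionFree.of_smul_eq_zero fun r m hrm => ?_
    obtain ⟨c, rfl⟩ := Ideal.Quotient.mk_surjective r
    obtain ⟨x, rfl⟩ := Submodule.Quotient.mk_surjective N m
    have h1 : Submodule.Quotient.mk (p := N) (c • x) = 0 := hrm
    rw [Submodule.Quotient.mk_eq_zero, hmemN, Algebra.smul_def] at h1
    rcases hπB.dvd_or_dvd h1 with h2 | h2
    · left
      rw [Ideal.Quotient.eq_zero_iff_mem, hI, Ideal.mem_span_singleton]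
      exact hcap c h2
    · right
      rw [Submodule.Quotient.mk_eq_zero, hmemN]
      exact h2
  haveI : Module.Free (S ⧸ I) (B ⧸ N) := Module.free_of_finite_type_torsion_free'
  let ι := Module.Free.ChooseBasisIndex (S ⧸ I) (B ⧸ N)
  let bbar : Module.Basis ι (S ⧸ I) (B ⧸ N) := Module.Free.chooseBasis (S ⧸ I) (B ⧸ N)
  haveI : Fintype ι := Module.Free.ChooseBasisIndex.fintype (S ⧸ I) (B ⧸ N)
  have hlift : ∀ i : ι, ∃ x : B, Submodule.Quotient.mk (p := N) x = bbar i :=
    fun i => Submodule.Quotient.mk_surjective N (bbar i)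
  choose b hb using hlift
  -- spanning (Nakayama)
  have hjac : I ≤ Ideal.jacobson (⊥ : Ideal S) := by
    rw [IsLocalRing.jacobson_eq_maximalIdeal _ bot_ne_top]
    exact (Ideal.span_singleton_le_iff_mem _).mpr hπm
  have hspan : (⊤ : Submodule S B) ≤ Submodule.span S (Set.range b) := by
    refine Submodule.le_of_le_smul_of_le_jacobson_bot (Module.Finite.fg_top) hjac ?_
    intro x _
    -- expand the class of x in the basis
    have hx := bbar.sum_repr (Submodule.Quotient.mk (p := N) x)
    have hc : ∀ i : ι, ∃ c : S, Ideal.Quotient.mk I c = bbar.repr (Submodule.Quotient.mk x) i :=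
      fun i => Ideal.Quotient.mk_surjective _
    choose c hc using hc
    have h2 : Submodule.Quotient.mk (p := N) (x - ∑ i, c i • b i) = 0 := by
      rw [Submodule.Quotient.mk_sub, sub_eq_zero]
      conv_lhs => rw [← hx]
      have h4 : Submodule.Quotient.mk (p := N) (∑ i, c i • b i) = N.mkQ (∑ i, c i • b i) := rfl
      rw [h4, map_sum]
      refine Finset.sum_congr rfl fun i _ => ?_
      rw [← hc i, ← hb i]
      rfl
    rw [Submodule.Quotient.mk_eq_zero] at h2
    have h3 : x = ∑ i, c i • b i + (x - ∑ i, c i • b i) := by ring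
    rw [h3]
    refine Submodule.add_mem_sup ?_ h2
    exact Submodule.sum_mem _ fun i _ =>
      Submodule.smul_mem _ _ (Submodule.subset_span ⟨i, rfl⟩)
  -- linear independence (π-adic descent + Krull intersection)
  have hstep : ∀ n : ℕ, ∀ s : ι → S, ∑ i, s i • b i = 0 → ∀ i, π ^ n ∣ s i := by
    intro n
    induction n with
    | zero => intro s _ i; simp
    | succ n ih =>
      intro s hs i
      -- reduce mod π
      have h1 : ∑ j, Ideal.Quotient.mk I (s j) • bbar j = 0 := by
        have h2 : N.mkQ (∑ j, s j • b j) = 0 := by rw [hs, map_zero]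
        rw [map_sum] at h2
        rw [← h2]
        refine Finset.sum_congr rfl fun j _ => ?_
        rw [← hb j]
        rfl
      have h3 : ∀ j, Ideal.Quotient.mk I (s j) = 0 :=
        Fintype.linearIndependent_iff.mp bbar.linearIndependent _ h1
      have h4 : ∀ j, ∃ s' : S, s j = π * s' := fun j => by
        have := h3 j
        rw [Ideal.Quotient.eq_zero_iff_mem, hI, Ideal.mem_span_singleton] at this
        exact this
      choose s' hs' using h4
      have h5 : ∑ j, s' j • b j = 0 := by
        have h6 : algebraMap S B π * ∑ j, s' j • b j = 0 := by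
          rw [Finset.mul_sum, ← hs]
          refine Finset.sum_congr rfl fun j _ => ?_
          rw [hs' j, Algebra.smul_def, Algebra.smul_def, map_mul, mul_assoc]
        exact (mul_eq_zero.mp h6).resolve_left hπB0
      obtain ⟨r, hr⟩ := ih s' h5 i
      exact ⟨r, by rw [hs' i, hr, pow_succ]; ring⟩
  have hli : LinearIndependent S b := by
    rw [Fintype.linearIndependent_iff]
    intro s hs i
    have hInf : s i ∈ ⨅ n : ℕ, I ^ n := by
      rw [Ideal.mem_iInf]
      intro n
      rw [hI, Ideal.span_singleton_pow, Ideal.mem_span_singleton]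
      exact hstep n s hs i
    rw [Ideal.iInf_pow_eq_bot_of_isLocalRing I hIprime.ne_top] at hInf
    simpa using hInf
  exact Module.Free.of_basis (Module.Basis.mk hli hspan)

end Fermat.Agent.S18Lib
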