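import Mathlib
import Fermat.Agent.Lib.S18.NaIface

/-!
# S18, chunk Na (helper6): factoriality of a local noetherian domain with `S ⧸ π` principal
-/

set_option autoImplicit false

namespace Fermat.Agent.S18Lib

open IsLocalRing

/-- A prime ideal `q` not containing the prime element `π` of the maximal ideal is principal
as soon as its image in `S ⧸ π` is principal. -/
theorem na_prime_principal {S : Type*} [CommRing S] [IsLocalRing S] [IsNoetherianRing S]
    (π : S) (hπm : π ∈ maximalIdeal S)
    (hpid : IsPrincipalIdealRing (S ⧸ Ideal.span {π}))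
    (q : Ideal S) (hq : q.IsPrime) (hπq : π ∉ q) :
    ∃ g ∈ q, q = Ideal.span {g} := by
  classical
  set I : Ideal S := Ideal.span {π} with hI
  have hsurj : Function.Surjective (Ideal.Quotient.mk I) := Ideal.Quotient.mk_surjective
  obtain ⟨gbar, hgbar⟩ := (hpid.principal (q.map (Ideal.Quotient.mk I))).principal
  have hgmem : gbar ∈ q.map (Ideal.Quotient.mk I) := by
    rw [hgbar]; exact Submodule.mem_span_singleton_self gbar
  obtain ⟨g, hgq, hg⟩ := (Ideal.mem_map_iff_of_surjective _ hsurj).mp hgmem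
  refine ⟨g, hgq, le_antisymm ?_ ((Ideal.span_singleton_le_iff_mem _).mpr hgq)⟩
  -- Nakayama
  have hjac : I ≤ Ideal.jacobson (⊥ : Ideal S) := by
    rw [IsLocalRing.jacobson_eq_maximalIdeal _ bot_ne_top]
    exact (Ideal.span_singleton_le_iff_mem _).mpr hπm
  have hfg : (q : Submodule S S).FG := IsNoetherian.noetherian q
  refine Submodule.le_of_le_smul_of_le_jacobson_bot (N := (Ideal.span {g} : Ideal S))
    (N' := q) hfg hjac ?_
  intro x hx
  have hxm : Ideal.Quotient.mk I x ∈ q.map (Ideal.Quotient.mk I) := Ideal.mem_map_of_mem _ hx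
  rw [hgbar] at hxm
  obtain ⟨ybar, hy⟩ := Ideal.mem_span_singleton'.mp hxm
  obtain ⟨y, rfl⟩ := hsurj ybar
  rw [← hg, ← map_mul] at hy
  have hmem : x - y * g ∈ I := by
    rw [← Ideal.Quotient.eq]; exact hy.symm
  obtain ⟨z, hz⟩ := Ideal.mem_span_singleton'.mp hmem
  have hzq : z ∈ q := by
    have h1 : z * π ∈ q := by
      rw [hz]; exact q.sub_mem hx (q.mul_mem_left y hgq)
    exact (hq.mem_or_mem h1).resolve_right hπq
  have hx' : x = y * g + π • z := by
    rw [smul_eq_mul, mul_comm π z, hz]; ring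
  rw [hx']
  refine Submodule.add_mem_sup ?_ ?_
  · exact Ideal.mul_mem_left _ y (Ideal.subset_span rfl)
  · exact Submodule.smul_mem_smul (Ideal.subset_span rfl) hzq

/-- Noetherian local domain, `π` a prime element of the maximal ideal, `S ⧸ π` a principal ideal
ring: then `S` is a UFD. -/
theorem na_ufd {S : Type*} [CommRing S] [IsDomain S] [IsLocalRing S] [IsNoetherianRing S]
    (π : S) (hπm : π ∈ maximalIdeal S) (hπ : Prime π)
    (hpid : IsPrincipalIdealRing (S ⧸ Ideal.span {π})) :
    UniqueFactorizationMonoid S := by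
  refine UniqueFactorizationMonoid.iff_exists_prime_mem_of_isPrime.mpr fun q hq0 hq => ?_
  by_cases hπq : π ∈ q
  · exact ⟨π, hπq, hπ⟩
  · obtain ⟨g, hgq, hqg⟩ := na_prime_principal π hπm hpid q hq hπq
    have hg0 : g ≠ 0 := by
      rintro rfl
      apply hq0
      rw [hqg]; simp
    refine ⟨g, hgq, (Ideal.span_singleton_prime hg0).mp ?_⟩
    rw [← hqg]; exact hq

universe u in
theorem na_ufd_proof : na_ufd_stmt.{u} := by
  intro S _ _ _ _ π hπm hπ hpid
  exact na_ufd π hπm hπ hpid

end Fermat.Agent.S18Lib
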