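import Mathlib
import Fermat.Agent.Lib.S18.NaIface
import Fermat.Agent.Lib.S18.NaUfd
import Fermat.Agent.Lib.S18.NaFree
import Fermat.Agent.Lib.S18.NaDisc

/-!
# S18, chunk Na (helper6): LEMMA N, first half  (`na_proof : na_stmt`)
-/

set_option autoImplicit false
set_option linter.style.haveILetI false

namespace Fermat.Agent.S18Lib

open IsLocalRing

theorem na_assoc_prod_pow {S : Type*} [CommMonoid S] (t : S) (f : Multiset S)
    (h : ∀ b ∈ f, Associated b t) : Associated f.prod (t ^ Multiset.card f) := by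
  induction f using Multiset.induction_on with
  | empty => simp
  | cons a f ih =>
    rw [Multiset.prod_cons, Multiset.card_cons, pow_succ']
    exact Associated.mul_mul (h a (Multiset.mem_cons_self a f))
      (ih fun b hb => h b (Multiset.mem_cons_of_mem hb))

/-- In a UFD, a nonzero element all of whose prime divisors are associated to `t` is
`unit * t ^ a`. -/
theorem na_eq_unit_mul_pow {S : Type*} [CommRing S] [IsDomain S] [UniqueFactorizationMonoid S]
    (t d : S) (hd0 : d ≠ 0) (h : ∀ ρ : S, Prime ρ → ρ ∣ d → Associated ρ t) :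
    ∃ (e : Sˣ) (a : ℕ), d = e * t ^ a := by
  obtain ⟨f, hf, hfd⟩ := UniqueFactorizationMonoid.exists_prime_factors d hd0
  have h1 : ∀ b ∈ f, Associated b t := fun b hb =>
    h b (hf b hb) ((Multiset.dvd_prod hb).trans hfd.dvd)
  have h2 : Associated (t ^ Multiset.card f) d := (na_assoc_prod_pow t f h1).symm.trans hfd
  obtain ⟨u, hu⟩ := h2
  exact ⟨u, Multiset.card f, by rw [← hu, mul_comm]⟩

universe u v w₁ w₂

/-- LEMMA N, first half, unbundled. -/
theorem na_main {S : Type u} {B : Type v} [CommRing S] [IsDomain S] [IsLocalRing S]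
    [IsNoetherianRing S] [CommRing B] [IsDomain B] [Algebra S B] [Module.Finite S B]
    (π t : S) (hπm : π ∈ maximalIdeal S) (hπ : Prime π)
    (hpid : IsPrincipalIdealRing (S ⧸ Ideal.span {π})) (ht : Prime t)
    (hinj : Function.Injective (algebraMap S B))
    (hBπ : (Ideal.span {algebraMap S B π}).IsPrime)
    (hcap : ∀ s : S, algebraMap S B π ∣ algebraMap S B s → π ∣ s)
    (hsep : ∃ (k₀ : Type w₁) (L : Type w₂) (_ : Field k₀) (_ : Field L) (_ : Algebra k₀ L)
        (_ : Algebra.IsSeparable k₀ L) (φ : S →+* k₀) (ψ : B →+* L),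
        (∀ s : S, ψ (algebraMap S B s) = algebraMap k₀ L (φ s)) ∧
        (∀ s : S, φ s = 0 ↔ π ∣ s) ∧
        (∀ x : B, ψ x = 0 ↔ algebraMap S B π ∣ x) ∧
        (∀ c : k₀, ∃ s s' : S, φ s' ≠ 0 ∧ c * φ s' = φ s) ∧
        (∀ y : L, ∃ x x' : B, ψ x' ≠ 0 ∧ y * ψ x' = ψ x))
    (hchar : ∀ n : ℕ, n ≠ 0 → ∃ k : ℕ, (n : S) ∣ π ^ k)
    (hunr : ∀ ρ : S, Prime ρ → ¬ Associated ρ π → ¬ Associated ρ t →
        ∀ x : B, algebraMap S B ρ ∣ x ^ 2 → ∃ s : S, ¬ ρ ∣ s ∧ algebraMap S B ρ ∣ s • x) :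
    Module.Free S B ∧ UniqueFactorizationMonoid S ∧
      ∀ (ι : Type) [Fintype ι] [DecidableEq ι] (b : Module.Basis ι S B),
        ∃ (e : Sˣ) (a : ℕ), Algebra.discr S b = e * t ^ a := by
  have hufd : UniqueFactorizationMonoid S := na_ufd π hπm hπ hpid
  refine ⟨na_free π hπm hπ hpid hinj hBπ hcap, hufd, ?_⟩
  intro ι _ _ b
  obtain ⟨k₀, L, iK, iL, iA, iSep, φ, ψ, hφψ, hφ, hψ, hk, hL⟩ := hsep
  have hπd : ¬ π ∣ Algebra.discr S b :=
    na_not_dvd_discr_of_separable π φ ψ hφψ hφ hψ hk hL b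
  have hd0 : Algebra.discr S b ≠ 0 := fun h => hπd (h ▸ dvd_zero π)
  refine na_eq_unit_mul_pow t _ hd0 fun ρ hρ hρd => ?_
  by_contra hρt
  have hρπ : ¬ Associated ρ π := fun h => hπd (h.symm.dvd.trans hρd)
  have hchar' : ∀ n : ℕ, n ≠ 0 → ¬ ρ ∣ (n : S) := by
    intro n hn hdvd
    obtain ⟨j, hj⟩ := hchar n hn
    have h1 : ρ ∣ π := hρ.dvd_of_dvd_pow (hdvd.trans hj)
    exact hρπ (hρ.irreducible.associated_of_dvd hπ.irreducible h1)
  exact na_not_dvd_discr_of_unramified ρ hρ hchar' (hunr ρ hρ hρπ hρt) b hρd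

theorem na_proof : na_stmt.{u, v, w₁, w₂} := by
  intro S B _ _ _ _ _ _ _ _ π t hπm hπ hpid ht hinj hBπ hcap hsep hchar hunr
  exact na_main π t hπm hπ hpid ht hinj hBπ hcap hsep hchar hunr

end Fermat.Agent.S18Lib
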