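import Mathlib
import Fermat.Agent.Lib.S18.NaIface
import Fermat.Agent.Lib.S18.NaUfd

/-!
# S18, chunk Na (helper6): the local lemma (K)  (`nk_proof : nk_stmt`)

`nk_W ρ hρ` is the valuation subring `O_(ρ)` of `Frac O` attached to a prime element `ρ` of a
UFD `O`; it is a discrete valuation ring (`nk_W_dvr`).
-/

set_option autoImplicit false
set_option linter.style.haveILetI false
set_option linter.unusedSectionVars false

namespace Fermat.Agent.S18Lib

open IsLocalRing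

section W

variable {O F : Type*} [CommRing O] [IsDomain O] [UniqueFactorizationMonoid O] [Field F]
  [Algebra O F] [IsFractionRing O F]

/-- The valuation subring `O_(ρ)` of the fraction field. -/
def nk_W (ρ : O) (hρ : Prime ρ) : ValuationSubring F where
  carrier := {x | ∃ a b : O, ¬ ρ ∣ b ∧ x * algebraMap O F b = algebraMap O F a}
  mul_mem' := by
    rintro x y ⟨a, b, hb, hab⟩ ⟨a', b', hb', hab'⟩
    refine ⟨a * a', b * b', ?_, ?_⟩
    · intro h
      rcases hρ.dvd_or_dvd h with h | h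
      exacts [hb h, hb' h]
    · rw [map_mul, map_mul, ← hab, ← hab']; ring
  one_mem' := ⟨1, 1, hρ.not_dvd_one, by simp⟩
  add_mem' := by
    rintro x y ⟨a, b, hb, hab⟩ ⟨a', b', hb', hab'⟩
    refine ⟨a * b' + a' * b, b * b', ?_, ?_⟩
    · intro h
      rcases hρ.dvd_or_dvd h with h | h
      exacts [hb h, hb' h]
    · rw [map_add, map_mul, map_mul, map_mul, ← hab, ← hab']; ring
  zero_mem' := ⟨0, 1, hρ.not_dvd_one, by simp⟩
  neg_mem' := by
    rintro x ⟨a, b, hb, hab⟩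
    exact ⟨-a, b, hb, by rw [map_neg, ← hab]; ring⟩
  mem_or_inv_mem' := by
    intro x
    obtain ⟨a, b, hrel, rfl⟩ := IsFractionRing.exists_reduced_fraction O (K := F) x
    by_cases hb : ρ ∣ (b : O)
    · right
      have ha : ¬ ρ ∣ a := fun ha => hρ.not_isUnit (hrel ha hb)
      have ha0 : a ≠ 0 := fun h => ha (h ▸ dvd_zero ρ)
      have haF : algebraMap O F a ≠ 0 := by
        intro h
        exact ha0 (IsFractionRing.injective O F (by rw [h, map_zero]))
      have hspec : IsLocalization.mk' F a b * algebraMap O F (b : O) = algebraMap O F a :=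
        IsLocalization.mk'_spec F a b
      have hx0 : IsLocalization.mk' F a b ≠ 0 := by
        intro h
        rw [h, zero_mul] at hspec
        exact haF hspec.symm
      refine ⟨b, a, ha, ?_⟩
      rw [← hspec, ← mul_assoc, inv_mul_cancel₀ hx0, one_mul]
    · left
      exact ⟨a, b, hb, IsLocalization.mk'_spec F a b⟩

theorem nk_mem_W (ρ : O) (hρ : Prime ρ) (x : F) :
    x ∈ nk_W (F := F) ρ hρ ↔ ∃ a b : O, ¬ ρ ∣ b ∧ x * algebraMap O F b = algebraMap O F a :=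
  Iff.rfl

theorem nk_algebraMap_mem_W (ρ : O) (hρ : Prime ρ) (x : O) :
    algebraMap O F x ∈ nk_W (F := F) ρ hρ :=
  ⟨x, 1, hρ.not_dvd_one, by simp⟩

theorem nk_algebraMap_ne_zero {a : O} (ha : a ≠ 0) : algebraMap O F a ≠ 0 := by
  intro h
  exact ha (IsFractionRing.injective O F (by rw [h, map_zero]))

/-- elements `a/b` with `ρ ∤ a`, `ρ ∤ b` are units of `O_(ρ)`. -/
theorem nk_isUnit_W (ρ : O) (hρ : Prime ρ) (x : nk_W (F := F) ρ hρ) (a b : O)
    (ha : ¬ ρ ∣ a) (_hb : ¬ ρ ∣ b) (hab : (x : F) * algebraMap O F b = algebraMap O F a) :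
    IsUnit x := by
  have ha0 : a ≠ 0 := fun h => ha (h ▸ dvd_zero ρ)
  have haF : algebraMap O F a ≠ 0 := nk_algebraMap_ne_zero ha0
  have hx0 : (x : F) ≠ 0 := by
    intro h
    rw [h, zero_mul] at hab
    exact haF hab.symm
  have hmem : (x : F)⁻¹ ∈ nk_W (F := F) ρ hρ :=
    ⟨b, a, ha, by rw [← hab, ← mul_assoc, inv_mul_cancel₀ hx0, one_mul]⟩
  refine IsUnit.of_mul_eq_one (⟨(x : F)⁻¹, hmem⟩ : nk_W (F := F) ρ hρ) ?_
  apply Subtype.ext
  show (x : F) * (x : F)⁻¹ = 1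
  exact mul_inv_cancel₀ hx0

/-- `ρ` as an element of `O_(ρ)`. -/
def nk_unif (ρ : O) (hρ : Prime ρ) : nk_W (F := F) ρ hρ :=
  ⟨algebraMap O F ρ, nk_algebraMap_mem_W ρ hρ ρ⟩

theorem nk_unif_not_isUnit (ρ : O) (hρ : Prime ρ) : ¬ IsUnit (nk_unif (F := F) ρ hρ) := by
  intro hu
  obtain ⟨y, hy⟩ := hu.exists_right_inv
  have hy' : algebraMap O F ρ * (y : F) = 1 := congrArg Subtype.val hy
  obtain ⟨a, b, hb, hab⟩ := y.2
  apply hb
  refine ⟨a, ?_⟩
  apply IsFractionRing.injective O F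
  rw [map_mul, ← hab, ← mul_assoc, hy', one_mul]

theorem nk_unif_ne_zero (ρ : O) (hρ : Prime ρ) : nk_unif (F := F) ρ hρ ≠ 0 := by
  intro h
  have h' : algebraMap O F ρ = 0 := congrArg Subtype.val h
  exact nk_algebraMap_ne_zero hρ.ne_zero h'

/-- every nonzero element of `O_(ρ)` is `ρ ^ n * unit`. -/
theorem nk_W_factor (ρ : O) (hρ : Prime ρ) (x : nk_W (F := F) ρ hρ) (hx : x ≠ 0) :
    ∃ (n : ℕ) (u : nk_W (F := F) ρ hρ), IsUnit u ∧ x = nk_unif ρ hρ ^ n * u := by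
  obtain ⟨a, b, hb, hab⟩ := x.2
  have hx0 : (x : F) ≠ 0 := fun h => hx (Subtype.ext h)
  have hb0 : b ≠ 0 := fun h => hb (h ▸ dvd_zero ρ)
  have ha0 : a ≠ 0 := by
    rintro rfl
    rw [map_zero] at hab
    exact (mul_ne_zero hx0 (nk_algebraMap_ne_zero hb0)) hab
  obtain ⟨n, a', ha', rfl⟩ := WfDvdMonoid.max_power_factor ha0 hρ.irreducible
  have hρF : algebraMap O F ρ ≠ 0 := nk_algebraMap_ne_zero hρ.ne_zero
  have hu_rel : ((x : F) / algebraMap O F ρ ^ n) * algebraMap O F b = algebraMap O F a' := by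
    rw [div_mul_eq_mul_div, hab, map_mul, map_pow, mul_div_assoc, mul_comm,
      div_mul_cancel₀ _ (pow_ne_zero n hρF)]
  have hu_mem : (x : F) / algebraMap O F ρ ^ n ∈ nk_W (F := F) ρ hρ := ⟨a', b, hb, hu_rel⟩
  refine ⟨n, ⟨_, hu_mem⟩, nk_isUnit_W ρ hρ ⟨_, hu_mem⟩ a' b ha' hb hu_rel, ?_⟩
  apply Subtype.ext
  show (x : F) = algebraMap O F ρ ^ n * ((x : F) / algebraMap O F ρ ^ n)
  rw [mul_div_cancel₀ _ (pow_ne_zero n hρF)]

theorem nk_unif_irreducible (ρ : O) (hρ : Prime ρ) : Irreducible (nk_unif (F := F) ρ hρ) := by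
  rw [irreducible_iff]
  refine ⟨nk_unif_not_isUnit ρ hρ, fun x y hxy => ?_⟩
  have hp0 := nk_unif_ne_zero (F := F) ρ hρ
  have hx0 : x ≠ 0 := by
    rintro rfl
    rw [zero_mul] at hxy
    exact hp0 hxy
  have hy0 : y ≠ 0 := by
    rintro rfl
    rw [mul_zero] at hxy
    exact hp0 hxy
  obtain ⟨i, u, hu, rfl⟩ := nk_W_factor ρ hρ x hx0
  obtain ⟨j, u', hu', rfl⟩ := nk_W_factor ρ hρ y hy0
  rcases Nat.eq_zero_or_pos i with hi | hi
  · left
    rw [hi, pow_zero, one_mul]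
    exact hu
  rcases Nat.eq_zero_or_pos j with hj | hj
  · right
    rw [hj, pow_zero, one_mul]
    exact hu'
  exfalso
  obtain ⟨i', rfl⟩ : ∃ i', i = i' + 1 := ⟨i - 1, by omega⟩
  obtain ⟨j', rfl⟩ : ∃ j', j = j' + 1 := ⟨j - 1, by omega⟩
  have h1 : nk_unif (F := F) ρ hρ * 1 =
      nk_unif ρ hρ * (nk_unif ρ hρ * (nk_unif ρ hρ ^ i' * nk_unif ρ hρ ^ j' * (u * u'))) := by
    rw [mul_one]
    conv_lhs => rw [hxy]
    ring
  have h2 := mul_left_cancel₀ hp0 h1
  exact nk_unif_not_isUnit ρ hρ (IsUnit.of_mul_eq_one _ h2.symm)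

theorem nk_W_dvr (ρ : O) (hρ : Prime ρ) : IsDiscreteValuationRing (nk_W (F := F) ρ hρ) := by
  refine IsDiscreteValuationRing.ofHasUnitMulPowIrreducibleFactorization
    ⟨nk_unif ρ hρ, nk_unif_irreducible ρ hρ, fun {x} hx => ?_⟩
  obtain ⟨n, u, hu, rfl⟩ := nk_W_factor ρ hρ x hx
  exact ⟨n, hu.unit, rfl⟩

end W

section count

variable {O : Type*} [CommRing O] [IsDomain O] [UniqueFactorizationMonoid O]

open Classical in
/-- multiplicity of the prime `ρ` in `z`, via `Associates.count` -/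
noncomputable def nk_cnt (ρ z : O) : ℕ :=
  (Associates.mk ρ).count (Associates.mk z).factors

open Classical in
theorem nk_cnt_mul (ρ : O) (hρ : Irreducible ρ) {x y : O} (hx : x ≠ 0) (hy : y ≠ 0) :
    nk_cnt ρ (x * y) = nk_cnt ρ x + nk_cnt ρ y := by
  unfold nk_cnt
  rw [← Associates.mk_mul_mk, Associates.count_mul (Associates.mk_ne_zero.mpr hx)
    (Associates.mk_ne_zero.mpr hy) (Associates.irreducible_mk.mpr hρ)]

open Classical in
theorem nk_cnt_pow (ρ : O) (hρ : Irreducible ρ) {x : O} (hx : x ≠ 0) (k : ℕ) :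
    nk_cnt ρ (x ^ k) = k * nk_cnt ρ x := by
  unfold nk_cnt
  rw [Associates.mk_pow, Associates.count_pow (Associates.mk_ne_zero.mpr hx)
    (Associates.irreducible_mk.mpr hρ)]

open Classical in
theorem nk_cnt_eq_zero (ρ : O) (hρ : Irreducible ρ) {x : O} (hx : x ≠ 0) (h : ¬ ρ ∣ x) :
    nk_cnt ρ x = 0 := by
  by_contra h0
  exact h ((Associates.count_ne_zero_iff_dvd hx hρ).mp h0)

end count

universe u v

/-- Local lemma (K), unbundled. -/
theorem nk_main {O : Type u} {F : Type v} [CommRing O] [IsDomain O] [IsLocalRing O]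
    [IsNoetherianRing O] [Field F] [Algebra O F] [IsFractionRing O F]
    (π : O) (m : ℕ) (w : F)
    (hπm : π ∈ maximalIdeal O) (hπ : Prime π)
    (hpid : IsPrincipalIdealRing (O ⧸ Ideal.span {π})) (hm : 0 < m)
    (hwπ : ∃ a b : O, ¬ π ∣ a ∧ ¬ π ∣ b ∧ w * algebraMap O F b = algebraMap O F a)
    (hW : ∀ W : ValuationSubring F, (∀ x : O, algebraMap O F x ∈ W) →
        IsDiscreteValuationRing W → (algebraMap O F π)⁻¹ ∈ W →
        ∃ c u : F, u ∈ W ∧ u⁻¹ ∈ W ∧ w = u * c ^ m) :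
    ∃ (c : F) (e : Oˣ), w = algebraMap O F (e : O) * c ^ m := by
  classical
  haveI : UniqueFactorizationMonoid O := na_ufd π hπm hπ hpid
  obtain ⟨a, b, ha, hb, hab⟩ := hwπ
  have ha0 : a ≠ 0 := fun h => ha (h ▸ dvd_zero π)
  have hb0 : b ≠ 0 := fun h => hb (h ▸ dvd_zero π)
  have hinj : Function.Injective (algebraMap O F) := IsFractionRing.injective O F
  have haF : algebraMap O F a ≠ 0 := nk_algebraMap_ne_zero ha0
  have hbF : algebraMap O F b ≠ 0 := nk_algebraMap_ne_zero hb0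
  have hw0 : w ≠ 0 := by
    rintro rfl
    rw [zero_mul] at hab
    exact haF hab.symm
  obtain ⟨m', rfl⟩ : ∃ m', m = m' + 1 := ⟨m - 1, by omega⟩
  -- all prime multiplicities of a * b ^ m' are divisible by m' + 1
  have hcnt : ∀ ρ : O, Irreducible ρ → (m' + 1) ∣ nk_cnt ρ a + m' * nk_cnt ρ b := by
    intro ρ hρirr
    have hρ : Prime ρ := UniqueFactorizationMonoid.irreducible_iff_prime.mp hρirr
    by_cases hρπ : Associated ρ π
    · have h1 : nk_cnt ρ a = 0 :=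
        nk_cnt_eq_zero ρ hρirr ha0 fun h => ha (hρπ.symm.dvd.trans h)
      have h2 : nk_cnt ρ b = 0 :=
        nk_cnt_eq_zero ρ hρirr hb0 fun h => hb (hρπ.symm.dvd.trans h)
      rw [h1, h2]; simp
    · have hπW : (algebraMap O F π)⁻¹ ∈ nk_W (F := F) ρ hρ := by
        refine ⟨1, π, fun h => hρπ (hρirr.associated_of_dvd hπ.irreducible h), ?_⟩
        rw [inv_mul_cancel₀ (nk_algebraMap_ne_zero hπ.ne_zero), map_one]
      obtain ⟨c₀, u, hu, hu', hw⟩ :=
        hW (nk_W ρ hρ) (nk_algebraMap_mem_W ρ hρ) (nk_W_dvr ρ hρ) hπW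
      have hu0 : u ≠ 0 := by
        rintro rfl
        rw [zero_mul] at hw
        exact hw0 hw
      have hc0 : c₀ ≠ 0 := by
        rintro rfl
        rw [zero_pow (Nat.succ_ne_zero m'), mul_zero] at hw
        exact hw0 hw
      obtain ⟨x, y, hy, hxy⟩ := hu
      obtain ⟨x', y', hy', hxy'⟩ := hu'
      have hy0 : y ≠ 0 := fun h => hy (h ▸ dvd_zero ρ)
      have hy'0 : y' ≠ 0 := fun h => hy' (h ▸ dvd_zero ρ)
      -- ρ ∤ x
      have hx : ¬ ρ ∣ x := by
        intro hx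
        have h1 : y' * y = x' * x := by
          apply hinj
          rw [map_mul, map_mul, ← hxy, ← hxy']
          field_simp
        have h2 : ρ ∣ y' * y := h1 ▸ Dvd.dvd.mul_left hx x'
        rcases hρ.dvd_or_dvd h2 with h | h
        exacts [hy' h, hy h]
      have hx0 : x ≠ 0 := fun h => hx (h ▸ dvd_zero ρ)
      obtain ⟨c₁, d₁, hd₁, hcd⟩ := IsFractionRing.div_surjective O (K := F) c₀
      have hd₁0 : d₁ ≠ 0 := nonZeroDivisors.ne_zero hd₁
      have hd₁F : algebraMap O F d₁ ≠ 0 := nk_algebraMap_ne_zero hd₁0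
      have hc₁0 : c₁ ≠ 0 := by
        rintro rfl
        rw [map_zero, zero_div] at hcd
        exact hc0 hcd.symm
      -- the equation a * y * d₁ ^ m = b * x * c₁ ^ m
      have hE : a * y * d₁ ^ (m' + 1) = b * x * c₁ ^ (m' + 1) := by
        apply hinj
        simp only [map_mul, map_pow]
        rw [← hab, ← hxy, hw, ← hcd, div_pow]
        field_simp
      have hcount := congrArg (nk_cnt ρ) hE
      rw [nk_cnt_mul ρ hρirr (mul_ne_zero ha0 hy0) (pow_ne_zero _ hd₁0),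
        nk_cnt_mul ρ hρirr ha0 hy0, nk_cnt_pow ρ hρirr hd₁0,
        nk_cnt_mul ρ hρirr (mul_ne_zero hb0 hx0) (pow_ne_zero _ hc₁0),
        nk_cnt_mul ρ hρirr hb0 hx0, nk_cnt_pow ρ hρirr hc₁0,
        nk_cnt_eq_zero ρ hρirr hy0 hy, nk_cnt_eq_zero ρ hρirr hx0 hx] at hcount
      -- arithmetic
      have h3 : nk_cnt ρ a + m' * nk_cnt ρ b + (m' + 1) * nk_cnt ρ d₁ =
          (m' + 1) * (nk_cnt ρ b + nk_cnt ρ c₁) := by
        have : nk_cnt ρ a + (m' + 1) * nk_cnt ρ d₁ = nk_cnt ρ b + (m' + 1) * nk_cnt ρ c₁ := by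
          simpa using hcount
        linarith
      have h4 : (m' + 1) ∣ nk_cnt ρ a + m' * nk_cnt ρ b + (m' + 1) * nk_cnt ρ d₁ :=
        h3 ▸ dvd_mul_right _ _
      exact (Nat.dvd_add_left (dvd_mul_right _ _)).mp h4
  -- a * b ^ m' is an (m'+1)-th power up to a unit
  have hab0 : a * b ^ m' ≠ 0 := mul_ne_zero ha0 (pow_ne_zero _ hb0)
  have hpow : ∃ C : Associates O, Associates.mk (a * b ^ m') = C ^ (m' + 1) := by
    refine Associates.is_pow_of_dvd_count (Associates.mk_ne_zero.mpr hab0) fun p hp => ?_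
    obtain ⟨ρ, rfl⟩ := Associates.mk_surjective p
    have hρirr : Irreducible ρ := Associates.irreducible_mk.mp hp
    have h5 := hcnt ρ hρirr
    rw [← nk_cnt_pow ρ hρirr hb0, ← nk_cnt_mul ρ hρirr ha0 (pow_ne_zero _ hb0)] at h5
    exact h5
  obtain ⟨C, hC⟩ := hpow
  obtain ⟨c₂, rfl⟩ := Associates.mk_surjective C
  rw [← Associates.mk_pow, Associates.mk_eq_mk_iff_associated] at hC
  obtain ⟨e, he⟩ := hC
  -- he : a * b ^ m' * ↑e = c₂ ^ (m' + 1)
  refine ⟨algebraMap O F c₂ / algebraMap O F b, e⁻¹, ?_⟩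
  have heF : algebraMap O F (e : O) ≠ 0 := nk_algebraMap_ne_zero e.ne_zero
  have he' : algebraMap O F ((e⁻¹ : Oˣ) : O) = (algebraMap O F (e : O))⁻¹ := by
    apply eq_inv_of_mul_eq_one_left
    rw [← map_mul, ← Units.val_mul, inv_mul_cancel, Units.val_one, map_one]
  have h6 : algebraMap O F c₂ ^ (m' + 1) =
      algebraMap O F a * algebraMap O F b ^ m' * algebraMap O F (e : O) := by
    rw [← map_pow, ← he, map_mul, map_mul, map_pow]
  rw [he', div_pow, h6, ← hab]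
  field_simp
  ring

theorem nk_proof : nk_stmt.{u, v} := by
  intro O F _ _ _ _ _ _ _ π m w hπm hπ hpid hm hwπ hW
  exact nk_main π m w hπm hπ hpid hm hwπ hW

end Fermat.Agent.S18Lib
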