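import Fermat.Agent.Lib.S18.NbIface

/-!
# S18, chunk Nb (helper3): proof of `nb_stmt` (LEMMA N, second half)

Route: (I) tameness at `t` in characteristic zero: `Tr (y B) ⊆ t² S ⇒ t ∣ y`, from
`Tr (x B) ⊆ t S ⇒ x ∈ rad (t B)` (traces of powers) and normality; hence a rescaled dual family
`h j ∈ rad (t B)` with `Tr (b k * h j) = e t δ`.  (II) modulo `π`: the key divisibility
`y J ⊆ t J ⇒ t ∣ y` for `J = rad (t)` in `B ⧸ π B`, then a Pohst–Zassenhaus descent.
-/

set_option autoImplicit false

namespace Fermat.Agent.S18Lib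

open Polynomial

/-- Trace of a polynomial in `M` without constant term, when traces of positive powers vanish. -/
theorem nb_trace_aeval {K : Type*} [CommRing K] {n : Type*} [Fintype n] [DecidableEq n]
    (M : Matrix n n K) (h : ∀ k : ℕ, 0 < k → (M ^ k).trace = 0) (q : K[X])
    (hq : q.coeff 0 = 0) : (aeval M q).trace = 0 := by
  rw [aeval_eq_sum_range, Matrix.trace_sum]
  refine Finset.sum_eq_zero fun i _ => ?_
  rw [Matrix.trace_smul]
  rcases Nat.eq_zero_or_pos i with rfl | hi
  · simp [hq]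
  · simp [h i hi]

/-- An idempotent matrix of trace zero over a field of characteristic zero vanishes. -/
theorem nb_idem_trace_zero {K : Type*} [Field K] [CharZero K] {n : Type*} [Fintype n]
    [DecidableEq n] (Q : Matrix n n K) (hQ : Q * Q = Q) (ht : Q.trace = 0) : Q = 0 := by
  have hproj : LinearMap.IsProj (LinearMap.range (Matrix.toLin' Q)) (Matrix.toLin' Q) := by
    refine ⟨fun x => LinearMap.mem_range_self _ x, ?_⟩
    rintro _ ⟨y, rfl⟩
    rw [← LinearMap.comp_apply, ← Matrix.toLin'_mul, hQ]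
  have h1 := hproj.trace
  rw [Matrix.trace_toLin'_eq, ht] at h1
  have h2 : Module.finrank K (LinearMap.range (Matrix.toLin' Q)) = 0 := by exact_mod_cast h1.symm
  have h3 : LinearMap.range (Matrix.toLin' Q) = ⊥ := Submodule.finrank_eq_zero.mp h2
  have h4 : Matrix.toLin' Q = 0 := LinearMap.range_eq_bot.mp h3
  exact Matrix.toLin'.injective (by rw [h4, map_zero])

/-- Over a field of characteristic zero, a matrix all of whose positive powers have trace zero
is nilpotent. -/
theorem nb_nilpotent_field {K : Type*} [Field K] [CharZero K] {n : Type*} [Fintype n]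
    [DecidableEq n] (M : Matrix n n K) (h : ∀ k : ℕ, 0 < k → (M ^ k).trace = 0) :
    IsNilpotent M := by
  obtain ⟨g, hg, hnd⟩ := exists_eq_pow_rootMultiplicity_mul_and_not_dvd M.charpoly
    (Matrix.charpoly_monic M).ne_zero 0
  generalize rootMultiplicity 0 M.charpoly = e at hg
  have hg' : M.charpoly = X ^ e * g := by simpa using hg
  have hg0 : g.coeff 0 ≠ 0 := fun h0 => hnd (by simpa using X_dvd_iff.mpr h0)
  obtain ⟨s, hs⟩ : ∃ s : K[X], s = -(C (g.coeff 0)⁻¹ * g.divX) := ⟨_, rfl⟩
  obtain ⟨tp, htp⟩ : ∃ tp : K[X], tp = X * s := ⟨_, rfl⟩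
  have h1 : (1 : K[X]) - tp = C (g.coeff 0)⁻¹ * g := by
    have hgd := divX_mul_X_add g
    calc (1 : K[X]) - tp = C (g.coeff 0)⁻¹ * (g.divX * X + C (g.coeff 0)) := by
          rw [htp, hs, mul_add, ← C_mul, inv_mul_cancel₀ hg0, map_one]; ring
      _ = _ := by rw [hgd]
  have hkey : aeval M (X ^ e * (1 - tp)) = 0 := by
    rw [h1, mul_left_comm, ← hg', map_mul, Matrix.aeval_self_charpoly, mul_zero]
  have hgeom : (1 - tp) * ∑ i ∈ Finset.range (e + 1), tp ^ i = 1 - tp ^ (e + 1) :=
    mul_neg_geom_sum tp (e + 1)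
  have h2 : tp ^ (e + 1) = X ^ e * (X * s ^ (e + 1)) := by rw [htp, mul_pow, pow_succ]; ring
  have hpoly1 : tp ^ (e + 1) * tp ^ (e + 1) - tp ^ (e + 1)
      = X ^ e * (1 - tp) * (-(X * s ^ (e + 1) * ∑ i ∈ Finset.range (e + 1), tp ^ i)) := by
    calc tp ^ (e + 1) * tp ^ (e + 1) - tp ^ (e + 1)
        = -(tp ^ (e + 1) * (1 - tp ^ (e + 1))) := by ring
      _ = -(X ^ e * (X * s ^ (e + 1)) * ((1 - tp) * ∑ i ∈ Finset.range (e + 1), tp ^ i)) := by
          rw [hgeom, ← h2]
      _ = _ := by ring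
  have hpoly2 : X ^ e - X ^ e * tp ^ (e + 1)
      = X ^ e * (1 - tp) * ∑ i ∈ Finset.range (e + 1), tp ^ i := by
    rw [mul_assoc, hgeom]; ring
  set Q : Matrix n n K := aeval M (tp ^ (e + 1)) with hQ
  have hQQ : Q * Q = Q := by
    have : aeval M (tp ^ (e + 1) * tp ^ (e + 1) - tp ^ (e + 1)) = 0 := by
      rw [hpoly1, map_mul, hkey, zero_mul]
    rw [map_sub, map_mul] at this
    exact sub_eq_zero.mp this
  have hQt : Q.trace = 0 := by
    apply nb_trace_aeval M h
    apply X_dvd_iff.mp
    exact dvd_pow (Dvd.intro s htp.symm) (Nat.succ_ne_zero e)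
  have hQ0 : Q = 0 := nb_idem_trace_zero Q hQQ hQt
  refine ⟨e, ?_⟩
  have : aeval M (X ^ e - X ^ e * tp ^ (e + 1)) = 0 := by
    rw [hpoly2, map_mul, hkey, zero_mul]
  rw [map_sub, map_mul, ← hQ, hQ0, mul_zero, sub_zero, map_pow, aeval_X] at this
  exact this

/-- Over a domain of characteristic zero, a matrix all of whose positive powers have trace zero
has a vanishing power. -/
theorem nb_nilpotent_domain {R : Type*} [CommRing R] [IsDomain R] [CharZero R] {n : Type*}
    [Fintype n] [DecidableEq n] (M : Matrix n n R) (h : ∀ k : ℕ, 0 < k → (M ^ k).trace = 0) :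
    ∃ N : ℕ, M ^ N = 0 := by
  let f : R →+* FractionRing R := algebraMap R (FractionRing R)
  have hinj : Function.Injective f := IsFractionRing.injective R (FractionRing R)
  have : CharZero (FractionRing R) := charZero_of_injective_algebraMap hinj
  have hM : IsNilpotent (f.mapMatrix M) := by
    apply nb_nilpotent_field
    intro k hk
    rw [← map_pow, RingHom.mapMatrix_apply, ← AddMonoidHom.map_trace, h k hk, map_zero]
  obtain ⟨N, hN⟩ := hM
  refine ⟨N, ?_⟩
  rw [← map_pow] at hN
  have hinj' : Function.Injective (f.mapMatrix : Matrix n n R →+* Matrix n n (FractionRing R)) :=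
    fun A B hAB => by
      ext i j
      have := congrFun (congrFun hAB i) j
      simp only [RingHom.mapMatrix_apply, Matrix.map_apply] at this
      exact hinj this
  exact hinj' (by rw [hN, map_zero])


section PartI

variable {S : Type*} {B : Type*} [CommRing S] [IsDomain S] [CommRing B] [IsDomain B]
  [Algebra S B] {ι : Type*} [Fintype ι] [DecidableEq ι]

/-- An element whose coordinates are all divisible by `t` is divisible by `t`. -/
theorem nb_dvd_of_repr (b : Module.Basis ι S B) (t : S) (y : B) (h : ∀ i, t ∣ b.repr y i) :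
    algebraMap S B t ∣ y := by
  choose c hc using h
  refine ⟨∑ i, c i • b i, ?_⟩
  conv_lhs => rw [← b.sum_repr y]
  rw [Finset.mul_sum]
  refine Finset.sum_congr rfl fun i _ => ?_
  rw [hc i, mul_smul, Algebra.smul_def t]

/-- Expansion of a trace against a "dual" family. -/
theorem nb_trace_expand (b : Module.Basis ι S B) (z : ι → B) (d : S)
    (hz : ∀ k j, Algebra.trace S B (b k * z j) = if k = j then d else 0) (j : ι) (c : B) :
    Algebra.trace S B (z j * c) = b.repr c j * d := by
  conv_lhs => rw [← b.sum_repr c]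
  simp only [Finset.mul_sum, mul_smul_comm, map_sum, map_smul, smul_eq_mul]
  rw [Finset.sum_eq_single j]
  · rw [mul_comm (z j) (b j), hz j j, if_pos rfl]
  · intro k _ hkj
    rw [mul_comm (z j) (b k), hz k j, if_neg hkj, mul_zero]
  · intro h; exact absurd (Finset.mem_univ j) h

/-- (I-1) In characteristic zero at `t`: if `Tr (x B) ⊆ t S` then `x` is nilpotent mod `t`. -/
theorem nb_rad_of_trace (b : Module.Basis ι S B) (t : S) (ht : Prime t)
    [CharZero (S ⧸ Ideal.span {t})] (x : B) (hx : ∀ c : B, t ∣ Algebra.trace S B (x * c)) :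
    ∃ N : ℕ, algebraMap S B t ∣ x ^ N := by
  haveI : (Ideal.span {t}).IsPrime := (Ideal.span_singleton_prime ht.ne_zero).mpr ht
  let q : S →+* S ⧸ Ideal.span {t} := Ideal.Quotient.mk _
  let M : Matrix ι ι S := Algebra.leftMulMatrix b x
  have hM : ∀ k : ℕ, 0 < k → ((q.mapMatrix M) ^ k).trace = 0 := by
    intro k hk
    rw [← map_pow, RingHom.mapMatrix_apply, ← AddMonoidHom.map_trace]
    have h1 : (M ^ k).trace = Algebra.trace S B (x ^ k) := by
      rw [Algebra.trace_eq_matrix_trace b, map_pow]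
    rw [h1]
    obtain ⟨k', rfl⟩ : ∃ k', k = k' + 1 := ⟨k - 1, by omega⟩
    rw [pow_succ']
    exact (Ideal.Quotient.eq_zero_iff_dvd _ _).mpr (hx _)
  obtain ⟨N, hN⟩ := nb_nilpotent_domain (q.mapMatrix M) hM
  refine ⟨N, ?_⟩
  have hent : ∀ i j, t ∣ (M ^ N) i j := by
    intro i j
    have h1 := congrFun (congrFun hN i) j
    rw [← map_pow, RingHom.mapMatrix_apply, Matrix.map_apply, Matrix.zero_apply] at h1
    exact (Ideal.Quotient.eq_zero_iff_dvd _ _).mp h1
  have hMN : M ^ N = Algebra.leftMulMatrix b (x ^ N) := (map_pow _ _ _).symm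
  have hj : ∀ j, algebraMap S B t ∣ x ^ N * b j := by
    intro j
    apply nb_dvd_of_repr b
    intro i
    rw [← Algebra.leftMulMatrix_eq_repr_mul, ← hMN]
    exact hent i j
  have h1 : x ^ N = ∑ j, b.repr 1 j • (x ^ N * b j) := by
    conv_lhs => rw [← mul_one (x ^ N), ← b.sum_repr 1, Finset.mul_sum]
    refine Finset.sum_congr rfl fun j _ => ?_
    rw [mul_smul_comm]
  rw [h1]
  refine Finset.dvd_sum fun j _ => ?_
  rw [Algebra.smul_def]
  exact (hj j).mul_left _

/-- (I-2) Normality: if `y J ⊆ τ J` for a nonzero finitely generated ideal `J`, then `τ ∣ y`. -/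
theorem nb_dvd_of_normal [IsIntegrallyClosed B] (y τ : B) (hτ : τ ≠ 0) (I : Ideal B)
    (hI : I ≠ ⊥) (hfg : I.FG) (h : ∀ w ∈ I, ∃ w' ∈ I, y * w = τ * w') : τ ∣ y := by
  let K := FractionRing B
  let N : Submodule B K := Submodule.map (Algebra.linearMap B K) I
  have hinj : Function.Injective (algebraMap B K) := IsFractionRing.injective B K
  have hN : N ≠ ⊥ := by
    intro h0
    apply hI
    rw [Submodule.eq_bot_iff] at h0 ⊢
    intro w hw
    have h1 := h0 (algebraMap B K w) (Submodule.mem_map_of_mem hw)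
    exact hinj (by rw [h1, map_zero])
  have hN' : N.FG := Submodule.FG.map _ hfg
  have hτK : algebraMap B K τ ≠ 0 := fun h0 => hτ (hinj (by rw [h0, map_zero]))
  have hx : ∀ n ∈ N, (algebraMap B K y / algebraMap B K τ) • n ∈ N := by
    rintro _ ⟨w, hw, rfl⟩
    obtain ⟨w', hw', hyw⟩ := h w hw
    refine ⟨w', hw', ?_⟩
    simp only [Algebra.linearMap_apply, smul_eq_mul]
    rw [div_mul_eq_mul_div, eq_div_iff hτK, ← map_mul, ← map_mul, hyw, mul_comm]
  have hint : IsIntegral B (algebraMap B K y / algebraMap B K τ) :=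
    isIntegral_of_smul_mem_submodule N hN hN' _ hx
  obtain ⟨z, hz⟩ := IsIntegrallyClosed.isIntegral_iff.mp hint
  refine ⟨z, hinj ?_⟩
  rw [map_mul, hz, mul_div_cancel₀ _ hτK]

/-- (I-3) Tameness: `Tr (y B) ⊆ t² S` implies `t ∣ y`. -/
theorem nb_B2 [IsIntegrallyClosed B] [IsNoetherianRing B] (b : Module.Basis ι S B) (t : S)
    (ht : Prime t) [CharZero (S ⧸ Ideal.span {t})] (y : B)
    (hy : ∀ c : B, t ^ 2 ∣ Algebra.trace S B (y * c)) : algebraMap S B t ∣ y := by
  obtain ⟨τ, hτ⟩ : ∃ τ : B, τ = algebraMap S B t := ⟨_, rfl⟩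
  have hτ0 : τ ≠ 0 := by
    rw [hτ]; intro h0
    exact ht.ne_zero (b.algebraMap_injective (by rw [h0, map_zero]))
  let J : Ideal B := (Ideal.span {τ}).radical
  have hJfg : J.FG := IsNoetherian.noetherian J
  obtain ⟨m, hm⟩ := Ideal.exists_radical_pow_le_of_fg (Ideal.span {τ}) hJfg
  have hτJ : τ ∈ J := Ideal.le_radical (Ideal.mem_span_singleton_self τ)
  have hJ0 : J ≠ ⊥ := fun h0 => hτ0 (by rw [h0] at hτJ; exact hτJ)
  let B2 : Ideal B :=
    { carrier := {y | ∀ c : B, t ^ 2 ∣ Algebra.trace S B (y * c)}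
      add_mem' := fun {x y} hx hy c => by rw [add_mul, map_add]; exact dvd_add (hx c) (hy c)
      zero_mem' := fun c => by simp
      smul_mem' := fun r x hx c => by
        rw [smul_eq_mul, mul_comm r x, mul_assoc]; exact hx (r * c) }
  have key : ∀ k : ℕ, J ^ (k + 1) * B2 ≤ Ideal.span {τ} → J ^ k * B2 ≤ Ideal.span {τ} := by
    intro k hk y hyk
    have hyB2 : y ∈ B2 := Ideal.mul_le_right hyk
    rw [Ideal.mem_span_singleton]
    apply nb_dvd_of_normal y τ hτ0 J hJ0 hJfg
    intro w hw
    have h1 : y * w ∈ J ^ (k + 1) * B2 := by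
      rw [pow_succ', mul_assoc, mul_comm y w]
      exact Ideal.mul_mem_mul hw hyk
    obtain ⟨z, hz⟩ := Ideal.mem_span_singleton.mp (hk h1)
    refine ⟨z, ?_, hz⟩
    obtain ⟨N, hN⟩ := nb_rad_of_trace b t ht z (fun c => by
      have h2 : t ^ 2 ∣ Algebra.trace S B (y * (w * c)) := hyB2 (w * c)
      have h3 : Algebra.trace S B (y * (w * c)) = t * Algebra.trace S B (z * c) := by
        rw [← mul_assoc, hz, mul_assoc, hτ, ← Algebra.smul_def, map_smul, smul_eq_mul]
      rw [h3, pow_two] at h2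
      exact (mul_dvd_mul_iff_left ht.ne_zero).mp h2)
    rw [← hτ] at hN
    exact ⟨N, Ideal.mem_span_singleton.mpr hN⟩
  have all : ∀ i : ℕ, J ^ (m - i) * B2 ≤ Ideal.span {τ} := by
    intro i
    induction i with
    | zero => exact le_trans Ideal.mul_le_left hm
    | succ i ih =>
      by_cases hi : m - i = 0
      · have h1 : m - (i + 1) = 0 := by omega
        rw [h1]; rw [hi] at ih; exact ih
      · have h1 : m - i = (m - (i + 1)) + 1 := by omega
        rw [h1] at ih
        exact key _ ih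
  have h0 := all m
  rw [Nat.sub_self, pow_zero, one_mul] at h0
  rw [← hτ]
  exact Ideal.mem_span_singleton.mp (h0 hy)

/-- (I-4) Iteration: `Tr (y B) ⊆ t^(k+1) S` implies `t^k ∣ y`. -/
theorem nb_Bk [IsIntegrallyClosed B] [IsNoetherianRing B] (b : Module.Basis ι S B) (t : S)
    (ht : Prime t) [CharZero (S ⧸ Ideal.span {t})] :
    ∀ (k : ℕ) (y : B), (∀ c : B, t ^ (k + 1) ∣ Algebra.trace S B (y * c)) →
      algebraMap S B t ^ k ∣ y := by
  intro k
  induction k with
  | zero => intro y _; simp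
  | succ k ih =>
    intro y hy
    obtain ⟨y', rfl⟩ := ih y (fun c => dvd_trans (pow_dvd_pow t (Nat.le_succ _)) (hy c))
    have h2 : algebraMap S B t ∣ y' := by
      apply nb_B2 b t ht y'
      intro c
      have h3 := hy c
      have h4 : Algebra.trace S B (algebraMap S B t ^ k * y' * c)
          = t ^ k * Algebra.trace S B (y' * c) := by
        rw [mul_assoc, ← map_pow, ← Algebra.smul_def, map_smul, smul_eq_mul]
      rw [h4, show k + 1 + 1 = k + 2 from rfl, pow_add] at h3
      exact (mul_dvd_mul_iff_left (pow_ne_zero k ht.ne_zero)).mp h3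
    obtain ⟨y'', rfl⟩ := h2
    exact ⟨y'', by rw [pow_succ]; ring⟩

/-- (I-5) The rescaled dual family: `h j ∈ rad (t B)` with `Tr (b k * h j) = e t δ_kj`. -/
theorem nb_dual [IsIntegrallyClosed B] [IsNoetherianRing B] (b : Module.Basis ι S B) (t : S)
    (ht : Prime t) [CharZero (S ⧸ Ideal.span {t})] (e : S) (a : ℕ)
    (hdisc : Algebra.discr S b = e * t ^ a) :
    ∃ h : ι → B, (∀ k j, Algebra.trace S B (b k * h j) = if k = j then e * t else 0) ∧
      ∀ j, ∃ N : ℕ, algebraMap S B t ∣ h j ^ N := by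
  let G : Matrix ι ι S := Algebra.traceMatrix S b
  have hG : G.det = e * t ^ a := hdisc
  let y : ι → B := fun j => ∑ i, G.adjugate i j • b i
  have hy : ∀ k j, Algebra.trace S B (b k * y j) = if k = j then e * t ^ a else 0 := by
    intro k j
    have h1 : Algebra.trace S B (b k * y j) = (G * G.adjugate) k j := by
      simp only [y, Finset.mul_sum, mul_smul_comm, map_sum, map_smul, smul_eq_mul,
        Matrix.mul_apply]
      refine Finset.sum_congr rfl fun i _ => ?_
      rw [mul_comm]; rfl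
    rw [h1, Matrix.mul_adjugate, hG, Matrix.smul_apply, Matrix.one_apply, smul_eq_mul]
    split_ifs <;> simp
  rcases Nat.eq_zero_or_pos a with rfl | ha
  · refine ⟨fun j => algebraMap S B t * y j, ?_, ?_⟩
    · intro k j
      rw [mul_left_comm, ← Algebra.smul_def, map_smul, hy k j, smul_eq_mul]
      split_ifs <;> simp [mul_comm]
    · intro j; exact ⟨1, by simp⟩
  · obtain ⟨a', rfl⟩ : ∃ a', a = a' + 1 := ⟨a - 1, by omega⟩
    have hdiv : ∀ j, algebraMap S B t ^ a' ∣ y j := by
      intro j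
      apply nb_Bk b t ht a' (y j)
      intro c
      rw [nb_trace_expand b y _ hy j c]
      exact dvd_mul_of_dvd_right (dvd_mul_left _ _) _
    choose h hh using hdiv
    have hh1 : ∀ k j, Algebra.trace S B (b k * h j) = if k = j then e * t else 0 := by
      intro k j
      have h1 := hy k j
      rw [hh j, mul_left_comm, ← map_pow, ← Algebra.smul_def, map_smul, smul_eq_mul] at h1
      apply mul_left_cancel₀ (pow_ne_zero a' ht.ne_zero)
      rw [h1]; split_ifs <;> ring
    refine ⟨h, hh1, fun j => ?_⟩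
    apply nb_rad_of_trace b t ht (h j)
    intro c
    rw [nb_trace_expand b h _ hh1 j c]
    exact dvd_mul_of_dvd_right (dvd_mul_left _ _) _

end PartI

section PartII

variable {S : Type*} {B : Type*} [CommRing S] [IsDomain S] [IsLocalRing S] [CommRing B]
  [IsDomain B] [Algebra S B] {ι : Type*} [Fintype ι] [DecidableEq ι]

/-- (U1) Elements nilpotent modulo `(t, π) B` have trace in the maximal ideal. -/
theorem nb_trace_mem_max (b : Module.Basis ι S B) (π t : S)
    (hm : IsLocalRing.maximalIdeal S = Ideal.span {π, t}) (w : B) (N : ℕ)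
    (hw : w ^ N ∈ Ideal.span {algebraMap S B t, algebraMap S B π}) :
    Algebra.trace S B w ∈ IsLocalRing.maximalIdeal S := by
  obtain ⟨c, c', hc⟩ := Ideal.mem_span_pair.mp hw
  let f : S →+* IsLocalRing.ResidueField S := IsLocalRing.residue S
  have hπ : f π = 0 := by
    rw [IsLocalRing.residue_eq_zero_iff, hm]; exact Ideal.subset_span (by simp)
  have htt : f t = 0 := by
    rw [IsLocalRing.residue_eq_zero_iff, hm]; exact Ideal.subset_span (by simp)
  let M : Matrix ι ι S := Algebra.leftMulMatrix b w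
  have hMN : M ^ N = t • Algebra.leftMulMatrix b c + π • Algebra.leftMulMatrix b c' := by
    rw [← map_pow, ← hc, map_add, mul_comm c, mul_comm c', ← Algebra.smul_def,
      ← Algebra.smul_def, map_smul, map_smul]
  have hnil : IsNilpotent (f.mapMatrix M) := by
    refine ⟨N, ?_⟩
    rw [← map_pow, hMN]
    ext i j
    simp [RingHom.mapMatrix_apply, Matrix.map_apply, hπ, htt]
  have h1 := (Matrix.isNilpotent_trace_of_isNilpotent hnil).eq_zero
  rw [RingHom.mapMatrix_apply, ← AddMonoidHom.map_trace] at h1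
  rw [Algebra.trace_eq_matrix_trace b]
  exact (IsLocalRing.residue_eq_zero_iff _).mp h1

/-- (DV) Modulo `π`, every element outside `(π)` is a unit times a power of `t`. -/
theorem nb_unit_pow [IsNoetherianRing S] (π t : S)
    (hm : IsLocalRing.maximalIdeal S = Ideal.span {π, t}) :
    ∀ σ : S, ¬ π ∣ σ → ∃ (r : ℕ) (ε : Sˣ) (c : S), σ = ε * t ^ r + π * c := by
  have wf : WellFounded ((· > ·) : Ideal S → Ideal S → Prop) := wellFounded_gt
  suffices H : ∀ I : Ideal S, ∀ σ : S, I = Ideal.span {σ, π} → ¬ π ∣ σ →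
      ∃ (r : ℕ) (ε : Sˣ) (c : S), σ = ε * t ^ r + π * c from fun σ hσ => H _ σ rfl hσ
  intro I
  refine wf.induction (C := fun I => ∀ σ : S, I = Ideal.span {σ, π} → ¬ π ∣ σ →
      ∃ (r : ℕ) (ε : Sˣ) (c : S), σ = ε * t ^ r + π * c) I ?_
  intro I ih σ hI hσ
  by_cases hu : IsUnit σ
  · obtain ⟨ε, rfl⟩ := hu
    exact ⟨0, ε, 0, by simp⟩
  · have hσm : σ ∈ IsLocalRing.maximalIdeal S := (IsLocalRing.mem_maximalIdeal σ).mpr hu
    rw [hm] at hσm
    obtain ⟨α, β, hαβ⟩ := Ideal.mem_span_pair.mp hσm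
    have hβ : ¬ π ∣ β := by
      rintro ⟨β', rfl⟩
      exact hσ ⟨α + β' * t, by rw [← hαβ]; ring⟩
    have ht_mem : t ∈ IsLocalRing.maximalIdeal S := by
      rw [hm]; exact Ideal.subset_span (by simp)
    have hlt : Ideal.span {β, π} > I := by
      rw [hI]
      refine lt_of_le_of_ne ?_ ?_
      · rw [Ideal.span_le]
        rintro x hx
        rcases hx with rfl | hx
        · rw [← hαβ]; exact Ideal.mem_span_pair.mpr ⟨t, α, by ring⟩
        · rw [Set.mem_singleton_iff] at hx
          rw [hx]; exact Ideal.subset_span (by simp)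
      · intro heq
        have hβmem : β ∈ Ideal.span {σ, π} := by
          rw [heq]; exact Ideal.subset_span (by simp)
        obtain ⟨x, y, hxy⟩ := Ideal.mem_span_pair.mp hβmem
        have hunit : IsUnit (1 - x * t) :=
          IsLocalRing.isUnit_one_sub_self_of_mem_nonunits _
            ((IsLocalRing.mem_maximalIdeal _).mp (Ideal.mul_mem_left _ _ ht_mem))
        obtain ⟨u, hu'⟩ := hunit
        apply hβ
        refine ⟨↑u⁻¹ * (x * α + y), ?_⟩
        have h1 : β * (u : S) = π * (x * α + y) := by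
          rw [hu']; linear_combination (-1 : S) * hxy - x * hαβ
        calc β = β * u * ↑u⁻¹ := by rw [mul_assoc, Units.mul_inv, mul_one]
          _ = _ := by rw [h1]; ring
    obtain ⟨r, ε, c, hβeq⟩ := ih _ hlt β rfl hβ
    exact ⟨r + 1, ε, c * t + α, by rw [← hαβ, hβeq]; ring⟩

/-- (U2) upstairs form of the key divisibility. -/
theorem nb_F4up (b : Module.Basis ι S B) (π t : S)
    (hm : IsLocalRing.maximalIdeal S = Ideal.span {π, t}) (hπ : Prime π) (hπt : ¬ π ∣ t)
    (e : Sˣ) (h : ι → B)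
    (hh : ∀ k j, Algebra.trace S B (b k * h j) = if k = j then (e : S) * t else 0) (y : B)
    (hy : ∀ j, ∃ (w : B) (N : ℕ),
      w ^ N ∈ Ideal.span {algebraMap S B t, algebraMap S B π} ∧
      y * h j - algebraMap S B t * w ∈ Ideal.span {algebraMap S B π}) :
    y ∈ Ideal.span {algebraMap S B t, algebraMap S B π} := by
  have hs : ∀ j, ∃ β γ : S, b.repr y j = t * β + π * γ := by
    intro j
    obtain ⟨w, N, hw, hyw⟩ := hy j
    obtain ⟨c, hc⟩ := Ideal.mem_span_singleton.mp hyw
    have hTw := nb_trace_mem_max b π t hm w N hw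
    rw [hm] at hTw
    obtain ⟨α, β, hαβ⟩ := Ideal.mem_span_pair.mp hTw
    have h1 : Algebra.trace S B (y * h j) = b.repr y j * ((e : S) * t) := by
      rw [mul_comm]; exact nb_trace_expand b h _ hh j y
    have h2 : Algebra.trace S B (y * h j)
        = t * Algebra.trace S B w + π * Algebra.trace S B c := by
      have h3 : y * h j = algebraMap S B t * w + algebraMap S B π * c := by
        rw [← hc]; ring
      rw [h3, map_add, ← Algebra.smul_def, ← Algebra.smul_def, map_smul, map_smul,
        smul_eq_mul, smul_eq_mul]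
    have h3 : π ∣ t * (b.repr y j * e - t * β) :=
      ⟨t * α + Algebra.trace S B c, by linear_combination (h1.symm.trans h2) - t * hαβ⟩
    obtain ⟨γ, hγ⟩ := (hπ.dvd_or_dvd h3).resolve_left hπt
    refine ⟨↑e⁻¹ * β, ↑e⁻¹ * γ, ?_⟩
    have h4 : b.repr y j * (e : S) = t * β + π * γ := by linear_combination hγ
    calc b.repr y j = b.repr y j * e * ↑e⁻¹ := by rw [mul_assoc, Units.mul_inv, mul_one]
      _ = _ := by rw [h4]; ring
  choose β γ hβγ using hs
  have h5 : y = algebraMap S B t * ∑ j, β j • b j + algebraMap S B π * ∑ j, γ j • b j := by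
    conv_lhs => rw [← b.sum_repr y]
    rw [Finset.mul_sum, Finset.mul_sum, ← Finset.sum_add_distrib]
    refine Finset.sum_congr rfl fun j _ => ?_
    rw [hβγ j, add_smul, mul_smul, mul_smul, Algebra.smul_def t, Algebra.smul_def π]
  rw [h5]
  exact Ideal.add_mem _ (Ideal.mul_mem_right _ _ (Ideal.subset_span (by simp)))
    (Ideal.mul_mem_right _ _ (Ideal.subset_span (by simp)))

/-- (F4') in the quotient `B ⧸ P`. -/
theorem nb_F4bar (b : Module.Basis ι S B) (π t : S)
    (hm : IsLocalRing.maximalIdeal S = Ideal.span {π, t}) (hπ : Prime π) (hπt : ¬ π ∣ t)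
    (e : Sˣ) (h : ι → B)
    (hh : ∀ k j, Algebra.trace S B (b k * h j) = if k = j then (e : S) * t else 0)
    (htN : ∀ j, ∃ N : ℕ, algebraMap S B t ∣ h j ^ N)
    (P : Ideal B) (hP : P = Ideal.span {algebraMap S B π}) (ybar : B ⧸ P)
    (hy : ∀ v ∈ (Ideal.span {Ideal.Quotient.mk P (algebraMap S B t)}).radical,
      ∃ w' ∈ (Ideal.span {Ideal.Quotient.mk P (algebraMap S B t)}).radical,
        ybar * v = Ideal.Quotient.mk P (algebraMap S B t) * w') :
    Ideal.Quotient.mk P (algebraMap S B t) ∣ ybar := by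
  obtain ⟨y, rfl⟩ := Ideal.Quotient.mk_surjective ybar
  have hmem : y ∈ Ideal.span {algebraMap S B t, algebraMap S B π} := by
    apply nb_F4up b π t hm hπ hπt e h hh y
    intro j
    have hjJ : Ideal.Quotient.mk P (h j)
        ∈ (Ideal.span {Ideal.Quotient.mk P (algebraMap S B t)}).radical := by
      obtain ⟨N, c, hc⟩ := htN j
      exact ⟨N, Ideal.mem_span_singleton.mpr
        ⟨Ideal.Quotient.mk P c, by rw [← map_pow, hc, map_mul]⟩⟩
    obtain ⟨w', hw', hyw⟩ := hy _ hjJ
    obtain ⟨w, rfl⟩ := Ideal.Quotient.mk_surjective w'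
    obtain ⟨N, hN⟩ := hw'
    obtain ⟨c', hc'⟩ := Ideal.mem_span_singleton.mp hN
    obtain ⟨c, rfl⟩ := Ideal.Quotient.mk_surjective c'
    refine ⟨w, N, ?_, ?_⟩
    · have h1 : w ^ N - algebraMap S B t * c ∈ P := by
        rw [← Ideal.Quotient.eq, map_pow, map_mul]; exact hc'
      rw [hP] at h1
      obtain ⟨d, hd⟩ := Ideal.mem_span_singleton.mp h1
      have h2 : w ^ N = c * algebraMap S B t + d * algebraMap S B π := by
        linear_combination hd
      rw [h2]
      exact Ideal.mem_span_pair.mpr ⟨c, d, rfl⟩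
    · rw [← hP, ← Ideal.Quotient.eq, map_mul, map_mul]; exact hyw
  obtain ⟨c, d, hcd⟩ := Ideal.mem_span_pair.mp hmem
  refine ⟨Ideal.Quotient.mk P c, ?_⟩
  have h0 : Ideal.Quotient.mk P (algebraMap S B π) = 0 :=
    Ideal.Quotient.eq_zero_iff_mem.mpr (by rw [hP]; exact Ideal.mem_span_singleton_self _)
  rw [← hcd, map_add, map_mul, map_mul, h0, mul_zero, add_zero, mul_comm]

end PartII

/-- (PZ) Pohst–Zassenhaus descent: integral `x` with `τ x ∈ A` lies in `A`. -/
theorem nb_PZ {A : Type*} [CommRing A] [IsDomain A] [IsNoetherianRing A] (τ : A) (hτ : τ ≠ 0)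
    (F4 : ∀ y : A, (∀ v ∈ (Ideal.span {τ}).radical, ∃ w' ∈ (Ideal.span {τ}).radical,
      y * v = τ * w') → τ ∣ y)
    {K : Type*} [Field K] [Algebra A K] [IsFractionRing A K] (x : K) (hx : IsIntegral A x)
    (y : A) (hxy : algebraMap A K τ * x = algebraMap A K y) :
    ∃ g : A, algebraMap A K g = x := by
  have hinj : Function.Injective (algebraMap A K) := IsFractionRing.injective A K
  have hτK : algebraMap A K τ ≠ 0 := fun h0 => hτ (hinj (by rw [h0, map_zero]))
  obtain ⟨d, hd⟩ : ∃ d : ℕ, d = (minpoly A x).natDegree := ⟨_, rfl⟩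
  have hbd : ∀ M : ℕ, ∃ g : A, algebraMap A K τ ^ d * x ^ M = algebraMap A K g := by
    intro M
    have hmem := hx.mem_span_pow (y := x ^ M) ⟨Polynomial.X ^ M, by simp⟩
    rw [← hd] at hmem
    refine Submodule.span_induction
      (p := fun z _ => ∃ g : A, algebraMap A K τ ^ d * z = algebraMap A K g) ?_ ?_ ?_ ?_ hmem
    · rintro _ ⟨i, rfl⟩
      refine ⟨τ ^ (d - i) * y ^ (i : ℕ), ?_⟩
      have hi : (i : ℕ) ≤ d := i.2.le
      rw [map_mul, map_pow, map_pow, ← hxy, mul_pow, ← mul_assoc, ← pow_add,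
        Nat.sub_add_cancel hi]
    · exact ⟨0, by simp⟩
    · rintro z1 z2 _ _ ⟨g1, h1⟩ ⟨g2, h2⟩
      exact ⟨g1 + g2, by rw [mul_add, h1, h2, map_add]⟩
    · rintro a z _ ⟨g, hg⟩
      exact ⟨a * g, by rw [Algebra.smul_def, mul_left_comm, hg, map_mul]⟩
  obtain ⟨m, hm⟩ := Ideal.exists_radical_pow_le_of_fg (Ideal.span {τ})
    (IsNoetherian.noetherian _)
  have key : ∀ k : ℕ,
      (∀ w ∈ (Ideal.span {τ}).radical ^ (k + 1),
        ∃ g : A, x * algebraMap A K w = algebraMap A K g) →
      ∀ w ∈ (Ideal.span {τ}).radical ^ k,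
        ∃ g : A, x * algebraMap A K w = algebraMap A K g := by
    intro k hk w hw
    have hdiv : τ ∣ y * w := by
      apply F4
      intro v hv
      have hwv : w * v ∈ (Ideal.span {τ}).radical ^ (k + 1) := by
        rw [pow_succ]; exact Ideal.mul_mem_mul hw hv
      obtain ⟨g, hg⟩ := hk _ hwv
      have hg' : algebraMap A K g = x * (algebraMap A K w * algebraMap A K v) := by
        rw [← hg, map_mul]
      refine ⟨g, ?_, ?_⟩
      · obtain ⟨N, hN⟩ := hv
        obtain ⟨c, hc⟩ := Ideal.mem_span_singleton.mp hN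
        obtain ⟨gM, hgM⟩ := hbd (N * (d + 1))
        refine ⟨N * (d + 1), Ideal.mem_span_singleton.mpr
          ⟨gM * w ^ (N * (d + 1)) * c ^ (d + 1), hinj ?_⟩⟩
        have hvM : algebraMap A K v ^ (N * (d + 1))
            = algebraMap A K τ ^ (d + 1) * algebraMap A K c ^ (d + 1) := by
          rw [← map_pow, pow_mul, hc, mul_pow, map_mul, map_pow, map_pow]
        simp only [map_mul, map_pow]
        rw [hg', ← hgM, mul_pow, mul_pow, hvM]
        ring
      · apply hinj
        simp only [map_mul]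
        rw [hg', ← hxy]; ring
    obtain ⟨z, hz⟩ := hdiv
    refine ⟨z, ?_⟩
    apply mul_left_cancel₀ hτK
    rw [← map_mul, ← hz, map_mul, ← hxy]; ring
  have all : ∀ i : ℕ, ∀ w ∈ (Ideal.span {τ}).radical ^ (m - i),
      ∃ g : A, x * algebraMap A K w = algebraMap A K g := by
    intro i
    induction i with
    | zero =>
      intro w hw
      obtain ⟨c, hc⟩ := Ideal.mem_span_singleton.mp (hm hw)
      exact ⟨y * c, by rw [hc, map_mul, map_mul, ← hxy]; ring⟩
    | succ i ih =>
      by_cases hi : m - i = 0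
      · have h1 : m - (i + 1) = 0 := by omega
        rw [h1]; rw [hi] at ih; exact ih
      · have h1 : m - i = (m - (i + 1)) + 1 := by omega
        rw [h1] at ih
        exact key _ ih
  obtain ⟨g, hg⟩ := all m 1 (by
    rw [Nat.sub_self, pow_zero, Ideal.one_eq_top]; exact Submodule.mem_top)
  exact ⟨g, by rw [← hg, map_one, mul_one]⟩


section Final

variable {S : Type*} {B : Type*} [CommRing S] [IsDomain S] [IsLocalRing S] [CommRing B]
  [IsDomain B] [Algebra S B] {ι : Type*} [Fintype ι] [DecidableEq ι]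

/-- (II-B) Every nonzero element of `B ⧸ P` divides a power of `t`. -/
theorem nb_denom [IsNoetherianRing S] (b : Module.Basis ι S B) (π t : S)
    (hm : IsLocalRing.maximalIdeal S = Ideal.span {π, t})
    (P : Ideal B) [P.IsPrime] (hP : P = Ideal.span {algebraMap S B π})
    (d : B ⧸ P) (hd : d ≠ 0) :
    ∃ (r : ℕ) (d' : B ⧸ P), d * d' = Ideal.Quotient.mk P (algebraMap S B t) ^ r := by
  haveI : Module.Finite S B := Module.Finite.of_basis b
  have hint : IsIntegral S d := Algebra.IsIntegral.isIntegral d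
  obtain ⟨p, hp⟩ : ∃ p : Polynomial S, p = minpoly S d := ⟨_, rfl⟩
  have hmonic : p.Monic := hp ▸ minpoly.monic hint
  have haev : Polynomial.aeval d p = 0 := hp ▸ minpoly.aeval S d
  have hsplit : Polynomial.aeval d p.divX * d + algebraMap S (B ⧸ P) (p.coeff 0) = 0 := by
    have h2 := congrArg (Polynomial.aeval d) (Polynomial.divX_mul_X_add p)
    rw [map_add, map_mul, Polynomial.aeval_X, Polynomial.aeval_C, haev] at h2
    exact h2
  have hc0 : algebraMap S (B ⧸ P) (p.coeff 0) ≠ 0 := by
    intro h0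
    rw [h0, add_zero] at hsplit
    have h3 : Polynomial.aeval d p.divX = 0 := (mul_eq_zero.mp hsplit).resolve_right hd
    have hpos : 0 < p.natDegree := hp ▸ minpoly.natDegree_pos hint
    have hmonic' : p.divX.Monic := by
      rw [Polynomial.Monic, Polynomial.leadingCoeff,
        Polynomial.natDegree_divX_eq_natDegree_tsub_one, Polynomial.coeff_divX,
        Nat.sub_add_cancel hpos]
      exact hmonic
    have h4 := minpoly.min S d hmonic' h3
    rw [← hp] at h4
    exact absurd (lt_of_le_of_lt h4 (Polynomial.degree_divX_lt hmonic.ne_zero)) (lt_irrefl _)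
  have hπ0 : algebraMap S (B ⧸ P) π = 0 := by
    change Ideal.Quotient.mk P (algebraMap S B π) = 0
    exact Ideal.Quotient.eq_zero_iff_mem.mpr (by rw [hP]; exact Ideal.mem_span_singleton_self _)
  have hπc : ¬ π ∣ p.coeff 0 := by
    rintro ⟨c, hc⟩
    apply hc0
    rw [hc, map_mul, hπ0, zero_mul]
  obtain ⟨r, ε, c, hσ⟩ := nb_unit_pow π t hm (p.coeff 0) hπc
  refine ⟨r, -(Polynomial.aeval d p.divX) * algebraMap S (B ⧸ P) ((ε⁻¹ : Sˣ) : S), ?_⟩
  have h5 : algebraMap S (B ⧸ P) (p.coeff 0)
      = algebraMap S (B ⧸ P) (ε : S) * Ideal.Quotient.mk P (algebraMap S B t) ^ r := by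
    rw [hσ, map_add, map_mul, map_mul, hπ0, zero_mul, add_zero, map_pow]
    rfl
  have h6 : algebraMap S (B ⧸ P) (ε : S) * algebraMap S (B ⧸ P) ((ε⁻¹ : Sˣ) : S) = 1 := by
    rw [← map_mul, Units.mul_inv, map_one]
  have h7 : d * -(Polynomial.aeval d p.divX) = algebraMap S (B ⧸ P) (p.coeff 0) := by
    linear_combination -hsplit
  calc d * (-(Polynomial.aeval d p.divX) * algebraMap S (B ⧸ P) ((ε⁻¹ : Sˣ) : S))
      = (d * -(Polynomial.aeval d p.divX)) * algebraMap S (B ⧸ P) ((ε⁻¹ : Sˣ) : S) := by ring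
    _ = Ideal.Quotient.mk P (algebraMap S B t) ^ r
          * (algebraMap S (B ⧸ P) (ε : S) * algebraMap S (B ⧸ P) ((ε⁻¹ : Sˣ) : S)) := by
        rw [h7, h5]; ring
    _ = _ := by rw [h6, mul_one]

end Final

/-- LEMMA N, second half. -/
theorem nb_proof : nb_stmt := by
  intro S B _ _ _ _ _ _ _ _ ι _ _ b π t e a P hm hπ hpir ht hnat hdisc hP hPprime
  haveI := hPprime
  haveI : Module.Finite S B := Module.Finite.of_basis b
  haveI : IsNoetherianRing B := IsNoetherianRing.of_finite S B
  have hinjB : Function.Injective (algebraMap S B) := b.algebraMap_injective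
  by_cases hπt : π ∣ t
  · -- degenerate case: `P` is maximal, so the quotient is a field
    have hcomap : IsLocalRing.maximalIdeal S = P.comap (algebraMap S B) := by
      refine (IsLocalRing.maximalIdeal.isMaximal S).eq_of_le
        (Ideal.IsPrime.ne_top (Ideal.IsPrime.comap _)) ?_
      rw [hm, Ideal.span_le]
      have hπP : π ∈ P.comap (algebraMap S B) := by
        rw [Ideal.mem_comap, hP]; exact Ideal.mem_span_singleton_self _
      rintro x hx
      rcases hx with rfl | hx
      · exact hπP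
      · rw [Set.mem_singleton_iff] at hx
        obtain ⟨c, hc⟩ := hπt
        rw [hx, hc]
        exact Ideal.mul_mem_right _ _ hπP
    have hmax : P.IsMaximal :=
      Ideal.isMaximal_of_isIntegral_of_isMaximal_comap (R := S) P
        (hcomap ▸ IsLocalRing.maximalIdeal.isMaximal S)
    have hfield : IsField (B ⧸ P) := (Ideal.Quotient.maximal_ideal_iff_isField_quotient P).mp hmax
    rw [isIntegrallyClosed_iff (FractionRing (B ⧸ P))]
    intro x _
    exact (IsFractionRing.surjective_iff_isField.mpr hfield) x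
  · -- main case
    haveI : CharZero (S ⧸ Ideal.span {t}) := by
      refine charZero_of_inj_zero fun n hn => ?_
      by_contra hn0
      have h1 : t ∣ (n : S) := by
        rw [← Ideal.Quotient.eq_zero_iff_dvd, map_natCast]; exact hn
      obtain ⟨k, hk⟩ := hnat n hn0
      have h2 : t ∣ π := ht.dvd_of_dvd_pow (dvd_trans h1 hk)
      obtain ⟨c, hc⟩ := h2
      rcases hπ.dvd_or_dvd (⟨1, by rw [mul_one]; exact hc.symm⟩ : π ∣ t * c) with h3 | h3
      · exact hπt h3
      · obtain ⟨c', hc'⟩ := h3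
        have h4 : π * (1 - t * c') = 0 := by linear_combination hc + t * hc'
        have h5 : t * c' = 1 := by
          rcases mul_eq_zero.mp h4 with h6 | h6
          · exact absurd h6 hπ.ne_zero
          · linear_combination -h6
        exact ht.not_unit (IsUnit.of_mul_eq_one _ h5)
    obtain ⟨h, hh, htN⟩ := nb_dual b t ht (e : S) a hdisc
    rw [isIntegrallyClosed_iff (FractionRing (B ⧸ P))]
    intro x hx
    have hinj : Function.Injective (algebraMap (B ⧸ P) (FractionRing (B ⧸ P))) :=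
      IsFractionRing.injective _ _
    have hτ0 : Ideal.Quotient.mk P (algebraMap S B t) ≠ 0 := by
      intro h0
      have h1 : algebraMap S B t ∈ P := Ideal.Quotient.eq_zero_iff_mem.mp h0
      rw [hP] at h1
      obtain ⟨c, hc⟩ := Ideal.mem_span_singleton.mp h1
      have h2 : ∀ j, π ∣ b.repr 1 j := by
        intro j
        have h3 : t * b.repr 1 j = π * b.repr c j := by
          have h4 : b.repr (algebraMap S B t) j = b.repr (algebraMap S B π * c) j := by rw [hc]
          rw [Algebra.algebraMap_eq_smul_one, ← Algebra.smul_def, map_smul, map_smul] at h4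
          simpa using h4
        exact (hπ.dvd_or_dvd ⟨_, h3⟩).resolve_left hπt
      have h4 : algebraMap S B π ∣ 1 := nb_dvd_of_repr b π 1 h2
      apply hPprime.ne_top
      rw [hP, Ideal.eq_top_iff_one]
      exact Ideal.mem_span_singleton.mpr h4
    have F4 := nb_F4bar b π t hm hπ hπt e h hh htN P hP
    obtain ⟨y0, d0, hd0, rfl⟩ := IsFractionRing.div_surjective (A := B ⧸ P) x
    have hd0' : d0 ≠ 0 := nonZeroDivisors.ne_zero hd0
    have hd0K : algebraMap (B ⧸ P) (FractionRing (B ⧸ P)) d0 ≠ 0 :=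
      fun h0 => hd0' (hinj (by rw [h0, map_zero]))
    obtain ⟨r, d', hdd⟩ := nb_denom b π t hm P hP d0 hd0'
    have hr : algebraMap (B ⧸ P) (FractionRing (B ⧸ P)) (Ideal.Quotient.mk P (algebraMap S B t)) ^ r
        * (algebraMap (B ⧸ P) (FractionRing (B ⧸ P)) y0
            / algebraMap (B ⧸ P) (FractionRing (B ⧸ P)) d0)
        = algebraMap (B ⧸ P) (FractionRing (B ⧸ P)) (y0 * d') := by
      rw [← map_pow, ← hdd, map_mul, map_mul]
      field_simp
    have main : ∀ (r : ℕ) (x : FractionRing (B ⧸ P)), IsIntegral (B ⧸ P) x →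
        (∃ g, algebraMap (B ⧸ P) (FractionRing (B ⧸ P))
          (Ideal.Quotient.mk P (algebraMap S B t)) ^ r * x
            = algebraMap (B ⧸ P) (FractionRing (B ⧸ P)) g) →
        ∃ g, algebraMap (B ⧸ P) (FractionRing (B ⧸ P)) g = x := by
      intro r
      induction r with
      | zero =>
        rintro x _ ⟨g, hg⟩
        exact ⟨g, by rw [← hg, pow_zero, one_mul]⟩
      | succ r ih =>
        rintro x hx ⟨g, hg⟩
        have hx' : IsIntegral (B ⧸ P)
            (algebraMap (B ⧸ P) (FractionRing (B ⧸ P))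
              (Ideal.Quotient.mk P (algebraMap S B t)) ^ r * x) :=
          (isIntegral_algebraMap.pow r).mul hx
        obtain ⟨g', hg'⟩ := nb_PZ _ hτ0 F4 _ hx' g (by rw [← hg, pow_succ]; ring)
        exact ih x hx ⟨g', hg'.symm⟩
    exact main r _ hx ⟨_, hr⟩

end Fermat.Agent.S18Lib
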