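/-
S18, chunk P1 (helper1): constancy on the reduced function field, from the reduction inputs.

`pf18_const` : `p1_const_stmt (ResidueField A) N` from a place reduction `r` and (D2).
A nonzero `x` of the reduced field without zeros and poles is `abar / bbar`; with `c0` its value at
the place at infinity, `abar - c0 bbar` is the reduction of the integral `a - λ b`, so
`div (x - c0) = r_* div ((a - λ b) / b)` is effective of total degree `0`, hence trivial; but
`x - c0` vanishes at infinity unless it is zero.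

`p1_frame'` : the frozen S18 statement from STAR, (D1), (D2) only.
-/
import Fermat.Agent.Lib.S18.P1Frame
import Fermat.Agent.Lib.S18.P1Inf

set_option autoImplicit false
set_option synthInstance.maxHeartbeats 400000

namespace Fermat.Agent.S18Lib

open ModularCurve AlgebraicCurve IntermediateField HahnSeries

noncomputable section

/-- the total degree of a principal divisor at level `N` over `ℚ̄` vanishes -/
theorem pf18_tot_div (N : ℕ) [NeZero N] (f : ↥(modularFunctionFieldBar N)) (hf : f ≠ 0)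
    (D : Divisor (AlgebraicClosure ℚ) ↥(modularFunctionFieldBar N))
    (hD : ∀ P, D P = P.ord f) : (D.sum fun _ c => c) = 0 := by
  have := Fermat.Agent.S24Lib.finite_JF N
  have h := (Fermat.Agent.S24Lib.sum_ord_eq_zero (Fermat.Agent.S24Lib.JF N)
    (Fermat.Agent.S24Lib.transcendental_JF N) f hf).2
  have hsub : (Function.support fun P : Place (AlgebraicClosure ℚ)
      ↥(modularFunctionFieldBar N) => P.ord f) ⊆ (D.support : Set _) := by
    intro P hP
    rw [Function.mem_support] at hP
    rw [Finset.mem_coe, Finsupp.mem_support_iff, hD P]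
    exact hP
  rw [finsum_eq_sum_of_support_subset _ hsub] at h
  rw [Finsupp.sum]
  rw [← h]
  exact Finset.sum_congr rfl fun P _ => hD P

/-- total degree is preserved by push-forward -/
theorem pf18_tot_mapDomain {α β : Type*} (r : α → β) (D : α →₀ ℤ) :
    ((Finsupp.mapDomain r D).sum fun _ c => c) = D.sum fun _ c => c :=
  Finsupp.sum_mapDomain_index_addMonoidHom (fun _ => AddMonoidHom.id ℤ)

/-- a finitely supported nonnegative function of total degree `0` vanishes -/
theorem pf18_eq_zero_of_nonneg {β : Type*} (E : β →₀ ℤ) (hnn : ∀ Q, 0 ≤ E Q)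
    (htot : (E.sum fun _ c => c) = 0) : ∀ Q, E Q = 0 := by
  intro Q
  by_contra hQ
  have hmem : Q ∈ E.support := Finsupp.mem_support_iff.mpr hQ
  rw [Finsupp.sum] at htot
  have h := (Finset.sum_eq_zero_iff_of_nonneg fun i _ => hnn i).mp htot Q hmem
  exact hQ h

set_option maxHeartbeats 1600000 in
/-- **constancy on the reduced function field**, from a place reduction and (D2). -/
theorem pf18_const (N : ℕ) [NeZero N] (A : ValuationSubring (AlgebraicClosure ℚ))
    (r : Place (AlgebraicClosure ℚ) ↥(modularFunctionFieldBar N) →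
      Place (IsLocalRing.ResidueField ↥A)
        ↥(modularFunctionFieldFullC (IsLocalRing.ResidueField ↥A) N))
    (hr : IsPlaceReductionAlong A (IsLocalRing.residue ↥A) N r)
    (hD2 : p1_lift_stmt N A) : p1_const_stmt (IsLocalRing.ResidueField ↥A) N := by
  intro x hx0 hxord
  have hx0' : (x : LaurentSeries (IsLocalRing.ResidueField ↥A)) ≠ 0 := fun h =>
    hx0 (Subtype.ext h)
  obtain ⟨a, b, ha, hb, hak, hbk, hbk0, hxab⟩ := hD2 _ x.2 hx0'
  have hord0 : (x : LaurentSeries (IsLocalRing.ResidueField ↥A)).order = 0 := by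
    rw [← pf18_inf_ord _ N x hx0]; exact hxord _
  by_cases hx1 : x - algebraMap (IsLocalRing.ResidueField ↥A)
      ↥(modularFunctionFieldFullC (IsLocalRing.ResidueField ↥A) N)
      ((x : LaurentSeries (IsLocalRing.ResidueField ↥A)).coeff 0) = 0
  · exact ⟨_, sub_eq_zero.mp hx1⟩
  exfalso
  obtain ⟨x1, hx1def⟩ : ∃ x1 : ↥(modularFunctionFieldFullC (IsLocalRing.ResidueField ↥A) N),
      x1 = x - algebraMap (IsLocalRing.ResidueField ↥A)
      ↥(modularFunctionFieldFullC (IsLocalRing.ResidueField ↥A) N)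
      ((x : LaurentSeries (IsLocalRing.ResidueField ↥A)).coeff 0) := ⟨_, rfl⟩
  rw [← hx1def] at hx1
  have hx1coe : (x1 : LaurentSeries (IsLocalRing.ResidueField ↥A)) =
      (x : LaurentSeries (IsLocalRing.ResidueField ↥A)) - HahnSeries.single 0
        ((x : LaurentSeries (IsLocalRing.ResidueField ↥A)).coeff 0) := by
    rw [hx1def, AddSubgroupClass.coe_sub]
    congr 1
    exact algebraMap_laurentSeries_eq_single _ _
  have hx1ne : (x1 : LaurentSeries (IsLocalRing.ResidueField ↥A)) ≠ 0 := fun h =>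
    hx1 (Subtype.ext h)
  have hcoeff : ∀ n : ℤ, n ≤ 0 →
      (x1 : LaurentSeries (IsLocalRing.ResidueField ↥A)).coeff n = 0 := by
    intro n hn
    rw [hx1coe, HahnSeries.coeff_sub]
    rcases hn.lt_or_eq with hlt | rfl
    · rw [HahnSeries.coeff_eq_zero_of_lt_order (by rw [hord0]; exact hlt),
        HahnSeries.coeff_single_of_ne hlt.ne, sub_zero]
    · rw [HahnSeries.coeff_single_same]; exact sub_self _
  have hx1pos : 0 < (x1 : LaurentSeries (IsLocalRing.ResidueField ↥A)).order := by
    by_contra hle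
    exact (HahnSeries.coeff_order_eq_zero.not.mpr hx1ne) (hcoeff _ (not_lt.mp hle))
  have hinfpos : 0 < (pf18_inf (IsLocalRing.ResidueField ↥A) N).ord x1 := by
    rw [pf18_inf_ord _ N x1 hx1]; exact hx1pos
  -- the integral series `y = a - λ b`
  obtain ⟨lam, hlam⟩ := IsLocalRing.residue_surjective (R := ↥A)
    ((x : LaurentSeries (IsLocalRing.ResidueField ↥A)).coeff 0)
  obtain ⟨y, hy⟩ : ∃ y : LaurentSeries ↥A, y = a - HahnSeries.single 0 lam * b := ⟨_, rfl⟩
  have hyι : coeffMap A.subtype y = coeffMap A.subtype a -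
      algebraMap (AlgebraicClosure ℚ) (LaurentSeries (AlgebraicClosure ℚ)) (A.subtype lam) *
        coeffMap A.subtype b := by
    rw [hy, map_sub, map_mul, coeffMap_single, pf18_algebraMap_eq_single]
  have hyF : coeffMap A.subtype y ∈ modularFunctionFieldBar N := by
    rw [hyι]
    exact sub_mem ha (mul_mem ((modularFunctionFieldBar N).algebraMap_mem _) hb)
  have hyk : coeffMap (IsLocalRing.residue ↥A) y =
      (x1 : LaurentSeries (IsLocalRing.ResidueField ↥A)) * coeffMap (IsLocalRing.residue ↥A) b := by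
    rw [hy, map_sub, map_mul, coeffMap_single, hlam, hx1coe, sub_mul, hxab]
  have hykF : coeffMap (IsLocalRing.residue ↥A) y ∈
      modularFunctionFieldFullC (IsLocalRing.ResidueField ↥A) N := by
    rw [hyk]; exact mul_mem x1.2 hbk
  have hyk0 : coeffMap (IsLocalRing.residue ↥A) y ≠ 0 := by
    rw [hyk]; exact mul_ne_zero hx1ne hbk0
  have hy0 : (⟨coeffMap A.subtype y, hyF⟩ : ↥(modularFunctionFieldBar N)) ≠ 0 := fun h =>
    pf18_iota_ne_zero A hyk0 (congrArg Subtype.val h)
  have hb0 : (⟨coeffMap A.subtype b, hb⟩ : ↥(modularFunctionFieldBar N)) ≠ 0 := fun h =>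
    pf18_iota_ne_zero A hbk0 (congrArg Subtype.val h)
  obtain ⟨Dy, hDy⟩ := pf18_exists_div N _ hy0
  obtain ⟨Db, hDb⟩ := pf18_exists_div N _ hb0
  have ry := hr.2 y hyF hykF hyk0 Dy hDy
  have rb := hr.2 b hb hbk hbk0 Db hDb
  have hbt0 : (⟨coeffMap (IsLocalRing.residue ↥A) b, hbk⟩ :
      ↥(modularFunctionFieldFullC (IsLocalRing.ResidueField ↥A) N)) ≠ 0 := fun h =>
    hbk0 (congrArg Subtype.val h)
  have hykmul : (⟨coeffMap (IsLocalRing.residue ↥A) y, hykF⟩ :
      ↥(modularFunctionFieldFullC (IsLocalRing.ResidueField ↥A) N)) =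
      x1 * ⟨coeffMap (IsLocalRing.residue ↥A) b, hbk⟩ := Subtype.ext hyk
  have hΔ : ∀ Q : Place (IsLocalRing.ResidueField ↥A)
      ↥(modularFunctionFieldFullC (IsLocalRing.ResidueField ↥A) N),
      (Finsupp.mapDomain r Dy - Finsupp.mapDomain r Db) Q = Q.ord x1 := by
    intro Q
    rw [Finsupp.sub_apply, ry Q, rb Q, hykmul, Q.ord_mul hx1 hbt0]
    ring
  have hnn : ∀ Q : Place (IsLocalRing.ResidueField ↥A)
      ↥(modularFunctionFieldFullC (IsLocalRing.ResidueField ↥A) N),
      0 ≤ (Finsupp.mapDomain r Dy - Finsupp.mapDomain r Db) Q := by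
    intro Q
    rw [hΔ Q]
    apply Fermat.Agent.S24Lib.ord_nonneg_of_mem
    have hxmem : x ∈ Q.toValuationSubring :=
      (Fermat.Agent.S24Lib.mem_toValuationSubring_iff Q hx0).mpr (by rw [hxord Q])
    rw [hx1def]
    exact sub_mem hxmem (Q.algebraMap_mem' _)
  have htot : ((Finsupp.mapDomain r Dy - Finsupp.mapDomain r Db).sum fun _ c => c) = 0 := by
    rw [Finsupp.sum_sub_index (fun _ _ _ => rfl), pf18_tot_mapDomain, pf18_tot_mapDomain,
      pf18_tot_div N _ hy0 Dy hDy, pf18_tot_div N _ hb0 Db hDb, sub_zero]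
  have hzero := pf18_eq_zero_of_nonneg _ hnn htot (pf18_inf (IsLocalRing.ResidueField ↥A) N)
  rw [hΔ] at hzero
  omega

/-- **P1 frame, final form**: the frozen S18 statement from STAR and the Gauss facts (D1), (D2)
(constancy is proved here from the reduction inputs). -/
theorem p1_frame' (N : ℕ) [NeZero N] {ℓ : ℕ} [Fact ℓ.Prime] (hℓN : ¬ ℓ ∣ N)
    (A : ValuationSubring (AlgebraicClosure ℚ)) (hA : A.LiesOverPrime ℓ)
    (hSTAR : p1_star_stmt N ℓ A) (hD1 : p1_gauss_stmt N A) (hD2 : p1_lift_stmt N A)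
    (h : ModularCurve.ReductionInputsModL A N) (m : ℕ) (hm : ¬ ℓ ∣ m)
    (z : ModularCurve.JZero N) (hmz : m • z = 0) (hz : ModularCurve.reductionModL A N z = 0) :
    z = 0 :=
  p1_frame N hℓN A hA hSTAR hD1 hD2
    (pf18_const N A _ (isPlaceReductionModL_placeReductionModL h) hD2) h m hm z hmz hz

end

end Fermat.Agent.S18Lib
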